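import Fermat.Agent.S24.Invariant

/-!
# S24 (A-side) : invariant holomorphic functions are polynomials in `j` (shim)

The statement of this former SPEC file (`exists_poly_of_invariant`) is proved in
`Fermat/Agent/S24/Invariant.lean` (helper21).
-/
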