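import Mathlib
import Fermat.Prelude.Def_AlgebraicCurve_DivisorClassGroup

/-!
# S24, work package W4: basic definitions

`IsSepGen K t`: the element `t` of the function field `F / K` is a separating transcendental
generator, i.e. `t` is transcendental over `K` and `F / K(t)` is finite separable.
-/

set_option autoImplicit false

namespace Fermat.Agent.S24

open AlgebraicCurve IntermediateField

/-- `t` is a separating transcendental generator: `F / K(t)` is finite separable. -/
structure IsSepGen (K : Type*) {F : Type*} [Field K] [Field F] [Algebra K F] (t : F) : Prop where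
  transcendental : Transcendental K t
  finite : FiniteDimensional K⟮t⟯ F
  separable : Algebra.IsSeparable K⟮t⟯ F

/-- The decomposition group of a place `P` of `L / K` inside `Gal(L/E)`. -/
def placeStabilizer (E : Type*) {K L : Type*} [Field K] [Field E] [Field L] [Algebra K E]
    [Algebra K L] [Algebra E L] [IsScalarTower K E L] (P : Place K L) : Subgroup (L ≃ₐ[E] L) :=
  (MulAction.stabilizer (L ≃ₐ[K] L) P).comap (AlgEquiv.restrictScalarsHom K)

theorem mem_placeStabilizer {K E L : Type*} [Field K] [Field E] [Field L] [Algebra K E]
    [Algebra K L] [Algebra E L] [IsScalarTower K E L] {P : Place K L} {σ : L ≃ₐ[E] L} :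
    σ ∈ placeStabilizer E P ↔ (σ.restrictScalars K) • P = P := Iff.rfl

end Fermat.Agent.S24
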