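import Mathlib
import Fermat.Agent.S24.PlacesDefs

/-!
# S24, W4: change of separating generator (`t ↦ t⁻¹`, `t ↦ t - a`)
-/

set_option autoImplicit false

namespace Fermat.Agent.S24

open AlgebraicCurve IntermediateField

variable {K F : Type*} [Field K] [Field F] [Algebra K F]

theorem IsSepGen.of_adjoin_eq {s t : F} (ht : IsSepGen K t) (hs : Transcendental K s)
    (h : K⟮s⟯ = K⟮t⟯) : IsSepGen K s := by
  obtain ⟨_, hfin, hsep⟩ := ht
  refine ⟨hs, ?_, ?_⟩
  · rw [h]; exact hfin
  · rw [h]; exact hsep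

theorem finrank_adjoin_eq_of_adjoin_eq {s t : F} (h : K⟮s⟯ = K⟮t⟯) :
    Module.finrank K⟮s⟯ F = Module.finrank K⟮t⟯ F := by
  rw [h]

theorem adjoin_inv_eq (t : F) : K⟮t⁻¹⟯ = K⟮t⟯ := by
  apply le_antisymm
  · rw [adjoin_simple_le_iff]
    exact inv_mem (mem_adjoin_simple_self K t)
  · rw [adjoin_simple_le_iff]
    have h1 : (t⁻¹)⁻¹ ∈ K⟮t⁻¹⟯ := inv_mem (mem_adjoin_simple_self K t⁻¹)
    rwa [inv_inv] at h1

theorem adjoin_sub_algebraMap_eq (t : F) (a : K) : K⟮t - algebraMap K F a⟯ = K⟮t⟯ := by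
  apply le_antisymm
  · rw [adjoin_simple_le_iff]
    exact sub_mem (mem_adjoin_simple_self K t) (IntermediateField.algebraMap_mem _ a)
  · rw [adjoin_simple_le_iff]
    have h1 : (t - algebraMap K F a) + algebraMap K F a ∈ K⟮t - algebraMap K F a⟯ :=
      add_mem (mem_adjoin_simple_self K _) (IntermediateField.algebraMap_mem _ a)
    rwa [sub_add_cancel] at h1

theorem transcendental_inv {t : F} (ht : Transcendental K t) : Transcendental K t⁻¹ := by
  intro h
  apply ht
  have := h.inv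
  rwa [inv_inv] at this

theorem transcendental_sub_algebraMap {t : F} (ht : Transcendental K t) (a : K) :
    Transcendental K (t - algebraMap K F a) := by
  intro h
  apply ht
  have := h.add (isAlgebraic_algebraMap (R := K) (A := F) a)
  rwa [sub_add_cancel] at this

theorem IsSepGen.inv {t : F} (ht : IsSepGen K t) : IsSepGen K t⁻¹ :=
  ht.of_adjoin_eq (transcendental_inv ht.transcendental) (adjoin_inv_eq t)

theorem IsSepGen.sub_algebraMap {t : F} (ht : IsSepGen K t) (a : K) :
    IsSepGen K (t - algebraMap K F a) :=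
  ht.of_adjoin_eq (transcendental_sub_algebraMap ht.transcendental a)
    (adjoin_sub_algebraMap_eq t a)

/-- `[F : K(1/t)] = [F : K(t)]`. -/
theorem IsSepGen.finrank_inv {t : F} (_ht : IsSepGen K t) :
    Module.finrank K⟮t⁻¹⟯ F = Module.finrank K⟮t⟯ F :=
  finrank_adjoin_eq_of_adjoin_eq (adjoin_inv_eq t)

/-- `[F : K(t - a)] = [F : K(t)]`. -/
theorem IsSepGen.finrank_sub_algebraMap {t : F} (_ht : IsSepGen K t) (a : K) :
    Module.finrank K⟮t - algebraMap K F a⟯ F = Module.finrank K⟮t⟯ F :=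
  finrank_adjoin_eq_of_adjoin_eq (adjoin_sub_algebraMap_eq t a)

theorem IsSepGen.of_charZero [CharZero K] {t : F} (ht : Transcendental K t)
    (hfin : FiniteDimensional K⟮t⟯ F) : IsSepGen K t := by
  have : CharZero K⟮t⟯ := charZero_of_injective_algebraMap (algebraMap K K⟮t⟯).injective
  exact ⟨ht, hfin, inferInstance⟩

end Fermat.Agent.S24
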