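import Mathlib
import Fermat.Agent.S24.ConjSpec
import Fermat.Agent.S24.InvariantSpec
import Fermat.Agent.S24.PlacesGen
import Fermat.Prelude.Thm_ModularCurve_coeffMap_qExpand

/-!
# S24 (A-side) : `[Qbar(j(q^d), d ∣ N) : Qbar(j)] = [SL(2,ℤ) : Γ₀(N)]`

* Upper bound: for `x : RBar N` the orbit polynomial `∏_{g ∈ SL(2,ℤ)/Γ₀(N)} (X - g • toHol x)` has
  `SL(2,ℤ)`-invariant holomorphic coefficients with `Qbar`-rational expansions, so by
  `exists_poly_of_invariant` they are polynomials in `j`; every `x ∈ RBar N` is a root of a monic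
  polynomial of degree `n` over `Qbar[j]`; one element of `RBar N` separates all embeddings of the
  field into an algebraic closure.
* Lower bound: the `n` ring homs `cuspHom N g` (one per coset) are pairwise distinct and agree on
  `Qbar(j)`.
-/

set_option autoImplicit false
set_option linter.unusedSectionVars false

noncomputable section

namespace Fermat.Agent.S24

open UpperHalfPlane ModularCurve IntermediateField
open scoped MatrixGroups Manifold ModularForm Real

variable (N : ℕ) [NeZero N]

theorem finite_quotient_Gamma0 : Finite (SL(2, ℤ) ⧸ CongruenceSubgroup.Gamma0 N) := by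
  have : (CongruenceSubgroup.Gamma0 N).FiniteIndex := inferInstance
  exact Subgroup.finite_quotient_of_finiteIndex

theorem deg_coe_algebraMap (c : QBar) :
    ((algebraMap QBar (modularFunctionFieldBar N) c : modularFunctionFieldBar N) :
      LaurentSeries QBar) = HahnSeries.C c := by
  rw [HahnSeries.C_apply, ← algebraMap_laurentSeries_eq_single]
  rfl

theorem transcendental_jBar : Transcendental QBar (jBar N) := by
  intro halg
  have hint : IsIntegral QBar (jBar N) := halg.isIntegral
  have hdeg : (minpoly QBar (jBar N)).degree = 1 :=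
    IsAlgClosed.degree_eq_one_of_irreducible _ (minpoly.irreducible hint)
  obtain ⟨c, hc⟩ := minpoly.mem_range_of_degree_eq_one QBar (jBar N) hdeg
  have h1 := congrArg (fun x : modularFunctionFieldBar N => (x : LaurentSeries QBar).coeff (-1)) hc
  simp only [deg_coe_algebraMap, coe_jBar, coeffEmb_coeff, coeff_jq_neg_one, map_one] at h1
  rw [HahnSeries.C_apply, HahnSeries.coeff_single_of_ne (by norm_num)] at h1
  exact zero_ne_one h1

/-! ### Pairs (holomorphic function, expansion with algebraic coefficients) -/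

/-- The ring of pairs `(f, s)` where `s` is the expansion of `f` in `exp(2πiτ/h)`. -/
def degExpSubring (h : ℕ) [NeZero h] : Subring (HolRing × LaurentSeries QBar) where
  carrier := {p | HasCuspExp h (p.1 : ℍ → ℂ) (coeffMap iotaBar p.2)}
  mul_mem' := by
    intro a b ha hb
    show HasCuspExp h ((a * b).1 : ℍ → ℂ) (coeffMap iotaBar (a * b).2)
    rw [Prod.fst_mul, Prod.snd_mul, map_mul, Subring.coe_mul]
    exact HasCuspExp.mul ha hb
  one_mem' := by
    show HasCuspExp h ((1 : HolRing × LaurentSeries QBar).1 : ℍ → ℂ)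
      (coeffMap iotaBar (1 : HolRing × LaurentSeries QBar).2)
    rw [Prod.fst_one, Prod.snd_one, map_one, Subring.coe_one]
    have := HasCuspExp.const (h := h) (1 : ℂ)
    rw [map_one] at this
    exact this
  add_mem' := by
    intro a b ha hb
    show HasCuspExp h ((a + b).1 : ℍ → ℂ) (coeffMap iotaBar (a + b).2)
    rw [Prod.fst_add, Prod.snd_add, map_add, Subring.coe_add]
    exact HasCuspExp.add ha hb
  zero_mem' := by
    show HasCuspExp h ((0 : HolRing × LaurentSeries QBar).1 : ℍ → ℂ)
      (coeffMap iotaBar (0 : HolRing × LaurentSeries QBar).2)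
    rw [Prod.fst_zero, Prod.snd_zero, map_zero, Subring.coe_zero]
    have := HasCuspExp.const (h := h) (0 : ℂ)
    rw [map_zero] at this
    exact this
  neg_mem' := by
    intro a ha
    show HasCuspExp h ((-a).1 : ℍ → ℂ) (coeffMap iotaBar (-a).2)
    rw [Prod.fst_neg, Prod.snd_neg, map_neg, NegMemClass.coe_neg]
    exact HasCuspExp.neg ha

theorem mem_degExpSubring {h : ℕ} [NeZero h] {p : HolRing × LaurentSeries QBar} :
    p ∈ degExpSubring h ↔ HasCuspExp h (p.1 : ℍ → ℂ) (coeffMap iotaBar p.2) := Iff.rfl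


/-! ### The orbit polynomial -/

section Orbit

/-- A `Fintype` structure on the coset space (local to this file). -/
local instance degFintypeQuot : Fintype (SL(2, ℤ) ⧸ CongruenceSubgroup.Gamma0 N) :=
  haveI := finite_quotient_Gamma0 N
  Fintype.ofFinite _

variable {N}

/-- The conjugate `g • toHol x` only depends on the coset `g Γ₀(N)`. -/
theorem smul_toHol_eq_of_coset (x : RBar N) {g g' : SL(2, ℤ)}
    (h : g⁻¹ * g' ∈ CongruenceSubgroup.Gamma0 N) : g' • toHol N x = g • toHol N x := by
  have h1 : g' = g * (g⁻¹ * g') := by group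
  rw [h1, mul_smul, smul_toHol_of_mem_Gamma0 N _ h]

/-- The conjugate of `x` by `g` together with its expansion. -/
def degConjPair (g : SL(2, ℤ)) (x : RBar N) : degExpSubring N :=
  ⟨(g • toHol N x, cuspHom N g x), hasCuspExp_cuspHom N g x⟩

/-- First projection. -/
def degFst : degExpSubring N →+* HolRing :=
  (RingHom.fst HolRing (LaurentSeries QBar)).comp (degExpSubring N).subtype

/-- Second projection. -/
def degSnd : degExpSubring N →+* LaurentSeries QBar :=
  (RingHom.snd HolRing (LaurentSeries QBar)).comp (degExpSubring N).subtype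

@[simp] theorem degFst_degConjPair (g : SL(2, ℤ)) (x : RBar N) :
    degFst (degConjPair g x) = g • toHol N x := rfl

@[simp] theorem degSnd_degConjPair (g : SL(2, ℤ)) (x : RBar N) :
    degSnd (degConjPair g x) = cuspHom N g x := rfl

/-- The orbit polynomial with coefficients in the ring of pairs. -/
def degOrbPoly (x : RBar N) : Polynomial (degExpSubring N) :=
  ∏ ξ : SL(2, ℤ) ⧸ CongruenceSubgroup.Gamma0 N,
    (Polynomial.X - Polynomial.C (degConjPair ξ.out x))

/-- The orbit polynomial of holomorphic functions. -/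
def degOrbHol (x : RBar N) : Polynomial HolRing :=
  ∏ ξ : SL(2, ℤ) ⧸ CongruenceSubgroup.Gamma0 N,
    (Polynomial.X - Polynomial.C (ξ.out • toHol N x))

/-- The orbit polynomial of expansions. -/
def degOrbSer (x : RBar N) : Polynomial (LaurentSeries QBar) :=
  ∏ ξ : SL(2, ℤ) ⧸ CongruenceSubgroup.Gamma0 N,
    (Polynomial.X - Polynomial.C (cuspHom N ξ.out x))

theorem degOrbPoly_map_fst (x : RBar N) : (degOrbPoly x).map degFst = degOrbHol x := by
  simp [degOrbPoly, degOrbHol, Polynomial.map_prod]

theorem degOrbPoly_map_snd (x : RBar N) : (degOrbPoly x).map degSnd = degOrbSer x := by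
  simp [degOrbPoly, degOrbSer, Polynomial.map_prod]

theorem hasCuspExp_degOrb_coeff (x : RBar N) (k : ℕ) :
    HasCuspExp N (((degOrbHol x).coeff k : HolRing) : ℍ → ℂ)
      (coeffMap iotaBar ((degOrbSer x).coeff k)) := by
  have h := ((degOrbPoly x).coeff k).2
  rw [mem_degExpSubring] at h
  rw [← degOrbPoly_map_fst, ← degOrbPoly_map_snd, Polynomial.coeff_map, Polynomial.coeff_map]
  exact h

theorem degOrbSer_monic (x : RBar N) : (degOrbSer x).Monic :=
  Polynomial.monic_prod_of_monic _ _ fun _ _ => Polynomial.monic_X_sub_C _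

theorem degOrbSer_natDegree (x : RBar N) :
    (degOrbSer x).natDegree = Nat.card (SL(2, ℤ) ⧸ CongruenceSubgroup.Gamma0 N) := by
  rw [degOrbSer, Polynomial.natDegree_prod_of_monic _ _ fun _ _ => Polynomial.monic_X_sub_C _]
  simp [Nat.card_eq_fintype_card]

theorem degOrbSer_eval (x : RBar N) (g : SL(2, ℤ)) :
    (degOrbSer x).eval (cuspHom N g x) = 0 := by
  rw [degOrbSer, Polynomial.eval_prod]
  refine Finset.prod_eq_zero (Finset.mem_univ (QuotientGroup.mk g)) ?_
  have hg : (QuotientGroup.mk g : SL(2, ℤ) ⧸ CongruenceSubgroup.Gamma0 N).out⁻¹ * g ∈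
      CongruenceSubgroup.Gamma0 N := by
    rw [← QuotientGroup.eq]
    exact QuotientGroup.out_eq' _
  have h1 : cuspHom N g = cuspHom N (QuotientGroup.mk g : SL(2, ℤ) ⧸ CongruenceSubgroup.Gamma0 N).out := by
    have : g = (QuotientGroup.mk g : SL(2, ℤ) ⧸ CongruenceSubgroup.Gamma0 N).out *
        ((QuotientGroup.mk g : SL(2, ℤ) ⧸ CongruenceSubgroup.Gamma0 N).out⁻¹ * g) := by group
    rw [this, cuspHom_mul_of_mem_Gamma0 N _ _ hg]
    congr 1
    group
  simp [h1]

/-- The conjugates are permuted by `SL(2, ℤ)`. -/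
theorem smul_out_smul_toHol (γ : SL(2, ℤ)) (ξ : SL(2, ℤ) ⧸ CongruenceSubgroup.Gamma0 N)
    (x : RBar N) : γ • (ξ.out • toHol N x) = (γ • ξ).out • toHol N x := by
  rw [← mul_smul]
  refine smul_toHol_eq_of_coset x ?_
  rw [← QuotientGroup.eq, QuotientGroup.out_eq']
  conv_lhs => rw [← QuotientGroup.out_eq' ξ]
  rfl

theorem smul_degOrbHol_coeff (γ : SL(2, ℤ)) (x : RBar N) (k : ℕ) :
    γ • (degOrbHol x).coeff k = (degOrbHol x).coeff k := by
  have h1 : γ • (degOrbHol x).coeff k =
      ((degOrbHol x).map (MulSemiringAction.toRingHom SL(2, ℤ) HolRing γ)).coeff k := by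
    rw [Polynomial.coeff_map]; rfl
  rw [h1]
  congr 1
  rw [degOrbHol, Polynomial.map_prod]
  simp only [Polynomial.map_sub, Polynomial.map_X, Polynomial.map_C,
    MulSemiringAction.toRingHom_apply, smul_out_smul_toHol]
  exact Fintype.prod_equiv (MulAction.toPerm γ) _ _ fun ξ => rfl


theorem deg_coeffMap_injective {R S : Type*} [CommRing R] [CommRing S] (f : R →+* S)
    (hf : Function.Injective f) : Function.Injective (coeffMap f) := by
  intro a b hab
  ext m
  have := congrArg (fun s : LaurentSeries S => s.coeff m) hab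
  simp only [coeffMap_coeff] at this
  exact hf this

/-- Contraction of a Laurent series: the coefficients at the multiples of `n`. -/
def degContract {R : Type*} [CommRing R] (n : ℕ) [NeZero n] (c : LaurentSeries R) :
    LaurentSeries R :=
  HahnSeries.ofSuppBddBelow (fun m : ℤ => c.coeff ((n : ℤ) * m)) (by
    have hwf : (c.support).IsWF := c.isPWO_support.isWF
    rcases (c.support).eq_empty_or_nonempty with he | hne
    · refine ⟨0, fun m hm => ?_⟩
      exfalso
      have : ((n : ℤ) * m) ∈ c.support := hm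
      rw [he] at this
      exact this
    · refine ⟨min (hwf.min hne) 0, fun m hm => ?_⟩
      have hm' : ((n : ℤ) * m) ∈ c.support := hm
      have h1 : hwf.min hne ≤ (n : ℤ) * m := hwf.min_le hne hm'
      by_contra hlt
      push Not at hlt
      have hm0 : m < 0 := lt_of_lt_of_le hlt (min_le_right _ _)
      have hn1 : (1 : ℤ) ≤ n := by exact_mod_cast Nat.one_le_iff_ne_zero.mpr (NeZero.ne n)
      have h2 : (n : ℤ) * m ≤ m := by nlinarith
      have h3 : m < hwf.min hne := lt_of_lt_of_le hlt (min_le_left _ _)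
      linarith)

@[simp] theorem degContract_coeff {R : Type*} [CommRing R] (n : ℕ) [NeZero n]
    (c : LaurentSeries R) (m : ℤ) : (degContract n c).coeff m = c.coeff ((n : ℤ) * m) := rfl

/-- Every coefficient of the orbit polynomial of expansions is a polynomial in `j(q^N)`
(in the variable `s = q^(1/N)`). -/
theorem deg_exists_poly_coeff (x : RBar N) (k : ℕ) :
    ∃ Q : Polynomial QBar,
      (degOrbSer x).coeff k = qExpand QBar N (Polynomial.aeval (coeffEmb QBar jq) Q) := by
  set c := (degOrbSer x).coeff k with hc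
  set f : HolRing := (degOrbHol x).coeff k with hf
  have hexp : HasCuspExp N (f : ℍ → ℂ) (coeffMap iotaBar c) := hasCuspExp_degOrb_coeff x k
  have hinv : ∀ γ : SL(2, ℤ), γ • f = f := fun γ => smul_degOrbHol_coeff γ x k
  have hper : ∀ τ : ℍ, (f : ℍ → ℂ) (ModularGroup.T • τ) = (f : ℍ → ℂ) τ := by
    intro τ
    rw [← HolRing.inv_smul_apply, hinv]
  obtain ⟨S₁, hS₁, hS₁'⟩ := hexp.exists_of_periodic hper
  have hS : coeffMap iotaBar (degContract N c) = S₁ := by
    ext m
    rw [coeffMap_coeff, degContract_coeff, ← coeffMap_coeff, hS₁', qExpand_coeff_mul]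
  have hcS : c = qExpand QBar N (degContract N c) := by
    apply deg_coeffMap_injective iotaBar iotaBar_injective
    rw [ModularCurve.coeffMap_qExpand, hS, hS₁']
  obtain ⟨Q, hQ⟩ := exists_poly_of_invariant f hinv (degContract N c) (by rw [hS]; exact hS₁)
  exact ⟨Q, by rw [← hQ]; exact hcS⟩


variable (N) in
/-- `j` as an element of `RBar N`. -/
def degJ : RBar N := ⟨jBar N, jBar_mem_RBar N⟩

theorem deg_algebraMap_laurent (c : QBar) :
    algebraMap QBar (LaurentSeries QBar) c = HahnSeries.C c := by
  rw [HahnSeries.C_apply, algebraMap_laurentSeries_eq_single]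

theorem cuspHom_aeval (g : SL(2, ℤ)) (Q : Polynomial QBar) :
    cuspHom N g (Polynomial.aeval (degJ N) Q) =
      qExpand QBar N (Polynomial.aeval (coeffEmb QBar jq) Q) := by
  have h : (cuspHom N g).comp (Polynomial.aeval (R := QBar) (degJ N)).toRingHom =
      (qExpand QBar N).comp (Polynomial.aeval (R := QBar) (coeffEmb QBar jq)).toRingHom := by
    apply Polynomial.ringHom_ext
    · intro c
      simp only [RingHom.coe_comp, AlgHom.toRingHom_eq_coe, RingHom.coe_coe, Function.comp_apply,
        Polynomial.aeval_C, cuspHom_algebraMap, deg_algebraMap_laurent, qExpand_C]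
    · simp only [RingHom.coe_comp, AlgHom.toRingHom_eq_coe, RingHom.coe_coe, Function.comp_apply,
        Polynomial.aeval_X]
      exact cuspHom_jBar N g
  exact RingHom.congr_fun h Q

theorem exists_monic_of_mem_RBar (x : RBar N) :
    ∃ P : Polynomial (Polynomial QBar), P.Monic ∧
      P.natDegree = Nat.card (SL(2, ℤ) ⧸ CongruenceSubgroup.Gamma0 N) ∧
      Polynomial.eval₂ ((Polynomial.aeval (jBar N)).toRingHom) (x : modularFunctionFieldBar N) P = 0 := by
  set φ : Polynomial QBar →+* LaurentSeries QBar :=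
    (cuspHom N 1).comp (Polynomial.aeval (R := QBar) (degJ N)).toRingHom with hφ
  have hlift : degOrbSer x ∈ Polynomial.lifts φ := by
    rw [Polynomial.lifts_iff_coeff_lifts]
    intro k
    obtain ⟨Q, hQ⟩ := deg_exists_poly_coeff x k
    exact ⟨Q, by rw [hQ]; exact cuspHom_aeval 1 Q⟩
  obtain ⟨P, hPmap, hPdeg, hPmonic⟩ :=
    Polynomial.lifts_and_natDegree_eq_and_monic hlift (degOrbSer_monic x)
  refine ⟨P, hPmonic, by rw [hPdeg, degOrbSer_natDegree], ?_⟩
  have h0 : Polynomial.eval₂ (Polynomial.aeval (R := QBar) (degJ N)).toRingHom x P = 0 := by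
    apply cuspHom_injective N 1
    rw [map_zero, Polynomial.hom_eval₂, ← Polynomial.eval_map, hPmap]
    exact degOrbSer_eval x 1
  have h1 := congrArg (RBar N).val h0
  rw [map_zero] at h1
  rw [← h1]
  have h2 : (Polynomial.aeval (R := QBar) (jBar N)).toRingHom =
      ((RBar N).val : RBar N →+* modularFunctionFieldBar N).comp
        (Polynomial.aeval (R := QBar) (degJ N)).toRingHom := by
    have := Polynomial.aeval_algHom (RBar N).val (degJ N)
    have h3 : (RBar N).val (degJ N) = jBar N := rfl
    rw [h3] at this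
    rw [this]
    rfl
  rw [h2]
  exact (Polynomial.hom_eval₂ P _ ((RBar N).val : RBar N →+* modularFunctionFieldBar N) x).symm

end Orbit

/-! ### Finiteness and separability -/

section Finite

/-- The evaluation `Qbar[X] → Qbar(j)`, `X ↦ j`. -/
def degToE : Polynomial QBar →+* QBar⟮jBar N⟯ :=
  (Polynomial.aeval (R := QBar) (AdjoinSimple.gen QBar (jBar N))).toRingHom

theorem algebraMap_comp_degToE :
    (algebraMap QBar⟮jBar N⟯ (modularFunctionFieldBar N)).comp (degToE N) =
      (Polynomial.aeval (R := QBar) (jBar N)).toRingHom := by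
  apply Polynomial.ringHom_ext
  · intro c
    simp only [degToE, RingHom.coe_comp, AlgHom.toRingHom_eq_coe, RingHom.coe_coe,
      Function.comp_apply, Polynomial.aeval_C]
    rfl
  · simp only [degToE, RingHom.coe_comp, AlgHom.toRingHom_eq_coe, RingHom.coe_coe,
      Function.comp_apply, Polynomial.aeval_X, AdjoinSimple.algebraMap_gen]

/-- Every element of `RBar N` is a root of a monic polynomial of degree `n` over `Qbar(j)`. -/
theorem exists_monic_adjoin_of_mem_RBar (x : RBar N) :
    ∃ p : Polynomial QBar⟮jBar N⟯, p.Monic ∧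
      p.natDegree = Nat.card (SL(2, ℤ) ⧸ CongruenceSubgroup.Gamma0 N) ∧
      Polynomial.aeval (x : modularFunctionFieldBar N) p = 0 := by
  obtain ⟨P, hmonic, hdeg, hP⟩ := exists_monic_of_mem_RBar x
  refine ⟨P.map (degToE N), hmonic.map _, by rw [hmonic.natDegree_map, hdeg], ?_⟩
  rw [Polynomial.aeval_def, Polynomial.eval₂_map, algebraMap_comp_degToE]
  exact hP

theorem isIntegral_of_mem_RBar (x : RBar N) :
    IsIntegral QBar⟮jBar N⟯ (x : modularFunctionFieldBar N) := by
  obtain ⟨p, hmonic, -, hp⟩ := exists_monic_adjoin_of_mem_RBar N x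
  exact ⟨p, hmonic, hp⟩

theorem finite_jdSet : (jdSet N).Finite := by
  classical
  have hne : ∀ d : {d : ℕ // d ∈ N.divisors}, NeZero d.1 := fun d =>
    ⟨(Nat.pos_of_mem_divisors d.2).ne'⟩
  let f : {d : ℕ // d ∈ N.divisors} → modularFunctionFieldBar N := fun d =>
    haveI := hne d
    jdBar N d.1 (Nat.dvd_of_mem_divisors d.2)
  refine (Set.finite_range f).subset ?_
  rintro x ⟨d, hd0, hd, rfl⟩
  exact ⟨⟨d, Nat.mem_divisors.mpr ⟨hd, NeZero.ne N⟩⟩, rfl⟩

theorem adjoin_adjoin_jdSet_eq_top :
    IntermediateField.adjoin QBar⟮jBar N⟯ (jdSet N) = ⊤ := by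
  have h1 : IntermediateField.adjoin QBar (jdSet N) ≤
      (IntermediateField.adjoin QBar⟮jBar N⟯ (jdSet N)).restrictScalars QBar := by
    rw [IntermediateField.adjoin_le_iff]
    intro x hx
    exact IntermediateField.subset_adjoin QBar⟮jBar N⟯ (jdSet N) hx
  rw [adjoin_jdSet_eq_top] at h1
  rw [eq_top_iff]
  intro x _
  exact h1 (IntermediateField.mem_top)

theorem finiteDimensional_jBar :
    FiniteDimensional QBar⟮jBar N⟯ (modularFunctionFieldBar N) := by
  have : Finite (jdSet N) := (finite_jdSet N).to_subtype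
  have h : FiniteDimensional QBar⟮jBar N⟯ (IntermediateField.adjoin QBar⟮jBar N⟯ (jdSet N)) := by
    refine IntermediateField.finiteDimensional_adjoin fun x hx => ?_
    obtain ⟨d, hd0, hd, rfl⟩ := hx
    exact isIntegral_of_mem_RBar N ⟨jdBar N d hd, jdBar_mem_RBar N d hd⟩
  rw [adjoin_adjoin_jdSet_eq_top] at h
  exact Module.Finite.equiv (IntermediateField.topEquiv (F := QBar⟮jBar N⟯)
    (E := modularFunctionFieldBar N)).toLinearEquiv

theorem isSepGen_jBar : IsSepGen QBar (jBar N) :=
  IsSepGen.of_charZero (transcendental_jBar N) (finiteDimensional_jBar N)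

end Finite

/-! ### The degree -/

section Degree

open Polynomial in
theorem finrank_jBar_le :
    Module.finrank QBar⟮jBar N⟯ (modularFunctionFieldBar N) ≤
      Nat.card (SL(2, ℤ) ⧸ CongruenceSubgroup.Gamma0 N) := by
  classical
  have hfd := finiteDimensional_jBar N
  let Ω := AlgebraicClosure (modularFunctionFieldBar N)
  rw [← AlgHom.card QBar⟮jBar N⟯ (modularFunctionFieldBar N) Ω]
  have := isFractionRing_RBar N
  -- the subspaces where two embeddings agree
  let W : {p : (modularFunctionFieldBar N →ₐ[QBar⟮jBar N⟯] Ω) ×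
      (modularFunctionFieldBar N →ₐ[QBar⟮jBar N⟯] Ω) // p.1 ≠ p.2} → Subspace QBar (RBar N) :=
    fun p => LinearMap.ker
      ((((p.1.1.restrictScalars QBar).comp (RBar N).val).toLinearMap) -
        (((p.1.2.restrictScalars QBar).comp (RBar N).val).toLinearMap))
  have hW : ∀ p, W p ≠ ⊤ := by
    intro p htop
    apply p.2
    apply AlgHom.coe_ringHom_injective
    apply IsLocalization.ringHom_ext (nonZeroDivisors (RBar N))
    ext r
    have hr : r ∈ W p := by rw [htop]; exact Submodule.mem_top
    have := LinearMap.mem_ker.mp hr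
    simp only [LinearMap.sub_apply, AlgHom.toLinearMap_apply, AlgHom.comp_apply,
      AlgHom.restrictScalars_apply, sub_eq_zero] at this
    exact this
  have hcov : ⋃ p, (W p : Set (RBar N)) ≠ Set.univ := by
    intro hcov
    obtain ⟨p, hp⟩ := Subspace.exists_eq_top_of_iUnion_eq_univ hcov
    exact hW p hp
  obtain ⟨r, hr⟩ : ∃ r : RBar N, r ∉ ⋃ p, (W p : Set (RBar N)) := by
    by_contra hcon
    push Not at hcon
    exact hcov (Set.eq_univ_of_forall hcon)
  obtain ⟨p, hmonic, hdeg, hp⟩ := exists_monic_adjoin_of_mem_RBar N r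
  -- the embeddings are separated by `r`
  have hinj : Function.Injective
      (fun σ : modularFunctionFieldBar N →ₐ[QBar⟮jBar N⟯] Ω => σ (r : modularFunctionFieldBar N)) := by
    intro σ σ' hσ
    by_contra hne
    apply hr
    rw [Set.mem_iUnion]
    refine ⟨⟨(σ, σ'), hne⟩, ?_⟩
    show r ∈ W ⟨(σ, σ'), hne⟩
    simp only [W, LinearMap.mem_ker, LinearMap.sub_apply, AlgHom.toLinearMap_apply,
      AlgHom.comp_apply, AlgHom.restrictScalars_apply, sub_eq_zero]
    exact hσ
  have hroot : ∀ σ : modularFunctionFieldBar N →ₐ[QBar⟮jBar N⟯] Ω,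
      σ (r : modularFunctionFieldBar N) ∈ (p.map (algebraMap QBar⟮jBar N⟯ Ω)).roots.toFinset := by
    intro σ
    rw [Multiset.mem_toFinset, Polynomial.mem_roots (Polynomial.map_ne_zero hmonic.ne_zero),
      Polynomial.IsRoot, Polynomial.eval_map, ← Polynomial.aeval_def, Polynomial.aeval_algHom_apply,
      hp, map_zero]
  calc Fintype.card (modularFunctionFieldBar N →ₐ[QBar⟮jBar N⟯] Ω)
      ≤ (p.map (algebraMap QBar⟮jBar N⟯ Ω)).roots.toFinset.card := by
        rw [← Finset.card_univ]
        exact Finset.card_le_card_of_injOn _ (fun σ _ => hroot σ) (fun σ _ σ' _ h => hinj h)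
    _ ≤ Multiset.card (p.map (algebraMap QBar⟮jBar N⟯ Ω)).roots := Multiset.toFinset_card_le _
    _ ≤ (p.map (algebraMap QBar⟮jBar N⟯ Ω)).natDegree := Polynomial.card_roots' _
    _ = Nat.card (SL(2, ℤ) ⧸ CongruenceSubgroup.Gamma0 N) := by
        rw [hmonic.natDegree_map, hdeg]


/-- Extension of `cuspHom N g` to the function field. -/
def degLift (g : SL(2, ℤ)) : modularFunctionFieldBar N →+* LaurentSeries QBar :=
  haveI := isFractionRing_RBar N
  IsFractionRing.lift (cuspHom_injective N g)

theorem degLift_coe (g : SL(2, ℤ)) (r : RBar N) :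
    degLift N g (r : modularFunctionFieldBar N) = cuspHom N g r := by
  have := isFractionRing_RBar N
  exact IsFractionRing.lift_algebraMap (cuspHom_injective N g) r

theorem degLift_aeval (g : SL(2, ℤ)) (Q : Polynomial QBar) :
    degLift N g (Polynomial.aeval (jBar N) Q) =
      qExpand QBar N (Polynomial.aeval (coeffEmb QBar jq) Q) := by
  have h : (Polynomial.aeval (jBar N) Q : modularFunctionFieldBar N) =
      ((Polynomial.aeval (degJ N) Q : RBar N) : modularFunctionFieldBar N) :=
    (Polynomial.aeval_subalgebra_coe Q (RBar N) (degJ N)).symm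
  rw [h, degLift_coe, cuspHom_aeval]

theorem degLift_algebraMap_adjoin (g g' : SL(2, ℤ)) (e : QBar⟮jBar N⟯) :
    degLift N g (algebraMap QBar⟮jBar N⟯ (modularFunctionFieldBar N) e) =
      degLift N g' (algebraMap QBar⟮jBar N⟯ (modularFunctionFieldBar N) e) := by
  obtain ⟨r, s, hrs⟩ := (IntermediateField.mem_adjoin_simple_iff QBar _).mp e.2
  have he : algebraMap QBar⟮jBar N⟯ (modularFunctionFieldBar N) e =
      Polynomial.aeval (jBar N) r / Polynomial.aeval (jBar N) s := hrs
  rw [he, map_div₀, map_div₀, degLift_aeval, degLift_aeval, degLift_aeval, degLift_aeval]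

theorem le_finrank_jBar :
    Nat.card (SL(2, ℤ) ⧸ CongruenceSubgroup.Gamma0 N) ≤
      Module.finrank QBar⟮jBar N⟯ (modularFunctionFieldBar N) := by
  classical
  have hfd := finiteDimensional_jBar N
  let _ : Algebra QBar⟮jBar N⟯ (LaurentSeries QBar) :=
    ((degLift N 1).comp (algebraMap QBar⟮jBar N⟯ (modularFunctionFieldBar N))).toAlgebra
  let f : SL(2, ℤ) ⧸ CongruenceSubgroup.Gamma0 N →
      (modularFunctionFieldBar N →ₐ[QBar⟮jBar N⟯] LaurentSeries QBar) := fun ξ =>
    { degLift N ξ.out with
      commutes' := fun e => degLift_algebraMap_adjoin N ξ.out 1 e }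
  have hf : Function.Injective f := by
    intro ξ ξ' h
    have h1 : cuspHom N ξ.out = cuspHom N ξ'.out := by
      ext r : 1
      rw [← degLift_coe, ← degLift_coe]
      exact congrArg (fun φ : modularFunctionFieldBar N →ₐ[QBar⟮jBar N⟯] LaurentSeries QBar =>
        φ (r : modularFunctionFieldBar N)) h
    have h2 := mem_Gamma0_of_cuspHom_eq N _ _ h1
    rw [← QuotientGroup.eq, QuotientGroup.out_eq', QuotientGroup.out_eq'] at h2
    exact h2
  have hli := (linearIndependent_toLinearMap QBar⟮jBar N⟯ (modularFunctionFieldBar N)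
    (LaurentSeries QBar)).comp f hf
  have hfin := finite_quotient_Gamma0 N
  let _ : Fintype (SL(2, ℤ) ⧸ CongruenceSubgroup.Gamma0 N) := Fintype.ofFinite _
  have := hli.fintype_card_le_finrank
  rw [Module.finrank_linearMap_self] at this
  rw [Nat.card_eq_fintype_card]
  exact this

theorem finrank_jBar :
    Module.finrank QBar⟮jBar N⟯ (modularFunctionFieldBar N) =
      Nat.card (SL(2, ℤ) ⧸ CongruenceSubgroup.Gamma0 N) :=
  le_antisymm (finrank_jBar_le N) (le_finrank_jBar N)

end Degree

end Fermat.Agent.S24
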