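import Mathlib
import Fermat.Agent.S24.PlacesDefs

/-!
# S24, W4: basic facts about `Place.ord`

For a place `v` of `F / K` (Prelude), `v.ord` is the normalised discrete valuation attached to the
valuation ring `𝒪_v`:  `0 ≤ ord f ↔ f ∈ 𝒪_v`, `0 < ord f ↔ f ∈ 𝔪_v`, ultrametric inequality, …
-/

set_option autoImplicit false

namespace Fermat.Agent.S24

open AlgebraicCurve IsDedekindDomain WithZero IsLocalRing

variable {K F : Type*} [Field K] [Field F] [Algebra K F]

namespace PlaceOrd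

variable (v : Place K F)

/-- every element of `F^×` is a unit times a power of a uniformizer; `ord` reads off the power -/
theorem ord_eq_of_eq_unit_mul_zpow {π : v.toValuationSubring} (hπ : Irreducible π)
    (u : v.toValuationSubringˣ) (n : ℤ) {f : F}
    (hf : f = ((u : v.toValuationSubring) : F) * ((π : F) ^ n)) : v.ord f = n := by
  rw [hf]; exact v.ord_unit_smul_zpow u hπ n

theorem coe_irreducible_ne_zero {π : v.toValuationSubring} (hπ : Irreducible π) : (π : F) ≠ 0 := by
  simpa [ne_eq, ZeroMemClass.coe_eq_zero] using hπ.ne_zero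

/-- `f ∈ 𝒪_v ↔ 0 ≤ ord_v f` for `f ≠ 0`. -/
theorem mem_iff_ord_nonneg {f : F} (hf : f ≠ 0) : f ∈ v.toValuationSubring ↔ 0 ≤ v.ord f := by
  obtain ⟨π, hπ⟩ := IsDiscreteValuationRing.exists_irreducible v.toValuationSubring
  obtain ⟨u, hu⟩ := v.exists_unit_mul_zpow hf hπ
  have hπ0 := coe_irreducible_ne_zero v hπ
  constructor
  · intro hmem
    by_contra hneg
    push Not at hneg
    -- then `π^(-ord f) * f = u`, so `π ^ (-ord f)` divides a unit
    set n := v.ord f with hn
    have hpos : 0 < -n := by omega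
    obtain ⟨k, hk⟩ : ∃ k : ℕ, -n = (k : ℤ) + 1 := ⟨(-n - 1).toNat, by omega⟩
    have h1 : ((π : F) ^ (k + 1)) * f = ((u : v.toValuationSubring) : F) := by
      rw [hu]
      have : (π : F) ^ (k + 1) * (π : F) ^ n = 1 := by
        rw [← zpow_natCast, ← zpow_add₀ hπ0]
        have : ((k + 1 : ℕ) : ℤ) + n = 0 := by push_cast; omega
        rw [this, zpow_zero]
      calc (π : F) ^ (k + 1) * (((u : v.toValuationSubring) : F) * (π : F) ^ n)
          = ((u : v.toValuationSubring) : F) * ((π : F) ^ (k + 1) * (π : F) ^ n) := by ring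
        _ = _ := by rw [this, mul_one]
    have h2 : π ^ (k + 1) * ⟨f, hmem⟩ = (u : v.toValuationSubring) := by
      apply Subtype.ext
      simpa using h1
    have hunit : IsUnit (π ^ (k + 1)) := isUnit_of_mul_isUnit_left (h2 ▸ u.isUnit)
    exact hπ.not_isUnit (isUnit_of_mul_isUnit_left (by rw [← pow_succ'] ; exact hunit))
  · intro hnn
    obtain ⟨k, hk⟩ : ∃ k : ℕ, v.ord f = (k : ℤ) := ⟨(v.ord f).toNat, by omega⟩
    rw [hu, hk, zpow_natCast]
    exact v.toValuationSubring.mul_mem _ _ (u : v.toValuationSubring).2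
      (pow_mem π.2 k)

theorem mem_of_ord_nonneg {f : F} (h : 0 ≤ v.ord f) : f ∈ v.toValuationSubring := by
  rcases eq_or_ne f 0 with rfl | hf
  · exact v.toValuationSubring.zero_mem
  · exact (mem_iff_ord_nonneg v hf).2 h

theorem ord_nonneg_of_mem {f : F} (h : f ∈ v.toValuationSubring) : 0 ≤ v.ord f := by
  rcases eq_or_ne f 0 with rfl | hf
  · simp
  · exact (mem_iff_ord_nonneg v hf).1 h

/-- `ord_v f = 0 ↔ f` is a unit of `𝒪_v`, for `f ≠ 0`. -/
theorem ord_eq_zero_iff {f : F} (hf : f ≠ 0) :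
    v.ord f = 0 ↔ f ∈ v.toValuationSubring ∧ f⁻¹ ∈ v.toValuationSubring := by
  rw [mem_iff_ord_nonneg v hf, mem_iff_ord_nonneg v (inv_ne_zero hf), v.ord_inv]
  omega

/-- `0 < ord_v f ↔ f ∈ 𝔪_v`, for `f ≠ 0`. -/
theorem ord_pos_iff {f : F} (hf : f ≠ 0) :
    0 < v.ord f ↔ f⁻¹ ∉ v.toValuationSubring := by
  rw [mem_iff_ord_nonneg v (inv_ne_zero hf), v.ord_inv]
  omega

theorem ord_pos_iff_mem_maximalIdeal {a : v.toValuationSubring} (ha : a ≠ 0) :
    0 < v.ord (a : F) ↔ a ∈ maximalIdeal v.toValuationSubring := by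
  have ha' : (a : F) ≠ 0 := by simpa [ne_eq, ZeroMemClass.coe_eq_zero] using ha
  rw [ord_pos_iff v ha', mem_maximalIdeal, mem_nonunits_iff]
  constructor
  · intro h hu
    obtain ⟨b, hb⟩ := hu.exists_right_inv
    apply h
    have : (a : F) * (b : F) = 1 := by
      have := congrArg (Subtype.val) hb
      simpa using this
    have hb' : (a : F)⁻¹ = (b : F) := inv_eq_of_mul_eq_one_right this
    rw [hb']
    exact b.2
  · intro h hinv
    apply h
    refine IsUnit.of_mul_eq_one ⟨(a : F)⁻¹, hinv⟩ ?_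
    apply Subtype.ext
    simp [ha']

theorem ord_algebraMap (a : K) : v.ord (algebraMap K F a) = 0 := by
  rcases eq_or_ne a 0 with rfl | ha
  · simp
  · have h0 : algebraMap K F a ≠ 0 := by simpa using ha
    rw [ord_eq_zero_iff v h0]
    refine ⟨v.algebraMap_mem' a, ?_⟩
    rw [← map_inv₀]
    exact v.algebraMap_mem' a⁻¹

theorem ord_neg (f : F) : v.ord (-f) = v.ord f := by
  simp [Place.ord]

/-- ultrametric inequality -/
theorem min_le_ord_add {f g : F} (hfg : f + g ≠ 0) :
    min (v.ord f) (v.ord g) ≤ v.ord (f + g) := by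
  rcases eq_or_ne f 0 with rfl | hf
  · simp
  rcases eq_or_ne g 0 with rfl | hg
  · simp
  wlog h : v.ord f ≤ v.ord g generalizing f g
  · have := this (f := g) (g := f) (by rwa [add_comm]) hg hf (by omega)
    rwa [add_comm, min_comm]
  rw [min_eq_left h]
  -- `(f + g) / f = 1 + g / f ∈ 𝒪_v`
  have h1 : 0 ≤ v.ord (g * f⁻¹) := by
    rw [v.ord_mul hg (inv_ne_zero hf), v.ord_inv]; omega
  have h2 : (1 + g * f⁻¹) ∈ v.toValuationSubring :=
    v.toValuationSubring.add_mem _ _ v.toValuationSubring.one_mem (mem_of_ord_nonneg v h1)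
  have h3 : f + g = f * (1 + g * f⁻¹) := by field_simp
  have h4 : (1 + g * f⁻¹) ≠ 0 := by
    intro h0; rw [h0, mul_zero] at h3; exact hfg h3
  rw [h3, v.ord_mul hf h4]
  have := ord_nonneg_of_mem v h2
  omega

theorem ord_sub_pos_of_pos {f g : F} (hf : 0 < v.ord f) (hg : 0 < v.ord g) (hfg : f - g ≠ 0) :
    0 < v.ord (f - g) := by
  have := min_le_ord_add v (f := f) (g := -g) (by rwa [← sub_eq_add_neg])
  rw [ord_neg, ← sub_eq_add_neg] at this
  exact lt_of_lt_of_le (lt_min hf hg) this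

end PlaceOrd

end Fermat.Agent.S24
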