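import Mathlib
import Fermat.Agent.S24.PlaceOrd

/-!
# S24, W4: dictionary between places and height one primes of a Dedekind domain
-/

set_option autoImplicit false

namespace Fermat.Agent.S24

open AlgebraicCurve IsDedekindDomain WithZero IsLocalRing

variable {K F : Type*} [Field K] [Field F] [Algebra K F]

/-- A normalised `ℤᵐ⁰`-valued valuation with valuation ring `𝒪_v` computes `ord_v`. -/
theorem PlaceOrd.ord_eq_neg_log_of_valuation (v : Place K F) (val : Valuation F ℤᵐ⁰)
    (hmem : ∀ f : F, f ∈ v.toValuationSubring ↔ val f ≤ 1) (hπ : ∃ π : F, val π = exp (-1 : ℤ))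
    (f : F) : v.ord f = -(log (val f)) := by
  rcases eq_or_ne f 0 with rfl | hf
  · simp
  obtain ⟨π, hπ⟩ := hπ
  have hπ0 : π ≠ 0 := by
    rintro rfl
    rw [map_zero] at hπ
    exact exp_ne_zero hπ.symm
  have hvalπ0 : val π ≠ 0 := (Valuation.ne_zero_iff _).2 hπ0
  -- Step A : `ord π = 1`
  have hA : v.ord π = 1 := by
    have h1 : 0 < v.ord π := by
      rw [PlaceOrd.ord_pos_iff v hπ0, hmem, map_inv₀, hπ, ← exp_neg, neg_neg, not_le,
        ← exp_zero, exp_lt_exp]
      norm_num
    obtain ⟨ϖ, hϖ⟩ := IsDiscreteValuationRing.exists_irreducible v.toValuationSubring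
    have hϖ0 := PlaceOrd.coe_irreducible_ne_zero v hϖ
    have hordϖ : v.ord (ϖ : F) = 1 := v.ord_coe_irreducible hϖ
    have h2 : ¬ val (ϖ : F)⁻¹ ≤ 1 := by
      rw [← hmem, ← PlaceOrd.ord_pos_iff v hϖ0, hordϖ]; norm_num
    have hvalϖ0 : val (ϖ : F) ≠ 0 := (Valuation.ne_zero_iff _).2 hϖ0
    have h3 : val (ϖ : F) ≤ exp (-1 : ℤ) := by
      rw [map_inv₀, not_le] at h2
      apply le_exp_of_log_le
      have : log (1 : ℤᵐ⁰) < log (val (ϖ : F))⁻¹ := by
        rw [log_lt_log one_ne_zero (inv_ne_zero hvalϖ0)]; exact h2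
      rw [log_one, log_inv] at this
      omega
    have h4 : (ϖ : F) * π⁻¹ ∈ v.toValuationSubring := by
      rw [hmem, map_mul, map_inv₀, hπ]
      calc val (ϖ : F) * (exp (-1 : ℤ))⁻¹ ≤ exp (-1 : ℤ) * (exp (-1 : ℤ))⁻¹ := by gcongr
        _ = 1 := mul_inv_cancel₀ exp_ne_zero
    have h5 := PlaceOrd.ord_nonneg_of_mem v h4
    rw [v.ord_mul hϖ0 (inv_ne_zero hπ0), v.ord_inv, hordϖ] at h5
    omega
  -- Step B
  have hvalf0 : val f ≠ 0 := (Valuation.ne_zero_iff _).2 hf
  set n : ℤ := -(log (val f)) with hn
  have hg0 : f * π ^ (-n) ≠ 0 := mul_ne_zero hf (zpow_ne_zero _ hπ0)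
  have hvalg : val (f * π ^ (-n)) = 1 := by
    rw [map_mul, map_zpow₀, hπ, ← exp_zsmul, ← exp_log hvalf0, ← exp_add, ← exp_zero, exp_inj]
    simp only [smul_eq_mul, hn]
    ring
  have hord : v.ord (f * π ^ (-n)) = 0 := by
    rw [PlaceOrd.ord_eq_zero_iff v hg0, hmem, hmem, map_inv₀, hvalg]
    simp
  rw [v.ord_mul hf (zpow_ne_zero _ hπ0), v.ord_zpow, hA] at hord
  omega

section Dictionary

variable {R : Type*} [CommRing R] [IsDedekindDomain R] [Algebra R F] [IsFractionRing R F]
  [Algebra K R] [IsScalarTower K R F]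

theorem mem_ofHeightOneSpectrum_iff (w : HeightOneSpectrum R) (f : F) :
    f ∈ (Place.ofHeightOneSpectrum (K := K) w).toValuationSubring ↔ w.valuation F f ≤ 1 :=
  Iff.rfl

/-- the order function of the place attached to a height one prime -/
theorem ord_ofHeightOneSpectrum (w : HeightOneSpectrum R) (f : F) :
    (Place.ofHeightOneSpectrum (K := K) w).ord f = -(log (w.valuation F f)) :=
  PlaceOrd.ord_eq_neg_log_of_valuation _ _ (fun _ => Iff.rfl) (w.valuation_exists_uniformizer F) f

theorem algebraMap_mem_ofHeightOneSpectrum (w : HeightOneSpectrum R) (r : R) :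
    algebraMap R F r ∈ (Place.ofHeightOneSpectrum (K := K) w).toValuationSubring :=
  w.valuation_le_one r

theorem ofHeightOneSpectrum_injective :
    Function.Injective (Place.ofHeightOneSpectrum (K := K) (F := F) (R := R)) := by
  intro w₁ w₂ h
  apply HeightOneSpectrum.eq_of_valuation_isEquiv_valuation (K := F)
  rw [Valuation.isEquiv_iff_valuationSubring]
  exact congrArg Place.toValuationSubring h

/-- a place whose valuation ring contains `R` comes from a height one prime of `R` -/
theorem exists_eq_ofHeightOneSpectrum (v : Place K F)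
    (hv : ∀ r : R, algebraMap R F r ∈ v.toValuationSubring) :
    ∃ w : HeightOneSpectrum R, v = Place.ofHeightOneSpectrum (K := K) w := by
  -- the centre of `v` on `R`
  let φ : R →+* v.toValuationSubring :=
    (algebraMap R F).codRestrict v.toValuationSubring.toSubring hv
  have hφ : ∀ r, ((φ r : v.toValuationSubring) : F) = algebraMap R F r := fun _ => rfl
  let P : Ideal R := (maximalIdeal v.toValuationSubring).comap φ
  have hPprime : P.IsPrime := Ideal.comap_isPrime φ _
  have hPbot : P ≠ ⊥ := by
    intro hbot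
    apply v.ne_top'
    -- every nonzero element of `R` is a unit of `𝒪_v`, so `𝒪_v = F`
    have hunit : ∀ r : R, r ≠ 0 → (algebraMap R F r)⁻¹ ∈ v.toValuationSubring := by
      intro r hr
      have hrP : r ∉ P := by rw [hbot]; simpa using hr
      have : IsUnit (φ r) := by
        by_contra hnu
        exact hrP ((mem_maximalIdeal _).2 hnu)
      obtain ⟨b, hb⟩ := this.exists_right_inv
      have hb' : algebraMap R F r * (b : F) = 1 := by
        have := congrArg Subtype.val hb
        simpa [hφ] using this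
      rw [inv_eq_of_mul_eq_one_right hb']
      exact b.2
    refine SetLike.ext fun x => ⟨fun _ => ValuationSubring.mem_top x, fun _ => ?_⟩
    obtain ⟨a, b, hb, rfl⟩ := IsFractionRing.div_surjective (A := R) x
    have hb0 : b ≠ 0 := nonZeroDivisors.ne_zero hb
    rw [div_eq_mul_inv]
    exact v.toValuationSubring.mul_mem _ _ (hv a) (hunit b hb0)
  let w : HeightOneSpectrum R := ⟨P, hPprime, hPbot⟩
  refine ⟨w, ?_⟩
  apply Place.ext
  symm
  have hle : (Place.ofHeightOneSpectrum (K := K) w).toValuationSubring ≤ v.toValuationSubring := by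
    intro x hx
    obtain ⟨n, d, hnd⟩ := w.exists_primeCompl_mul_eq_of_integer x hx
    -- `d ∉ P`, hence `d` is a unit of `𝒪_v`
    have hd : (d : R) ∉ P := d.2
    have hunit : IsUnit (φ d) := by
      by_contra hnu
      exact hd ((mem_maximalIdeal _).2 hnu)
    obtain ⟨b, hb⟩ := hunit.exists_right_inv
    have hb' : algebraMap R F d * (b : F) = 1 := by
      have := congrArg Subtype.val hb
      simpa [hφ] using this
    have hx' : x = algebraMap R F n * (b : F) := by
      calc x = x * (algebraMap R F d * (b : F)) := by rw [hb', mul_one]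
        _ = (x * algebraMap R F d) * (b : F) := by ring
        _ = _ := by rw [hnd]
    rw [hx']
    exact v.toValuationSubring.mul_mem _ _ (hv n) b.2
  exact ValuationSubring.eq_of_le_of_ne_top _ hle v.ne_top'

end Dictionary

end Fermat.Agent.S24
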