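import Mathlib
import Fermat.Agent.S24.PlacesDict

/-!
# S24, W4: residue field of the place attached to a height one prime
-/

set_option autoImplicit false

namespace Fermat.Agent.S24

open AlgebraicCurve IsDedekindDomain WithZero IsLocalRing

variable {K F : Type*} [Field K] [Field F] [Algebra K F]
variable {R : Type*} [CommRing R] [IsDedekindDomain R] [Algebra R F] [IsFractionRing R F]
  [Algebra K R] [IsScalarTower K R F]

/-- the canonical map `R → 𝒪_v` for `v` the place attached to `w` -/
noncomputable def toPlaceRing (w : HeightOneSpectrum R) :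
    R →+* (Place.ofHeightOneSpectrum (K := K) (F := F) w).toValuationSubring :=
  (algebraMap R F).codRestrict _ (algebraMap_mem_ofHeightOneSpectrum (K := K) w)

@[simp]
theorem coe_toPlaceRing (w : HeightOneSpectrum R) (r : R) :
    ((toPlaceRing (K := K) (F := F) w r : _) : F) = algebraMap R F r := rfl

/-- the canonical `K`-algebra map `R → κ(v)` for `v` the place attached to `w` -/
noncomputable def toPlaceResidue (w : HeightOneSpectrum R) :
    R →ₐ[K] (Place.ofHeightOneSpectrum (K := K) (F := F) w).ResidueField where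
  toRingHom := (IsLocalRing.residue _).comp (toPlaceRing (K := K) (F := F) w)
  commutes' a := by
    simp only [RingHom.toMonoidHom_eq_coe, OneHom.toFun_eq_coe, MonoidHom.toOneHom_coe,
      MonoidHom.coe_coe, RingHom.coe_comp, Function.comp_apply]
    change IsLocalRing.residue _ _ = IsLocalRing.residue _ (algebraMap K _ a)
    congr 1
    apply Subtype.ext
    rw [coe_toPlaceRing, Place.coe_algebraMap, ← IsScalarTower.algebraMap_apply]

theorem toPlaceResidue_apply (w : HeightOneSpectrum R) (r : R) :
    toPlaceResidue (K := K) (F := F) w r = IsLocalRing.residue _ (toPlaceRing (K := K) w r) := rfl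

theorem mem_maximalIdeal_ofHeightOneSpectrum_iff (w : HeightOneSpectrum R)
    (a : (Place.ofHeightOneSpectrum (K := K) (F := F) w).toValuationSubring) :
    a ∈ maximalIdeal (Place.ofHeightOneSpectrum (K := K) (F := F) w).toValuationSubring ↔
      w.valuation F (a : F) < 1 :=
  Valuation.mem_maximalIdeal_iff (v := w.valuation F)

theorem ker_toPlaceResidue (w : HeightOneSpectrum R) :
    RingHom.ker (toPlaceResidue (K := K) (F := F) w) = w.asIdeal := by
  ext r
  rw [RingHom.mem_ker]
  change IsLocalRing.residue _ (toPlaceRing (K := K) (F := F) w r) = 0 ↔ _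
  rw [IsLocalRing.residue_eq_zero_iff, mem_maximalIdeal_ofHeightOneSpectrum_iff, coe_toPlaceRing]
  exact w.valuation_lt_one_iff_mem r

theorem toPlaceResidue_surjective (w : HeightOneSpectrum R) :
    Function.Surjective (toPlaceResidue (K := K) (F := F) w) := by
  intro y
  obtain ⟨x, rfl⟩ := IsLocalRing.residue_surjective y
  obtain ⟨n, d, hnd⟩ := w.exists_primeCompl_mul_eq_of_integer (x : F) x.2
  -- `d` is invertible modulo the maximal ideal `w`
  have hmax : w.asIdeal.IsMaximal := w.isMaximal
  have hd : (d : R) ∉ w.asIdeal := d.2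
  obtain ⟨d', hd'⟩ := Ideal.Quotient.exists_inv (I := w.asIdeal) (a := Ideal.Quotient.mk _ (d : R))
    (by rwa [ne_eq, Ideal.Quotient.eq_zero_iff_mem])
  obtain ⟨e, rfl⟩ := Ideal.Quotient.mk_surjective d'
  rw [← map_mul, ← map_one (Ideal.Quotient.mk w.asIdeal), Ideal.Quotient.eq] at hd'
  refine ⟨n * e, ?_⟩
  rw [toPlaceResidue_apply]
  rw [← sub_eq_zero, ← map_sub, IsLocalRing.residue_eq_zero_iff,
    mem_maximalIdeal_ofHeightOneSpectrum_iff]
  -- `n e - x = x (d e - 1)`
  have key : ((toPlaceRing (K := K) (F := F) w (n * e) - x : _) : F)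
      = (x : F) * algebraMap R F ((d : R) * e - 1) := by
    rw [AddSubgroupClass.coe_sub, coe_toPlaceRing, map_mul, ← hnd, map_sub, map_mul, map_one]
    ring
  rw [key, map_mul]
  have h1 : w.valuation F (x : F) ≤ 1 := x.2
  have h2 : w.valuation F (algebraMap R F ((d : R) * e - 1)) < 1 :=
    (w.valuation_lt_one_iff_mem _).2 hd'
  calc w.valuation F (x : F) * w.valuation F (algebraMap R F ((d : R) * e - 1))
      ≤ 1 * w.valuation F (algebraMap R F ((d : R) * e - 1)) := by gcongr
    _ < 1 := by rwa [one_mul]

/-- the residue field of the place attached to `w` is `R ⧸ w` -/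
noncomputable def placeResidueEquiv (w : HeightOneSpectrum R) :
    (R ⧸ w.asIdeal) ≃ₐ[K] (Place.ofHeightOneSpectrum (K := K) (F := F) w).ResidueField :=
  (Ideal.quotientEquivAlgOfEq K (ker_toPlaceResidue (K := K) (F := F) w).symm).trans
    (Ideal.quotientKerAlgEquivOfSurjective (toPlaceResidue_surjective (K := K) (F := F) w))

theorem deg_ofHeightOneSpectrum (w : HeightOneSpectrum R) :
    (Place.ofHeightOneSpectrum (K := K) (F := F) w).deg = Module.finrank K (R ⧸ w.asIdeal) :=
  (placeResidueEquiv (K := K) (F := F) w).toLinearEquiv.finrank_eq.symm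

end Fermat.Agent.S24
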