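import Mathlib
import Fermat.Agent.S24.PlacesResidue
import Fermat.Agent.S24.PlacesGen

/-!
# S24, W4: the rings `K[t] ⊆ B = integral closure of K[t] in F` for a function field `F / K(t)`
-/

set_option autoImplicit false

namespace Fermat.Agent.S24

open AlgebraicCurve IsDedekindDomain WithZero IsLocalRing IntermediateField
open scoped IntermediateField.algebraAdjoinAdjoin

variable {K F : Type*} [Field K] [Field F] [Algebra K F] {t : F}

theorem isPrincipalIdealRing_adjoin (ht : Transcendental K t) :
    IsPrincipalIdealRing (Algebra.adjoin K {t}) :=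
  IsPrincipalIdealRing.of_surjective
    (Polynomial.algEquivOfTranscendental K t ht).toRingEquiv.toRingHom
    (Polynomial.algEquivOfTranscendental K t ht).surjective

theorem isDedekindDomain_adjoin (ht : Transcendental K t) :
    IsDedekindDomain (Algebra.adjoin K {t}) := by
  have := isPrincipalIdealRing_adjoin ht
  infer_instance

/-- `t` as an element of `K[t]`. -/
def genA (K : Type*) {F : Type*} [Field K] [Field F] [Algebra K F] (t : F) :
    Algebra.adjoin K {t} :=
  ⟨t, Algebra.self_mem_adjoin_singleton K t⟩

@[simp] theorem coe_genA : ((genA K t : Algebra.adjoin K {t}) : F) = t := rfl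

theorem algEquivOfTranscendental_X' (ht : Transcendental K t) :
    Polynomial.algEquivOfTranscendental K t ht Polynomial.X = genA K t := by
  apply Subtype.ext
  simp [genA]

theorem genA_ne_zero (ht : Transcendental K t) : genA K t ≠ 0 := by
  intro h
  have : t = 0 := congrArg Subtype.val h
  exact ht (this ▸ isAlgebraic_zero)

theorem irreducible_genA (ht : Transcendental K t) : Irreducible (genA K t) := by
  rw [← algEquivOfTranscendental_X' ht]
  exact (MulEquiv.irreducible_iff
    (Polynomial.algEquivOfTranscendental K t ht).toMulEquiv).2 Polynomial.irreducible_X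

/-- the prime `(t)` of `K[t]` -/
def primeA (K : Type*) {F : Type*} [Field K] [Field F] [Algebra K F] (t : F) :
    Ideal (Algebra.adjoin K {t}) := Ideal.span {genA K t}

theorem primeA_ne_bot (ht : Transcendental K t) : primeA K t ≠ ⊥ := by
  rw [primeA, ne_eq, Ideal.span_singleton_eq_bot]
  exact genA_ne_zero ht

theorem primeA_isMaximal (ht : Transcendental K t) : (primeA K t).IsMaximal := by
  have := isPrincipalIdealRing_adjoin ht
  exact PrincipalIdealRing.isMaximal_of_irreducible (irreducible_genA ht)

/-- every element of `K[t]` is congruent to a constant modulo `t` -/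
theorem exists_sub_mem_primeA (ht : Transcendental K t) (x : Algebra.adjoin K {t}) :
    ∃ c : K, x - algebraMap K _ c ∈ primeA K t := by
  obtain ⟨f, rfl⟩ := (Polynomial.algEquivOfTranscendental K t ht).surjective x
  refine ⟨f.coeff 0, ?_⟩
  rw [primeA, Ideal.mem_span_singleton, ← algEquivOfTranscendental_X' ht]
  have h1 : Polynomial.X ∣ f - Polynomial.C (f.coeff 0) := by
    rw [Polynomial.X_dvd_iff]; simp
  obtain ⟨g, hg⟩ := h1
  refine ⟨Polynomial.algEquivOfTranscendental K t ht g, ?_⟩
  rw [← map_mul, ← hg, map_sub, ← Polynomial.algebraMap_eq, AlgEquiv.commutes]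

theorem finrank_quotient_primeA (ht : Transcendental K t) :
    Module.finrank K (Algebra.adjoin K {t} ⧸ primeA K t) = 1 := by
  have hmax := primeA_isMaximal ht
  have : Nontrivial (Algebra.adjoin K {t} ⧸ primeA K t) := Ideal.Quotient.nontrivial_iff.mpr hmax.ne_top
  refine finrank_eq_one 1 one_ne_zero fun w => ?_
  obtain ⟨x, rfl⟩ := Ideal.Quotient.mk_surjective w
  obtain ⟨c, hc⟩ := exists_sub_mem_primeA ht x
  refine ⟨c, ?_⟩
  have h1 : (c • (1 : Algebra.adjoin K {t} ⧸ primeA K t)) =
      Ideal.Quotient.mk (primeA K t) (c • (1 : Algebra.adjoin K {t})) := rfl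
  rw [h1, eq_comm, Ideal.Quotient.eq, ← Algebra.algebraMap_eq_smul_one]
  exact hc

end Fermat.Agent.S24
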