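import Mathlib
import Fermat.Agent.S24.PlacesRing

/-!
# S24, W4: places of `F` with `t ∈ 𝒪_v` are the height one primes of the integral closure of `K[t]`
-/

set_option autoImplicit false

namespace Fermat.Agent.S24

open AlgebraicCurve IsDedekindDomain WithZero IsLocalRing IntermediateField
open scoped IntermediateField.algebraAdjoinAdjoin

variable {K F : Type*} [Field K] [Field F] [Algebra K F] {t : F}

/-- integral closure of `K[t]` in `F` -/
abbrev intRing (K : Type*) {F : Type*} [Field K] [Field F] [Algebra K F] (t : F) :
    Subalgebra (Algebra.adjoin K {t}) F := integralClosure (Algebra.adjoin K {t}) F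

theorem intRing_isDedekindDomain (ht : IsSepGen K t) : IsDedekindDomain (intRing K t) := by
  have := isDedekindDomain_adjoin ht.transcendental
  have := ht.finite
  have := ht.separable
  exact integralClosure.isDedekindDomain (Algebra.adjoin K {t}) K⟮t⟯ F

theorem intRing_isFractionRing (ht : IsSepGen K t) : IsFractionRing (intRing K t) F := by
  have := ht.finite
  exact IsIntegralClosure.isFractionRing_of_finite_extension (Algebra.adjoin K {t}) K⟮t⟯ F _

theorem intRing_finite (ht : IsSepGen K t) :
    Module.Finite (Algebra.adjoin K {t}) (intRing K t) := by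
  have := isDedekindDomain_adjoin ht.transcendental
  have := ht.finite
  have := ht.separable
  exact IsIntegralClosure.finite (Algebra.adjoin K {t}) K⟮t⟯ F _

theorem intRing_finiteType (ht : IsSepGen K t) : Algebra.FiniteType K (intRing K t) := by
  have := intRing_finite ht
  have h0 : (Algebra.adjoin K {t}).FG := by
    have := Subalgebra.fg_adjoin_finset (R := K) ({t} : Finset F)
    simpa using this
  have h1 : Algebra.FiniteType K (Algebra.adjoin K {t}) := (Subalgebra.fg_iff_finiteType _).1 h0
  exact Algebra.FiniteType.trans h1 inferInstance

/-- the valuation ring of a place as a `K`-subalgebra -/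
def placeSubalgebra (v : Place K F) : Subalgebra K F :=
  { v.toValuationSubring.toSubring with algebraMap_mem' := v.algebraMap_mem' }

@[simp] theorem mem_placeSubalgebra (v : Place K F) (x : F) :
    x ∈ placeSubalgebra v ↔ x ∈ v.toValuationSubring := Iff.rfl

theorem adjoin_le_placeSubalgebra (v : Place K F) (hv : t ∈ v.toValuationSubring) :
    Algebra.adjoin K {t} ≤ placeSubalgebra v :=
  Algebra.adjoin_le (by simpa using hv)

/-- valuation rings are integrally closed -/
theorem mem_of_isIntegral_of_forall_mem (v : Place K F) {A : Type*} [CommRing A] [Algebra A F]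
    (hA : ∀ a : A, algebraMap A F a ∈ v.toValuationSubring) {x : F} (hx : IsIntegral A x) :
    x ∈ v.toValuationSubring := by
  let φ : A →+* v.toValuationSubring := (algebraMap A F).codRestrict _ hA
  have h1 : IsIntegral v.toValuationSubring x :=
    IsIntegral.map_of_comp_eq φ (RingHom.id F) (by ext; rfl) hx
  obtain ⟨y, hy⟩ := IsIntegrallyClosed.isIntegral_iff.mp h1
  rw [← hy]
  exact y.2

theorem intRing_le_place (v : Place K F) (hv : t ∈ v.toValuationSubring) (x : intRing K t) :
    algebraMap (intRing K t) F x ∈ v.toValuationSubring := by
  apply mem_of_isIntegral_of_forall_mem v (A := Algebra.adjoin K {t}) _ x.2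
  intro a
  exact adjoin_le_placeSubalgebra v hv a.2

section WithFact

variable [hfact : Fact (IsSepGen K t)]

local instance instDedekindIntRing : IsDedekindDomain (intRing K t) :=
  intRing_isDedekindDomain hfact.out

local instance instFractionIntRing : IsFractionRing (intRing K t) F :=
  intRing_isFractionRing hfact.out

/-- a place with `t ∈ 𝒪_v` comes from a height one prime of the integral closure of `K[t]` -/
theorem exists_eq_ofHeightOneSpectrum_intRing (v : Place K F) (hv : t ∈ v.toValuationSubring) :
    ∃ w : HeightOneSpectrum (intRing K t), v = Place.ofHeightOneSpectrum (K := K) w :=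
  exists_eq_ofHeightOneSpectrum v (intRing_le_place v hv)

end WithFact

end Fermat.Agent.S24
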