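import Mathlib
import Fermat.Agent.S24.PlacesInt

/-!
# S24, W4: residue fields of places of a function field, degree one, centre on the `t`-line
-/

set_option autoImplicit false

namespace Fermat.Agent.S24

open AlgebraicCurve IsDedekindDomain WithZero IsLocalRing IntermediateField
open scoped IntermediateField.algebraAdjoinAdjoin

variable {K F : Type*} [Field K] [Field F] [Algebra K F] {t : F}

section WithFact

variable [hfact : Fact (IsSepGen K t)]

local instance instDedekindIntRing' : IsDedekindDomain (intRing K t) :=
  intRing_isDedekindDomain hfact.out

local instance instFractionIntRing' : IsFractionRing (intRing K t) F :=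
  intRing_isFractionRing hfact.out

theorem finite_quotient_intRing (w : HeightOneSpectrum (intRing K t)) :
    Module.Finite K (intRing K t ⧸ w.asIdeal) := by
  have := intRing_finiteType hfact.out
  have hmax := w.isMaximal
  let := Ideal.Quotient.field w.asIdeal
  exact finite_of_finite_type_of_isJacobsonRing K _

theorem finite_residue_of_mem (v : Place K F) (hv : t ∈ v.toValuationSubring) :
    Module.Finite K v.ResidueField := by
  obtain ⟨w, rfl⟩ := exists_eq_ofHeightOneSpectrum_intRing v hv
  have := finite_quotient_intRing w
  exact Module.Finite.equiv (placeResidueEquiv (K := K) (F := F) w).toLinearEquiv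

end WithFact

/-- the residue field of every place of a function field is finite over the constants -/
theorem IsSepGen.finite_residueField (ht : IsSepGen K t) (v : Place K F) :
    Module.Finite K v.ResidueField := by
  rcases v.toValuationSubring.mem_or_inv_mem t with h | h
  · have := Fact.mk ht
    exact finite_residue_of_mem v h
  · have := Fact.mk ht.inv
    exact finite_residue_of_mem v h

/-- over an algebraically closed constant field the residue field of every place is `K` -/
theorem IsSepGen.algebraMap_residueField_surjective [IsAlgClosed K] (ht : IsSepGen K t)
    (v : Place K F) : Function.Surjective (algebraMap K v.ResidueField) := by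
  have := ht.finite_residueField v
  have : Algebra.IsIntegral K v.ResidueField := Algebra.IsIntegral.of_finite K _
  exact (IsAlgClosed.algebraMap_bijective_of_isIntegral (k := K) (K := v.ResidueField)).2

/-- (P0) over an algebraically closed constant field all places have degree one. -/
theorem IsSepGen.deg_eq_one [IsAlgClosed K] (ht : IsSepGen K t) (v : Place K F) :
    v.deg = 1 := by
  refine finrank_eq_one 1 one_ne_zero fun w => ?_
  obtain ⟨c, rfl⟩ := ht.algebraMap_residueField_surjective v w
  exact ⟨c, by rw [Algebra.smul_def, mul_one]⟩

/-- (P1) the centre of a place on the `t`-line. -/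
theorem IsSepGen.existsUnique_ord_sub_pos [IsAlgClosed K] (ht : IsSepGen K t)
    (v : Place K F) (hv : 0 ≤ v.ord t) : ∃! a : K, 0 < v.ord (t - algebraMap K F a) := by
  have hmem : t ∈ v.toValuationSubring := PlaceOrd.mem_of_ord_nonneg v hv
  have hne : ∀ a : K, t - algebraMap K F a ≠ 0 := by
    intro a h
    apply ht.transcendental
    rw [sub_eq_zero] at h
    rw [h]
    exact isAlgebraic_algebraMap a
  obtain ⟨a, ha⟩ := ht.algebraMap_residueField_surjective v
    (IsLocalRing.residue _ (⟨t, hmem⟩ : v.toValuationSubring))
  refine ⟨a, ?_, ?_⟩
  · have h1 : (⟨t, hmem⟩ - algebraMap K v.toValuationSubring a : v.toValuationSubring) ∈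
        maximalIdeal v.toValuationSubring := by
      rw [← IsLocalRing.residue_eq_zero_iff, map_sub, sub_eq_zero, ← ha]
      rfl
    have h2 : (⟨t, hmem⟩ - algebraMap K v.toValuationSubring a : v.toValuationSubring) ≠ 0 := by
      intro h0
      apply hne a
      have := congrArg Subtype.val h0
      simpa using this
    have := (PlaceOrd.ord_pos_iff_mem_maximalIdeal v h2).2 h1
    simpa using this
  · intro b hb
    by_contra hba
    have hpos : 0 < v.ord (t - algebraMap K F a) := by
      have h1 : (⟨t, hmem⟩ - algebraMap K v.toValuationSubring a : v.toValuationSubring) ∈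
          maximalIdeal v.toValuationSubring := by
        rw [← IsLocalRing.residue_eq_zero_iff, map_sub, sub_eq_zero, ← ha]
        rfl
      have h2 : (⟨t, hmem⟩ - algebraMap K v.toValuationSubring a : v.toValuationSubring) ≠ 0 := by
        intro h0
        apply hne a
        have := congrArg Subtype.val h0
        simpa using this
      have := (PlaceOrd.ord_pos_iff_mem_maximalIdeal v h2).2 h1
      simpa using this
    have hdiff : (t - algebraMap K F a) - (t - algebraMap K F b) = algebraMap K F (b - a) := by
      rw [map_sub]; ring
    have hne' : (t - algebraMap K F a) - (t - algebraMap K F b) ≠ 0 := by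
      rw [hdiff]
      simpa [sub_eq_zero] using hba
    have := PlaceOrd.ord_sub_pos_of_pos v hpos hb hne'
    rw [hdiff, PlaceOrd.ord_algebraMap] at this
    exact lt_irrefl _ this

end Fermat.Agent.S24
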