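import Mathlib

/-!
# Shared definitions for the S24 cluster (analytic side)

`HolRing` : the ring of holomorphic functions on the upper half plane, with the action of
`SL(2, ℤ)` by `(γ • f) τ = f (γ⁻¹ • τ)` and precomposition with real matrices of positive
determinant; `Mer` its fraction field.
-/

set_option autoImplicit false

noncomputable section

namespace Fermat.Agent.S24

open UpperHalfPlane
open scoped MatrixGroups Manifold ModularForm

/-- The ring of holomorphic functions on the upper half plane. -/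
def HolRing : Subring (ℍ → ℂ) where
  carrier := {f | MDiff f}
  mul_mem' hf hg := hf.mul hg
  one_mem' := mdifferentiable_const
  add_mem' hf hg := hf.add hg
  zero_mem' := mdifferentiable_const
  neg_mem' hf := hf.neg

theorem mem_HolRing {f : ℍ → ℂ} : f ∈ HolRing ↔ MDiff f := Iff.rfl

/-- Bundle a holomorphic function as an element of `HolRing`. -/
def HolRing.mk' (f : ℍ → ℂ) (hf : MDiff f) : HolRing := ⟨f, hf⟩

@[simp] theorem HolRing.coe_mk' (f : ℍ → ℂ) (hf : MDiff f) : ((HolRing.mk' f hf : HolRing) : ℍ → ℂ) = f :=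
  rfl

theorem HolRing.mdiff (f : HolRing) : MDiff (f : ℍ → ℂ) := f.2

/-- Constant functions. -/
def HolRing.C : ℂ →+* HolRing where
  toFun c := ⟨fun _ => c, mdifferentiable_const⟩
  map_one' := rfl
  map_mul' _ _ := rfl
  map_zero' := rfl
  map_add' _ _ := rfl

@[simp] theorem HolRing.C_apply (c : ℂ) (τ : ℍ) : (HolRing.C c : ℍ → ℂ) τ = c := rfl

instance : Algebra ℂ HolRing := HolRing.C.toAlgebra

theorem HolRing.algebraMap_eq (c : ℂ) : algebraMap ℂ HolRing c = HolRing.C c := rfl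

@[simp] theorem HolRing.algebraMap_apply (c : ℂ) (τ : ℍ) :
    (algebraMap ℂ HolRing c : ℍ → ℂ) τ = c := rfl

/-- Precomposition with the action of a real matrix of positive determinant. -/
def HolRing.compGL (g : GL (Fin 2) ℝ) (hg : 0 < g.det.val) : HolRing →+* HolRing where
  toFun f := ⟨fun τ => (f : ℍ → ℂ) (g • τ), f.2.comp (mdifferentiable_smul hg)⟩
  map_one' := rfl
  map_mul' _ _ := rfl
  map_zero' := rfl
  map_add' _ _ := rfl

@[simp] theorem HolRing.compGL_apply (g : GL (Fin 2) ℝ) (hg : 0 < g.det.val) (f : HolRing)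
    (τ : ℍ) : (HolRing.compGL g hg f : ℍ → ℂ) τ = (f : ℍ → ℂ) (g • τ) := rfl

theorem det_mapGL_pos (γ : SL(2, ℤ)) :
    0 < (Matrix.SpecialLinearGroup.mapGL ℝ γ : GL (Fin 2) ℝ).det.val := by
  rw [Matrix.SpecialLinearGroup.det_mapGL]; exact one_pos

/-- `SL(2, ℤ)` acts on holomorphic functions by `(γ • f) τ = f (γ⁻¹ • τ)`. -/
instance : MulSemiringAction SL(2, ℤ) HolRing where
  smul γ f := HolRing.compGL (Matrix.SpecialLinearGroup.mapGL ℝ γ⁻¹) (det_mapGL_pos _) f
  one_smul f := by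
    ext τ
    show (f : ℍ → ℂ) ((Matrix.SpecialLinearGroup.mapGL ℝ (1 : SL(2, ℤ))⁻¹ : GL (Fin 2) ℝ) • τ) = _
    simp
  mul_smul γ δ f := by
    ext τ
    show (f : ℍ → ℂ) ((Matrix.SpecialLinearGroup.mapGL ℝ (γ * δ)⁻¹ : GL (Fin 2) ℝ) • τ) =
      (f : ℍ → ℂ) ((Matrix.SpecialLinearGroup.mapGL ℝ δ⁻¹ : GL (Fin 2) ℝ) •
        ((Matrix.SpecialLinearGroup.mapGL ℝ γ⁻¹ : GL (Fin 2) ℝ) • τ))
    rw [mul_inv_rev, map_mul, mul_smul]
  smul_zero γ := map_zero _
  smul_add γ f g := map_add _ f g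
  smul_one γ := map_one _
  smul_mul γ f g := map_mul _ f g

theorem HolRing.smul_apply (γ : SL(2, ℤ)) (f : HolRing) (τ : ℍ) :
    ((γ • f : HolRing) : ℍ → ℂ) τ = (f : ℍ → ℂ) (γ⁻¹ • τ) := rfl

theorem HolRing.inv_smul_apply (γ : SL(2, ℤ)) (f : HolRing) (τ : ℍ) :
    ((γ⁻¹ • f : HolRing) : ℍ → ℂ) τ = (f : ℍ → ℂ) (γ • τ) := by
  rw [HolRing.smul_apply, inv_inv]


theorem HolRing.eq_zero_of_eventuallyEq_zero {g : ℍ → ℂ} (hg : MDiff g) {τ₀ : ℍ}
    (h : ∀ᶠ τ in nhds τ₀, g τ = 0) : g = 0 := by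
  have hd : DifferentiableOn ℂ (g ∘ ofComplex) {z | 0 < z.im} := mdifferentiable_iff.mp hg
  have han : AnalyticOnNhd ℂ (g ∘ ofComplex) {z | 0 < z.im} :=
    hd.analyticOnNhd isOpen_upperHalfPlaneSet
  have hpre : IsPreconnected {z : ℂ | 0 < z.im} := (convex_halfSpace_im_gt 0).isPreconnected
  have hev : (g ∘ ofComplex) =ᶠ[nhds (τ₀ : ℂ)] 0 := by
    have h1 : Filter.Tendsto ofComplex (nhds (τ₀ : ℂ)) (nhds τ₀) := by
      have := (UpperHalfPlane.contMDiffAt_ofComplex (n := 0) τ₀.im_pos).continuousAt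
      simpa [ContinuousAt, ofComplex_apply] using this
    exact h1.eventually h
  have key := han.eqOn_zero_of_preconnected_of_eventuallyEq_zero hpre τ₀.im_pos hev
  funext τ
  have := key τ.im_pos
  simpa [ofComplex_apply] using this

instance : IsDomain HolRing := by
  have : Nontrivial HolRing := ⟨⟨0, 1, fun h => by
    have := congrArg (fun f : HolRing => (f : ℍ → ℂ) UpperHalfPlane.I) h
    simp at this⟩⟩
  have : NoZeroDivisors HolRing := ?_
  · exact NoZeroDivisors.to_isDomain _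
  refine ⟨fun {f g} hfg => ?_⟩
  by_contra hne
  push Not at hne
  obtain ⟨hf, hg⟩ := hne
  have hf' : (f : ℍ → ℂ) ≠ 0 := fun h => hf (Subtype.ext h)
  obtain ⟨τ₀, hτ₀⟩ : ∃ τ₀, (f : ℍ → ℂ) τ₀ ≠ 0 := by
    by_contra hcon
    push Not at hcon
    exact hf' (funext hcon)
  have hcont : Continuous (f : ℍ → ℂ) := f.2.continuous
  have hev : ∀ᶠ τ in nhds τ₀, (f : ℍ → ℂ) τ ≠ 0 := hcont.continuousAt.eventually_ne hτ₀
  have hg0 : ∀ᶠ τ in nhds τ₀, (g : ℍ → ℂ) τ = 0 := by
    filter_upwards [hev] with τ hτ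
    have := congrArg (fun h : HolRing => (h : ℍ → ℂ) τ) hfg
    simp only [Subring.coe_mul, Pi.mul_apply, ZeroMemClass.coe_zero, Pi.zero_apply, mul_eq_zero] at this
    exact this.resolve_left hτ
  exact hg (Subtype.ext (HolRing.eq_zero_of_eventuallyEq_zero g.2 hg0))


/-- The field of fractions of `HolRing` ("meromorphic functions on `ℍ`"). -/
abbrev Mer : Type := FractionRing HolRing

instance : MulSemiringAction SL(2, ℤ) Mer := IsFractionRing.mulSemiringAction SL(2, ℤ) HolRing Mer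

theorem Mer.smul_algebraMap (γ : SL(2, ℤ)) (f : HolRing) :
    γ • (algebraMap HolRing Mer f) = algebraMap HolRing Mer (γ • f) := by
  show (IsFractionRing.ringEquivOfRingEquiv (MulSemiringAction.toRingEquiv SL(2, ℤ) HolRing γ)
    : Mer ≃+* Mer) (algebraMap HolRing Mer f) = _
  rw [IsFractionRing.ringEquivOfRingEquiv_algebraMap]
  rfl

end Fermat.Agent.S24
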