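import Mathlib
import Fermat.Agent.S24.HolRing
import Fermat.Prelude.Def_ModularCurve_ArithmeticGalois
import Fermat.Prelude.Def_ModularCurve_JqCoeff

/-!
# Shared definitions for the analytic side of S24

* `jFun` : the modular invariant `E₄³/Δ` on `ℍ` (Mathlib normalisations, `q`-expansion
  `q⁻¹ + 744 + …`), `jHol` the same as an element of `HolRing`;
* `iotaBar : Qbar →+* ℂ` : a fixed embedding;
* `HasCuspExp h f S` : `f τ = ∑ S_m exp(2πi m τ / h)` on all of `ℍ`;
* `jBar N`, `jdBar N d` : the elements `j(q)`, `j(q^d)` of the Prelude field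
  `modularFunctionFieldBar N`.
-/

set_option autoImplicit false

noncomputable section

namespace Fermat.Agent.S24

open UpperHalfPlane ModularCurve ModularForm
open scoped MatrixGroups Manifold ModularForm Real

/-- The modular invariant `j = E₄³/Δ : ℍ → ℂ`. -/
def jFun (τ : ℍ) : ℂ := E₄ τ ^ 3 / ModularForm.discriminant τ

theorem mdifferentiable_jFun : MDiff jFun := by
  have h4 : MDiff (fun τ : ℍ => E₄ τ ^ 3) := (ModularFormClass.holo E₄).pow 3
  have hΔ : MDiff (fun τ : ℍ => ModularForm.discriminant τ) :=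
    ModularFormClass.holo CuspForm.discriminant
  intro τ
  exact (h4 τ).mul ((hΔ τ).inv (ModularForm.discriminant_ne_zero τ))

/-- `j` as an element of the ring of holomorphic functions. -/
def jHol : HolRing := ⟨jFun, mdifferentiable_jFun⟩

@[simp] theorem coe_jHol : (jHol : ℍ → ℂ) = jFun := rfl

/-- The field of algebraic numbers. -/
abbrev QBar : Type := AlgebraicClosure ℚ

/-- A fixed embedding of the algebraic numbers into `ℂ`. -/
def iotaBar : QBar →+* ℂ :=
  haveI : Algebra.IsAlgebraic ℚ QBar := AlgebraicClosure.isAlgebraic ℚ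
  ((IsAlgClosed.lift : QBar →ₐ[ℚ] ℂ) : QBar →+* ℂ)

theorem iotaBar_injective : Function.Injective iotaBar := iotaBar.injective

/-- `f` has the expansion `S` in the local parameter `exp (2πi τ / h)` at `i∞`,
valid on the whole upper half plane. -/
def HasCuspExp (h : ℕ) (f : ℍ → ℂ) (S : LaurentSeries ℂ) : Prop :=
  ∀ τ : ℍ, HasSum (fun m : ℤ => S.coeff m * Complex.exp (2 * π * Complex.I * m * τ / h)) (f τ)

variable (N : ℕ)

/-- `j(q^d)` as an element of the Prelude function field of `X₀(N)` over `Qbar`. -/
def jdBar (d : ℕ) [NeZero d] (hd : d ∣ N) : modularFunctionFieldBar N :=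
  ⟨coeffEmb QBar (qExpand ℚ d jq), coeffEmb_mem_laurentBaseChange QBar (jqd_mem_full N hd)⟩

/-- `j(q)` as an element of the Prelude function field. -/
def jBar : modularFunctionFieldBar N :=
  ⟨coeffEmb QBar jq, coeffEmb_mem_laurentBaseChange QBar (by
    have h := jqd_mem_full (d := 1) N (one_dvd N)
    rwa [qExpand_one_apply] at h)⟩

@[simp] theorem coe_jdBar (d : ℕ) [NeZero d] (hd : d ∣ N) :
    ((jdBar N d hd : modularFunctionFieldBar N) : LaurentSeries QBar) =
      coeffEmb QBar (qExpand ℚ d jq) := rfl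

@[simp] theorem coe_jBar : ((jBar N : modularFunctionFieldBar N) : LaurentSeries QBar) =
    coeffEmb QBar jq := rfl

end Fermat.Agent.S24
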