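import Mathlib
import Fermat.Agent.S24.ADefs

/-!
# S24 (A-side) : algebra of cusp expansions

`HasCuspExp h f S` (see `ADefs.lean`) : `f τ = ∑_m S_m exp(2πi m τ / h)` on all of `ℍ`.
This file proves the statements of helper11's `CuspExpSpec.lean` (same names and statements).
Auxiliary lemmas are prefixed `cuspExp_`.
-/

set_option autoImplicit false
set_option linter.unusedSectionVars false

noncomputable section

namespace Fermat.Agent.S24

open UpperHalfPlane ModularCurve
open scoped MatrixGroups Manifold ModularForm Real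

/-- The underlying function of the rotation `w ↦ ζ w` of Laurent series. -/
def cuspExp_rotFun (ζ : ℂˣ) (f : LaurentSeries ℂ) : LaurentSeries ℂ where
  coeff m := (ζ : ℂ) ^ m * f.coeff m
  isPWO_support' := f.isPWO_support.mono fun m hm => by
    rw [HahnSeries.mem_support]
    exact right_ne_zero_of_mul hm

@[simp] theorem cuspExp_rotFun_coeff (ζ : ℂˣ) (f : LaurentSeries ℂ) (m : ℤ) :
    (cuspExp_rotFun ζ f).coeff m = (ζ : ℂ) ^ m * f.coeff m := rfl

theorem cuspExp_rotFun_mem_support (ζ : ℂˣ) (f : LaurentSeries ℂ) (m : ℤ) :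
    m ∈ (cuspExp_rotFun ζ f).support ↔ m ∈ f.support := by
  rw [HahnSeries.mem_support, HahnSeries.mem_support, cuspExp_rotFun_coeff]
  have : (ζ : ℂ) ^ m ≠ 0 := zpow_ne_zero _ ζ.ne_zero
  exact ⟨right_ne_zero_of_mul, mul_ne_zero this⟩

/-- Rotation of Laurent series, `w ↦ ζ w`: the coefficient of `w^m` is multiplied by `ζ^m`. -/
theorem exists_rotLaurent (ζ : ℂˣ) : ∃ R : LaurentSeries ℂ →+* LaurentSeries ℂ,
    ∀ (f : LaurentSeries ℂ) (m : ℤ), (R f).coeff m = (ζ : ℂ) ^ m * f.coeff m := by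
  refine ⟨{ toFun := cuspExp_rotFun ζ, map_one' := ?_, map_mul' := ?_, map_zero' := ?_,
            map_add' := ?_ }, fun f m => rfl⟩
  · ext a
    rw [cuspExp_rotFun_coeff, HahnSeries.coeff_one]
    split_ifs with h
    · subst h; simp
    · simp
  · intro x y
    ext a
    rw [cuspExp_rotFun_coeff, HahnSeries.coeff_mul, HahnSeries.coeff_mul, Finset.mul_sum]
    refine Finset.sum_congr ?_ ?_
    · ext ij
      simp only [Finset.mem_antidiagonal, cuspExp_rotFun_mem_support]
    · intro ij hij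
      rw [Finset.mem_antidiagonal] at hij
      rw [cuspExp_rotFun_coeff, cuspExp_rotFun_coeff, ← hij.2.2, zpow_add₀ ζ.ne_zero]
      ring
  · ext a
    simp
  · intro x y
    ext a
    simp [mul_add]

/-- The rotation `w ↦ ζ w` of Laurent series. -/
def rotLaurent (ζ : ℂˣ) : LaurentSeries ℂ →+* LaurentSeries ℂ := (exists_rotLaurent ζ).choose

@[simp] theorem rotLaurent_coeff (ζ : ℂˣ) (f : LaurentSeries ℂ) (m : ℤ) :
    (rotLaurent ζ f).coeff m = (ζ : ℂ) ^ m * f.coeff m := (exists_rotLaurent ζ).choose_spec f m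

variable {h : ℕ} [NeZero h] {f g : ℍ → ℂ} {S T : LaurentSeries ℂ}

/-- Reformulation of `HasCuspExp` with the local parameter `𝕢 h τ = exp(2πiτ/h)`. -/
theorem cuspExp_iff {h : ℕ} {f : ℍ → ℂ} {S : LaurentSeries ℂ} : HasCuspExp h f S ↔
    ∀ τ : ℍ, HasSum (fun m : ℤ => S.coeff m * Function.Periodic.qParam (h : ℝ) (τ : ℂ) ^ m)
      (f τ) := by
  unfold HasCuspExp
  refine forall_congr' fun τ => ?_
  have : (fun m : ℤ => S.coeff m * Complex.exp (2 * π * Complex.I * m * τ / h)) =
      fun m : ℤ => S.coeff m * Function.Periodic.qParam (h : ℝ) (τ : ℂ) ^ m := by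
    funext m
    rw [Function.Periodic.qParam, ← Complex.exp_int_mul]
    congr 2
    push_cast
    ring
  rw [this]

theorem cuspExp_pos (h : ℕ) [NeZero h] : (0 : ℝ) < (h : ℝ) := by
  exact_mod_cast Nat.pos_of_ne_zero (NeZero.ne h)

theorem HasCuspExp.eq_of_eq (hS : HasCuspExp h f S) (hT : HasCuspExp h g S) : f = g := by
  funext τ
  exact (hS τ).unique (hT τ)

theorem HasCuspExp.const (c : ℂ) : HasCuspExp h (fun _ => c) (HahnSeries.C c) := by
  intro τ
  have h0 : ∀ m : ℤ, m ≠ 0 →
      (HahnSeries.C c : LaurentSeries ℂ).coeff m *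
        Complex.exp (2 * π * Complex.I * m * τ / h) = 0 := by
    intro m hm
    rw [HahnSeries.C_apply, HahnSeries.coeff_single_of_ne hm, zero_mul]
  have := hasSum_single (0 : ℤ) (fun m hm => h0 m hm)
  simpa using this

theorem HasCuspExp.add (hS : HasCuspExp h f S) (hT : HasCuspExp h g T) :
    HasCuspExp h (f + g) (S + T) := by
  intro τ
  have := (hS τ).add (hT τ)
  simpa [add_mul] using this

theorem HasCuspExp.neg (hS : HasCuspExp h f S) : HasCuspExp h (-f) (-S) := by
  intro τ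
  have := (hS τ).neg
  simpa using this

/-- An expansion of the zero function is zero. -/
theorem cuspExp_eq_zero_of_zero {D : LaurentSeries ℂ} (hD : HasCuspExp h (0 : ℍ → ℂ) D) :
    D = 0 := by
  by_contra hD0
  have hm₀ : D.coeff D.order ≠ 0 := fun h0 => hD0 (HahnSeries.coeff_order_eq_zero.1 h0)
  have hh : (0 : ℝ) < (h : ℝ) := cuspExp_pos h
  have key : ∀ τ : ℍ, HasSum (fun k : ℕ => (fun k : ℕ => D.coeff (D.order + k)) k •
      Function.Periodic.qParam (h : ℝ) (τ : ℂ) ^ k) ((0 : ℍ → ℂ) τ) := by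
    intro τ
    have h1 := (cuspExp_iff.1 hD) τ
    have hq : Function.Periodic.qParam (h : ℝ) (τ : ℂ) ≠ 0 :=
      Function.Periodic.qParam_ne_zero _
    have hinj : Function.Injective (fun k : ℕ => D.order + (k : ℤ)) := by
      intro a b hab
      simpa using hab
    have h2 := (hinj.hasSum_iff (f := fun m : ℤ => D.coeff m *
        Function.Periodic.qParam (h : ℝ) (τ : ℂ) ^ m) ?_).2 h1
    · have h3 := h2.mul_left ((Function.Periodic.qParam (h : ℝ) (τ : ℂ) ^ D.order)⁻¹)
      rw [Pi.zero_apply, mul_zero] at h3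
      have e : (fun k : ℕ => (fun k : ℕ => D.coeff (D.order + k)) k •
          Function.Periodic.qParam (h : ℝ) (τ : ℂ) ^ k) = fun i : ℕ =>
          (Function.Periodic.qParam (h : ℝ) (τ : ℂ) ^ D.order)⁻¹ *
          ((fun m : ℤ => D.coeff m * Function.Periodic.qParam (h : ℝ) (τ : ℂ) ^ m) ∘
            fun k : ℕ => D.order + (k : ℤ)) i := by
        funext k
        simp only [Function.comp_apply, smul_eq_mul]
        rw [zpow_add₀ hq, zpow_natCast]
        field_simp
      rw [e]
      exact h3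
    · intro m hm
      have hlt : m < D.order := by
        by_contra hge
        push Not at hge
        exact hm ⟨(m - D.order).toNat, by
          show D.order + ((m - D.order).toNat : ℤ) = m
          rw [Int.toNat_of_nonneg (by omega)]; ring⟩
      rw [HahnSeries.coeff_eq_zero_of_lt_order hlt, zero_mul]
  have hcusp : cuspFunction (h : ℝ) (0 : ℍ → ℂ) = 0 := by
    simpa [cuspFunction, Function.Periodic.cuspFunction]
      using! (tendsto_const_nhds.mono_left nhdsWithin_le_nhds).limUnder_eq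
  have han : AnalyticAt ℂ (cuspFunction (h : ℝ) (0 : ℍ → ℂ)) 0 := by
    rw [hcusp]; exact analyticAt_const
  have H := hasFPowerSeriesOnBall_cuspFunction hh han key
  rw [hcusp] at H
  have H0 := H.hasFPowerSeriesAt.eq_zero
  have h0 := congrArg (fun p => FormalMultilinearSeries.coeff p 0) H0
  simp [FormalMultilinearSeries.coeff_ofScalars] at h0
  exact hm₀ h0

theorem HasCuspExp.unique (hS : HasCuspExp h f S) (hT : HasCuspExp h f T) : S = T := by
  have h1 : HasCuspExp h (0 : ℍ → ℂ) (S + -T) := by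
    have := hS.add hT.neg
    rwa [add_neg_cancel] at this
  have := cuspExp_eq_zero_of_zero h1
  exact add_neg_eq_zero.1 this

/-- The coefficient of a product of Laurent series as a sum over `ℤ`. -/
theorem cuspExp_hasSum_coeff_mul (S T : LaurentSeries ℂ) (m : ℤ) :
    HasSum (fun i : ℤ => S.coeff i * T.coeff (m - i)) ((S * T).coeff m) := by
  rw [HahnSeries.coeff_mul]
  have himg : ∀ i ∉ (Finset.antidiagonal S.isPWO_support T.isPWO_support m).image Prod.fst,
      S.coeff i * T.coeff (m - i) = 0 := by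
    intro i hi
    by_contra hne
    apply hi
    rw [Finset.mem_image]
    refine ⟨(i, m - i), ?_, rfl⟩
    rw [Finset.mem_antidiagonal]
    exact ⟨(HahnSeries.mem_support _ _).2 (left_ne_zero_of_mul hne),
      (HahnSeries.mem_support _ _).2 (right_ne_zero_of_mul hne), by ring⟩
  have h1 : HasSum (fun i : ℤ => S.coeff i * T.coeff (m - i))
      (∑ i ∈ (Finset.antidiagonal S.isPWO_support T.isPWO_support m).image Prod.fst,
        S.coeff i * T.coeff (m - i)) := hasSum_sum_of_ne_finset_zero himg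
  have h2 : ∑ i ∈ (Finset.antidiagonal S.isPWO_support T.isPWO_support m).image Prod.fst,
      S.coeff i * T.coeff (m - i) =
      ∑ ij ∈ Finset.antidiagonal S.isPWO_support T.isPWO_support m,
        S.coeff ij.1 * T.coeff ij.2 := by
    rw [Finset.sum_image]
    · refine Finset.sum_congr rfl fun ij hij => ?_
      rw [Finset.mem_antidiagonal] at hij
      have : m - ij.1 = ij.2 := by rw [← hij.2.2]; ring
      rw [this]
    · intro a ha b hb hab
      rw [Finset.mem_coe, Finset.mem_antidiagonal] at ha hb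
      have h3 := ha.2.2
      have h4 := hb.2.2
      ext
      · exact hab
      · linarith
  rw [← h2]
  exact h1

theorem HasCuspExp.mul (hS : HasCuspExp h f S) (hT : HasCuspExp h g T) :
    HasCuspExp h (f * g) (S * T) := by
  rw [cuspExp_iff] at hS hT ⊢
  intro τ
  have hq : Function.Periodic.qParam (h : ℝ) (τ : ℂ) ≠ 0 := Function.Periodic.qParam_ne_zero _
  have h1 := hS τ
  have h2 := hT τ
  have hn1 : Summable (fun m : ℤ => ‖S.coeff m * Function.Periodic.qParam (h : ℝ) (τ : ℂ) ^ m‖) :=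
    h1.summable.norm
  have hn2 : Summable (fun m : ℤ => ‖T.coeff m * Function.Periodic.qParam (h : ℝ) (τ : ℂ) ^ m‖) :=
    h2.summable.norm
  have hs := summable_mul_of_summable_norm hn1 hn2
  have hprod := h1.mul h2 hs
  let e : ℤ × ℤ ≃ ℤ × ℤ :=
    { toFun := fun p => (p.2, p.1 - p.2)
      invFun := fun p => (p.1 + p.2, p.1)
      left_inv := fun p => by ext <;> simp
      right_inv := fun p => by ext <;> simp }
  have hprod' := (e.hasSum_iff).2 hprod
  show HasSum _ (f τ * g τ)
  refine HasSum.prod_fiberwise hprod' fun m => ?_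
  have h3 := (cuspExp_hasSum_coeff_mul S T m).mul_right
    (Function.Periodic.qParam (h : ℝ) (τ : ℂ) ^ m)
  have e3 : (fun i : ℤ => ((fun p : ℤ × ℤ =>
      (S.coeff p.1 * Function.Periodic.qParam (h : ℝ) (τ : ℂ) ^ p.1) *
      (T.coeff p.2 * Function.Periodic.qParam (h : ℝ) (τ : ℂ) ^ p.2)) ∘ e) (m, i)) =
      fun i : ℤ => S.coeff i * T.coeff (m - i) * Function.Periodic.qParam (h : ℝ) (τ : ℂ) ^ m := by
    funext i
    simp only [Function.comp_apply, e, Equiv.coe_fn_mk]
    rw [show Function.Periodic.qParam (h : ℝ) (τ : ℂ) ^ m =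
      Function.Periodic.qParam (h : ℝ) (τ : ℂ) ^ i *
        Function.Periodic.qParam (h : ℝ) (τ : ℂ) ^ (m - i) by
      rw [← zpow_add₀ hq]; congr 1; ring]
    ring
  rw [e3]
  exact h3

/-- Change of the local parameter, as an equivalence. -/
theorem cuspExp_qExpand_iff {h : ℕ} (k : ℕ) [NeZero k] {f : ℍ → ℂ} {S : LaurentSeries ℂ} :
    HasCuspExp (h * k) f (ModularCurve.qExpand ℂ k S) ↔ HasCuspExp h f S := by
  unfold HasCuspExp
  refine forall_congr' fun τ => ?_
  have hk : (k : ℤ) ≠ 0 := by exact_mod_cast NeZero.ne k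
  have hk' : (k : ℂ) ≠ 0 := by exact_mod_cast NeZero.ne k
  have hinj : Function.Injective (fun m : ℤ => (k : ℤ) * m) := mul_right_injective₀ hk
  rw [← hinj.hasSum_iff]
  · have : ((fun m : ℤ => (ModularCurve.qExpand ℂ k S).coeff m *
        Complex.exp (2 * π * Complex.I * m * τ / ((h * k : ℕ) : ℂ))) ∘
          fun m : ℤ => (k : ℤ) * m) =
        fun m : ℤ => S.coeff m * Complex.exp (2 * π * Complex.I * m * τ / h) := by
      funext m
      simp only [Function.comp_apply, qExpand_coeff_mul]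
      congr 2
      push_cast
      rw [show 2 * (π : ℂ) * Complex.I * ((k : ℂ) * (m : ℂ)) * (τ : ℂ) =
        (2 * (π : ℂ) * Complex.I * (m : ℂ) * (τ : ℂ)) * (k : ℂ) by ring]
      exact mul_div_mul_right _ _ hk'
    rw [this]
  · intro m hm
    rw [qExpand_coeff_of_not_dvd k S (fun ⟨n, hn⟩ => hm ⟨n, hn.symm⟩), zero_mul]

/-- Change of the local parameter: an expansion in `exp(2πiτ/h)` is an expansion in
`exp(2πiτ/(h k))` with exponents multiplied by `k`. -/
theorem HasCuspExp.qExpand (k : ℕ) [NeZero k] (hS : HasCuspExp h f S) :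
    HasCuspExp (h * k) f (ModularCurve.qExpand ℂ k S) :=
  (cuspExp_qExpand_iff k).2 hS

/-- Affine substitution `τ ↦ (a τ + b) / d`: if `f = ∑ S_m exp(2πi m τ)` then
`f((aτ+b)/d) = ∑ S_m ζ^m exp(2πi m a τ / d)` with `ζ = exp(2πi b/d)`. -/
theorem HasCuspExp.comp_affine {a d : ℕ} (ha : a ≠ 0) (hd : d ≠ 0) (b : ℤ)
    (g' : GL (Fin 2) ℝ) (hg' : ∀ τ : ℍ, ((g' • τ : ℍ) : ℂ) = ((a : ℂ) * τ + b) / d)
    (hS : HasCuspExp 1 f S) (ζ : ℂˣ) (hζ : (ζ : ℂ) = Complex.exp (2 * π * Complex.I * b / d)) :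
    haveI : NeZero a := ⟨ha⟩
    HasCuspExp d (fun τ => f (g' • τ)) (ModularCurve.qExpand ℂ a (rotLaurent ζ S)) := by
  have : NeZero a := ⟨ha⟩
  intro τ
  have h1 := hS (g' • τ)
  have ha' : (a : ℤ) ≠ 0 := by exact_mod_cast ha
  have hd' : (d : ℂ) ≠ 0 := by exact_mod_cast hd
  have hinj : Function.Injective (fun m : ℤ => (a : ℤ) * m) := mul_right_injective₀ ha'
  rw [← hinj.hasSum_iff]
  · have : ((fun m : ℤ => (ModularCurve.qExpand ℂ a (rotLaurent ζ S)).coeff m *
        Complex.exp (2 * π * Complex.I * m * τ / d)) ∘ fun m : ℤ => (a : ℤ) * m) =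
        fun m : ℤ => S.coeff m *
          Complex.exp (2 * π * Complex.I * m * ((g' • τ : ℍ) : ℂ) / ((1 : ℕ) : ℂ)) := by
      funext m
      simp only [Function.comp_apply, qExpand_coeff_mul, rotLaurent_coeff]
      rw [hg', hζ, ← Complex.exp_int_mul, mul_comm (Complex.exp _) (S.coeff m), mul_assoc,
        ← Complex.exp_add]
      congr 2
      push_cast
      field_simp
      ring
    rw [this]
    exact h1
  · intro m hm
    rw [qExpand_coeff_of_not_dvd a _ (fun ⟨n, hn⟩ => hm ⟨n, hn.symm⟩), zero_mul]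

/-- Translation `τ ↦ τ + 1` rotates an expansion in `exp(2πiτ/h)` by `exp(2πi/h)`. -/
theorem HasCuspExp.comp_T (hS : HasCuspExp h f S) (ζ : ℂˣ)
    (hζ : (ζ : ℂ) = Complex.exp (2 * π * Complex.I / h)) :
    HasCuspExp h (fun τ => f (ModularGroup.T • τ)) (rotLaurent ζ S) := by
  intro τ
  have h1 := hS (ModularGroup.T • τ)
  have hT : ((ModularGroup.T • τ : ℍ) : ℂ) = (τ : ℂ) + 1 := by
    rw [UpperHalfPlane.modular_T_smul]
    simp [UpperHalfPlane.coe_vadd, add_comm]
  have e1 : (fun m : ℤ => (rotLaurent ζ S).coeff m *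
      Complex.exp (2 * π * Complex.I * m * τ / h)) =
      fun m : ℤ => S.coeff m *
        Complex.exp (2 * π * Complex.I * m * ((ModularGroup.T • τ : ℍ) : ℂ) / h) := by
    funext m
    rw [rotLaurent_coeff, hT, hζ, ← Complex.exp_int_mul, mul_comm (Complex.exp _) (S.coeff m),
      mul_assoc, ← Complex.exp_add]
    congr 2
    ring
  rw [e1]
  exact h1

/-- A `1`-periodic function with an expansion in `exp(2πiτ/h)` has an expansion in `exp(2πiτ)`. -/
theorem HasCuspExp.exists_of_periodic (hS : HasCuspExp h f S)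
    (hper : ∀ τ : ℍ, f (ModularGroup.T • τ) = f τ) :
    ∃ S₁ : LaurentSeries ℂ, HasCuspExp 1 f S₁ ∧ S = ModularCurve.qExpand ℂ h S₁ := by
  have hh : (h : ℂ) ≠ 0 := Nat.cast_ne_zero.2 (NeZero.ne h)
  let ζ : ℂˣ := Units.mk0 (Complex.exp (2 * π * Complex.I / h)) (Complex.exp_ne_zero _)
  have hζ : (ζ : ℂ) = Complex.exp (2 * π * Complex.I / h) := rfl
  have hrot : rotLaurent ζ S = S := by
    have h1 := hS.comp_T ζ hζ
    have h2 : (fun τ => f (ModularGroup.T • τ)) = f := funext hper
    rw [h2] at h1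
    exact h1.unique hS
  have hdvd : ∀ m : ℤ, S.coeff m ≠ 0 → (h : ℤ) ∣ m := by
    intro m hm
    have h1 := congrArg (fun X : LaurentSeries ℂ => X.coeff m) hrot
    simp only [rotLaurent_coeff] at h1
    have h2 : (ζ : ℂ) ^ m = 1 := by
      have : ((ζ : ℂ) ^ m - 1) * S.coeff m = 0 := by rw [sub_mul, h1, one_mul, sub_self]
      rcases mul_eq_zero.1 this with h3 | h3
      · exact sub_eq_zero.1 h3
      · exact absurd h3 hm
    have h3 : Complex.exp ((m : ℂ) * (2 * π * Complex.I / h)) = 1 := by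
      rw [Complex.exp_int_mul, ← hζ]; exact h2
    obtain ⟨n, hn⟩ := Complex.exp_eq_one_iff.1 h3
    have h2pi : (2 * π * Complex.I : ℂ) ≠ 0 := Complex.two_pi_I_ne_zero
    have h4 : (m : ℂ) = (h : ℂ) * n := by
      have h5 : (m : ℂ) * (2 * π * Complex.I) = ((h : ℂ) * n) * (2 * π * Complex.I) := by
        have h6 : (m : ℂ) * (2 * π * Complex.I / h) * h = (n : ℂ) * (2 * π * Complex.I) * h := by
          rw [hn]
        rw [mul_assoc, div_mul_cancel₀ _ hh] at h6
        rw [h6]; ring
      exact mul_right_cancel₀ h2pi h5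
    exact ⟨n, by exact_mod_cast h4⟩
  have hbdd : BddBelow (Function.support fun n : ℤ => S.coeff ((h : ℤ) * n)) := by
    refine ⟨min S.order 0, fun n hn => ?_⟩
    rw [Function.mem_support] at hn
    have h1 : S.order ≤ (h : ℤ) * n := HahnSeries.order_le_of_coeff_ne_zero hn
    have hpos : (1 : ℤ) ≤ h := by exact_mod_cast Nat.one_le_iff_ne_zero.2 (NeZero.ne h)
    by_contra hlt
    push Not at hlt
    rw [lt_min_iff] at hlt
    nlinarith [hlt.1, hlt.2]
  have hS' : S = ModularCurve.qExpand ℂ h (HahnSeries.ofSuppBddBelow _ hbdd) := by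
    ext m
    by_cases hdm : (h : ℤ) ∣ m
    · obtain ⟨n, rfl⟩ := hdm
      rw [qExpand_coeff_mul, HahnSeries.coeff_ofSuppBddBelow]
    · rw [qExpand_coeff_of_not_dvd h _ hdm]
      by_contra hne
      exact hdm (hdvd m hne)
  refine ⟨HahnSeries.ofSuppBddBelow _ hbdd, ?_, hS'⟩
  refine (cuspExp_qExpand_iff (h := 1) h).1 ?_
  rw [one_mul, ← hS']
  exact hS

/-- An expansion without negative exponents, reindexed by `ℕ`. -/
theorem cuspExp_hasSum_nat (hS : HasCuspExp h f S) (h0 : ∀ m : ℤ, m < 0 → S.coeff m = 0)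
    (τ : ℍ) : HasSum (fun n : ℕ => (fun n : ℕ => S.coeff (n : ℤ)) n •
      Function.Periodic.qParam (h : ℝ) (τ : ℂ) ^ n) (f τ) := by
  have h1 := (cuspExp_iff.1 hS) τ
  have hinj : Function.Injective (fun n : ℕ => (n : ℤ)) := Nat.cast_injective
  have h2 := (hinj.hasSum_iff (f := fun m : ℤ => S.coeff m *
    Function.Periodic.qParam (h : ℝ) (τ : ℂ) ^ m) ?_).2 h1
  · have e : (fun n : ℕ => (fun n : ℕ => S.coeff (n : ℤ)) n •
        Function.Periodic.qParam (h : ℝ) (τ : ℂ) ^ n) =
        (fun m : ℤ => S.coeff m * Function.Periodic.qParam (h : ℝ) (τ : ℂ) ^ m) ∘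
          fun n : ℕ => (n : ℤ) := by
      funext n
      simp only [Function.comp_apply, smul_eq_mul, zpow_natCast]
    rw [e]
    exact h2
  · intro m hm
    have : m < 0 := by
      by_contra hge
      push Not at hge
      exact hm ⟨m.toNat, Int.toNat_of_nonneg hge⟩
    rw [h0 m this, zero_mul]

theorem HasCuspExp.isBoundedAtImInfty (hS : HasCuspExp h f S) (h0 : ∀ m : ℤ, m < 0 → S.coeff m = 0) :
    UpperHalfPlane.IsBoundedAtImInfty f :=
  isBoundedAtImInfty_of_hasSum_qExpansion (cuspExp_pos h) (cuspExp_hasSum_nat hS h0)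

/-- The expansion of the inverse of the local parameter. -/
theorem cuspExp_inv_qParam (h : ℕ) :
    HasCuspExp h (fun τ : ℍ => (Function.Periodic.qParam (h : ℝ) (τ : ℂ))⁻¹)
      (HahnSeries.single (-1 : ℤ) (1 : ℂ)) := by
  rw [cuspExp_iff]
  intro τ
  have h0 : ∀ m : ℤ, m ≠ -1 →
      (HahnSeries.single (-1 : ℤ) (1 : ℂ)).coeff m *
        Function.Periodic.qParam (h : ℝ) (τ : ℂ) ^ m = 0 := by
    intro m hm
    rw [HahnSeries.coeff_single_of_ne hm, zero_mul]
  have := hasSum_single (-1 : ℤ) (fun m hm => h0 m hm)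
  simpa using this

/-- If the expansion has no pole and no constant term, `f` tends to `0` at `i∞`;
if it has no pole, `f` is bounded at `i∞`. -/
theorem HasCuspExp.isZeroAtImInfty (hS : HasCuspExp h f S) (h0 : ∀ m : ℤ, m ≤ 0 → S.coeff m = 0) :
    UpperHalfPlane.IsZeroAtImInfty f := by
  have hh := cuspExp_pos h
  have hg := hS.mul (cuspExp_inv_qParam h)
  have hgb : UpperHalfPlane.IsBoundedAtImInfty
      (f * fun τ : ℍ => (Function.Periodic.qParam (h : ℝ) (τ : ℂ))⁻¹) := by
    refine hg.isBoundedAtImInfty fun m hm => ?_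
    have : m = (m + 1) + (-1) := by ring
    rw [this, HahnSeries.coeff_mul_single_add, h0 (m + 1) (by omega), zero_mul]
  have hq0 : UpperHalfPlane.IsZeroAtImInfty
      (fun τ : ℍ => Function.Periodic.qParam (h : ℝ) (τ : ℂ)) := qParam_tendsto_atImInfty hh
  have e : f = (fun τ : ℍ => Function.Periodic.qParam (h : ℝ) (τ : ℂ)) *
      (f * fun τ : ℍ => (Function.Periodic.qParam (h : ℝ) (τ : ℂ))⁻¹) := by
    funext τ
    have hq : Function.Periodic.qParam (h : ℝ) (τ : ℂ) ≠ 0 := Function.Periodic.qParam_ne_zero _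
    simp only [Pi.mul_apply]
    field_simp
  rw [e]
  exact Filter.ZeroAtFilter.mul_boundedAtFilter hq0 hgb

end Fermat.Agent.S24
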