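import Fermat.Agent.S24.CuspExp

/-!
# S24 : shim

The statements of this former SPEC file are proved in `Fermat/Agent/S24/CuspExp.lean` (helper14).
-/
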