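import Mathlib

set_option autoImplicit false

namespace Fermat.Agent.S24

open UpperHalfPlane hiding I
open Real Complex Filter Topology Function
open scoped Manifold MatrixGroups ModularForm
open Derivative EisensteinSeries ModularForm ModularGroup

/-- R0 (Cauchy estimate at `i∞`): if a holomorphic function on the upper half plane has a limit
at `i∞`, then its normalized derivative tends to `0` at `i∞`. -/
theorem tendsto_normalizedDeriv_atImInfty {F : ℍ → ℂ} (hF : MDiff F) {c : ℂ}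
    (hc : Tendsto F atImInfty (𝓝 c)) : Tendsto (D F) atImInfty (𝓝 0) := by
  rw [UpperHalfPlane.mdifferentiable_iff] at hF
  rw [Metric.tendsto_nhds]
  intro ε hε
  have h1 : ∀ᶠ z in atImInfty, dist (F z) c < ε := (Metric.tendsto_nhds.mp hc) ε hε
  obtain ⟨A, hA⟩ := (UpperHalfPlane.atImInfty_mem _).mp h1
  rw [Filter.Eventually, UpperHalfPlane.atImInfty_mem]
  refine ⟨max A 1 + 1, fun z hz => ?_⟩
  simp only [Set.mem_ofPred_eq, dist_zero_right]
  set g : ℂ → ℂ := fun w => (F ∘ ofComplex) w - c with hg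
  have hsub : Metric.closedBall (z : ℂ) 1 ⊆ upperHalfPlaneSet := by
    intro w hw
    have h2 : |(w - z).im| ≤ ‖w - z‖ := Complex.abs_im_le_norm _
    have h3 : ‖w - z‖ ≤ 1 := by simpa [dist_eq_norm] using hw
    have h4 : (w - z).im = w.im - z.im := by simp
    have h5 : (1 : ℝ) ≤ max A 1 := le_max_right _ _
    have h6 := abs_le.mp (h2.trans h3)
    show 0 < w.im
    have : z.im = (z : ℂ).im := rfl
    linarith [h6.1]
  have hgd : DifferentiableOn ℂ g upperHalfPlaneSet := hF.sub (differentiableOn_const c)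
  have hd : DiffContOnCl ℂ g (Metric.ball (z : ℂ) 1) := hgd.diffContOnCl_ball hsub
  have hC : ∀ w ∈ Metric.sphere (z : ℂ) 1, ‖g w‖ ≤ ε := by
    intro w hw
    have hw' : w ∈ Metric.closedBall (z : ℂ) 1 := Metric.sphere_subset_closedBall hw
    have hwpos : 0 < w.im := hsub hw'
    have h2 : |(w - z).im| ≤ ‖w - z‖ := Complex.abs_im_le_norm _
    have h3 : ‖w - z‖ ≤ 1 := by simpa [dist_eq_norm] using hw'
    have h4 : (w - z).im = w.im - z.im := by simp
    have h6 := abs_le.mp (h2.trans h3)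
    have hAw : A ≤ (⟨w, hwpos⟩ : ℍ).im := by
      show A ≤ w.im
      have : z.im = (z : ℂ).im := rfl
      have h5 : A ≤ max A 1 := le_max_left _ _
      linarith [h6.1]
    have := hA ⟨w, hwpos⟩ hAw
    simp only [Set.mem_ofPred_eq, dist_eq_norm] at this
    simp only [hg, Function.comp_apply, ofComplex_apply_of_im_pos hwpos]
    exact this.le
  have hder := Complex.norm_deriv_le_of_forall_mem_sphere_norm_le one_pos hd hC
  have hderiv : deriv g (z : ℂ) = deriv (F ∘ ofComplex) (z : ℂ) := by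
    simp only [hg]
    rw [deriv_sub_const]
  rw [hderiv, div_one] at hder
  have h2pi : ‖(2 * (π : ℂ) * I)‖ = 2 * π := by
    simp [abs_of_pos Real.pi_pos]
  rw [normalizedDerivOfComplex, norm_mul, norm_inv, h2pi]
  have hpi : (1 : ℝ) < 2 * π := by linarith [Real.pi_gt_three]
  calc (2 * π)⁻¹ * ‖deriv (F ∘ ofComplex) (z : ℂ)‖ ≤ (2 * π)⁻¹ * ε := by
        apply mul_le_mul_of_nonneg_left hder; positivity
    _ < 1 * ε := by
        apply mul_lt_mul_of_pos_right _ hε
        exact inv_lt_one_of_one_lt₀ hpi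
    _ = ε := one_mul ε

/-- A holomorphic periodic function bounded at `i∞` tends to its value at infinity. -/
theorem tendsto_valueAtInfty_of_periodic {f : ℍ → ℂ} {h : ℝ} (hh : 0 < h)
    (hfper : Periodic (f ∘ ofComplex) h) (hfhol : MDiff f) (hfbdd : IsBoundedAtImInfty f) :
    Tendsto f atImInfty (𝓝 (valueAtInfty f)) := by
  have han := analyticAt_cuspFunction_zero hh hfper hfhol hfbdd
  have h0 := cuspFunction_apply_zero hh han hfper
  have : (cuspFunction h f ∘ fun τ ↦ Periodic.qParam h τ : ℍ → ℂ) = f := by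
    funext τ
    simpa using eq_cuspFunction τ hh.ne' hfper
  rw [← h0]
  simpa [this] using han.continuousAt.tendsto.comp (qParam_tendsto_atImInfty hh)

/-- A level one modular form tends to the constant term of its `q`-expansion. -/
theorem tendsto_qExpansion_coeff_zero {k : ℤ} (f : ModularForm 𝒮ℒ k) :
    Tendsto f atImInfty (𝓝 ((qExpansion 1 f).coeff 0)) := by
  have hper := SlashInvariantFormClass.periodic_comp_ofComplex f one_mem_strictPeriods_SL
  have han := ModularFormClass.analyticAt_cuspFunction_zero f one_pos one_mem_strictPeriods_SL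
  rw [qExpansion_coeff_zero one_pos han hper]
  exact tendsto_valueAtInfty_of_periodic one_pos hper (ModularFormClass.holo f)
    (ModularFormClass.bdd_at_infty f)

theorem tendsto_E₄_atImInfty : Tendsto E₄ atImInfty (𝓝 1) := by
  have := tendsto_qExpansion_coeff_zero E₄
  rwa [E_qExpansion_coeff_zero _ ⟨2, rfl⟩] at this

theorem tendsto_E₆_atImInfty : Tendsto E₆ atImInfty (𝓝 1) := by
  have := tendsto_qExpansion_coeff_zero E₆
  rwa [E_qExpansion_coeff_zero _ ⟨3, rfl⟩] at this

theorem periodic_E2_comp_ofComplex : Periodic (E2 ∘ ofComplex) (1 : ℝ) := by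
  intro w
  rw [Complex.ofReal_one]
  by_cases! hw : 0 < im w
  · have hw1 : 0 < im (w + 1) := by simp [hw]
    simp only [comp_apply, ofComplex_apply_of_im_pos hw1, ofComplex_apply_of_im_pos hw]
    rw [E2_eq_tsum_cexp, E2_eq_tsum_cexp]
    have : cexp (2 * π * I * ((⟨w + 1, hw1⟩ : ℍ) : ℂ)) = cexp (2 * π * I * ((⟨w, hw⟩ : ℍ) : ℂ)) := by
      show cexp (2 * π * I * (w + 1)) = cexp (2 * π * I * w)
      rw [mul_add, Complex.exp_add, mul_one, Complex.exp_two_pi_mul_I, mul_one]
    rw [this]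
  · have : im (w + 1) ≤ 0 := by simpa using hw
    simp only [comp_apply, ofComplex_apply_of_im_nonpos this, ofComplex_apply_of_im_nonpos hw]

theorem hasSum_E2_qParam (τ : ℍ) :
    HasSum (fun m : ℕ ↦ (if m = 0 then 1 else -24 * ArithmeticFunction.sigma 1 m : ℂ) •
      Periodic.qParam 1 τ ^ m) (E2 τ) := by
  have := hasSum_qExpansion_E2 (z := τ)
  simpa only [Function.Periodic.qParam, ofReal_one, div_one] using this

theorem tendsto_E2_atImInfty : Tendsto E2 atImInfty (𝓝 1) := by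
  have hper := periodic_E2_comp_ofComplex
  have han : AnalyticAt ℂ (cuspFunction 1 E2) 0 :=
    UpperHalfPlane.analyticAt_cuspFunction_zero one_pos hper E2_mdifferentiable isBoundedAtImInfty_E2
  have hps := UpperHalfPlane.hasFPowerSeriesOnBall_cuspFunction one_pos han hasSum_E2_qParam
  have h0 : cuspFunction 1 E2 0 = 1 := by
    have := hps.coeff_zero (fun _ => 0)
    simpa using this.symm
  have h1 := tendsto_valueAtInfty_of_periodic one_pos hper E2_mdifferentiable isBoundedAtImInfty_E2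
  rwa [← UpperHalfPlane.cuspFunction_apply_zero one_pos han hper, h0] at h1

/-- Build a level one modular form from an `SL(2,ℤ)`-invariant holomorphic function which is
bounded at `i∞`. -/
noncomputable def levelOneOfInvariant (k : ℤ) (f : ℍ → ℂ) (hinv : ∀ γ : SL(2, ℤ), f ∣[k] γ = f)
    (hhol : MDiff f) (hbdd : IsBoundedAtImInfty f) : ModularForm 𝒮ℒ k where
  toFun := f
  slash_action_eq' := fun _ ⟨γ, hγ⟩ ↦ hγ ▸ hinv γ
  holo' := hhol
  bdd_at_cusps' {c} hc := by
    rw [Subgroup.IsArithmetic.isCusp_iff_isCusp_SL2Z] at hc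
    rw [OnePoint.isBoundedAt_iff_forall_SL2Z hc]
    intro γ _
    rw [hinv γ]
    exact hbdd

@[simp] theorem levelOneOfInvariant_apply (k : ℤ) (f : ℍ → ℂ)
    (hinv : ∀ γ : SL(2, ℤ), f ∣[k] γ = f)
    (hhol : MDiff f) (hbdd : IsBoundedAtImInfty f) (z : ℍ) :
    levelOneOfInvariant k f hinv hhol hbdd z = f z := rfl

theorem coe_levelOneOfInvariant (k : ℤ) (f : ℍ → ℂ)
    (hinv : ∀ γ : SL(2, ℤ), f ∣[k] γ = f)
    (hhol : MDiff f) (hbdd : IsBoundedAtImInfty f) :
    ⇑(levelOneOfInvariant k f hinv hhol hbdd) = f := rfl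

/-- In a one-dimensional space of level one forms, a form is determined by its value at `i∞`. -/
theorem levelOne_eq_smul_of_rank_one {k : ℤ} (hrank : Module.rank ℂ (ModularForm 𝒮ℒ k) = 1)
    (g f : ModularForm 𝒮ℒ k) {a b : ℂ} (hg : Tendsto g atImInfty (𝓝 b)) (hb : b ≠ 0)
    (hf : Tendsto f atImInfty (𝓝 a)) : (f : ℍ → ℂ) = (a / b) • (g : ℍ → ℂ) := by
  have hg0 : g ≠ 0 := by
    rintro rfl
    have h0 : Tendsto (fun _ : ℍ => (0 : ℂ)) atImInfty (𝓝 b) := hg
    exact hb (tendsto_nhds_unique h0 tendsto_const_nhds)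
  obtain ⟨c, hc⟩ := (finrank_eq_one_iff_of_nonzero' g hg0).mp
    (Module.rank_eq_one_iff_finrank_eq_one.mp hrank) f
  have hfun : (f : ℍ → ℂ) = c • (g : ℍ → ℂ) := by
    rw [← hc]; rfl
  have hlim : Tendsto f atImInfty (𝓝 (c * b)) := by
    rw [hfun]
    exact hg.const_mul c
  have hcb : a = c * b := tendsto_nhds_unique hf hlim
  have : c = a / b := by
    rw [hcb]; field_simp
  rw [hfun, this]

theorem tendsto_serreDerivative_atImInfty (k : ℂ) {F : ℍ → ℂ} (hF : MDiff F) {c : ℂ}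
    (hc : Tendsto F atImInfty (𝓝 c)) :
    Tendsto (serreDerivative k F) atImInfty (𝓝 (-(k * 12⁻¹ * c))) := by
  have h1 := tendsto_normalizedDeriv_atImInfty hF hc
  have h2 : Tendsto (fun z => k * 12⁻¹ * E2 z * F z) atImInfty (𝓝 (k * 12⁻¹ * 1 * c)) :=
    ((tendsto_E2_atImInfty.const_mul (k * 12⁻¹))).mul hc
  have h3 := h1.sub h2
  rw [serreDerivative_eq]
  convert h3 using 2
  ring

theorem slash_eq_of_levelOne {k : ℤ} (f : ModularForm 𝒮ℒ k) (γ : SL(2, ℤ)) :
    (f : ℍ → ℂ) ∣[k] γ = f := by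
  have hγ : (γ : GL (Fin 2) ℝ) ∈ 𝒮ℒ := ⟨γ, rfl⟩
  rw [SL_slash]
  exact SlashInvariantForm.slash_action_eqn f _ hγ

/-- The Serre derivative of a level one modular form of weight `k`, as a level one modular form
of weight `k + 2`. -/
noncomputable def serreDerivativeForm {k : ℤ} (f : ModularForm 𝒮ℒ k) : ModularForm 𝒮ℒ (k + 2) :=
  levelOneOfInvariant (k + 2) (serreDerivative k f)
    (fun γ => serreDerivative_slash_invariant (ModularFormClass.holo f) (slash_eq_of_levelOne f γ))
    (serreDerivative_mdifferentiable k (ModularFormClass.holo f))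
    ((tendsto_serreDerivative_atImInfty k (ModularFormClass.holo f)
      (tendsto_qExpansion_coeff_zero f)).isBigO_one ℝ)

theorem coe_serreDerivativeForm {k : ℤ} (f : ModularForm 𝒮ℒ k) :
    ⇑(serreDerivativeForm f) = serreDerivative k f := rfl

/-- R1: Ramanujan's identity for `E₄`. -/
theorem serreDerivative_E₄ : serreDerivative 4 E₄ = (-(1 / 3) : ℂ) • (E₆ : ℍ → ℂ) := by
  have h1 : Tendsto (serreDerivativeForm E₄) atImInfty (𝓝 (-(((4 : ℤ) : ℂ) * 12⁻¹ * 1))) :=
    tendsto_serreDerivative_atImInfty _ (ModularFormClass.holo E₄) tendsto_E₄_atImInfty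
  have h2 := levelOne_eq_smul_of_rank_one levelOne_weight_six_rank_one E₆ (serreDerivativeForm E₄)
    tendsto_E₆_atImInfty one_ne_zero h1
  rw [coe_serreDerivativeForm] at h2
  have h3 : (((4 : ℤ) : ℂ)) = 4 := by norm_num
  rw [h3] at h2
  rw [h2]
  congr 1
  norm_num

theorem levelOne_weight_eight_rank_one : Module.rank ℂ (ModularForm 𝒮ℒ 8) = 1 := by
  have h := dimension_level_one 8 ⟨4, rfl⟩
  have h2 : ¬ (8 ≡ 2 [MOD 12]) := by decide
  rw [if_neg h2] at h
  norm_num at h
  exact h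

/-- R2: Ramanujan's identity for `E₆`. -/
theorem serreDerivative_E₆ :
    serreDerivative 6 E₆ = (-(1 / 2) : ℂ) • ((E₄ : ℍ → ℂ) * (E₄ : ℍ → ℂ)) := by
  have h1 : Tendsto (serreDerivativeForm E₆) atImInfty (𝓝 (-(((6 : ℤ) : ℂ) * 12⁻¹ * 1))) :=
    tendsto_serreDerivative_atImInfty _ (ModularFormClass.holo E₆) tendsto_E₆_atImInfty
  have hg : Tendsto (E₄.mul E₄) atImInfty (𝓝 (1 * 1)) :=
    tendsto_E₄_atImInfty.mul tendsto_E₄_atImInfty
  have h2 := levelOne_eq_smul_of_rank_one levelOne_weight_eight_rank_one (E₄.mul E₄)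
    (serreDerivativeForm E₆) hg (by norm_num) h1
  rw [coe_serreDerivativeForm] at h2
  have h3 : (((6 : ℤ) : ℂ)) = 6 := by norm_num
  rw [h3] at h2
  rw [h2]
  congr 1
  norm_num

local notation "Δ" => ModularForm.discriminant

theorem levelOne_weight_fourteen_rank_one : Module.rank ℂ (ModularForm 𝒮ℒ 14) = 1 := by
  have h := dimension_level_one 14 ⟨7, rfl⟩
  have h2 : (14 ≡ 2 [MOD 12]) := by decide
  rw [if_pos h2] at h
  norm_num at h
  exact h

theorem discriminant_slash_SL (γ : SL(2, ℤ)) : (Δ : ℍ → ℂ) ∣[(12 : ℤ)] γ = Δ := by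
  have hγ : (γ : GL (Fin 2) ℝ) ∈ 𝒮ℒ := ⟨γ, rfl⟩
  rw [SL_slash]
  exact SlashInvariantForm.slash_action_eqn CuspForm.discriminant _ hγ

theorem discriminant_mdifferentiable : MDiff (Δ : ℍ → ℂ) := CuspForm.discriminant.holo'

/-- R3: the Serre derivative of `Δ` vanishes, i.e. `D Δ = E₂ Δ`. -/
theorem serreDerivative_discriminant : serreDerivative 12 (Δ : ℍ → ℂ) = 0 := by
  have hlim : Tendsto (serreDerivative ((12 : ℤ) : ℂ) (Δ : ℍ → ℂ)) atImInfty
      (𝓝 (-(((12 : ℤ) : ℂ) * 12⁻¹ * 0))) :=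
    tendsto_serreDerivative_atImInfty _ discriminant_mdifferentiable discriminant_isZeroAtImInfty
  let f : ModularForm 𝒮ℒ ((12 : ℤ) + 2) :=
    levelOneOfInvariant ((12 : ℤ) + 2) (serreDerivative ((12 : ℤ) : ℂ) (Δ : ℍ → ℂ))
      (fun γ => serreDerivative_slash_invariant discriminant_mdifferentiable
        (discriminant_slash_SL γ))
      (serreDerivative_mdifferentiable _ discriminant_mdifferentiable)
      (hlim.isBigO_one ℝ)
  have hg : Tendsto ((E₄.mul E₄).mul E₆) atImInfty (𝓝 (1 * 1 * 1)) :=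
    (tendsto_E₄_atImInfty.mul tendsto_E₄_atImInfty).mul tendsto_E₆_atImInfty
  have h2 := levelOne_eq_smul_of_rank_one levelOne_weight_fourteen_rank_one ((E₄.mul E₄).mul E₆)
    f hg (by norm_num) hlim
  have h3 : (((12 : ℤ) : ℂ)) = 12 := by norm_num
  have h4 : (f : ℍ → ℂ) = serreDerivative ((12 : ℤ) : ℂ) (Δ : ℍ → ℂ) := rfl
  rw [h4, h3] at h2
  rw [h2]
  simp

theorem normalizedDeriv_discriminant (z : ℍ) : D (Δ : ℍ → ℂ) z = E2 z * Δ z := by
  have := congrFun serreDerivative_discriminant z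
  simp only [serreDerivative_apply, Pi.zero_apply] at this
  linear_combination this

theorem normalizedDeriv_E₄ (z : ℍ) : D (E₄ : ℍ → ℂ) z = (E2 z * E₄ z - E₆ z) / 3 := by
  have := congrFun serreDerivative_E₄ z
  simp only [serreDerivative_apply, Pi.smul_apply, smul_eq_mul] at this
  linear_combination this

theorem normalizedDeriv_E₆ (z : ℍ) : D (E₆ : ℍ → ℂ) z = (E2 z * E₆ z - E₄ z ^ 2) / 2 := by
  have := congrFun serreDerivative_E₆ z
  simp only [serreDerivative_apply, Pi.smul_apply, Pi.mul_apply, smul_eq_mul] at this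
  linear_combination this

theorem levelOne_apply_smul {k : ℤ} (f : ModularForm 𝒮ℒ k) (γ : SL(2, ℤ)) (z : ℍ) :
    f (γ • z) = denom γ z ^ k * f z := by
  have hγ : (γ : GL (Fin 2) ℝ) ∈ 𝒮ℒ := ⟨γ, rfl⟩
  have := SlashInvariantForm.slash_action_eqn'' f hγ z
  simpa using this

theorem S_smul_I : S • UpperHalfPlane.I = UpperHalfPlane.I :=
  stabilizer_I.mpr (by simp)

theorem ST_smul_ρ : (S * T) • ρ = ρ :=
  stabilizer_ρ.mpr (by simp)

theorem denom_S (z : ℍ) : denom S z = z := by
  simp [denom, S]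

theorem denom_ST (z : ℍ) : denom ((S * T : SL(2, ℤ)) : GL (Fin 2) ℝ) z = z + 1 := by
  rw [show S * T = ⟨!![0, -1; 1, 1], by simp⟩ by decide]
  simp [denom]

/-- `E₆` vanishes at `i`. -/
theorem E₆_I : E₆ UpperHalfPlane.I = 0 := by
  have h := levelOne_apply_smul E₆ S UpperHalfPlane.I
  rw [S_smul_I, denom_S] at h
  have h6 : ((UpperHalfPlane.I : ℍ) : ℂ) ^ (6 : ℤ) = -1 := by
    rw [UpperHalfPlane.coe_I]
    norm_cast
    rw [show (6 : ℕ) = 2 * 3 by norm_num, pow_mul, Complex.I_sq]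
    norm_num
  rw [h6] at h
  have : (2 : ℂ) * E₆ UpperHalfPlane.I = 0 := by linear_combination h
  simpa using this

/-- `E₄` vanishes at `ρ`. -/
theorem E₄_ρ : E₄ ρ = 0 := by
  have h := levelOne_apply_smul E₄ (S * T) ρ
  rw [ST_smul_ρ, denom_ST] at h
  have h4 : ((ρ : ℂ) + 1) ^ (4 : ℤ) = -ρ - 1 := by
    norm_cast
    have h2 := ρ_sq
    have : ((ρ : ℂ) + 1) ^ 2 = ρ := by linear_combination h2
    rw [show (4 : ℕ) = 2 * 2 by norm_num, pow_mul, this, h2]
  rw [h4] at h
  have hne : (ρ : ℂ) + 2 ≠ 0 := by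
    intro h0
    have := congrArg Complex.re h0
    simp [ρ] at this
    norm_num at this
  have : ((ρ : ℂ) + 2) * E₄ ρ = 0 := by linear_combination h
  rcases mul_eq_zero.mp this with h1 | h1
  · exact absurd h1 hne
  · exact h1

end Fermat.Agent.S24
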