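import Mathlib
import Fermat.Agent.S24.ADefs
import Fermat.Agent.S24.Ramanujan

set_option autoImplicit false

namespace Fermat.Agent.S24

open UpperHalfPlane hiding I
open Real Complex Filter Topology Function
open scoped Manifold MatrixGroups ModularForm
open Derivative EisensteinSeries ModularForm ModularGroup

local notation "Δ" => ModularForm.discriminant

theorem jFun_mul_discriminant (z : ℍ) : jFun z * Δ z = E₄ z ^ 3 := by
  rw [jFun, div_mul_cancel₀ _ (discriminant_ne_zero z)]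

/-- R4: the derivative of `j`. -/
theorem D_jFun (τ : ℍ) : D jFun τ = - E₄ τ ^ 2 * E₆ τ / ModularForm.discriminant τ := by
  have h4 : MDiff (E₄ : ℍ → ℂ) := ModularFormClass.holo E₄
  have hmul : jFun * (Δ : ℍ → ℂ) = (E₄ : ℍ → ℂ) ^ 3 := by
    funext w
    exact jFun_mul_discriminant w
  have h1 := normalizedDerivOfComplex_mul jFun (Δ : ℍ → ℂ) mdifferentiable_jFun
    discriminant_mdifferentiable
  have h2 := normalizedDerivOfComplex_pow (E₄ : ℍ → ℂ) 3 h4
  rw [hmul] at h1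
  have h2' : D ((E₄ : ℍ → ℂ) ^ 3) τ = 3 * E₄ τ ^ 2 * D (E₄ : ℍ → ℂ) τ := by
    rw [h2]
    simp
  have h3 := congrFun h1 τ
  rw [h2'] at h3
  simp only [Pi.mul_apply, Pi.add_apply, normalizedDeriv_discriminant,
    normalizedDeriv_E₄] at h3
  have hΔ := discriminant_ne_zero τ
  have hj := jFun_mul_discriminant τ
  rw [eq_div_iff hΔ]
  linear_combination (-1 : ℂ) * h3 - E2 τ * hj

theorem jFun_sub_1728 (τ : ℍ) : jFun τ - 1728 = E₆ τ ^ 2 / ModularForm.discriminant τ := by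
  have hΔ := discriminant_ne_zero τ
  have h := discriminant_eq_E₄_cube_sub_E₆_sq τ
  rw [jFun, eq_div_iff hΔ, sub_mul, div_mul_cancel₀ _ hΔ]
  linear_combination (-1728 : ℂ) * h

theorem jFun_smul (γ : SL(2, ℤ)) (τ : ℍ) : jFun (γ • τ) = jFun τ := by
  have h4 := levelOne_apply_smul E₄ γ τ
  have h12 : Δ (γ • τ) = denom γ τ ^ (12 : ℤ) * Δ τ := by
    have hγ : (γ : GL (Fin 2) ℝ) ∈ 𝒮ℒ := ⟨γ, rfl⟩
    have := SlashInvariantForm.slash_action_eqn'' CuspForm.discriminant hγ τ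
    simpa using this
  have hd : denom γ τ ≠ 0 := denom_ne_zero γ τ
  have hΔ := discriminant_ne_zero τ
  rw [jFun, jFun, h4, h12, mul_pow, ← zpow_natCast (denom γ τ ^ (4 : ℤ)) 3, ← zpow_mul]
  norm_num
  rw [mul_div_mul_left _ _ (pow_ne_zero 12 hd)]

theorem analyticAt_comp_ofComplex {F : ℍ → ℂ} (hF : MDiff F) (x : ℍ) :
    AnalyticAt ℂ (F ∘ ofComplex) (x : ℂ) := by
  rw [UpperHalfPlane.mdifferentiable_iff] at hF
  exact hF.analyticAt (isOpen_upperHalfPlaneSet.mem_nhds x.im_pos)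

theorem deriv_comp_ofComplex (F : ℍ → ℂ) (x : ℍ) :
    deriv (F ∘ ofComplex) (x : ℂ) = 2 * π * I * D F x := by
  have h2pi : (2 * (π : ℂ) * I) ≠ 0 := by
    simp [Real.pi_ne_zero]
  rw [normalizedDerivOfComplex, ← mul_assoc, mul_inv_cancel₀ h2pi, one_mul]

theorem analyticOrderAt_comp_ofComplex_eq_one {F : ℍ → ℂ} (hF : MDiff F) (x : ℍ)
    (h0 : F x = 0) (hD : D F x ≠ 0) : analyticOrderAt (F ∘ ofComplex) (x : ℂ) = 1 := by
  apply (analyticAt_comp_ofComplex hF x).analyticOrderAt_eq_one_of_zero_deriv_ne_zero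
  · simpa using h0
  · rw [deriv_comp_ofComplex]
    have h2pi : (2 * (π : ℂ) * I) ≠ 0 := by
      simp [Real.pi_ne_zero]
    exact mul_ne_zero h2pi hD

theorem analyticOrderAt_inv_discriminant (x : ℍ) :
    analyticOrderAt (fun z : ℂ => (Δ (ofComplex z))⁻¹) (x : ℂ) = 0 := by
  have h1 : AnalyticAt ℂ ((Δ : ℍ → ℂ) ∘ ofComplex) (x : ℂ) :=
    analyticAt_comp_ofComplex discriminant_mdifferentiable x
  have h2 : ((Δ : ℍ → ℂ) ∘ ofComplex) (x : ℂ) ≠ 0 := by
    simpa using discriminant_ne_zero x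
  have h3 : AnalyticAt ℂ (fun z : ℂ => (Δ (ofComplex z))⁻¹) (x : ℂ) := h1.inv h2
  rw [h3.analyticOrderAt_eq_zero]
  simpa using discriminant_ne_zero x

theorem E₆_ne_zero_of_E₄_eq_zero {x : ℍ} (h : E₄ x = 0) : E₆ x ≠ 0 := by
  intro h6
  have := discriminant_eq_E₄_cube_sub_E₆_sq x
  rw [h, h6] at this
  exact discriminant_ne_zero x (by rw [this]; norm_num)

theorem E₄_ne_zero_of_E₆_eq_zero {x : ℍ} (h : E₆ x = 0) : E₄ x ≠ 0 := by
  intro h4
  have := discriminant_eq_E₄_cube_sub_E₆_sq x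
  rw [h, h4] at this
  exact discriminant_ne_zero x (by rw [this]; norm_num)

theorem jFun_eq_zero_iff (x : ℍ) : jFun x = 0 ↔ E₄ x = 0 := by
  rw [jFun, div_eq_zero_iff]
  constructor
  · rintro (h | h)
    · exact pow_eq_zero_iff (by norm_num) |>.mp h
    · exact absurd h (discriminant_ne_zero x)
  · intro h; left; rw [h]; norm_num

theorem jFun_eq_1728_iff (x : ℍ) : jFun x = 1728 ↔ E₆ x = 0 := by
  rw [← sub_eq_zero, jFun_sub_1728, div_eq_zero_iff]
  constructor
  · rintro (h | h)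
    · exact pow_eq_zero_iff (by norm_num) |>.mp h
    · exact absurd h (discriminant_ne_zero x)
  · intro h; left; rw [h]; norm_num

theorem jFun_I : jFun UpperHalfPlane.I = 1728 := (jFun_eq_1728_iff _).mpr E₆_I

theorem jFun_ρ : jFun ρ = 0 := (jFun_eq_zero_iff _).mpr E₄_ρ

theorem analyticOrderAt_jFun_sub (x : ℍ) :
    analyticOrderAt (fun z : ℂ => jFun (ofComplex z) - jFun x) (x : ℂ) =
      if jFun x = 0 then 3 else if jFun x = 1728 then 2 else 1 := by
  have h4 : MDiff (E₄ : ℍ → ℂ) := ModularFormClass.holo E₄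
  have h6 : MDiff (E₆ : ℍ → ℂ) := ModularFormClass.holo E₆
  have hinv : AnalyticAt ℂ (fun z : ℂ => (Δ (ofComplex z))⁻¹) (x : ℂ) := by
    have h1 : AnalyticAt ℂ ((Δ : ℍ → ℂ) ∘ ofComplex) (x : ℂ) :=
      analyticAt_comp_ofComplex discriminant_mdifferentiable x
    have h2 : ((Δ : ℍ → ℂ) ∘ ofComplex) (x : ℂ) ≠ 0 := by
      simpa using discriminant_ne_zero x
    exact h1.inv h2
  by_cases hj0 : jFun x = 0
  · rw [if_pos hj0]
    have hE4 : E₄ x = 0 := (jFun_eq_zero_iff x).mp hj0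
    have hE6 : E₆ x ≠ 0 := E₆_ne_zero_of_E₄_eq_zero hE4
    have hD : D (E₄ : ℍ → ℂ) x ≠ 0 := by
      rw [normalizedDeriv_E₄, hE4]
      simpa using hE6
    have hord := analyticOrderAt_comp_ofComplex_eq_one h4 x hE4 hD
    have hfun : (fun z : ℂ => jFun (ofComplex z) - jFun x) =
        (((E₄ : ℍ → ℂ) ∘ ofComplex) ^ 3) * (fun z : ℂ => (Δ (ofComplex z))⁻¹) := by
      funext z
      rw [hj0, sub_zero]
      simp [jFun, div_eq_mul_inv]
    rw [hfun, analyticOrderAt_mul ((analyticAt_comp_ofComplex h4 x).pow 3) hinv,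
      analyticOrderAt_pow (analyticAt_comp_ofComplex h4 x), hord,
      analyticOrderAt_inv_discriminant]
    rfl
  · rw [if_neg hj0]
    by_cases hj1 : jFun x = 1728
    · rw [if_pos hj1]
      have hE6 : E₆ x = 0 := (jFun_eq_1728_iff x).mp hj1
      have hE4 : E₄ x ≠ 0 := E₄_ne_zero_of_E₆_eq_zero hE6
      have hD : D (E₆ : ℍ → ℂ) x ≠ 0 := by
        rw [normalizedDeriv_E₆, hE6]
        simpa using hE4
      have hord := analyticOrderAt_comp_ofComplex_eq_one h6 x hE6 hD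
      have hfun : (fun z : ℂ => jFun (ofComplex z) - jFun x) =
          (((E₆ : ℍ → ℂ) ∘ ofComplex) ^ 2) * (fun z : ℂ => (Δ (ofComplex z))⁻¹) := by
        funext z
        rw [hj1, jFun_sub_1728]
        simp [div_eq_mul_inv]
      rw [hfun, analyticOrderAt_mul ((analyticAt_comp_ofComplex h6 x).pow 2) hinv,
        analyticOrderAt_pow (analyticAt_comp_ofComplex h6 x), hord,
        analyticOrderAt_inv_discriminant]
      rfl
    · rw [if_neg hj1]
      have hE4 : E₄ x ≠ 0 := fun h => hj0 ((jFun_eq_zero_iff x).mpr h)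
      have hE6 : E₆ x ≠ 0 := fun h => hj1 ((jFun_eq_1728_iff x).mpr h)
      have hD : D jFun x ≠ 0 := by
        rw [D_jFun]
        exact div_ne_zero (mul_ne_zero (neg_ne_zero.mpr (pow_ne_zero 2 hE4)) hE6)
          (discriminant_ne_zero x)
      have han := analyticAt_comp_ofComplex mdifferentiable_jFun x
      have hder : deriv (jFun ∘ ofComplex) (x : ℂ) ≠ 0 := by
        rw [deriv_comp_ofComplex]
        have h2pi : (2 * (π : ℂ) * I) ≠ 0 := by
          simp [Real.pi_ne_zero]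
        exact mul_ne_zero h2pi hD
      have := han.analyticOrderAt_sub_eq_one_of_deriv_ne_zero hder
      simpa using this

end Fermat.Agent.S24
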