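import Mathlib
import Fermat.Agent.S24.ADefs
import Fermat.Agent.S24.CuspExpSpec
import Fermat.Agent.S24.JExpSpec
import Fermat.Agent.S24.JDeriv
import Fermat.Prelude.Def_ModularCurve_X0ModL

/-!
# S24 (A-side) : invariant functions are polynomials in `j`

A holomorphic function on `ℍ`, invariant under `SL(2, ℤ)`, with a `q`-expansion (finite pole
order at `i∞`) whose coefficients are algebraic numbers, is a polynomial in `j` with coefficients
in `Qbar`.
-/

set_option autoImplicit false

noncomputable section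

namespace Fermat.Agent.S24

open UpperHalfPlane ModularCurve
open scoped MatrixGroups Manifold ModularForm Real

/-- A holomorphic `SL(2, ℤ)`-invariant function which tends to `0` at `i∞` vanishes. -/
theorem inv_eq_zero_of_isZeroAtImInfty (f : ℍ → ℂ) (hf : MDiff f)
    (hinv : ∀ (γ : SL(2, ℤ)) (τ : ℍ), f (γ • τ) = f τ) (h0 : IsZeroAtImInfty f) : f = 0 := by
  have hslash : ∀ γ : SL(2, ℤ), f ∣[(0 : ℤ)] γ = f := by
    intro γ
    ext τ
    rw [ModularForm.SL_slash_apply, hinv]
    simp
  have hbdd : IsBoundedAtImInfty f := h0.boundedAtFilter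
  obtain ⟨c, hc⟩ := ModularFormClass.levelOne_weight_zero_const
    (levelOneOfInvariant 0 f hslash hf hbdd)
  rw [coe_levelOneOfInvariant] at hc
  have h1 : Filter.Tendsto f atImInfty (nhds c) := by
    rw [hc]; exact tendsto_const_nhds
  have h2 : c = 0 := tendsto_nhds_unique h1 h0
  rw [hc, h2]
  rfl

theorem HasCuspExp.pow' {f : ℍ → ℂ} {S : LaurentSeries ℂ} (hS : HasCuspExp 1 f S) (n : ℕ) :
    HasCuspExp 1 (f ^ n) (S ^ n) := by
  induction n with
  | zero =>
    have := HasCuspExp.const (h := 1) (1 : ℂ)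
    rw [map_one] at this
    rw [pow_zero, pow_zero]
    exact this
  | succ n ih =>
    rw [pow_succ, pow_succ]
    exact ih.mul hS

theorem coeffMap_iotaBar_coeffEmb_jq :
    coeffMap iotaBar (coeffEmb QBar jq) = jqModC ℂ := by
  rw [coeffEmb, ← jqModC_rat, coeffMap_jqModC, coeffMap_jqModC]

theorem coeffMap_iotaBar_injective : Function.Injective (coeffMap iotaBar) := by
  intro x y hxy
  ext k
  have := congrArg (fun z => z.coeff k) hxy
  simp only [coeffMap_coeff] at this
  exact iotaBar_injective this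

theorem jHol_smul (γ : SL(2, ℤ)) : γ • jHol = jHol := by
  apply Subtype.ext
  funext τ
  rw [HolRing.smul_apply]
  exact jFun_smul γ⁻¹ τ

theorem HolRing.C_smul (γ : SL(2, ℤ)) (a : ℂ) : γ • HolRing.C a = HolRing.C a := by
  apply Subtype.ext
  funext τ
  rfl

theorem coeff_coeffEmb_jq_pow_self (n : ℕ) :
    ((coeffEmb QBar jq) ^ n).coeff (-(n : ℤ)) = 1 := by
  rw [← map_pow, coeffEmb_coeff, coeff_jq_pow_self, map_one]

theorem coeff_coeffEmb_jq_pow_of_lt {n : ℕ} {m : ℤ} (hm : m < -(n : ℤ)) :
    ((coeffEmb QBar jq) ^ n).coeff m = 0 := by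
  rw [← map_pow, coeffEmb_coeff, coeff_jq_pow_of_lt hm, map_zero]

theorem exists_poly_of_invariant_aux (n : ℕ) : ∀ (h : HolRing)
    (_ : ∀ γ : SL(2, ℤ), γ • h = h) (S : LaurentSeries QBar)
    (_ : HasCuspExp 1 (h : ℍ → ℂ) (coeffMap iotaBar S))
    (_ : ∀ m : ℤ, m < -(n : ℤ) → S.coeff m = 0),
    ∃ P : Polynomial QBar, S = Polynomial.aeval (coeffEmb QBar jq) P := by
  induction n with
  | zero =>
    intro h hinv S hS hn
    set c : QBar := S.coeff 0 with hc
    set S' : LaurentSeries QBar := S - HahnSeries.C c with hS'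
    have hS'coeff : ∀ m : ℤ, m ≤ 0 → S'.coeff m = 0 := by
      intro m hm
      rcases hm.lt_or_eq with hlt | rfl
      · have h1 : S.coeff m = 0 := hn m (by simpa using hlt)
        simp [hS', h1, HahnSeries.C_apply, HahnSeries.coeff_single_of_ne hlt.ne]
      · simp [hS', hc, HahnSeries.C_apply]
    set g : ℍ → ℂ := (h : ℍ → ℂ) + -(fun _ => iotaBar c) with hg
    have hexp : HasCuspExp 1 g (coeffMap iotaBar S') := by
      have h1 := HasCuspExp.const (h := 1) (iotaBar c)
      have h2 := hS.add h1.neg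
      have h3 : coeffMap iotaBar S' = coeffMap iotaBar S + -HahnSeries.C (iotaBar c) := by
        rw [hS', map_sub, sub_eq_add_neg, HahnSeries.C_apply, coeffMap_single, HahnSeries.C_apply]
      rw [h3]
      exact h2
    have hzero := hexp.isZeroAtImInfty (fun m hm => by
      rw [coeffMap_coeff, hS'coeff m hm, map_zero])
    have hmd : MDiff g :=
      h.2.add (mdifferentiable_const).neg
    have hinv' : ∀ (γ : SL(2, ℤ)) (τ : ℍ), g (γ • τ) = g τ := by
      intro γ τ
      have := congrArg (fun g : HolRing => (g : ℍ → ℂ) τ) (hinv γ⁻¹)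
      simp only [HolRing.inv_smul_apply] at this
      show (h : ℍ → ℂ) (γ • τ) + -(iotaBar c) = (h : ℍ → ℂ) τ + -(iotaBar c)
      rw [this]
    have hf0 := inv_eq_zero_of_isZeroAtImInfty _ hmd hinv' hzero
    rw [hf0] at hexp
    have h0exp : HasCuspExp 1 (0 : ℍ → ℂ) (0 : LaurentSeries ℂ) := by
      have := HasCuspExp.const (h := 1) (0 : ℂ)
      rw [map_zero] at this
      exact this
    have hS'0 : S' = 0 := by
      apply coeffMap_iotaBar_injective
      rw [map_zero]
      exact hexp.unique h0exp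
    refine ⟨Polynomial.C c, ?_⟩
    rw [Polynomial.aeval_C, algebraMap_laurentSeries_eq_single]
    have : S = HahnSeries.C c := by
      rw [hS', sub_eq_zero] at hS'0
      exact hS'0
    rw [this, HahnSeries.C_apply]
  | succ n ih =>
    intro h hinv S hS hn
    set c : QBar := S.coeff (-((n + 1 : ℕ) : ℤ)) with hc
    set J : LaurentSeries QBar := coeffEmb QBar jq with hJ
    set S' : LaurentSeries QBar := S - HahnSeries.C c * J ^ (n + 1) with hS'
    set h' : HolRing := h - HolRing.C (iotaBar c) * jHol ^ (n + 1) with hh'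
    have hinv' : ∀ γ : SL(2, ℤ), γ • h' = h' := by
      intro γ
      rw [hh', smul_sub, smul_mul', smul_pow', hinv γ, jHol_smul, HolRing.C_smul]
    have hcoeff : ∀ m : ℤ, (HahnSeries.C c * J ^ (n + 1)).coeff m = c * (J ^ (n + 1)).coeff m := by
      intro m
      rw [HahnSeries.C_mul_eq_smul, HahnSeries.coeff_smul, smul_eq_mul]
    have hS'coeff : ∀ m : ℤ, m < -(n : ℤ) → S'.coeff m = 0 := by
      intro m hm
      have hm' : m ≤ -((n + 1 : ℕ) : ℤ) := by push_cast; omega
      rcases hm'.lt_or_eq with hlt | rfl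
      · rw [hS', HahnSeries.coeff_sub, hcoeff, hn m hlt, coeff_coeffEmb_jq_pow_of_lt hlt]
        simp
      · rw [hS', HahnSeries.coeff_sub, hcoeff, coeff_coeffEmb_jq_pow_self]
        simp [hc]
    have hexp : HasCuspExp 1 (h' : ℍ → ℂ) (coeffMap iotaBar S') := by
      have h1 := HasCuspExp.const (h := 1) (iotaBar c)
      have h2 := (hasCuspExp_jFun.pow' (n + 1))
      have h3 := hS.add (h1.mul h2).neg
      have h4 : coeffMap iotaBar S' =
          coeffMap iotaBar S + -(HahnSeries.C (iotaBar c) * jqModC ℂ ^ (n + 1)) := by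
        rw [hS', map_sub, map_mul, map_pow, hJ, coeffMap_iotaBar_coeffEmb_jq, sub_eq_add_neg,
          HahnSeries.C_apply, coeffMap_single, HahnSeries.C_apply]
      rw [h4]
      exact h3
    obtain ⟨P', hP'⟩ := ih h' hinv' S' hexp hS'coeff
    refine ⟨P' + Polynomial.C c * Polynomial.X ^ (n + 1), ?_⟩
    rw [map_add, map_mul, map_pow, Polynomial.aeval_X, Polynomial.aeval_C, ← hP',
      algebraMap_laurentSeries_eq_single, hS', ← HahnSeries.C_apply]
    ring

theorem exists_poly_of_invariant (h : HolRing) (hinv : ∀ γ : SL(2, ℤ), γ • h = h)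
    (S : LaurentSeries QBar)
    (hS : HasCuspExp 1 (h : ℍ → ℂ) (coeffMap iotaBar S)) :
    ∃ P : Polynomial QBar, S = Polynomial.aeval (coeffEmb QBar jq) P := by
  apply exists_poly_of_invariant_aux (-S.order).toNat h hinv S hS
  intro m hm
  apply HahnSeries.coeff_eq_zero_of_lt_order
  have := Int.self_le_toNat (-S.order)
  omega

end Fermat.Agent.S24
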