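import Mathlib
import Fermat.Agent.S24.BridgeSpec
import Fermat.Agent.S24.CuspExpSpec
import Fermat.Agent.S24.JExpSpec
import Fermat.Agent.S24.JDeriv
import Fermat.Prelude.Def_ModularCurve_X0ModL

/-!
# S24 (A-side) : the conjugates `f ∘ γ` and their expansions at `i∞`

Proofs of the statements of `ConjSpec.lean` (helper11's spec), same names and statements.
-/

set_option autoImplicit false
set_option linter.unusedSectionVars false

noncomputable section

namespace Fermat.Agent.S24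

open UpperHalfPlane ModularCurve
open scoped MatrixGroups Manifold ModularForm Real

variable (N : ℕ) [NeZero N]

/-! ### Preliminaries on series with algebraic coefficients -/

/-- Roots of unity lie in the image of `iotaBar`. -/
theorem conj_mem_range_iotaBar_of_pow_eq_one {z : ℂ} {n : ℕ} (hn : n ≠ 0) (hz : z ^ n = 1) :
    z ∈ iotaBar.range := by
  have hf : ((Polynomial.X : Polynomial QBar) ^ n - Polynomial.C 1).Splits := IsAlgClosed.splits _
  have hf0 : ((Polynomial.X : Polynomial QBar) ^ n - Polynomial.C 1) ≠ 0 :=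
    Polynomial.X_pow_sub_C_ne_zero (Nat.pos_of_ne_zero hn) 1
  refine hf.mem_range_of_isRoot hf0 ?_
  simp [Polynomial.IsRoot, hz]

/-- `coeffMap iotaBar` is injective. -/
theorem conj_coeffMap_iotaBar_injective :
    Function.Injective (coeffMap iotaBar : LaurentSeries QBar → LaurentSeries ℂ) := by
  intro S T h
  ext m
  have := congrArg (fun U : LaurentSeries ℂ => U.coeff m) h
  simp only [coeffMap_coeff] at this
  exact iotaBar_injective this

/-- A Laurent series over `ℂ` all of whose coefficients are algebraic numbers comes from a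
Laurent series over `QBar`. -/
theorem conj_exists_coeffMap_eq (T : LaurentSeries ℂ) (hT : ∀ m : ℤ, T.coeff m ∈ iotaBar.range) :
    ∃ S : LaurentSeries QBar, coeffMap iotaBar S = T := by
  choose c hc using hT
  have hsupp : Function.support c ⊆ T.support := by
    intro m hm
    rw [Function.mem_support] at hm
    rw [HahnSeries.mem_support]
    intro h0
    apply hm
    apply iotaBar_injective
    rw [hc m, h0, map_zero]
  refine ⟨⟨c, T.isPWO_support.mono hsupp⟩, ?_⟩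
  ext m
  rw [coeffMap_coeff]
  exact hc m

/-! ### Invariance of `j` and the Hermite normal form -/

/-- `jFun` is invariant under `SL(2, ℤ)`. -/
theorem smul_jHol (γ : SL(2, ℤ)) : γ • jHol = jHol := by
  apply Subtype.ext
  funext τ
  rw [HolRing.smul_apply]
  exact jFun_smul γ⁻¹ τ

/-- Hermite normal form of `diag(d,1) γ`, with the extra information `a < d` when `d ∤ c`. -/
theorem conj_hermite_aux (d : ℕ) (hd : d ≠ 0) (γ : SL(2, ℤ)) :
    ∃ (a d' : ℕ) (b : ℤ), a ≠ 0 ∧ d' ≠ 0 ∧ a * d' = d ∧ (¬ (d : ℤ) ∣ γ 1 0 → a < d) ∧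
      ∀ τ : ℍ, jFun ((Fermat.Agent.S23.utGL d 0 1 * Matrix.SpecialLinearGroup.mapGL ℝ γ) • τ) =
        jFun (Fermat.Agent.S23.utGL a b d' • τ) := by
  by_cases hdiv : (d : ℤ) ∣ γ 1 0
  · obtain ⟨c', hc'⟩ := hdiv
    refine ⟨d, 1, 0, hd, one_ne_zero, mul_one d, fun h => absurd ⟨c', hc'⟩ h, fun τ => ?_⟩
    rw [Fermat.Agent.S23.utGL_mul_mapGL d hd γ c' hc', mul_smul]
    exact jFun_smul _ _
  · obtain ⟨a, d', b', β, ha, hd', had, hlt, hdecomp⟩ :=
      Fermat.Agent.S23.unstab_exists_hermite_decomp d hd γ hdiv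
    refine ⟨a, d', b', ha, hd', had, fun _ => hlt, fun τ => ?_⟩
    rw [hdecomp, mul_smul]
    exact jFun_smul _ _

theorem conj_smul_jdHol_apply (d : ℕ) [NeZero d] (g : SL(2, ℤ)) (τ : ℍ) :
    ((g • jdHol d : HolRing) : ℍ → ℂ) τ =
      jFun ((Fermat.Agent.S23.utGL d 0 1 * Matrix.SpecialLinearGroup.mapGL ℝ g⁻¹) • τ) := by
  rw [HolRing.smul_apply, jdHol_apply, mul_smul]
  rfl

/-- Hermite normal form: `j(d · g⁻¹τ) = j((aτ + b)/d')` with `a d' = d`. -/
theorem exists_hermite_jdHol (d : ℕ) [NeZero d] (g : SL(2, ℤ)) :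
    ∃ (a d' : ℕ) (b : ℤ), a ≠ 0 ∧ d' ≠ 0 ∧ a * d' = d ∧
      ∀ τ : ℍ, ((g • jdHol d : HolRing) : ℍ → ℂ) τ = jFun (Fermat.Agent.S23.utGL a b d' • τ) := by
  obtain ⟨a, d', b, ha, hd', had, -, h⟩ := conj_hermite_aux d (NeZero.ne d) g⁻¹
  exact ⟨a, d', b, ha, hd', had, fun τ => by rw [conj_smul_jdHol_apply, h]⟩

/-! ### Expansions of `j((aτ+b)/d')` -/

theorem conj_hasCuspExp_affine {a d' : ℕ} (ha : a ≠ 0) (hd' : d' ≠ 0) (b : ℤ) :
    ∃ ζ : ℂˣ, (ζ : ℂ) ^ d' = 1 ∧
      haveI : NeZero a := ⟨ha⟩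
      HasCuspExp d' (fun τ => jFun (Fermat.Agent.S23.utGL a b d' • τ))
        (qExpand ℂ a (rotLaurent ζ (jqModC ℂ))) := by
  refine ⟨Units.mk0 (Complex.exp (2 * π * Complex.I * b / d')) (Complex.exp_ne_zero _), ?_, ?_⟩
  · rw [Units.val_mk0, ← Complex.exp_nat_mul]
    have hd'c : (d' : ℂ) ≠ 0 := by exact_mod_cast hd'
    have : (d' : ℂ) * (2 * π * Complex.I * b / d') = b * (2 * π * Complex.I) := by
      field_simp
    rw [this, Complex.exp_int_mul_two_pi_mul_I]
  · exact HasCuspExp.comp_affine ha hd' b _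
      (fun τ => Fermat.Agent.S23.coe_utGL_smul ha hd' b τ) hasCuspExp_jFun _ rfl

theorem conj_affine_series_mem (a : ℕ) [NeZero a] {n : ℕ} (hn : n ≠ 0) (ζ : ℂˣ)
    (hζ : (ζ : ℂ) ^ n = 1) :
    ∃ S : LaurentSeries QBar, coeffMap iotaBar S = qExpand ℂ a (rotLaurent ζ (jqModC ℂ)) := by
  obtain ⟨S₀, hS₀⟩ : ∃ S₀ : LaurentSeries QBar, coeffMap iotaBar S₀ = rotLaurent ζ (jqModC ℂ) := by
    apply conj_exists_coeffMap_eq
    intro m
    rw [rotLaurent_coeff]
    obtain ⟨c, hc⟩ := conj_mem_range_iotaBar_of_pow_eq_one hn hζ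
    refine Subring.mul_mem _ ⟨c ^ m, ?_⟩ ⟨(jqModC QBar).coeff m, ?_⟩
    · rw [map_zpow₀, hc]
    · rw [← coeffMap_jqModC iotaBar, coeffMap_coeff]
  exact ⟨qExpand QBar a S₀, by rw [coeffMap_qExpand, hS₀]⟩

/-! ### The stabiliser of `j(Nτ)` -/

/-- The stabiliser of `τ ↦ j(Nτ)` in `SL(2, ℤ)` is `Γ₀(N)`. -/
theorem mem_Gamma0_of_smul_jdHol (γ : SL(2, ℤ)) (h : γ • jdHol N = jdHol N) :
    γ ∈ CongruenceSubgroup.Gamma0 N := by
  have hN : N ≠ 0 := NeZero.ne N
  rw [CongruenceSubgroup.Gamma0_mem, ZMod.intCast_zmod_eq_zero_iff_dvd]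
  by_contra hdiv
  have h' : γ⁻¹ • jdHol N = jdHol N := by rw [inv_smul_eq_iff, h]
  obtain ⟨a, d', b, ha, hd', had, hlt, hτ⟩ := conj_hermite_aux N hN γ
  have halt : a < N := hlt hdiv
  obtain ⟨ζ, hζ, hexp⟩ := conj_hasCuspExp_affine ha hd' b
  haveI : NeZero a := ⟨ha⟩
  haveI : NeZero d' := ⟨hd'⟩
  have hfun : (fun τ => jFun (Fermat.Agent.S23.utGL a b d' • τ)) = (jdHol N : ℍ → ℂ) := by
    funext τ
    rw [← hτ]
    conv_rhs => rw [← h']
    rw [conj_smul_jdHol_apply, inv_inv]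
  rw [hfun] at hexp
  have h2 : HasCuspExp (1 * d') (jdHol N : ℍ → ℂ) (qExpand ℂ d' (qExpand ℂ N (jqModC ℂ))) :=
    (hasCuspExp_jdHol N).qExpand d'
  rw [one_mul] at h2
  have heq := hexp.unique h2
  have hd'2 : 2 ≤ d' := by
    by_contra hlt2
    have : d' = 1 := by omega
    rw [this, mul_one] at had
    omega
  have hc := congrArg (fun U : LaurentSeries ℂ => U.coeff ((a : ℤ) * (-((d' : ℤ) * d')))) heq
  beta_reduce at hc
  rw [qExpand_coeff_mul, rotLaurent_coeff, coeff_jqModC_of_lt, mul_zero] at hc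
  · have hidx : (a : ℤ) * (-((d' : ℤ) * d')) = (d' : ℤ) * ((N : ℤ) * (-1)) := by
      rw [← had]; push_cast; ring
    rw [hidx, qExpand_coeff_mul, qExpand_coeff_mul, coeff_jqModC_neg_one] at hc
    exact zero_ne_one hc
  · have : (2 : ℤ) ≤ d' := by exact_mod_cast hd'2
    nlinarith

/-! ### Expansions of the conjugates -/

/-- The conjugates of `j(dτ)`, `d ∣ N`, have expansions in `exp(2πiτ/N)` with algebraic
coefficients. -/
theorem conj_exists_exp_jdHol (g : SL(2, ℤ)) (d : ℕ) [NeZero d] (hd : d ∣ N) :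
    ∃ S : LaurentSeries QBar,
      HasCuspExp N ((g • jdHol d : HolRing) : ℍ → ℂ) (coeffMap iotaBar S) := by
  obtain ⟨a, d', b, ha, hd', had, hτ⟩ := exists_hermite_jdHol d g
  obtain ⟨ζ, hζ, hexp⟩ := conj_hasCuspExp_affine ha hd' b
  haveI : NeZero a := ⟨ha⟩
  haveI : NeZero d' := ⟨hd'⟩
  obtain ⟨k, hk⟩ : d' ∣ N := Dvd.dvd.trans ⟨a, by rw [← had, mul_comm]⟩ hd
  have hk0 : k ≠ 0 := by
    rintro rfl
    exact NeZero.ne N (by rw [hk, mul_zero])
  haveI : NeZero k := ⟨hk0⟩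
  obtain ⟨S₀, hS₀⟩ := conj_affine_series_mem a hd' ζ hζ
  refine ⟨qExpand QBar k S₀, ?_⟩
  have hfun : (fun τ => jFun (Fermat.Agent.S23.utGL a b d' • τ)) =
      ((g • jdHol d : HolRing) : ℍ → ℂ) := by
    funext τ
    rw [hτ]
  rw [hfun] at hexp
  have h2 := hexp.qExpand k
  rw [← hk] at h2
  rw [coeffMap_qExpand, hS₀]
  exact h2

/-- Every conjugate `g • toHol x` has an expansion in `exp(2πiτ/N)` with algebraic coefficients. -/
theorem conj_exists_exp (g : SL(2, ℤ)) (x : RBar N) :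
    ∃ S : LaurentSeries QBar,
      HasCuspExp N ((g • toHol N x : HolRing) : ℍ → ℂ) (coeffMap iotaBar S) := by
  obtain ⟨x, hx⟩ := x
  change x ∈ Algebra.adjoin QBar (jdSet N) at hx
  induction hx using Algebra.adjoin_induction with
  | mem y hy =>
    obtain ⟨d, hd0, hd, rfl⟩ := hy
    have h1 : toHol N ⟨jdBar N d hd, Algebra.subset_adjoin ⟨d, hd0, hd, rfl⟩⟩ = jdHol d :=
      toHol_jdBar N d hd
    rw [h1]
    exact conj_exists_exp_jdHol N g d hd
  | algebraMap c =>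
    refine ⟨HahnSeries.C c, ?_⟩
    have h1 : toHol N ⟨algebraMap QBar (modularFunctionFieldBar N) c,
        Subalgebra.algebraMap_mem _ c⟩ = HolRing.C (iotaBar c) := toHol_algebraMap N c
    rw [h1]
    have h2 : ((g • HolRing.C (iotaBar c) : HolRing) : ℍ → ℂ) = fun _ => iotaBar c := rfl
    rw [h2]
    have h3 : coeffMap iotaBar (HahnSeries.C c) = HahnSeries.C (iotaBar c) :=
      coeffMap_single iotaBar 0 c
    rw [h3]
    exact HasCuspExp.const _
  | add y z hy hz ihy ihz =>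
    obtain ⟨S, hS⟩ := ihy
    obtain ⟨T, hT⟩ := ihz
    refine ⟨S + T, ?_⟩
    have h1 : (⟨y + z, Subalgebra.add_mem _ hy hz⟩ : RBar N) = ⟨y, hy⟩ + ⟨z, hz⟩ := rfl
    rw [h1, map_add, smul_add, map_add]
    exact hS.add hT
  | mul y z hy hz ihy ihz =>
    obtain ⟨S, hS⟩ := ihy
    obtain ⟨T, hT⟩ := ihz
    refine ⟨S * T, ?_⟩
    have h1 : (⟨y * z, Subalgebra.mul_mem _ hy hz⟩ : RBar N) = ⟨y, hy⟩ * ⟨z, hz⟩ := rfl
    rw [h1, map_mul, smul_mul', map_mul]
    exact hS.mul hT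

/-- Expansions at `i∞` of the conjugates, as an injective ring hom into `Qbar((s))`,
`s = exp(2πiτ/N)`. -/
theorem exists_cuspHom (g : SL(2, ℤ)) : ∃ φ : RBar N →+* LaurentSeries QBar,
    ∀ x : RBar N, HasCuspExp N ((g • toHol N x : HolRing) : ℍ → ℂ) (coeffMap iotaBar (φ x)) := by
  choose φ hφ using conj_exists_exp N g
  have huniq : ∀ (x : RBar N) (S : LaurentSeries QBar),
      HasCuspExp N ((g • toHol N x : HolRing) : ℍ → ℂ) (coeffMap iotaBar S) → φ x = S :=
    fun x S hS => conj_coeffMap_iotaBar_injective ((hφ x).unique hS)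
  refine ⟨{ toFun := φ, map_one' := ?_, map_mul' := ?_, map_zero' := ?_, map_add' := ?_ }, hφ⟩
  · apply huniq
    rw [map_one, smul_one, map_one, ← HahnSeries.C_one]
    exact HasCuspExp.const 1
  · intro x y
    apply huniq
    rw [map_mul, smul_mul', map_mul]
    exact (hφ x).mul (hφ y)
  · apply huniq
    rw [map_zero, smul_zero, map_zero, ← HahnSeries.C_zero]
    exact HasCuspExp.const 0
  · intro x y
    apply huniq
    rw [map_add, smul_add, map_add]
    exact (hφ x).add (hφ y)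

/-- Expansion at `i∞` of `f ∘ g⁻¹`. -/
def cuspHom (g : SL(2, ℤ)) : RBar N →+* LaurentSeries QBar := (exists_cuspHom N g).choose

theorem hasCuspExp_cuspHom (g : SL(2, ℤ)) (x : RBar N) :
    HasCuspExp N ((g • toHol N x : HolRing) : ℍ → ℂ) (coeffMap iotaBar (cuspHom N g x)) :=
  (exists_cuspHom N g).choose_spec x

/-- Uniqueness: any expansion of `g • toHol x` with algebraic coefficients is `cuspHom N g x`. -/
theorem conj_cuspHom_eq (g : SL(2, ℤ)) (x : RBar N) (S : LaurentSeries QBar)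
    (hS : HasCuspExp N ((g • toHol N x : HolRing) : ℍ → ℂ) (coeffMap iotaBar S)) :
    cuspHom N g x = S :=
  conj_coeffMap_iotaBar_injective ((hasCuspExp_cuspHom N g x).unique hS)

theorem cuspHom_injective (g : SL(2, ℤ)) : Function.Injective (cuspHom N g) := by
  rw [injective_iff_map_eq_zero]
  intro x hx
  have h1 := hasCuspExp_cuspHom N g x
  rw [hx, map_zero, ← HahnSeries.C_zero] at h1
  have h2 : ((g • toHol N x : HolRing) : ℍ → ℂ) = fun _ => (0 : ℂ) :=
    h1.eq_of_eq (HasCuspExp.const 0)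
  have h3 : g • toHol N x = 0 := Subtype.ext h2
  have h4 : toHol N x = 0 := by
    have := congrArg (fun f => g⁻¹ • f) h3
    simpa using this
  exact (map_eq_zero_iff (toHol N) (toHol_injective N)).mp h4

theorem cuspHom_algebraMap (g : SL(2, ℤ)) (c : QBar) :
    cuspHom N g (algebraMap QBar (RBar N) c) = HahnSeries.C c := by
  apply conj_cuspHom_eq
  rw [toHol_algebraMap]
  have h2 : ((g • HolRing.C (iotaBar c) : HolRing) : ℍ → ℂ) = fun _ => iotaBar c := rfl
  rw [h2]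
  have h3 : coeffMap iotaBar (HahnSeries.C c) = HahnSeries.C (iotaBar c) :=
    coeffMap_single iotaBar 0 c
  rw [h3]
  exact HasCuspExp.const _

theorem cuspHom_jBar (g : SL(2, ℤ)) :
    cuspHom N g ⟨jBar N, jBar_mem_RBar N⟩ = qExpand QBar N (coeffEmb QBar jq) := by
  apply conj_cuspHom_eq
  rw [toHol_jBar, smul_jHol, coeffMap_qExpand]
  have h1 : coeffMap iotaBar (coeffEmb QBar jq) = jqModC ℂ := by
    rw [← jqModC_rat]
    show coeffMap iotaBar (coeffMap (algebraMap ℚ QBar) (jqModC ℚ)) = jqModC ℂ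
    rw [coeffMap_jqModC, coeffMap_jqModC]
  rw [h1]
  have h2 := hasCuspExp_jFun.qExpand N
  rw [one_mul] at h2
  exact h2

/-- `cuspHom` depends only on the left coset `g Γ₀(N)`. -/
theorem cuspHom_mul_of_mem_Gamma0 (g γ : SL(2, ℤ)) (hγ : γ ∈ CongruenceSubgroup.Gamma0 N) :
    cuspHom N (g * γ) = cuspHom N g := by
  ext1 x
  apply conj_cuspHom_eq
  rw [mul_smul, smul_toHol_of_mem_Gamma0 N γ hγ x]
  exact hasCuspExp_cuspHom N g x

/-- Distinct cosets give distinct expansions. -/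
theorem mem_Gamma0_of_cuspHom_eq (g g' : SL(2, ℤ)) (h : cuspHom N g = cuspHom N g') :
    g⁻¹ * g' ∈ CongruenceSubgroup.Gamma0 N := by
  apply mem_Gamma0_of_smul_jdHol
  have h1 := hasCuspExp_cuspHom N g ⟨jdBar N N dvd_rfl, jdBar_mem_RBar N N dvd_rfl⟩
  have h2 := hasCuspExp_cuspHom N g' ⟨jdBar N N dvd_rfl, jdBar_mem_RBar N N dvd_rfl⟩
  rw [h, toHol_jdBar] at h1
  rw [toHol_jdBar] at h2
  have h3 : g • jdHol N = g' • jdHol N := Subtype.ext (h1.eq_of_eq h2)
  rw [mul_smul, ← h3, inv_smul_smul]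

/-- Left multiplication by `T⁻¹` rotates the expansion by `exp(2πi/N)`. -/
theorem cuspHom_T_inv_mul (g : SL(2, ℤ)) (x : RBar N) (ζ : ℂˣ)
    (hζ : (ζ : ℂ) = Complex.exp (2 * π * Complex.I / N)) :
    coeffMap iotaBar (cuspHom N (ModularGroup.T⁻¹ * g) x) =
      rotLaurent ζ (coeffMap iotaBar (cuspHom N g x)) := by
  have h1 := hasCuspExp_cuspHom N (ModularGroup.T⁻¹ * g) x
  have h2 := (hasCuspExp_cuspHom N g x).comp_T ζ hζ
  refine h1.unique ?_
  have hfun : (((ModularGroup.T⁻¹ * g) • toHol N x : HolRing) : ℍ → ℂ) =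
      fun τ => ((g • toHol N x : HolRing) : ℍ → ℂ) (ModularGroup.T • τ) := by
    funext τ
    rw [mul_smul, HolRing.inv_smul_apply]
  rw [hfun]
  exact h2

end Fermat.Agent.S24
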