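import Mathlib
import Fermat.Agent.S24.ADefs
import Fermat.Agent.S23.UNStab
import Fermat.Agent.S24.CuspExpSpec
import Fermat.Agent.S24.JExpSpec
import Fermat.Prelude.Thm_ModularCurve_coeffMap_qExpand

/-!
# S24 (A-side) : the bridge between the formal field and functions on `ℍ`

`RBar N` : the `Qbar`-subalgebra of the Prelude field `modularFunctionFieldBar N ⊂ Qbar((q))`
generated by the `j(q^d)`, `d ∣ N`.  Its fraction field is the whole field.
`toHol N : RBar N →+* HolRing` : the unique ring hom such that `toHol x` has the `q`-expansion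
`coeffMap iotaBar x` (so `j(q^d) ↦ (τ ↦ jFun (d τ))`, constants `c ↦ iotaBar c`).

Names, definitions and statements are exactly those of `BridgeSpec.lean` (helper11).
Black boxes: `CuspExpSpec` (algebra of `HasCuspExp`), `JExpSpec` (`hasCuspExp_jFun`).
-/

set_option autoImplicit false
set_option linter.unusedSectionVars false

noncomputable section

namespace Fermat.Agent.S24

open UpperHalfPlane ModularCurve
open scoped MatrixGroups Manifold ModularForm Real

/-! ### Auxiliary lemmas (prefixed `bridge_`) -/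

/-- `j` is invariant under `SL(2, ℤ)`. -/
theorem bridge_jFun_smul (γ : SL(2, ℤ)) (τ : ℍ) : jFun (γ • τ) = jFun τ := by
  have hγ : (γ : GL (Fin 2) ℝ) ∈ (𝒮ℒ : Subgroup (GL (Fin 2) ℝ)) := ⟨γ, rfl⟩
  have h4 : ModularForm.E₄ (γ • τ) = denom γ τ ^ (4 : ℤ) * ModularForm.E₄ τ := by
    have := SlashInvariantForm.slash_action_eqn'' ModularForm.E₄ hγ τ
    simpa using this
  have h12 : ModularForm.discriminant (γ • τ) = denom γ τ ^ (12 : ℤ) * ModularForm.discriminant τ := by
    have := SlashInvariantForm.slash_action_eqn'' CuspForm.discriminant hγ τ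
    simpa using this
  have hd : denom γ τ ≠ 0 := denom_ne_zero γ τ
  have hΔ := ModularForm.discriminant_ne_zero τ
  rw [jFun, jFun, h4, h12, mul_pow, ← zpow_natCast (denom γ τ ^ (4 : ℤ)) 3, ← zpow_mul]
  norm_num
  rw [mul_div_mul_left _ _ (pow_ne_zero 12 hd)]

/-- The rotation by `1` is the identity. -/
theorem bridge_rotLaurent_one (S : LaurentSeries ℂ) : rotLaurent 1 S = S := by
  ext m
  rw [rotLaurent_coeff]
  simp

/-- `coeffMap` is `HahnSeries.map`. -/
theorem bridge_coeffMap_eq_map {R S : Type*} [CommRing R] [CommRing S] (f : R →+* S)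
    (x : LaurentSeries R) : coeffMap f x = x.map f := rfl

/-- Base change of `j(q^d)` along `ℚ → Qbar → ℂ`. -/
theorem bridge_coeffMap_iotaBar_coeffEmb_qExpand (d : ℕ) [NeZero d] :
    coeffMap iotaBar (coeffEmb QBar (qExpand ℚ d jq)) = qExpand ℂ d (jqModC ℂ) := by
  rw [coeffEmb, coeffMap_coeffMap, ModularCurve.coeffMap_qExpand, ← jqModC_rat,
    bridge_coeffMap_eq_map, map_jqModC]

theorem bridge_coeffMap_iotaBar_coeffEmb_jq :
    coeffMap iotaBar (coeffEmb QBar jq) = jqModC ℂ := by
  have h := bridge_coeffMap_iotaBar_coeffEmb_qExpand 1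
  rwa [qExpand_one_apply, qExpand_one_apply] at h

/-- Base change of constants. -/
theorem bridge_coeffMap_iotaBar_algebraMap (c : QBar) :
    coeffMap iotaBar (algebraMap QBar (LaurentSeries QBar) c) = HahnSeries.C (iotaBar c) := by
  rw [algebraMap_laurentSeries_eq_single, coeffMap_single]
  rfl

theorem bridge_coeffMap_iotaBar_injective :
    Function.Injective (coeffMap iotaBar : LaurentSeries QBar → LaurentSeries ℂ) := by
  intro x y hxy
  ext k
  apply iotaBar_injective
  have := congrArg (fun z : LaurentSeries ℂ => z.coeff k) hxy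
  simpa using this

variable (N : ℕ) [NeZero N]

/-- The generators `j(q^d)`, `d ∣ N`, of the function field. -/
def jdSet : Set (modularFunctionFieldBar N) :=
  {x | ∃ (d : ℕ) (_ : NeZero d) (hd : d ∣ N), x = jdBar N d hd}

theorem jdBar_mem_jdSet (d : ℕ) [NeZero d] (hd : d ∣ N) : jdBar N d hd ∈ jdSet N :=
  ⟨d, inferInstance, hd, rfl⟩

/-- The `Qbar`-algebra `Qbar[j(q^d) : d ∣ N]`. -/
def RBar : Subalgebra QBar (modularFunctionFieldBar N) := Algebra.adjoin QBar (jdSet N)

theorem jdBar_mem_RBar (d : ℕ) [NeZero d] (hd : d ∣ N) : jdBar N d hd ∈ RBar N :=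
  Algebra.subset_adjoin (jdBar_mem_jdSet N d hd)

theorem jBar_eq_jdBar_one : jBar N = jdBar N 1 (one_dvd N) := by
  apply Subtype.ext
  rw [coe_jBar, coe_jdBar, qExpand_one_apply]

theorem jBar_mem_RBar : jBar N ∈ RBar N := by
  rw [jBar_eq_jdBar_one]
  exact jdBar_mem_RBar N 1 (one_dvd N)

/-- Base change of rational constants. -/
theorem bridge_coeffEmb_algebraMap (c : ℚ) :
    coeffEmb QBar (algebraMap ℚ (LaurentSeries ℚ) c)
      = algebraMap QBar (LaurentSeries QBar) (algebraMap ℚ QBar c) := by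
  rw [algebraMap_laurentSeries_eq_single, algebraMap_laurentSeries_eq_single, coeffEmb,
    coeffMap_single]

/-- Every element of the rational field `ℚ(j(q^d) : d ∣ N)` lies, after base change, in the
subfield generated by the `jdBar`. -/
theorem bridge_coeffEmb_mem_adjoin {x : LaurentSeries ℚ} (hx : x ∈ modularFunctionFieldFull N) :
    ∃ y : modularFunctionFieldBar N, y ∈ IntermediateField.adjoin QBar (jdSet N) ∧
      (y : LaurentSeries QBar) = coeffEmb QBar x := by
  unfold modularFunctionFieldFull at hx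
  induction hx using IntermediateField.adjoin_induction with
  | mem x hx =>
      obtain ⟨d, hne, hd, rfl⟩ := hx
      have := hne
      exact ⟨jdBar N d hd, IntermediateField.subset_adjoin _ _ (jdBar_mem_jdSet N d hd), rfl⟩
  | algebraMap c =>
      refine ⟨algebraMap QBar (modularFunctionFieldBar N) (algebraMap ℚ QBar c),
        IntermediateField.algebraMap_mem _ _, ?_⟩
      rw [bridge_coeffEmb_algebraMap]
      rfl
  | add x y _ _ hx hy =>
      obtain ⟨x', hx', ex⟩ := hx
      obtain ⟨y', hy', ey⟩ := hy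
      refine ⟨x' + y', add_mem hx' hy', ?_⟩
      rw [map_add, ← ex, ← ey]
      rfl
  | inv x _ hx =>
      obtain ⟨x', hx', ex⟩ := hx
      refine ⟨x'⁻¹, inv_mem hx', ?_⟩
      rw [map_inv₀, ← ex]
      rfl
  | mul x y _ _ hx hy =>
      obtain ⟨x', hx', ex⟩ := hx
      obtain ⟨y', hy', ey⟩ := hy
      refine ⟨x' * y', mul_mem hx' hy', ?_⟩
      rw [map_mul, ← ex, ← ey]
      rfl

/-- The Prelude field is generated over `Qbar` by the `j(q^d)`. -/
theorem adjoin_jdSet_eq_top : IntermediateField.adjoin QBar (jdSet N) = ⊤ := by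
  rw [eq_top_iff]
  rintro ⟨z, hz⟩ -
  have key : ∀ (z : LaurentSeries QBar) (hz : z ∈ modularFunctionFieldBar N),
      (⟨z, hz⟩ : modularFunctionFieldBar N) ∈ IntermediateField.adjoin QBar (jdSet N) := by
    intro z hz
    have hz' : z ∈ IntermediateField.adjoin QBar
        (⇑(coeffEmb QBar) '' (modularFunctionFieldFull N : Set (LaurentSeries ℚ))) := hz
    induction hz' using IntermediateField.adjoin_induction with
    | mem z hz1 =>
        obtain ⟨x, hx, rfl⟩ := hz1
        obtain ⟨y, hy, e⟩ := bridge_coeffEmb_mem_adjoin N hx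
        have : y = ⟨coeffEmb QBar x, hz⟩ := Subtype.ext e
        rw [← this]
        exact hy
    | algebraMap c =>
        exact IntermediateField.algebraMap_mem _ c
    | add x y hx hy hx' hy' =>
        have hx0 : x ∈ modularFunctionFieldBar N := hx
        have hy0 : y ∈ modularFunctionFieldBar N := hy
        have := add_mem (hx' hx0) (hy' hy0)
        exact this
    | inv x hx hx' =>
        have hx0 : x ∈ modularFunctionFieldBar N := hx
        have := inv_mem (hx' hx0)
        exact this
    | mul x y hx hy hx' hy' =>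
        have hx0 : x ∈ modularFunctionFieldBar N := hx
        have hy0 : y ∈ modularFunctionFieldBar N := hy
        have := mul_mem (hx' hx0) (hy' hy0)
        exact this
  exact key z hz

/-- The Prelude field is the fraction field of `RBar N`. -/
theorem isFractionRing_RBar : IsFractionRing (RBar N) (modularFunctionFieldBar N) := by
  refine IsFractionRing.of_field _ _ fun z => ?_
  have hz : z ∈ IntermediateField.adjoin QBar (jdSet N) := by
    rw [adjoin_jdSet_eq_top]
    exact IntermediateField.mem_top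
  obtain ⟨x, hx, y, hy, e⟩ := IntermediateField.mem_adjoin_iff_div.mp hz
  exact ⟨⟨x, hx⟩, ⟨y, hy⟩, e⟩

/-- The function `τ ↦ j(d τ)` as a holomorphic function. -/
def jdHol (d : ℕ) [NeZero d] : HolRing :=
  HolRing.compGL (Fermat.Agent.S23.utGL d 0 1)
    (Fermat.Agent.S23.det_utGL_pos (NeZero.ne d) one_ne_zero 0) jHol

theorem jdHol_apply (d : ℕ) [NeZero d] (τ : ℍ) :
    (jdHol d : ℍ → ℂ) τ = jFun (Fermat.Agent.S23.utGL d 0 1 • τ) := rfl

/-- `j(dτ)` has the expansion `j(q^d)`. -/
theorem hasCuspExp_jdHol (d : ℕ) [NeZero d] :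
    HasCuspExp 1 (jdHol d : ℍ → ℂ) (qExpand ℂ d (jqModC ℂ)) := by
  have h := HasCuspExp.comp_affine (a := d) (d := 1) (NeZero.ne d) one_ne_zero 0
    (Fermat.Agent.S23.utGL d 0 1)
    (fun τ => Fermat.Agent.S23.coe_utGL_smul (NeZero.ne d) one_ne_zero 0 τ)
    hasCuspExp_jFun 1 (by simp)
  rw [bridge_rotLaurent_one] at h
  exact h

/-- Every element of `RBar N` is the expansion of a holomorphic function. -/
theorem bridge_exists_hol {x : modularFunctionFieldBar N} (hx : x ∈ RBar N) :
    ∃ f : HolRing, HasCuspExp 1 (f : ℍ → ℂ)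
      (coeffMap iotaBar ((x : modularFunctionFieldBar N) : LaurentSeries QBar)) := by
  unfold RBar at hx
  induction hx using Algebra.adjoin_induction with
  | mem x hx =>
      obtain ⟨d, hne, hd, rfl⟩ := hx
      have := hne
      refine ⟨jdHol d, ?_⟩
      rw [coe_jdBar, bridge_coeffMap_iotaBar_coeffEmb_qExpand]
      exact hasCuspExp_jdHol d
  | algebraMap c =>
      refine ⟨HolRing.C (iotaBar c), ?_⟩
      have h1 : ((algebraMap QBar (modularFunctionFieldBar N) c : modularFunctionFieldBar N) :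
          LaurentSeries QBar) = algebraMap QBar (LaurentSeries QBar) c := rfl
      rw [h1, bridge_coeffMap_iotaBar_algebraMap]
      exact HasCuspExp.const (iotaBar c)
  | add x y _ _ hx hy =>
      obtain ⟨f, hf⟩ := hx
      obtain ⟨g, hg⟩ := hy
      refine ⟨f + g, ?_⟩
      have h1 : ((x + y : modularFunctionFieldBar N) : LaurentSeries QBar)
          = (x : LaurentSeries QBar) + (y : LaurentSeries QBar) := rfl
      rw [h1, map_add]
      exact hf.add hg
  | mul x y _ _ hx hy =>
      obtain ⟨f, hf⟩ := hx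
      obtain ⟨g, hg⟩ := hy
      refine ⟨f * g, ?_⟩
      have h1 : ((x * y : modularFunctionFieldBar N) : LaurentSeries QBar)
          = (x : LaurentSeries QBar) * (y : LaurentSeries QBar) := rfl
      rw [h1, map_mul]
      exact hf.mul hg

/-- Two holomorphic functions with the same expansion are equal. -/
theorem bridge_hol_ext {f g : HolRing} {S : LaurentSeries ℂ}
    (hf : HasCuspExp 1 (f : ℍ → ℂ) S) (hg : HasCuspExp 1 (g : ℍ → ℂ) S) : f = g :=
  Subtype.ext (hf.eq_of_eq hg)

/-- Existence of the bridge. -/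
theorem exists_toHol : ∃ φ : RBar N →+* HolRing, ∀ x : RBar N,
    HasCuspExp 1 (φ x : ℍ → ℂ)
      (coeffMap iotaBar (((x : modularFunctionFieldBar N)) : LaurentSeries QBar)) := by
  classical
  have hex : ∀ x : RBar N, ∃ f : HolRing, HasCuspExp 1 (f : ℍ → ℂ)
      (coeffMap iotaBar (((x : modularFunctionFieldBar N)) : LaurentSeries QBar)) :=
    fun x => bridge_exists_hol N x.2
  choose φ hφ using hex
  refine ⟨{ toFun := φ, map_one' := ?_, map_mul' := ?_, map_zero' := ?_, map_add' := ?_ }, hφ⟩
  · refine bridge_hol_ext (hφ 1) ?_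
    have h1 : coeffMap iotaBar ((((1 : RBar N) : modularFunctionFieldBar N)) : LaurentSeries QBar)
        = HahnSeries.C (1 : ℂ) := by
      have : ((((1 : RBar N) : modularFunctionFieldBar N)) : LaurentSeries QBar) = 1 := rfl
      rw [this, map_one, map_one]
    rw [h1]
    exact HasCuspExp.const (1 : ℂ)
  · intro x y
    refine bridge_hol_ext (hφ (x * y)) ?_
    have h1 : coeffMap iotaBar ((((x * y : RBar N) : modularFunctionFieldBar N)) :
        LaurentSeries QBar)
        = coeffMap iotaBar (((x : modularFunctionFieldBar N)) : LaurentSeries QBar)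
          * coeffMap iotaBar (((y : modularFunctionFieldBar N)) : LaurentSeries QBar) := by
      rw [← map_mul]
      rfl
    rw [h1]
    exact (hφ x).mul (hφ y)
  · refine bridge_hol_ext (hφ 0) ?_
    have h1 : coeffMap iotaBar ((((0 : RBar N) : modularFunctionFieldBar N)) : LaurentSeries QBar)
        = HahnSeries.C (0 : ℂ) := by
      have : ((((0 : RBar N) : modularFunctionFieldBar N)) : LaurentSeries QBar) = 0 := rfl
      rw [this, map_zero, map_zero]
    rw [h1]
    exact HasCuspExp.const (0 : ℂ)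
  · intro x y
    refine bridge_hol_ext (hφ (x + y)) ?_
    have h1 : coeffMap iotaBar ((((x + y : RBar N) : modularFunctionFieldBar N)) :
        LaurentSeries QBar)
        = coeffMap iotaBar (((x : modularFunctionFieldBar N)) : LaurentSeries QBar)
          + coeffMap iotaBar (((y : modularFunctionFieldBar N)) : LaurentSeries QBar) := by
      rw [← map_add]
      rfl
    rw [h1]
    exact (hφ x).add (hφ y)

/-- The bridge `Qbar[j(q^d)] → HolRing`. -/
def toHol : RBar N →+* HolRing := (exists_toHol N).choose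

theorem hasCuspExp_toHol (x : RBar N) :
    HasCuspExp 1 (toHol N x : ℍ → ℂ)
      (coeffMap iotaBar (((x : modularFunctionFieldBar N)) : LaurentSeries QBar)) :=
  (exists_toHol N).choose_spec x

theorem toHol_injective : Function.Injective (toHol N) := by
  intro x y hxy
  have hx := hasCuspExp_toHol N x
  have hy := hasCuspExp_toHol N y
  rw [hxy] at hx
  have h := hx.unique hy
  exact Subtype.ext (Subtype.ext (bridge_coeffMap_iotaBar_injective h))

theorem toHol_algebraMap (c : QBar) :
    toHol N (algebraMap QBar (RBar N) c) = HolRing.C (iotaBar c) := by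
  refine bridge_hol_ext (hasCuspExp_toHol N _) ?_
  have h1 : ((((algebraMap QBar (RBar N) c : RBar N) : modularFunctionFieldBar N)) :
      LaurentSeries QBar) = algebraMap QBar (LaurentSeries QBar) c := rfl
  rw [h1, bridge_coeffMap_iotaBar_algebraMap]
  exact HasCuspExp.const (iotaBar c)

theorem toHol_jdBar (d : ℕ) [NeZero d] (hd : d ∣ N) :
    toHol N ⟨jdBar N d hd, jdBar_mem_RBar N d hd⟩ = jdHol d := by
  refine bridge_hol_ext (hasCuspExp_toHol N _) ?_
  show HasCuspExp 1 (jdHol d : ℍ → ℂ)
    (coeffMap iotaBar ((jdBar N d hd : modularFunctionFieldBar N) : LaurentSeries QBar))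
  rw [coe_jdBar, bridge_coeffMap_iotaBar_coeffEmb_qExpand]
  exact hasCuspExp_jdHol d

theorem toHol_jBar : toHol N ⟨jBar N, jBar_mem_RBar N⟩ = jHol := by
  refine bridge_hol_ext (hasCuspExp_toHol N _) ?_
  show HasCuspExp 1 (jHol : ℍ → ℂ)
    (coeffMap iotaBar ((jBar N : modularFunctionFieldBar N) : LaurentSeries QBar))
  rw [coe_jBar, bridge_coeffMap_iotaBar_coeffEmb_jq]
  exact hasCuspExp_jFun

/-- `τ ↦ j(dτ)` is invariant under `Γ₀(d)`. -/
theorem bridge_smul_jdHol (d : ℕ) [NeZero d] (γ : SL(2, ℤ)) (c' : ℤ)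
    (hc : (γ⁻¹ : SL(2, ℤ)) 1 0 = d * c') : γ • jdHol d = jdHol d := by
  apply Subtype.ext
  funext τ
  rw [HolRing.smul_apply, jdHol_apply, jdHol_apply]
  have h1 : (γ⁻¹ • τ : ℍ) = (Matrix.SpecialLinearGroup.mapGL ℝ γ⁻¹ : GL (Fin 2) ℝ) • τ := rfl
  rw [h1, ← mul_smul, Fermat.Agent.S23.utGL_mul_mapGL d (NeZero.ne d) γ⁻¹ c' hc, mul_smul]
  exact bridge_jFun_smul (Fermat.Agent.S23.unstab_conjSL d γ⁻¹ c' hc) _

/-- Functions in the image of the bridge are invariant under `Γ₀(N)`. -/
theorem smul_toHol_of_mem_Gamma0 (γ : SL(2, ℤ)) (hγ : γ ∈ CongruenceSubgroup.Gamma0 N)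
    (x : RBar N) : γ • toHol N x = toHol N x := by
  have hγ' : γ⁻¹ ∈ CongruenceSubgroup.Gamma0 N := inv_mem hγ
  have hdvd : (N : ℤ) ∣ (γ⁻¹ : SL(2, ℤ)) 1 0 :=
    (ZMod.intCast_zmod_eq_zero_iff_dvd _ N).mp (CongruenceSubgroup.Gamma0_mem.mp hγ')
  have key : ∀ (y : modularFunctionFieldBar N) (hy : y ∈ RBar N),
      γ • toHol N ⟨y, hy⟩ = toHol N ⟨y, hy⟩ := by
    intro y hy
    have hy' : y ∈ Algebra.adjoin QBar (jdSet N) := hy
    induction hy' using Algebra.adjoin_induction with
    | mem y hy1 =>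
        obtain ⟨d, hne, hd, rfl⟩ := hy1
        have := hne
        have e : (⟨jdBar N d hd, hy⟩ : RBar N) = ⟨jdBar N d hd, jdBar_mem_RBar N d hd⟩ := rfl
        rw [e, toHol_jdBar]
        obtain ⟨c', hc'⟩ : (d : ℤ) ∣ (γ⁻¹ : SL(2, ℤ)) 1 0 :=
          (Int.natCast_dvd_natCast.mpr hd).trans hdvd
        exact bridge_smul_jdHol d γ c' hc'
    | algebraMap c =>
        have e : (⟨algebraMap QBar (modularFunctionFieldBar N) c, hy⟩ : RBar N)
            = algebraMap QBar (RBar N) c := rfl
        rw [e, toHol_algebraMap]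
        rfl
    | add a b ha hb ha' hb' =>
        have ha0 : a ∈ RBar N := ha
        have hb0 : b ∈ RBar N := hb
        have e : (⟨a + b, hy⟩ : RBar N) = ⟨a, ha0⟩ + ⟨b, hb0⟩ := rfl
        rw [e, map_add, smul_add, ha' ha0, hb' hb0]
    | mul a b ha hb ha' hb' =>
        have ha0 : a ∈ RBar N := ha
        have hb0 : b ∈ RBar N := hb
        have e : (⟨a * b, hy⟩ : RBar N) = ⟨a, ha0⟩ * ⟨b, hb0⟩ := rfl
        rw [e, map_mul, smul_mul', ha' ha0, hb' hb0]
  exact key x.1 x.2

end Fermat.Agent.S24
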