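import Mathlib
import Fermat.Agent.S24.PlacesCenter

/-!
# S24, W4: the fundamental identity `∑_{v | t = 0} ord_v(t) deg(v) = [F : K(t)]`
-/

set_option autoImplicit false

namespace Fermat.Agent.S24

open AlgebraicCurve IsDedekindDomain WithZero IsLocalRing IntermediateField
open scoped IntermediateField.algebraAdjoinAdjoin

variable {K F : Type*} [Field K] [Field F] [Algebra K F] {t : F}

section WithFact

variable [hfact : Fact (IsSepGen K t)]

local instance instDedekindA'' : IsDedekindDomain (Algebra.adjoin K {t}) :=
  isDedekindDomain_adjoin hfact.out.transcendental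

local instance instDedekindIntRing'' : IsDedekindDomain (intRing K t) :=
  intRing_isDedekindDomain hfact.out

local instance instFractionIntRing'' : IsFractionRing (intRing K t) F :=
  intRing_isFractionRing hfact.out

local instance instFiniteIntRing'' : Module.Finite (Algebra.adjoin K {t}) (intRing K t) :=
  intRing_finite hfact.out

local instance instMaxPrimeA'' : (primeA K t).IsMaximal :=
  primeA_isMaximal hfact.out.transcendental

/-- `t` as an element of the integral closure `B` of `K[t]` -/
def genB (K : Type*) {F : Type*} [Field K] [Field F] [Algebra K F] (t : F) : intRing K t :=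
  algebraMap (Algebra.adjoin K {t}) (intRing K t) (genA K t)

omit hfact in
@[simp] theorem coe_genB : algebraMap (intRing K t) F (genB K t) = t := rfl

theorem genB_ne_zero : genB K t ≠ 0 := by
  intro h
  have : t = 0 := by
    rw [← coe_genB (K := K) (t := t), h, map_zero]
  exact hfact.out.transcendental (this ▸ isAlgebraic_zero)

omit hfact in
theorem map_primeA :
    (primeA K t).map (algebraMap (Algebra.adjoin K {t}) (intRing K t)) = Ideal.span {genB K t} := by
  rw [primeA, Ideal.map_span, Set.image_singleton]
  rfl

theorem map_primeA_ne_bot :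
    (primeA K t).map (algebraMap (Algebra.adjoin K {t}) (intRing K t)) ≠ ⊥ := by
  rw [map_primeA, ne_eq, Ideal.span_singleton_eq_bot]
  exact genB_ne_zero

omit hfact in
theorem genB_mem_of_liesOver (q : Ideal (intRing K t)) [q.LiesOver (primeA K t)] :
    genB K t ∈ q := by
  have h1 : genA K t ∈ primeA K t := Ideal.subset_span rfl
  rw [Ideal.LiesOver.over (p := primeA K t) (P := q)] at h1
  exact h1

/-- the height one prime attached to a prime of `B` over `(t)` -/
def heightOneOfPrimeOver (q : (primeA K t).primesOver (intRing K t)) :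
    HeightOneSpectrum (intRing K t) :=
  ⟨q.1, q.2.1, by
    intro h
    have := q.2.2
    have h1 := genB_mem_of_liesOver (K := K) (t := t) q.1
    rw [h] at h1
    exact genB_ne_zero h1⟩

/-- the place attached to a prime of `B` over `(t)` -/
noncomputable def placeOfPrimeOver (q : (primeA K t).primesOver (intRing K t)) : Place K F :=
  Place.ofHeightOneSpectrum (K := K) (heightOneOfPrimeOver q)

theorem ord_placeOfPrimeOver (q : (primeA K t).primesOver (intRing K t)) :
    (placeOfPrimeOver q).ord t = (q.1.ramificationIdx (Algebra.adjoin K {t}) : ℤ) := by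
  have := q.2.1
  have := q.2.2
  have h1 : (heightOneOfPrimeOver q).valuation F t =
      (heightOneOfPrimeOver q).intValuation (genB K t) := by
    rw [← HeightOneSpectrum.valuation_of_algebraMap (K := F)]
    rfl
  rw [placeOfPrimeOver, ord_ofHeightOneSpectrum, h1,
    HeightOneSpectrum.intValuation_eq_exp_neg_multiplicity _ genB_ne_zero, log_exp, neg_neg,
    Ideal.IsDedekindDomain.ramificationIdx_eq_multiplicity (primeA K t) q.1 map_primeA_ne_bot,
    map_primeA]
  rfl

theorem deg_placeOfPrimeOver (q : (primeA K t).primesOver (intRing K t)) :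
    (placeOfPrimeOver q).deg = q.1.inertiaDeg (Algebra.adjoin K {t}) := by
  have := q.2.1
  have := q.2.2
  have hmax : q.1.IsMaximal := (heightOneOfPrimeOver q).isMaximal
  rw [placeOfPrimeOver, deg_ofHeightOneSpectrum, Ideal.inertiaDeg_eq_of_isMaximal (primeA K t) q.1]
  let := Ideal.Quotient.field (primeA K t)
  let := Ideal.Quotient.field q.1
  have h1 := Module.finrank_mul_finrank K (Algebra.adjoin K {t} ⧸ primeA K t) (intRing K t ⧸ q.1)
  rw [finrank_quotient_primeA hfact.out.transcendental, one_mul] at h1
  exact h1.symm

theorem placeOfPrimeOver_injective :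
    Function.Injective (placeOfPrimeOver (K := K) (F := F) (t := t)) := by
  intro q₁ q₂ h
  have := ofHeightOneSpectrum_injective (K := K) h
  apply Subtype.ext
  exact congrArg HeightOneSpectrum.asIdeal this

theorem ord_pos_placeOfPrimeOver (q : (primeA K t).primesOver (intRing K t)) :
    0 < (placeOfPrimeOver q).ord t := by
  have := q.2.1
  rw [ord_placeOfPrimeOver]
  exact_mod_cast Ideal.ramificationIdx_pos q.1 (Algebra.adjoin K {t})

theorem range_placeOfPrimeOver :
    Set.range (placeOfPrimeOver (K := K) (F := F) (t := t)) = {v : Place K F | 0 < v.ord t} := by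
  ext v
  constructor
  · rintro ⟨q, rfl⟩
    exact ord_pos_placeOfPrimeOver q
  · intro hv
    have hv' : 0 < v.ord t := hv
    have hmem : t ∈ v.toValuationSubring := PlaceOrd.mem_of_ord_nonneg v hv'.le
    obtain ⟨w, rfl⟩ := exists_eq_ofHeightOneSpectrum_intRing v hmem
    -- `genB ∈ w`
    have h1 : genB K t ∈ w.asIdeal := by
      rw [← HeightOneSpectrum.valuation_lt_one_iff_mem (K := F)]
      change w.valuation F t < 1
      rw [ord_ofHeightOneSpectrum] at hv'
      have ht0 : t ≠ 0 := fun h => hfact.out.transcendental (h ▸ isAlgebraic_zero)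
      have hval0 : w.valuation F t ≠ 0 := (Valuation.ne_zero_iff _).2 ht0
      have : log (w.valuation F t) < log (1 : ℤᵐ⁰) := by rw [log_one]; omega
      rwa [log_lt_log hval0 one_ne_zero] at this
    have hprime : w.asIdeal.IsPrime := w.isPrime
    have hlies : w.asIdeal.LiesOver (primeA K t) := by
      constructor
      have hle : primeA K t ≤ w.asIdeal.under (Algebra.adjoin K {t}) := by
        rw [primeA, Ideal.span_le, Set.singleton_subset_iff]
        exact h1
      have hne : w.asIdeal.under (Algebra.adjoin K {t}) ≠ ⊤ :=
        (Ideal.IsPrime.under (Algebra.adjoin K {t}) w.asIdeal).ne_top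
      exact (instMaxPrimeA''.eq_of_le hne hle)
    refine ⟨⟨w.asIdeal, hprime, hlies⟩, ?_⟩
    rfl

theorem finite_primesOver_primeA : ((primeA K t).primesOver (intRing K t)).Finite :=
  Algebra.QuasiFinite.finite_primesOver (primeA K t)

theorem finite_ord_pos_aux : {v : Place K F | 0 < v.ord t}.Finite := by
  rw [← range_placeOfPrimeOver]
  have := finite_primesOver_primeA (K := K) (F := F) (t := t)
  have : Finite ((primeA K t).primesOver (intRing K t)) := this
  exact Set.finite_range _

theorem sum_ord_mul_deg_aux (hfin : {v : Place K F | 0 < v.ord t}.Finite) :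
    ∑ v ∈ hfin.toFinset, v.ord t * (v.deg : ℤ) = (Module.finrank K⟮t⟯ F : ℤ) := by
  classical
  have hfinp := finite_primesOver_primeA (K := K) (F := F) (t := t)
  let _ : Fintype ((primeA K t).primesOver (intRing K t)) := hfinp.fintype
  have hfund := Ideal.sum_ramification_inertia_eq_finrank (primeA K t) (intRing K t)
  have hfr : Module.finrank K⟮t⟯ F = Module.finrank (Algebra.adjoin K {t}) (intRing K t) :=
    IsFractionRing.finrank_eq (Algebra.adjoin K {t}) K⟮t⟯ (intRing K t) F
  rw [hfr, ← hfund]
  have himg : hfin.toFinset = Finset.univ.image (placeOfPrimeOver (K := K) (F := F) (t := t)) := by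
    ext v
    simp only [Set.Finite.mem_toFinset, Finset.mem_image, Finset.mem_univ, true_and]
    rw [← range_placeOfPrimeOver]
    rfl
  rw [himg, Finset.sum_image (fun a _ b _ h => placeOfPrimeOver_injective h)]
  push_cast
  refine Finset.sum_congr rfl fun q _ => ?_
  rw [ord_placeOfPrimeOver, deg_placeOfPrimeOver]

end WithFact

end Fermat.Agent.S24
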