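import Mathlib
import Fermat.Agent.S24.PlacesFund

/-!
# S24, work package W4: places of a function field, fundamental identity

Final statements `[P0]`–`[P2]` (the names of `PlacesSpec.lean`, now proved).
`IsSepGen.deg_eq_one`, `IsSepGen.existsUnique_ord_sub_pos`, `IsSepGen.finite_residueField`,
`IsSepGen.algebraMap_residueField_surjective` live in `PlacesCenter.lean`.
-/

set_option autoImplicit false

namespace Fermat.Agent.S24

open AlgebraicCurve IntermediateField

variable {K F : Type*} [Field K] [Field F] [Algebra K F]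

/-- (P2a) finitely many places over `t = 0`. -/
theorem IsSepGen.finite_ord_pos {t : F} (ht : IsSepGen K t) :
    {v : Place K F | 0 < v.ord t}.Finite := by
  have := Fact.mk ht
  exact finite_ord_pos_aux

/-- there is at least one place over `t = 0`. -/
theorem IsSepGen.exists_ord_pos {t : F} (ht : IsSepGen K t) :
    ∃ v : Place K F, 0 < v.ord t := by
  have hf := Fact.mk ht
  have := isDedekindDomain_adjoin ht.transcendental
  have := intRing_isDedekindDomain ht
  have := intRing_finite ht
  have := primeA_isMaximal ht.transcendental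
  obtain ⟨q⟩ : Nonempty ((primeA K t).primesOver (intRing K t)) := inferInstance
  exact ⟨placeOfPrimeOver q, ord_pos_placeOfPrimeOver q⟩

/-- (P2b) the fundamental identity `∑_{v | t = 0} e_v f_v = [F : K(t)]`. -/
theorem IsSepGen.sum_ord_mul_deg {t : F} (ht : IsSepGen K t) :
    ∑ v ∈ ht.finite_ord_pos.toFinset, v.ord t * (v.deg : ℤ) = (Module.finrank K⟮t⟯ F : ℤ) := by
  have := Fact.mk ht
  exact sum_ord_mul_deg_aux _

theorem IsSepGen.sum_ord [IsAlgClosed K] {t : F} (ht : IsSepGen K t) :
    ∑ v ∈ ht.finite_ord_pos.toFinset, v.ord t = (Module.finrank K⟮t⟯ F : ℤ) := by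
  rw [← ht.sum_ord_mul_deg]
  refine Finset.sum_congr rfl fun v _ => ?_
  rw [ht.deg_eq_one v, Nat.cast_one, mul_one]

/-- an element algebraic over `K` has order zero at every place. -/
theorem ord_eq_zero_of_isAlgebraic {f : F} (hf : IsAlgebraic K f) (v : Place K F) :
    v.ord f = 0 := by
  rcases eq_or_ne f 0 with rfl | hf0
  · simp
  rw [PlaceOrd.ord_eq_zero_iff v hf0]
  exact ⟨mem_of_isIntegral_of_forall_mem v (A := K) v.algebraMap_mem' hf.isIntegral,
    mem_of_isIntegral_of_forall_mem v (A := K) v.algebraMap_mem' hf.inv.isIntegral⟩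

end Fermat.Agent.S24
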