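import Mathlib
import Fermat.Agent.S24.Places

/-!
# S24, W4: shim

All statements formerly sorried here are now PROVED in `Places.lean` / `PlacesCenter.lean`
(same names, same statements). This file only re-exports them; prefer
`import Fermat.Agent.S24.Places`.
-/
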