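import Mathlib
import Fermat.Agent.S24.PlacesSpec

/-!
# S24, work package W4b: change of generator, principal divisors have degree zero

Uses `PlacesSpec` (P0-P2) as a black box and `PlacesGen` (helper1) for the change of generator.  All statements are exactly those of the spec file of
helper1; helper lemmas are prefixed `pp_`.
-/

set_option autoImplicit false
set_option linter.unusedVariables false
set_option linter.style.haveILetI false

namespace Fermat.Agent.S24

open AlgebraicCurve IntermediateField

variable {K F : Type*} [Field K] [Field F] [Algebra K F]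

open scoped IntermediateField.algebraAdjoinAdjoin in
lemma pp_isAlgebraic_algebra_adjoin (t : F) [Algebra.IsAlgebraic K⟮t⟯ F] :
    Algebra.IsAlgebraic (Algebra.adjoin K {t}) F :=
  Algebra.IsAlgebraic.trans (Algebra.adjoin K {t}) K⟮t⟯ F

/-- exchange: if `F` is algebraic over `K(t)` and `f` is transcendental over `K`, then `F` is
algebraic over `K(f)`. -/
lemma pp_isAlgebraic_of_transcendental (t : F) [Algebra.IsAlgebraic K⟮t⟯ F] {f : F}
    (hf : Transcendental K f) : Algebra.IsAlgebraic K⟮f⟯ F := by
  have h1 : Algebra.IsAlgebraic (Algebra.adjoin K {t}) F := pp_isAlgebraic_algebra_adjoin t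
  have hle : Algebra.trdeg K F ≤ 1 := by
    have := Algebra.IsAlgebraic.trdeg_le_cardinalMk K ({t} : Set F)
    simpa using this
  have hind : AlgebraicIndependent K (Subtype.val : ({f} : Set F) → F) := by
    rw [algebraicIndependent_unique_type_iff]
    exact hf
  have hB : IsTranscendenceBasis K (Subtype.val : ({f} : Set F) → F) :=
    hind.isTranscendenceBasis_of_trdeg_le_of_finite (by simpa using hle)
  have := hB.isAlgebraic_field
  rwa [Subtype.range_coe] at this

lemma pp_finite_of_transcendental {t : F} (hfin : FiniteDimensional K⟮t⟯ F) {f : F}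
    (hf : Transcendental K f) : FiniteDimensional K⟮f⟯ F := by
  have halg : Algebra.IsAlgebraic K⟮f⟯ F := pp_isAlgebraic_of_transcendental t hf
  -- the intermediate field `K(f)(t)`
  set M : IntermediateField K⟮f⟯ F := (K⟮f⟯)⟮t⟯ with hM
  have h1 : FiniteDimensional K⟮f⟯ M :=
    IntermediateField.adjoin.finiteDimensional (Algebra.IsIntegral.isIntegral t)
  have hle : ∀ x : K⟮t⟯, (x : F) ∈ M := fun x => by
    have : K⟮t⟯ ≤ M.restrictScalars K := by
      rw [adjoin_simple_le_iff]
      exact mem_adjoin_simple_self _ t
    exact this x.2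
  let g : K⟮t⟯ →+* M := (algebraMap K⟮t⟯ F).codRestrict M hle
  letI : Algebra K⟮t⟯ M := g.toAlgebra
  haveI : IsScalarTower K⟮t⟯ M F := IsScalarTower.of_algebraMap_eq (fun x => rfl)
  have h2 : FiniteDimensional M F := Module.Finite.of_restrictScalars_finite K⟮t⟯ M F
  exact FiniteDimensional.trans K⟮f⟯ M F

/-- In characteristic zero every non-constant element is a separating generator. -/
theorem IsSepGen.of_transcendental [CharZero K] {t : F} (ht : IsSepGen K t) {f : F}
    (hf : Transcendental K f) : IsSepGen K f :=
  IsSepGen.of_charZero hf (pp_finite_of_transcendental ht.finite hf)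

theorem IsSepGen.finite_ord_ne_zero [CharZero K] {t : F} (ht : IsSepGen K t) {f : F}
    (hf : f ≠ 0) : {v : Place K F | v.ord f ≠ 0}.Finite := by
  by_cases halg : IsAlgebraic K f
  · have : {v : Place K F | v.ord f ≠ 0} = ∅ := by
      ext v
      simp [ord_eq_zero_of_isAlgebraic halg v]
    rw [this]
    exact Set.finite_empty
  · have hfg : IsSepGen K f := ht.of_transcendental halg
    refine (hfg.finite_ord_pos.union hfg.inv.finite_ord_pos).subset ?_
    intro v hv
    simp only [Set.mem_ofPred_eq] at hv
    simp only [Set.mem_union, Set.mem_ofPred_eq, Place.ord_inv]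
    omega

lemma pp_degree_eq_sum (D : Divisor K F) (s : Finset (Place K F)) (hs : D.support ⊆ s) :
    Divisor.degree D = ∑ v ∈ s, D v * (v.deg : ℤ) := by
  have : Divisor.degree D = D.sum fun v n => n * (v.deg : ℤ) := by
    simp [Divisor.degree, Finsupp.liftAddHom_apply]
  rw [this]
  exact Finsupp.sum_of_support_subset D hs _ (fun i _ => by simp)

theorem IsSepGen.degree_eq_zero_of_forall_ord [CharZero K] {t : F} (ht : IsSepGen K t) {f : F}
    (hf : f ≠ 0) (D : Divisor K F) (hD : ∀ v : Place K F, D v = v.ord f) :
    Divisor.degree D = 0 := by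
  classical
  by_cases halg : IsAlgebraic K f
  · have : D = 0 := by
      ext v
      rw [hD v, ord_eq_zero_of_isAlgebraic halg v]
      rfl
    rw [this, map_zero]
  · have hfg : IsSepGen K f := ht.of_transcendental halg
    set Z := hfg.finite_ord_pos.toFinset with hZ
    set P := hfg.inv.finite_ord_pos.toFinset with hP
    have hsupp : D.support ⊆ Z ∪ P := by
      intro v hv
      rw [Finsupp.mem_support_iff, hD v] at hv
      simp only [hZ, hP, Finset.mem_union, Set.Finite.mem_toFinset, Set.mem_ofPred_eq,
        Place.ord_inv]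
      omega
    have hdisj : Disjoint Z P := by
      rw [Finset.disjoint_left]
      intro v hv1 hv2
      simp only [hZ, hP, Set.Finite.mem_toFinset, Set.mem_ofPred_eq, Place.ord_inv] at hv1 hv2
      omega
    rw [pp_degree_eq_sum D (Z ∪ P) hsupp, Finset.sum_union hdisj]
    have h1 : ∑ v ∈ Z, D v * (v.deg : ℤ) = (Module.finrank K⟮f⟯ F : ℤ) := by
      rw [← hfg.sum_ord_mul_deg]
      exact Finset.sum_congr rfl (fun v _ => by rw [hD v])
    have h2 : ∑ v ∈ P, D v * (v.deg : ℤ) = -(Module.finrank K⟮f⟯ F : ℤ) := by
      rw [← hfg.finrank_inv, ← hfg.inv.sum_ord_mul_deg, ← Finset.sum_neg_distrib]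
      exact Finset.sum_congr rfl (fun v _ => by rw [hD v, Place.ord_inv]; ring)
    rw [h1, h2]
    ring

theorem IsSepGen.hasPrincipalDivisors [CharZero K] {t : F} (ht : IsSepGen K t) :
    HasPrincipalDivisors K F := by
  refine ⟨fun f hf => ?_⟩
  let D : Divisor K F := Finsupp.ofSupportFinite (fun v => v.ord f) (by
    have := ht.finite_ord_ne_zero hf
    exact this.subset (fun v hv => by simpa [Function.mem_support] using hv))
  have hD : ∀ v : Place K F, D v = v.ord f := fun v => rfl
  exact ⟨D, hD, ht.degree_eq_zero_of_forall_ord hf D hD⟩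

end Fermat.Agent.S24
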