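import Mathlib
import Fermat.Prelude.Def_AlgebraicCurve_DivisorClassGroup

set_option autoImplicit false

noncomputable section

namespace Fermat.Agent.S24

open AlgebraicCurve WithZero

variable {k L : Type*} [Field k] [Field L] [Algebra k L]

instance isCyclic_units_intWithZero : IsCyclic (ℤᵐ⁰)ˣ :=
  isCyclic_of_surjective (WithZero.unitsWithZeroEquiv (α := Multiplicative ℤ)).symm
    (WithZero.unitsWithZeroEquiv (α := Multiplicative ℤ)).symm.surjective

theorem nontrivial_valueGroup_of_exists (v : Valuation L ℤᵐ⁰) (hnt : ∃ x : L, x ≠ 0 ∧ v x ≠ 1) :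
    Nontrivial (MonoidWithZeroHom.valueGroup (.ofClass v)) := by
  have : v.IsNontrivial := ⟨by
    obtain ⟨x, hx0, hx1⟩ := hnt
    exact ⟨x, (Valuation.ne_zero_iff v).2 hx0, hx1⟩⟩
  infer_instance

/-- A nontrivial `ℤᵐ⁰`-valued valuation which is trivial on the constants defines a place. -/
def placeOfValuation (v : Valuation L ℤᵐ⁰) (hk : ∀ a : k, v (algebraMap k L a) ≤ 1)
    (hnt : ∃ x : L, x ≠ 0 ∧ v x ≠ 1) : Place k L where
  toValuationSubring := v.valuationSubring
  algebraMap_mem' a := (Valuation.mem_valuationSubring_iff v _).2 (hk a)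
  ne_top' := by
    intro htop
    obtain ⟨x, hx0, hx1⟩ := hnt
    have h1 : x ∈ v.valuationSubring := by rw [htop]; exact ValuationSubring.mem_top x
    have h2 : x⁻¹ ∈ v.valuationSubring := by rw [htop]; exact ValuationSubring.mem_top _
    rw [Valuation.mem_valuationSubring_iff] at h1 h2
    rw [map_inv₀] at h2
    have hvx : v x ≠ 0 := (Valuation.ne_zero_iff v).2 hx0
    have h3 : 1 ≤ v x := by
      rwa [inv_le_one₀ (zero_lt_iff.2 hvx)] at h2
    exact hx1 (le_antisymm h1 h3)
  isPrincipalIdealRing' :=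
    haveI := nontrivial_valueGroup_of_exists v hnt
    Valuation.valuationSubring_isPrincipalIdealRing v

@[simp]
theorem placeOfValuation_toValuationSubring (v : Valuation L ℤᵐ⁰)
    (hk : ∀ a : k, v (algebraMap k L a) ≤ 1) (hnt : ∃ x : L, x ≠ 0 ∧ v x ≠ 1) :
    (placeOfValuation v hk hnt).toValuationSubring = v.valuationSubring := rfl

theorem mem_placeOfValuation_iff (v : Valuation L ℤᵐ⁰)
    (hk : ∀ a : k, v (algebraMap k L a) ≤ 1) (hnt : ∃ x : L, x ≠ 0 ∧ v x ≠ 1) (x : L) :
    x ∈ (placeOfValuation v hk hnt).toValuationSubring ↔ v x ≤ 1 := Iff.rfl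

theorem valuation_unit_eq_one (v : Valuation L ℤᵐ⁰) (u : (v.valuationSubring)ˣ) :
    v ((u : v.valuationSubring) : L) = 1 := by
  have h1 : v ((u : v.valuationSubring) : L) ≤ 1 := (u : v.valuationSubring).2
  have h2 : v (((u⁻¹ : (v.valuationSubring)ˣ) : v.valuationSubring) : L) ≤ 1 :=
    ((u⁻¹ : (v.valuationSubring)ˣ) : v.valuationSubring).2
  have h3 : ((u : v.valuationSubring) : L) * (((u⁻¹ : (v.valuationSubring)ˣ) :
      v.valuationSubring) : L) = 1 := by
    rw [← Subring.coe_mul, Units.mul_inv]; rfl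
  have h4 := congrArg v h3
  rw [map_mul, map_one] at h4
  by_contra hne
  have hlt : v ((u : v.valuationSubring) : L) < 1 := lt_of_le_of_ne h1 hne
  have : v ((u : v.valuationSubring) : L) * v (((u⁻¹ : (v.valuationSubring)ˣ) :
      v.valuationSubring) : L) < 1 := by
    calc _ ≤ v ((u : v.valuationSubring) : L) * 1 := mul_le_mul_right h2 _
      _ = v ((u : v.valuationSubring) : L) := mul_one _
      _ < 1 := hlt
  rw [h4] at this
  exact lt_irrefl _ this

/-- The order function of `placeOfValuation v` is `-log v` up to a positive integer factor. -/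
theorem exists_ord_placeOfValuation (v : Valuation L ℤᵐ⁰)
    (hk : ∀ a : k, v (algebraMap k L a) ≤ 1) (hnt : ∃ x : L, x ≠ 0 ∧ v x ≠ 1) :
    ∃ m : ℤ, 0 < m ∧ ∀ f : L, f ≠ 0 →
      -(log (v f)) = m * (placeOfValuation (k := k) v hk hnt).ord f := by
  set w := placeOfValuation (k := k) v hk hnt with hw
  obtain ⟨π, hπ⟩ := IsDiscreteValuationRing.exists_irreducible w.toValuationSubring
  have hπ0 : (π : L) ≠ 0 := by
    simpa [ne_eq, ZeroMemClass.coe_eq_zero] using hπ.ne_zero
  have hvπ0 : v (π : L) ≠ 0 := (Valuation.ne_zero_iff v).2 hπ0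
  have hvπ1 : v (π : L) < 1 := by
    refine lt_of_le_of_ne π.2 ?_
    intro h1
    apply hπ.not_isUnit
    have hinv : (π : L)⁻¹ ∈ v.valuationSubring := by
      rw [Valuation.mem_valuationSubring_iff, map_inv₀, h1, inv_one]
    refine IsUnit.of_mul_eq_one ⟨(π : L)⁻¹, hinv⟩ ?_
    apply Subtype.ext
    show (π : L) * (π : L)⁻¹ = 1
    exact mul_inv_cancel₀ hπ0
  refine ⟨-(log (v (π : L))), ?_, ?_⟩
  · have : exp (log (v (π : L))) < exp (0 : ℤ) := by
      rw [exp_log hvπ0]; exact hvπ1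
    rw [exp_lt_exp] at this
    omega
  · intro f hf
    obtain ⟨u, hu⟩ := w.exists_unit_mul_zpow hf hπ
    have hvu : v ((u : w.toValuationSubring) : L) = 1 := valuation_unit_eq_one v u
    have : v f = v (π : L) ^ (w.ord f) := by
      conv_lhs => rw [hu]
      rw [map_mul, hvu, one_mul, map_zpow₀]
    rw [this, log_zpow, smul_eq_mul]
    ring

/-- If `exp (-1)` is a value of `v`, then the order of `placeOfValuation v` is exactly `-log v`. -/
theorem ord_placeOfValuation_of_exists (v : Valuation L ℤᵐ⁰)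
    (hk : ∀ a : k, v (algebraMap k L a) ≤ 1) (hnt : ∃ x : L, x ≠ 0 ∧ v x ≠ 1)
    (hsurj : ∃ x : L, v x = exp (-1 : ℤ)) (f : L) (hf : f ≠ 0) :
    (placeOfValuation (k := k) v hk hnt).ord f = -(log (v f)) := by
  obtain ⟨m, hm, hmf⟩ := exists_ord_placeOfValuation (k := k) v hk hnt
  obtain ⟨x, hx⟩ := hsurj
  have hx0 : x ≠ 0 := by
    intro h0
    rw [h0, map_zero] at hx
    exact WithZero.zero_ne_coe hx
  have h1 := hmf x hx0
  rw [hx, log_exp, neg_neg] at h1
  have hm1 : m = 1 := by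
    have hdvd : m ∣ 1 := ⟨_, h1⟩
    exact Int.eq_one_of_dvd_one hm.le hdvd
  rw [hmf f hf, hm1, one_mul]

open scoped Pointwise in
theorem smul_placeOfValuation (v : Valuation L ℤᵐ⁰)
    (hk : ∀ a : k, v (algebraMap k L a) ≤ 1) (hnt : ∃ x : L, x ≠ 0 ∧ v x ≠ 1)
    (σ : L ≃ₐ[k] L) (hσ : ∀ x, v (σ x) = v x) :
    σ • placeOfValuation (k := k) v hk hnt = placeOfValuation (k := k) v hk hnt := by
  apply Place.ext
  ext x
  rw [Place.smul_toValuationSubring, ValuationSubring.mem_pointwise_smul_iff_inv_smul_mem,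
    placeOfValuation_toValuationSubring, Valuation.mem_valuationSubring_iff,
    Valuation.mem_valuationSubring_iff]
  have : σ⁻¹ • x = σ.symm x := rfl
  rw [this, ← hσ (σ.symm x), AlgEquiv.apply_symm_apply]

end Fermat.Agent.S24
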