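import Fermat.Agent.S24.EmbCount

/-!
# S24 (EC) : places over `t = 0` and orbits of a complete family of embeddings (shim)

The statements of this former SPEC file (`exists_places_of_embeddings`,
`card_places_eq_card_orbits_of_embeddings`) are proved in `Fermat/Agent/S24/EmbCount.lean`
(helper18).
-/
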