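import Mathlib
import Fermat.Agent.S24.BridgeSpec

/-!
# S24 (A-side) : extension of an injective ring hom `RBar N → E` to the function field

Shared by `EmbPoint.lean` and `EmbCusp.lean` (verbatim from helper11's `EmbSpec.lean`).
-/

set_option autoImplicit false
set_option linter.unusedSectionVars false

noncomputable section

namespace Fermat.Agent.S24

open UpperHalfPlane ModularCurve IntermediateField AlgebraicCurve
open scoped MatrixGroups Manifold ModularForm Real

variable (N : ℕ) [NeZero N]

/-- Extension of an injective ring hom `RBar N → E` (`E` a field) to the fraction field. -/
def liftF {E : Type*} [Field E] (φ : RBar N →+* E) (hφ : Function.Injective φ) :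
    modularFunctionFieldBar N →+* E :=
  haveI := isFractionRing_RBar N
  IsFractionRing.lift (A := RBar N) (K := modularFunctionFieldBar N) hφ

theorem liftF_apply {E : Type*} [Field E] (φ : RBar N →+* E) (hφ : Function.Injective φ)
    (x : RBar N) : liftF N φ hφ (x : modularFunctionFieldBar N) = φ x := by
  have := isFractionRing_RBar N
  exact IsFractionRing.lift_algebraMap hφ x

end Fermat.Agent.S24
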