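import Mathlib
import Fermat.Agent.S24.DegreeSpec
import Fermat.Agent.S24.EmbCountSpec
import Fermat.Agent.S24.PlacesGen
import Fermat.Agent.S24.EmbDefs

/-!
# S24 (A-side) : number of places of `Qbar(j(q^d), d ∣ N)` over `j = ∞`

`card_places_infty` : the number of places with `ord j < 0` is the number of `⟨T⟩`-orbits on
`SL(2,ℤ) ⧸ Γ₀(N)`.
-/

set_option autoImplicit false
set_option linter.unusedSectionVars false

noncomputable section

namespace Fermat.Agent.S24

open UpperHalfPlane ModularCurve IntermediateField AlgebraicCurve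
open scoped MatrixGroups Manifold ModularForm Real

variable (N : ℕ) [NeZero N]

theorem embcusp_coeffMap_injective {R S : Type*} [CommRing R] [CommRing S] (f : R →+* S)
    (hf : Function.Injective f) : Function.Injective (coeffMap f) := by
  intro x y h
  ext k
  have h1 := congrArg (fun z => z.coeff k) h
  simp only [coeffMap_coeff] at h1
  exact hf h1

theorem embcusp_coeffMap_C {R S : Type*} [CommRing R] [CommRing S] (f : R →+* S) (c : R) :
    coeffMap f (HahnSeries.C c) = HahnSeries.C (f c) := by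
  rw [HahnSeries.C_apply, HahnSeries.C_apply, coeffMap_single]

theorem cuspHomC_injective (g : SL(2, ℤ)) :
    Function.Injective ((coeffMap iotaBar).comp (cuspHom N g)) := by
  rw [RingHom.coe_comp]
  exact (embcusp_coeffMap_injective iotaBar iotaBar_injective).comp (cuspHom_injective N g)

/-- Expansion at `i∞` of the conjugate by `g`, on the whole function field. -/
def cuspEmb (g : SL(2, ℤ)) : modularFunctionFieldBar N →+* LaurentSeries ℂ :=
  liftF N ((coeffMap iotaBar).comp (cuspHom N g)) (cuspHomC_injective N g)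

theorem cuspEmb_coe (g : SL(2, ℤ)) (x : RBar N) :
    cuspEmb N g (x : modularFunctionFieldBar N) = coeffMap iotaBar (cuspHom N g x) :=
  liftF_apply N _ _ x

/-- Two ring homs on the function field which agree on `RBar N` are equal. -/
theorem embcusp_ringHom_ext {E : Type*} [Field E] {φ ψ : modularFunctionFieldBar N →+* E}
    (h : ∀ x : RBar N, φ (x : modularFunctionFieldBar N) = ψ (x : modularFunctionFieldBar N)) :
    φ = ψ := by
  have := isFractionRing_RBar N
  refine IsLocalization.ringHom_ext (nonZeroDivisors (RBar N)) ?_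
  ext x
  exact h x

theorem cuspEmb_algebraMap (g : SL(2, ℤ)) (c : QBar) :
    cuspEmb N g (algebraMap QBar (modularFunctionFieldBar N) c) = HahnSeries.C (iotaBar c) := by
  have h : algebraMap QBar (modularFunctionFieldBar N) c =
      ((algebraMap QBar (RBar N) c : RBar N) : modularFunctionFieldBar N) := rfl
  rw [h, cuspEmb_coe, cuspHom_algebraMap, embcusp_coeffMap_C]

theorem cuspEmb_jBar (g : SL(2, ℤ)) :
    cuspEmb N g (jBar N) = coeffMap iotaBar (qExpand QBar N (coeffEmb QBar jq)) := by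
  have h : jBar N = ((⟨jBar N, jBar_mem_RBar N⟩ : RBar N) : modularFunctionFieldBar N) := rfl
  rw [h, cuspEmb_coe, cuspHom_jBar]


/-- The expansion of `j` in the parameter `exp(2πiτ/N)` has a pole of order `N`. -/
theorem embcusp_order_jBar :
    (coeffMap iotaBar (qExpand QBar N (coeffEmb QBar jq))).order = -(N : ℤ) := by
  set X : LaurentSeries ℂ := coeffMap iotaBar (qExpand QBar N (coeffEmb QBar jq)) with hX
  have hcoeff : X.coeff (-(N : ℤ)) = 1 := by
    have h1 : -(N : ℤ) = (N : ℤ) * (-1) := by ring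
    rw [hX, coeffMap_coeff, h1, qExpand_coeff_mul, coeffEmb_coeff, coeff_jq_neg_one, map_one,
      map_one]
  have hzero : ∀ m : ℤ, m < -(N : ℤ) → X.coeff m = 0 := by
    intro m hm
    rw [hX, coeffMap_coeff]
    by_cases hdvd : (N : ℤ) ∣ m
    · obtain ⟨k, rfl⟩ := hdvd
      have hNpos : (0 : ℤ) < N := by exact_mod_cast NeZero.pos N
      have hk : k < -1 := by
        by_contra hk
        push Not at hk
        have : (N : ℤ) * (-1) ≤ (N : ℤ) * k := mul_le_mul_of_nonneg_left hk hNpos.le
        linarith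
      rw [qExpand_coeff_mul, coeffEmb_coeff, coeff_jq_of_lt hk, map_zero, map_zero]
    · rw [qExpand_coeff_of_not_dvd N _ hdvd, map_zero]
  have hne : X ≠ 0 := by
    intro h0
    rw [h0] at hcoeff
    simp at hcoeff
  apply le_antisymm
  · exact HahnSeries.order_le_of_coeff_ne_zero (by rw [hcoeff]; exact one_ne_zero)
  · by_contra hlt
    push Not at hlt
    exact hne (HahnSeries.coeff_order_eq_zero.mp (hzero _ hlt))


theorem embcusp_order_inv {x : LaurentSeries ℂ} (hx : x ≠ 0) : x⁻¹.order = -x.order := by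
  have h1 : x * x⁻¹ = 1 := mul_inv_cancel₀ hx
  have h2 := HahnSeries.order_mul hx (inv_ne_zero hx)
  rw [h1, HahnSeries.order_one] at h2
  linarith

theorem cuspEmb_jBar_inv_order (g : SL(2, ℤ)) :
    (cuspEmb N g (jBar N)⁻¹).order = (N : ℤ) := by
  rw [map_inv₀, cuspEmb_jBar]
  have hne : coeffMap iotaBar (qExpand QBar N (coeffEmb QBar jq)) ≠ 0 := by
    intro h0
    have h1 := embcusp_order_jBar N
    rw [h0, HahnSeries.order_zero] at h1
    have hNpos : (0 : ℤ) < N := by exact_mod_cast NeZero.pos N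
    linarith
  rw [embcusp_order_inv hne, embcusp_order_jBar, neg_neg]

/-- `cuspEmb` depends only on the coset. -/
theorem cuspEmb_mul_of_mem_Gamma0 (g γ : SL(2, ℤ)) (hγ : γ ∈ CongruenceSubgroup.Gamma0 N) :
    cuspEmb N (g * γ) = cuspEmb N g := by
  refine embcusp_ringHom_ext N fun x => ?_
  rw [cuspEmb_coe, cuspEmb_coe, cuspHom_mul_of_mem_Gamma0 N g γ hγ]

/-- Distinct cosets give distinct embeddings. -/
theorem mem_Gamma0_of_cuspEmb_eq (g g' : SL(2, ℤ)) (h : cuspEmb N g = cuspEmb N g') :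
    g⁻¹ * g' ∈ CongruenceSubgroup.Gamma0 N := by
  refine mem_Gamma0_of_cuspHom_eq N g g' (RingHom.ext fun x => ?_)
  have h1 := congrArg (fun φ : modularFunctionFieldBar N →+* LaurentSeries ℂ =>
    φ (x : modularFunctionFieldBar N)) h
  simp only [cuspEmb_coe] at h1
  exact embcusp_coeffMap_injective iotaBar iotaBar_injective h1

/-- Left multiplication by `T⁻¹` rotates the embedding. -/
theorem cuspEmb_T_inv_mul (g : SL(2, ℤ)) (ζ : ℂˣ)
    (hζ : (ζ : ℂ) = Complex.exp (2 * π * Complex.I / N)) (f : modularFunctionFieldBar N) :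
    rotLaurent ζ (cuspEmb N g f) = cuspEmb N (ModularGroup.T⁻¹ * g) f := by
  have h : (rotLaurent ζ).comp (cuspEmb N g) = cuspEmb N (ModularGroup.T⁻¹ * g) := by
    refine embcusp_ringHom_ext N fun x => ?_
    rw [RingHom.comp_apply, cuspEmb_coe, cuspEmb_coe, cuspHom_T_inv_mul N g x ζ hζ]
  exact congrArg (fun φ : modularFunctionFieldBar N →+* LaurentSeries ℂ => φ f) h

/-- The orbits of the permutation `x ↦ g⁻¹ • x` are the orbits of the cyclic group generated by
`g`. -/
theorem embcusp_orbitRel_toPerm_inv {G X : Type*} [Group G] [MulAction G X] (g : G) (a b : X) :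
    MulAction.orbitRel (Subgroup.zpowers (MulAction.toPerm g⁻¹ : Equiv.Perm X)) X a b ↔
      MulAction.orbitRel (Subgroup.zpowers g) X a b := by
  have hpow : ∀ k : ℤ, (MulAction.toPerm g⁻¹ : Equiv.Perm X) ^ k = MulAction.toPerm (g ^ (-k)) := by
    intro k
    have h1 := map_zpow (MulAction.toPermHom G X) g⁻¹ k
    rw [MulAction.toPermHom_apply, MulAction.toPermHom_apply] at h1
    rw [← h1, inv_zpow, zpow_neg]
  rw [MulAction.orbitRel_apply, MulAction.orbitRel_apply, MulAction.mem_orbit_iff,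
    MulAction.mem_orbit_iff]
  constructor
  · rintro ⟨⟨_, k, rfl⟩, h⟩
    refine ⟨⟨g ^ (-k), -k, rfl⟩, ?_⟩
    rw [Subgroup.smul_def] at h ⊢
    simp only at h ⊢
    rw [hpow k] at h
    exact h
  · rintro ⟨⟨_, k, rfl⟩, h⟩
    refine ⟨⟨(MulAction.toPerm g⁻¹ : Equiv.Perm X) ^ (-k), -k, rfl⟩, ?_⟩
    rw [Subgroup.smul_def] at h ⊢
    simp only at h ⊢
    rw [hpow (-k), neg_neg]
    exact h

/-- Number of places over `j = ∞`. -/
theorem card_places_infty :
    Nat.card {v : Place QBar (modularFunctionFieldBar N) // v.ord (jBar N) < 0} =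
      Nat.card (MulAction.orbitRel.Quotient (Subgroup.zpowers ModularGroup.T)
        (SL(2, ℤ) ⧸ CongruenceSubgroup.Gamma0 N)) := by
  classical
  have : Finite (SL(2, ℤ) ⧸ CongruenceSubgroup.Gamma0 N) := finite_quotient_Gamma0 N
  let _ : Fintype (SL(2, ℤ) ⧸ CongruenceSubgroup.Gamma0 N) := Fintype.ofFinite _
  have ht : IsSepGen QBar (jBar N)⁻¹ := (isSepGen_jBar N).inv
  obtain ⟨ζ, hζ⟩ : ∃ ζ : ℂˣ, (ζ : ℂ) = Complex.exp (2 * π * Complex.I / N) :=
    ⟨Units.mk0 _ (Complex.exp_ne_zero _), rfl⟩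
  have hζprim : IsPrimitiveRoot (ζ : ℂ) N := by
    rw [hζ]
    exact Complex.isPrimitiveRoot_exp N (NeZero.ne N)
  -- the family of embeddings
  have hout : ∀ (g : SL(2, ℤ)),
      cuspEmb N (QuotientGroup.mk g : SL(2, ℤ) ⧸ CongruenceSubgroup.Gamma0 N).out =
        cuspEmb N g := by
    intro g
    obtain ⟨γ, hγ⟩ := QuotientGroup.mk_out_eq_mul (CongruenceSubgroup.Gamma0 N) g
    rw [hγ]
    exact cuspEmb_mul_of_mem_Gamma0 N g γ γ.2
  have key := card_places_eq_card_orbits_of_embeddings ht
    (ι := SL(2, ℤ) ⧸ CongruenceSubgroup.Gamma0 N) (fun q => cuspEmb N q.out)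
    (by
      intro q q' h
      have h1 := mem_Gamma0_of_cuspEmb_eq N q.out q'.out h
      have h2 : (QuotientGroup.mk q.out : SL(2, ℤ) ⧸ CongruenceSubgroup.Gamma0 N) =
          QuotientGroup.mk q'.out := QuotientGroup.eq.mpr h1
      rwa [QuotientGroup.out_eq', QuotientGroup.out_eq'] at h2)
    (by
      rw [(isSepGen_jBar N).finrank_inv, finrank_jBar, Nat.card_eq_fintype_card])
    (fun i j c => by rw [cuspEmb_algebraMap, cuspEmb_algebraMap])
    (fun i c hc => by
      rw [cuspEmb_algebraMap, HahnSeries.C_apply]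
      exact HahnSeries.order_single (fun h => hc (iotaBar_injective (by rw [h, map_zero]))))
    (fun i j => by rw [map_inv₀, map_inv₀, cuspEmb_jBar, cuspEmb_jBar])
    N (NeZero.pos N) (fun i => cuspEmb_jBar_inv_order N _)
    (ζ : ℂ) hζprim (rotLaurent ζ) (rotLaurent_coeff ζ)
    (MulAction.toPerm (ModularGroup.T⁻¹ : SL(2, ℤ)))
    (by
      intro q f
      rw [cuspEmb_T_inv_mul N _ ζ hζ]
      have h1 : (MulAction.toPerm (ModularGroup.T⁻¹ : SL(2, ℤ)) q :
          SL(2, ℤ) ⧸ CongruenceSubgroup.Gamma0 N) =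
          QuotientGroup.mk (ModularGroup.T⁻¹ * q.out) := by
        conv_lhs => rw [← QuotientGroup.out_eq' q]
        rfl
      rw [h1, hout])
  have hL : Nat.card {v : Place QBar (modularFunctionFieldBar N) // v.ord (jBar N) < 0} =
      Nat.card {v : Place QBar (modularFunctionFieldBar N) // 0 < v.ord (jBar N)⁻¹} := by
    refine Nat.card_congr (Equiv.subtypeEquivRight fun v => ?_)
    rw [Place.ord_inv]
    omega
  have hR : Nat.card (MulAction.orbitRel.Quotient
      (Subgroup.zpowers (MulAction.toPerm (ModularGroup.T⁻¹ : SL(2, ℤ)) :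
        Equiv.Perm (SL(2, ℤ) ⧸ CongruenceSubgroup.Gamma0 N)))
      (SL(2, ℤ) ⧸ CongruenceSubgroup.Gamma0 N)) =
      Nat.card (MulAction.orbitRel.Quotient (Subgroup.zpowers ModularGroup.T)
        (SL(2, ℤ) ⧸ CongruenceSubgroup.Gamma0 N)) :=
    Nat.card_congr (Quotient.congr (Equiv.refl _) fun a b =>
      embcusp_orbitRel_toPerm_inv ModularGroup.T a b)
  rw [hL, key, hR]

end Fermat.Agent.S24
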