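import Fermat.Agent.S24.Taylor

/-!
# S24 (A-side) : Taylor expansion at a point of `ℍ` (shim)

The statements of this former SPEC file are proved in `Fermat/Agent/S24/Taylor.lean` (helper15):
`rotFactor`, `exists_taylorDisc`, `taylorDisc`, `taylorDisc_injective`, `taylorDisc_algebraMap`,
`order_taylorDisc`, `constantCoeff_taylorDisc`, `taylorDisc_inv_smul`, `rotFactor_S`,
`isPrimitiveRoot_rotFactor_ST`.
-/
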