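import Mathlib
import Fermat.Agent.S24.DegreeSpec
import Fermat.Agent.S24.TaylorSpec
import Fermat.Agent.S24.EmbCountSpec
import Fermat.Agent.S24.PlacesGen
import Fermat.Agent.S24.JDeriv
import Fermat.Agent.S24.EmbDefs

/-!
# S24 (A-side) : number of places of `Qbar(j(q^d), d ∣ N)` over a finite value of `j`

`card_places_of_point` : if `jFun τ₀ = iotaBar a`, `γ₀` fixes `τ₀`, `j - a` vanishes to order `e`
at `τ₀` and the rotation factor of `γ₀` at `τ₀` is a primitive `e`-th root of unity, then the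
number of places over `j = a` is the number of `⟨γ₀⟩`-orbits on `SL(2,ℤ) ⧸ Γ₀(N)`.
-/

set_option autoImplicit false
set_option linter.unusedSectionVars false

noncomputable section

namespace Fermat.Agent.S24

open UpperHalfPlane ModularCurve IntermediateField AlgebraicCurve
open scoped MatrixGroups Manifold ModularForm Real

variable (N : ℕ) [NeZero N]

/-- The ring hom `x ↦` Taylor expansion at `τ₀` of `g • toHol x`. -/
def pointHom (τ₀ : ℍ) (g : SL(2, ℤ)) : RBar N →+* LaurentSeries ℂ :=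
  (HahnSeries.ofPowerSeries ℤ ℂ).comp
    ((taylorDisc τ₀).comp ((MulSemiringAction.toRingHom SL(2, ℤ) HolRing g).comp (toHol N)))

theorem pointHom_apply (τ₀ : ℍ) (g : SL(2, ℤ)) (x : RBar N) :
    pointHom N τ₀ g x = HahnSeries.ofPowerSeries ℤ ℂ (taylorDisc τ₀ (g • toHol N x)) := rfl

theorem pointHom_injective (τ₀ : ℍ) (g : SL(2, ℤ)) : Function.Injective (pointHom N τ₀ g) := by
  intro x y hxy
  rw [pointHom_apply, pointHom_apply] at hxy
  have h1 := taylorDisc_injective τ₀ (HahnSeries.ofPowerSeries_injective hxy)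
  exact toHol_injective N (MulAction.injective g h1)

/-- Taylor expansion at `τ₀` of the conjugate by `g`, on the whole function field. -/
def pointEmb (τ₀ : ℍ) (g : SL(2, ℤ)) : modularFunctionFieldBar N →+* LaurentSeries ℂ :=
  liftF N (pointHom N τ₀ g) (pointHom_injective N τ₀ g)

theorem pointEmb_coe (τ₀ : ℍ) (g : SL(2, ℤ)) (x : RBar N) :
    pointEmb N τ₀ g (x : modularFunctionFieldBar N) =
      HahnSeries.ofPowerSeries ℤ ℂ (taylorDisc τ₀ (g • toHol N x)) :=
  liftF_apply N _ _ x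

/-- Two ring homs on the function field which agree on `RBar N` are equal. -/
theorem ringHom_ext_of_RBar {E : Type*} [Field E] (φ ψ : modularFunctionFieldBar N →+* E)
    (h : ∀ x : RBar N, φ (x : modularFunctionFieldBar N) = ψ (x : modularFunctionFieldBar N)) :
    φ = ψ := by
  have := isFractionRing_RBar N
  apply IsLocalization.ringHom_ext (nonZeroDivisors (RBar N))
  ext x
  exact h x

/-- Rotation of Laurent series restricted to power series is rescaling. -/
theorem rotLaurent_ofPowerSeries (ζ : ℂˣ) (p : PowerSeries ℂ) :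
    rotLaurent ζ (HahnSeries.ofPowerSeries ℤ ℂ p) =
      HahnSeries.ofPowerSeries ℤ ℂ (PowerSeries.rescale (ζ : ℂ) p) := by
  ext m
  rw [rotLaurent_coeff]
  rcases le_or_gt 0 m with hm | hm
  · lift m to ℕ using hm
    rw [HahnSeries.ofPowerSeries_apply_coeff, HahnSeries.ofPowerSeries_apply_coeff,
      PowerSeries.coeff_rescale, zpow_natCast]
  · rw [ofPowerSeries_coeff_of_neg _ hm, ofPowerSeries_coeff_of_neg _ hm, mul_zero]

/-- The order of a power series viewed as a Laurent series. -/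
theorem order_ofPowerSeries_of_order_eq (p : PowerSeries ℂ) (n : ℕ) (hp : p.order = n) :
    (HahnSeries.ofPowerSeries ℤ ℂ p).order = (n : ℤ) := by
  rw [PowerSeries.order_eq_nat] at hp
  obtain ⟨h1, h2⟩ := hp
  have hcoeff : (HahnSeries.ofPowerSeries ℤ ℂ p).coeff (n : ℤ) ≠ 0 := by
    rw [HahnSeries.ofPowerSeries_apply_coeff]; exact h1
  have hne : HahnSeries.ofPowerSeries ℤ ℂ p ≠ 0 := by
    intro h0; rw [h0] at hcoeff; exact hcoeff rfl
  apply le_antisymm (HahnSeries.order_le_of_coeff_ne_zero hcoeff)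
  rw [HahnSeries.le_order_iff_forall hne]
  intro j hj
  rcases le_or_gt 0 j with hm | hm
  · obtain ⟨k, hk⟩ := Int.eq_ofNat_of_zero_le hm
    rw [hk, HahnSeries.ofPowerSeries_apply_coeff]
    apply h2
    rw [hk] at hj
    exact_mod_cast hj
  · exact ofPowerSeries_coeff_of_neg _ hm

theorem embPoint_smul_C (γ : SL(2, ℤ)) (a : ℂ) : γ • HolRing.C a = HolRing.C a := by
  apply Subtype.ext
  funext τ
  rfl

theorem pointEmb_algebraMap (τ₀ : ℍ) (g : SL(2, ℤ)) (c : QBar) :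
    pointEmb N τ₀ g (algebraMap QBar (modularFunctionFieldBar N) c) =
      HahnSeries.C (iotaBar c) := by
  have h1 : algebraMap QBar (modularFunctionFieldBar N) c =
      ((algebraMap QBar (RBar N) c : RBar N) : modularFunctionFieldBar N) := rfl
  rw [h1, pointEmb_coe, toHol_algebraMap, embPoint_smul_C, ← HolRing.algebraMap_eq,
    taylorDisc_algebraMap, HahnSeries.ofPowerSeries_C]

theorem pointEmb_jBar (τ₀ : ℍ) (g : SL(2, ℤ)) :
    pointEmb N τ₀ g (jBar N) = HahnSeries.ofPowerSeries ℤ ℂ (taylorDisc τ₀ jHol) := by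
  have h1 : jBar N = ((⟨jBar N, jBar_mem_RBar N⟩ : RBar N) : modularFunctionFieldBar N) := rfl
  rw [h1, pointEmb_coe, toHol_jBar, smul_jHol]

theorem pointEmb_jBar_sub (τ₀ : ℍ) (g : SL(2, ℤ)) (a : QBar) :
    pointEmb N τ₀ g (jBar N - algebraMap QBar (modularFunctionFieldBar N) a) =
      HahnSeries.ofPowerSeries ℤ ℂ (taylorDisc τ₀ (jHol - HolRing.C (iotaBar a))) := by
  rw [map_sub, pointEmb_jBar, pointEmb_algebraMap, map_sub, map_sub, ← HolRing.algebraMap_eq,
    taylorDisc_algebraMap, HahnSeries.ofPowerSeries_C]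

theorem order_pointEmb_jBar_sub (τ₀ : ℍ) (g : SL(2, ℤ)) (a : QBar) (hτ₀ : jFun τ₀ = iotaBar a)
    (e : ℕ)
    (he : analyticOrderAt (fun z : ℂ => jFun (ofComplex z) - jFun τ₀) (τ₀ : ℂ) = e) :
    (pointEmb N τ₀ g (jBar N - algebraMap QBar (modularFunctionFieldBar N) a)).order = (e : ℤ) := by
  rw [pointEmb_jBar_sub]
  apply order_ofPowerSeries_of_order_eq
  rw [order_taylorDisc, ← he, hτ₀]
  rfl

theorem pos_of_analyticOrderAt_jFun_sub (τ₀ : ℍ) (e : ℕ)
    (he : analyticOrderAt (fun z : ℂ => jFun (ofComplex z) - jFun τ₀) (τ₀ : ℂ) = e) : 0 < e := by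
  rcases Nat.eq_zero_or_pos e with h0 | h0
  · exfalso
    rw [h0] at he
    have han : AnalyticAt ℂ (fun z : ℂ => jFun (ofComplex z) - jFun τ₀) (τ₀ : ℂ) :=
      (analyticAt_comp_ofComplex mdifferentiable_jFun τ₀).sub analyticAt_const
    have := (han.analyticOrderAt_eq_zero).mp (by exact_mod_cast he)
    apply this
    simp
  · exact h0

/-- Representatives: the chosen representative of `γ • q` is `γ * q.out` up to `Γ₀(N)`. -/
theorem exists_out_smul_eq (γ : SL(2, ℤ)) (q : SL(2, ℤ) ⧸ CongruenceSubgroup.Gamma0 N) :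
    ∃ h ∈ CongruenceSubgroup.Gamma0 N, (γ • q).out = γ * q.out * h := by
  have h1 : (((γ • q).out : SL(2, ℤ)) : SL(2, ℤ) ⧸ CongruenceSubgroup.Gamma0 N) = γ • q :=
    QuotientGroup.out_eq' _
  have h2 : γ • q = ((γ * q.out : SL(2, ℤ)) : SL(2, ℤ) ⧸ CongruenceSubgroup.Gamma0 N) := by
    conv_lhs => rw [← QuotientGroup.out_eq' q]
    rfl
  have h3 := QuotientGroup.eq.mp (h2.symm.trans h1.symm)
  refine ⟨(γ * q.out)⁻¹ * (γ • q).out, h3, ?_⟩
  group

/-- `pointEmb` depends only on the left coset. -/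
theorem pointEmb_mul_of_mem_Gamma0 (τ₀ : ℍ) (g h : SL(2, ℤ))
    (hh : h ∈ CongruenceSubgroup.Gamma0 N) : pointEmb N τ₀ (g * h) = pointEmb N τ₀ g := by
  apply ringHom_ext_of_RBar
  intro x
  rw [pointEmb_coe, pointEmb_coe, mul_smul, smul_toHol_of_mem_Gamma0 N h hh]

/-- Rotation of the Taylor expansion = translation of the coset by the stabiliser. -/
theorem rotLaurent_pointEmb (τ₀ : ℍ) (γ₀ : SL(2, ℤ)) (hγ₀ : γ₀ • τ₀ = τ₀) (ζ : ℂˣ)
    (hζ : (ζ : ℂ) = rotFactor γ₀ τ₀) (g : SL(2, ℤ)) (f : modularFunctionFieldBar N) :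
    rotLaurent ζ (pointEmb N τ₀ g f) = pointEmb N τ₀ (γ₀⁻¹ * g) f := by
  have key : (rotLaurent ζ).comp (pointEmb N τ₀ g) = pointEmb N τ₀ (γ₀⁻¹ * g) := by
    apply ringHom_ext_of_RBar
    intro x
    rw [RingHom.comp_apply, pointEmb_coe, pointEmb_coe, rotLaurent_ofPowerSeries, hζ,
      ← taylorDisc_inv_smul τ₀ γ₀ hγ₀, mul_smul]
  exact congrArg (fun φ => φ f) key

/-- Distinct cosets give distinct Taylor expansions. -/
theorem mem_Gamma0_of_pointEmb_eq (τ₀ : ℍ) (g g' : SL(2, ℤ))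
    (h : pointEmb N τ₀ g = pointEmb N τ₀ g') : g'⁻¹ * g ∈ CongruenceSubgroup.Gamma0 N := by
  apply mem_Gamma0_of_smul_jdHol
  set x : RBar N := ⟨jdBar N N (dvd_refl N), jdBar_mem_RBar N N (dvd_refl N)⟩ with hx
  have h1 : pointEmb N τ₀ g (x : modularFunctionFieldBar N) =
      pointEmb N τ₀ g' (x : modularFunctionFieldBar N) := by rw [h]
  rw [pointEmb_coe, pointEmb_coe, hx, toHol_jdBar] at h1
  have h2 := taylorDisc_injective τ₀ (HahnSeries.ofPowerSeries_injective h1)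
  rw [mul_smul, h2, inv_smul_smul]

theorem pointEmb_out_injective (τ₀ : ℍ) :
    Function.Injective (fun q : SL(2, ℤ) ⧸ CongruenceSubgroup.Gamma0 N =>
      pointEmb N τ₀ q.out) := by
  intro q q' h
  have h1 := mem_Gamma0_of_pointEmb_eq N τ₀ q.out q'.out h
  have h2 : ((q'.out : SL(2, ℤ)) : SL(2, ℤ) ⧸ CongruenceSubgroup.Gamma0 N) =
      ((q.out : SL(2, ℤ)) : SL(2, ℤ) ⧸ CongruenceSubgroup.Gamma0 N) := QuotientGroup.eq.mpr h1
  rw [QuotientGroup.out_eq', QuotientGroup.out_eq'] at h2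
  exact h2.symm

/-- The orbits of the permutation `q ↦ γ⁻¹ • q` are the orbits of `γ`. -/
theorem card_orbits_toPerm_inv {G α : Type*} [Group G] [MulAction G α] (γ : G) :
    Nat.card (MulAction.orbitRel.Quotient (Subgroup.zpowers (MulAction.toPerm γ⁻¹ : Equiv.Perm α))
      α) = Nat.card (MulAction.orbitRel.Quotient (Subgroup.zpowers γ) α) := by
  have hpow : ∀ (k : ℤ) (b : α), ((MulAction.toPerm γ⁻¹ : Equiv.Perm α) ^ k) b = γ ^ (-k) • b := by
    intro k b
    have h1 : (MulAction.toPerm γ⁻¹ : Equiv.Perm α) ^ k = MulAction.toPerm ((γ⁻¹) ^ k) := by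
      rw [← MulAction.toPermHom_apply, ← map_zpow, MulAction.toPermHom_apply]
    rw [h1, MulAction.toPerm_apply, inv_zpow, zpow_neg]
  apply Nat.card_congr
  refine Quotient.congr (Equiv.refl α) ?_
  intro a b
  simp only [Equiv.refl_apply]
  show a ∈ MulAction.orbit _ b ↔ a ∈ MulAction.orbit _ b
  rw [MulAction.mem_orbit_iff, MulAction.mem_orbit_iff]
  constructor
  · rintro ⟨⟨s, hs⟩, hsb⟩
    obtain ⟨k, rfl⟩ := Subgroup.mem_zpowers_iff.mp hs
    refine ⟨⟨γ ^ (-k), Subgroup.zpow_mem_zpowers γ (-k)⟩, ?_⟩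
    rw [← hsb]
    exact (hpow k b).symm
  · rintro ⟨⟨s, hs⟩, hsb⟩
    obtain ⟨k, rfl⟩ := Subgroup.mem_zpowers_iff.mp hs
    refine ⟨⟨(MulAction.toPerm γ⁻¹ : Equiv.Perm α) ^ (-k), Subgroup.zpow_mem_zpowers _ (-k)⟩, ?_⟩
    rw [← hsb]
    have := hpow (-k) b
    rw [neg_neg] at this
    exact this

/-- Number of places over `j = a`. -/
theorem card_places_of_point (a : QBar) (τ₀ : ℍ) (hτ₀ : jFun τ₀ = iotaBar a)
    (γ₀ : SL(2, ℤ)) (hγ₀ : γ₀ • τ₀ = τ₀) (e : ℕ)
    (he : analyticOrderAt (fun z : ℂ => jFun (ofComplex z) - jFun τ₀) (τ₀ : ℂ) = e)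
    (hζ : IsPrimitiveRoot (rotFactor γ₀ τ₀) e) :
    Nat.card {v : Place QBar (modularFunctionFieldBar N) //
        0 < v.ord (jBar N - algebraMap QBar (modularFunctionFieldBar N) a)} =
      Nat.card (MulAction.orbitRel.Quotient (Subgroup.zpowers γ₀)
        (SL(2, ℤ) ⧸ CongruenceSubgroup.Gamma0 N)) := by
  have hfin : Finite (SL(2, ℤ) ⧸ CongruenceSubgroup.Gamma0 N) := finite_quotient_Gamma0 N
  let _inst : Fintype (SL(2, ℤ) ⧸ CongruenceSubgroup.Gamma0 N) := Fintype.ofFinite _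
  have hepos : 0 < e := pos_of_analyticOrderAt_jFun_sub τ₀ e he
  have hζ0 : rotFactor γ₀ τ₀ ≠ 0 := hζ.ne_zero hepos.ne'
  set ζ : ℂˣ := Units.mk0 (rotFactor γ₀ τ₀) hζ0 with hζdef
  have hζval : (ζ : ℂ) = rotFactor γ₀ τ₀ := rfl
  have ht : IsSepGen QBar (jBar N - algebraMap QBar (modularFunctionFieldBar N) a) :=
    (isSepGen_jBar N).sub_algebraMap a
  refine Eq.trans ?_
    (card_orbits_toPerm_inv (α := SL(2, ℤ) ⧸ CongruenceSubgroup.Gamma0 N) γ₀)
  apply card_places_eq_card_orbits_of_embeddings ht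
    (fun q : SL(2, ℤ) ⧸ CongruenceSubgroup.Gamma0 N => pointEmb N τ₀ q.out)
    (pointEmb_out_injective N τ₀) _ _ _ _ e hepos _ (rotFactor γ₀ τ₀) hζ (rotLaurent ζ) _
    (MulAction.toPerm γ₀⁻¹)
  · -- hσ
    intro q f
    rw [rotLaurent_pointEmb N τ₀ γ₀ hγ₀ ζ hζval]
    obtain ⟨h, hh, hout⟩ := exists_out_smul_eq N γ₀⁻¹ q
    show _ = pointEmb N τ₀ (γ₀⁻¹ • q).out f
    rw [hout, pointEmb_mul_of_mem_Gamma0 N τ₀ _ h hh]
  · -- hcard
    rw [(isSepGen_jBar N).finrank_sub_algebraMap a, finrank_jBar, Fintype.card_eq_nat_card]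
  · -- hK
    intro i j c
    rw [pointEmb_algebraMap, pointEmb_algebraMap]
  · -- hKord
    intro i c hc
    rw [pointEmb_algebraMap, HahnSeries.C_apply]
    apply HahnSeries.order_single
    intro h0
    exact hc (iotaBar_injective (by rw [h0, map_zero]))
  · -- ht'
    intro i j
    rw [pointEmb_jBar_sub, pointEmb_jBar_sub]
  · -- hord
    intro i
    exact order_pointEmb_jBar_sub N τ₀ _ a hτ₀ e he
  · -- hR
    intro f m
    rw [rotLaurent_coeff, hζval]

end Fermat.Agent.S24
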