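import Fermat.Agent.S24.EmbDefs
import Fermat.Agent.S24.EmbPoint
import Fermat.Agent.S24.EmbCusp

/-!
# S24 (A-side) : number of places over a value of `j` (shim)

The statements of this former SPEC file are proved in `Fermat/Agent/S24/EmbPoint.lean`
(helper21: `pointHom`, `pointHom_injective`, `pointEmb`, `card_places_of_point`) and
`Fermat/Agent/S24/EmbCusp.lean` (helper2: `cuspHomC_injective`, `cuspEmb`, `card_places_infty`);
`liftF` lives in `EmbDefs.lean`.
-/
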