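import Mathlib
import Fermat.Agent.S24.JDeriv

/-!
# S24 (analytic side): `j : ℍ → ℂ` is surjective, and `j · q → 1` at `i∞`

Built on helper21's `Ramanujan.lean` / `JDeriv.lean` and helper11's `ADefs.lean`.
-/

set_option autoImplicit false

noncomputable section

namespace Fermat.Agent.S24

open UpperHalfPlane hiding I
open Real Complex Filter Topology Function
open scoped Manifold MatrixGroups ModularForm
open Derivative EisensteinSeries ModularForm ModularGroup

local notation "Δ" => ModularForm.discriminant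

/-- `j : ℍ → ℂ` is surjective: otherwise `1/(j - c)` would be a level one holomorphic modular form
of weight `0` vanishing at `i∞`, hence zero. -/
theorem jFun_surjective : Function.Surjective jFun := by
  intro c
  by_contra hne
  push Not at hne
  set g : ℍ → ℂ := fun τ => (jFun τ - c)⁻¹ with hg
  have hsub : ∀ τ, jFun τ - c ≠ 0 := fun τ => sub_ne_zero.mpr (hne τ)
  have hgeq : ∀ τ, g τ = Δ τ / (E₄ τ ^ 3 - c * Δ τ) := by
    intro τ
    have hΔ := discriminant_ne_zero τ
    have h1 : jFun τ - c = (E₄ τ ^ 3 - c * Δ τ) / Δ τ := by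
      unfold jFun; field_simp
    simp only [hg, h1, inv_div]
  have hhol : MDiff g := by
    rw [UpperHalfPlane.mdifferentiable_iff]
    have hj := UpperHalfPlane.mdifferentiable_iff.mp mdifferentiable_jFun
    have : g ∘ ofComplex = fun z => ((jFun ∘ ofComplex) z - c)⁻¹ := by
      funext z; rfl
    rw [this]
    exact (hj.sub_const c).inv fun z _ => hsub _
  have htend : Tendsto g atImInfty (𝓝 0) := by
    have h4 : Tendsto (fun τ : ℍ => E₄ τ ^ 3 - c * Δ τ) atImInfty (𝓝 (1 ^ 3 - c * 0)) :=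
      (tendsto_E₄_atImInfty.pow 3).sub (discriminant_isZeroAtImInfty.const_mul c)
    have hq : Tendsto (fun τ : ℍ => Δ τ / (E₄ τ ^ 3 - c * Δ τ)) atImInfty
        (𝓝 (0 / (1 ^ 3 - c * 0))) :=
      Tendsto.div discriminant_isZeroAtImInfty h4 (by norm_num)
    simp only [zero_div] at hq
    exact hq.congr fun τ => (hgeq τ).symm
  have hinv : ∀ γ : SL(2, ℤ), g ∣[(0 : ℤ)] γ = g := by
    intro γ
    funext τ
    rw [ModularForm.SL_slash_apply]
    have := jFun_smul γ τ
    simp only [hg, zpow_zero, mul_one, neg_zero]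
    rw [this]
  let G : ModularForm 𝒮ℒ 0 := levelOneOfInvariant 0 g hinv hhol (htend.isBigO_one ℝ)
  obtain ⟨c', hc'⟩ := ModularFormClass.levelOne_weight_zero_const G
  have hGg : (G : ℍ → ℂ) = g := rfl
  rw [hGg] at hc'
  have hc0 : c' = 0 := by
    rw [hc'] at htend
    exact tendsto_nhds_unique tendsto_const_nhds htend
  have : g UpperHalfPlane.I = 0 := by rw [hc', hc0]; rfl
  exact hsub _ (inv_eq_zero.mp this)

/-- `j` has a simple pole at the cusp: `j · q → 1`. -/
theorem tendsto_jFun_mul_q :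
    Tendsto (fun τ : ℍ => jFun τ * Complex.exp (2 * π * Complex.I * τ)) atImInfty (𝓝 1) := by
  have hprod := tendsto_atImInfty_tprod_one_sub_eta_q_pow
  have h4 : Tendsto (fun τ : ℍ => E₄ τ ^ 3) atImInfty (𝓝 (1 ^ 3)) :=
    tendsto_E₄_atImInfty.pow 3
  have hq : Tendsto (fun τ : ℍ => E₄ τ ^ 3 / ∏' (n : ℕ), (1 - eta_q n τ) ^ 24) atImInfty
      (𝓝 (1 ^ 3 / 1)) := h4.div hprod one_ne_zero
  simp only [one_pow, div_one] at hq
  refine hq.congr fun τ => ?_
  have hΔ := discriminant_ne_zero τ
  have hΔeq := discriminant_eq_q_prod τ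
  have hqne : Periodic.qParam 1 (τ : ℂ) ≠ 0 := Periodic.qParam_ne_zero _
  have hqeq : Periodic.qParam 1 (τ : ℂ) = Complex.exp (2 * π * Complex.I * τ) := by
    simp [Periodic.qParam]
  have hprodne : (∏' (n : ℕ), (1 - eta_q n τ) ^ 24) ≠ 0 := by
    intro h0
    rw [hΔeq, h0, mul_zero] at hΔ
    exact hΔ rfl
  unfold jFun
  rw [hΔeq, ← hqeq]
  field_simp

end Fermat.Agent.S24
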