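import Mathlib
import Fermat.Agent.S24.EmbSpec
import Fermat.Agent.S24.JSurj

/-!
# S24 (A + EC): the places of the function field of `X₀(N)` over `j = 0, 1728, a, ∞`

The four counting statements consumed by the assembly (`Main.lean`), as instances of
`card_places_of_point` / `card_places_infty` (`EmbSpec` → `EmbPoint`, `EmbCusp`):

* `j = 0`     : `τ₀ = ρ`, stabiliser generated by `S T`, ramification `3`;
* `j = 1728`  : `τ₀ = i`, stabiliser generated by `S`, ramification `2`;
* `j = a ≠ 0, 1728` : any `τ₀` with `j τ₀ = a` (surjectivity of `j`), trivial stabiliser;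
* `j = ∞`     : orbits of `T`.

Special values and orders of vanishing: `JDeriv` (helper21), surjectivity: `JSurj` (helper10),
rotation factors: `Taylor` (helper15).
-/

set_option autoImplicit false
set_option linter.unusedSectionVars false

noncomputable section

namespace Fermat.Agent.S24

open UpperHalfPlane ModularCurve IntermediateField AlgebraicCurve
open scoped MatrixGroups Manifold ModularForm Real

/-- The rotation factor of the identity is `1`. -/
theorem rotFactor_one (τ₀ : ℍ) : rotFactor 1 τ₀ = 1 := by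
  have h : (τ₀ : ℂ) ≠ 0 := UpperHalfPlane.ne_zero τ₀
  simp [rotFactor]

/-- Orbits of the trivial cyclic group are points. -/
theorem card_orbits_zpowers_one (G X : Type*) [Group G] [MulAction G X] :
    Nat.card (MulAction.orbitRel.Quotient (Subgroup.zpowers (1 : G)) X) = Nat.card X := by
  refine Nat.card_congr (Equiv.ofBijective (fun x => Quotient.mk'' x) ⟨?_, ?_⟩).symm
  · intro x y hxy
    have h := Quotient.exact' hxy
    rw [MulAction.orbitRel_apply] at h
    obtain ⟨⟨g, hg⟩, hgy⟩ := h
    rw [Subgroup.zpowers_one_eq_bot, Subgroup.mem_bot] at hg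
    subst hg
    simpa using hgy.symm
  · intro q
    induction q using Quotient.inductionOn' with
    | h x => exact ⟨x, rfl⟩

variable (N : ℕ) [NeZero N]

theorem card_places_zero :
    Nat.card {v : Place QBar ↥(modularFunctionFieldBar N) //
      0 < v.ord (jBar N - algebraMap QBar ↥(modularFunctionFieldBar N) 0)} =
      Nat.card (MulAction.orbitRel.Quotient (Subgroup.zpowers (ModularGroup.S * ModularGroup.T))
        (SL(2, ℤ) ⧸ CongruenceSubgroup.Gamma0 N)) := by
  have hτ : jFun ρ = iotaBar 0 := by rw [jFun_ρ, map_zero]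
  refine card_places_of_point N 0 ρ hτ (ModularGroup.S * ModularGroup.T) ST_smul_ρ 3 ?_
    (isPrimitiveRoot_rotFactor_ST ρ ST_smul_ρ)
  rw [analyticOrderAt_jFun_sub, if_pos jFun_ρ]
  rfl

theorem card_places_1728 :
    Nat.card {v : Place QBar ↥(modularFunctionFieldBar N) //
      0 < v.ord (jBar N - algebraMap QBar ↥(modularFunctionFieldBar N) 1728)} =
      Nat.card (MulAction.orbitRel.Quotient (Subgroup.zpowers ModularGroup.S)
        (SL(2, ℤ) ⧸ CongruenceSubgroup.Gamma0 N)) := by
  have hτ : jFun UpperHalfPlane.I = iotaBar 1728 := by rw [jFun_I, map_ofNat]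
  have hζ : IsPrimitiveRoot (rotFactor ModularGroup.S UpperHalfPlane.I) 2 := by
    rw [rotFactor_S _ S_smul_I]
    exact IsPrimitiveRoot.neg_one 0 (by norm_num)
  refine card_places_of_point N 1728 UpperHalfPlane.I hτ ModularGroup.S S_smul_I 2 ?_ hζ
  have h0 : jFun UpperHalfPlane.I ≠ 0 := by rw [jFun_I]; norm_num
  rw [analyticOrderAt_jFun_sub, if_neg h0, if_pos jFun_I]
  rfl

theorem card_places_generic (a : QBar) (ha0 : a ≠ 0) (ha : a ≠ 1728) :
    Nat.card {v : Place QBar ↥(modularFunctionFieldBar N) //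
      0 < v.ord (jBar N - algebraMap QBar ↥(modularFunctionFieldBar N) a)} =
      Nat.card (SL(2, ℤ) ⧸ CongruenceSubgroup.Gamma0 N) := by
  obtain ⟨τ₀, hτ⟩ := jFun_surjective (iotaBar a)
  have h0 : jFun τ₀ ≠ 0 := by
    rw [hτ]
    exact fun h => ha0 (iotaBar.injective (by rw [h, map_zero]))
  have h1 : jFun τ₀ ≠ 1728 := by
    rw [hτ]
    exact fun h => ha (iotaBar.injective (by rw [h, map_ofNat]))
  have hζ : IsPrimitiveRoot (rotFactor 1 τ₀) 1 := by
    rw [rotFactor_one]
    exact IsPrimitiveRoot.one
  rw [← card_orbits_zpowers_one SL(2, ℤ) (SL(2, ℤ) ⧸ CongruenceSubgroup.Gamma0 N)]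
  refine card_places_of_point N a τ₀ hτ 1 (one_smul _ _) 1 ?_ hζ
  rw [analyticOrderAt_jFun_sub, if_neg h0, if_neg h1]
  rfl

theorem card_places_pole :
    Nat.card {v : Place QBar ↥(modularFunctionFieldBar N) // v.ord (jBar N) < 0} =
      Nat.card (MulAction.orbitRel.Quotient (Subgroup.zpowers ModularGroup.T)
        (SL(2, ℤ) ⧸ CongruenceSubgroup.Gamma0 N)) :=
  card_places_infty N

end Fermat.Agent.S24
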