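import Mathlib
import Fermat.Agent.S24.ADefs

/-!
# S24 (A-side) : the `q`-expansion of `j` is the Prelude series

`jFun = E₄³/Δ` (Mathlib) has the expansion `jqModC ℂ = q⁻¹ · eisenstein4³ · (∏(1-qⁿ))⁻²⁴`
(Prelude `Def_ModularCurve_X0`, `Def_ModularCurve_JqCoeff`), on all of `ℍ`.

Steps:
* the Taylor coefficients at `0` of the analytic product `∏ (1 - q^(n+1))` on the unit disc are the
  coefficients of the formal product `etaProd` (locally uniform convergence of the partial
  products, hence convergence of all iterated derivatives at `0`);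
* `q`-expansion of `E₄` from Mathlib;
* `E₄³ / ∏ (1 - q^(n+1))^24` is holomorphic, periodic and bounded at `i∞`, and its `q`-expansion
  is `jNum` by multiplicativity of `q`-expansions;
* shift by `q⁻¹`.
-/

set_option autoImplicit false

noncomputable section

namespace Fermat.Agent.S24

open UpperHalfPlane ModularCurve Function ModularForm
open scoped MatrixGroups Manifold ModularForm Real Topology PowerSeries.WithPiTopology

local notation "𝕢" => Periodic.qParam

/-! ### the formal partial products -/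

/-- the partial products of `∏ (1 - X^(n+1))` as integer polynomials -/
def jexpEtaPoly (N : ℕ) : Polynomial ℤ :=
  ∏ k ∈ Finset.range N, (1 - Polynomial.X ^ (k + 1))

theorem jexp_coe_etaPoly (N : ℕ) :
    ((jexpEtaPoly N : Polynomial ℤ) : PowerSeries ℤ) =
      ∏ k ∈ Finset.range N, (1 - PowerSeries.X ^ (k + 1)) := by
  unfold jexpEtaPoly
  rw [← Polynomial.coeToPowerSeries.ringHom_apply, map_prod]
  refine Finset.prod_congr rfl fun k _ => ?_
  simp

theorem jexp_eventually_coeff_etaPoly (m : ℕ) :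
    ∀ᶠ N in Filter.atTop, (jexpEtaPoly N).coeff m = PowerSeries.coeff m etaProd := by
  have h1 : Filter.Tendsto (fun N : ℕ => ∏ k ∈ Finset.range N,
      ((1 : PowerSeries ℤ) - PowerSeries.X ^ (k + 1))) Filter.atTop (𝓝 etaProd) :=
    (PowerSeries.WithPiTopology.multipliable_one_sub_X_pow ℤ).hasProd.tendsto_prod_nat
  have h2 := ((PowerSeries.WithPiTopology.continuous_coeff ℤ m).tendsto etaProd).comp h1
  rw [nhds_discrete, Filter.tendsto_pure] at h2
  filter_upwards [h2] with N hN
  rw [← hN, Function.comp_apply, ← jexp_coe_etaPoly, Polynomial.coeff_coe]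


/-! ### derivatives at `0` of polynomials and of locally uniform limits -/



theorem jexp_iteratedDeriv_polynomial (P : Polynomial ℂ) (m : ℕ) :
    iteratedDeriv m (fun x : ℂ => P.eval x) = fun x => ((Polynomial.derivative^[m]) P).eval x := by
  induction m with
  | zero => simp
  | succ m ih =>
    rw [iteratedDeriv_succ, ih]
    funext x
    rw [Polynomial.deriv, Function.iterate_succ_apply']

theorem jexp_iteratedDeriv_polynomial_zero (P : Polynomial ℂ) (m : ℕ) :
    iteratedDeriv m (fun x : ℂ => P.eval x) 0 = (m.factorial : ℂ) * P.coeff m := by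
  rw [jexp_iteratedDeriv_polynomial]
  show Polynomial.eval 0 ((⇑Polynomial.derivative)^[m] P) = _
  rw [← Polynomial.coeff_zero_eq_eval_zero,
    Polynomial.coeff_iterate_derivative, zero_add, Nat.descFactorial_self, nsmul_eq_mul]




theorem jexp_tendstoLocallyUniformlyOn_iteratedDeriv {ι : Type*} {φ : Filter ι}
    {F : ι → ℂ → ℂ} {f : ℂ → ℂ} {U : Set ℂ} (hU : IsOpen U)
    (hf : TendstoLocallyUniformlyOn F f φ U) (hF : ∀ n, DifferentiableOn ℂ (F n) U) (m : ℕ) :
    TendstoLocallyUniformlyOn (fun n => iteratedDeriv m (F n)) (iteratedDeriv m f) φ U ∧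
      ∀ n, DifferentiableOn ℂ (iteratedDeriv m (F n)) U := by
  induction m with
  | zero => simpa using ⟨hf, hF⟩
  | succ m ih =>
    obtain ⟨h1, h2⟩ := ih
    refine ⟨?_, fun n => ?_⟩
    · have := h1.deriv (Filter.Eventually.of_forall h2) hU
      simp only [iteratedDeriv_succ]
      exact this
    · rw [iteratedDeriv_succ]
      exact (h2 n).deriv hU


/-! ### the analytic product on the unit disc -/

/-- the analytic infinite product on the unit disc -/
def jexpF (q : ℂ) : ℂ := ∏' n : ℕ, (1 - q ^ (n + 1))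

theorem jexp_eval_etaPoly (N : ℕ) (q : ℂ) :
    ((jexpEtaPoly N).map (Int.castRingHom ℂ)).eval q = ∏ k ∈ Finset.range N, (1 - q ^ (k + 1)) := by
  unfold jexpEtaPoly
  simp [Polynomial.eval_prod, Polynomial.map_prod]

theorem jexp_differentiableOn_F : DifferentiableOn ℂ jexpF (Metric.ball (0 : ℂ) 1) :=
  ModularForm.differentiableOn_tprod_one_sub_pow

theorem jexp_iteratedDeriv_F_zero (m : ℕ) :
    iteratedDeriv m jexpF 0 = (m.factorial : ℂ) * ((PowerSeries.coeff m etaProd : ℤ) : ℂ) := by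
  have h1 : TendstoLocallyUniformlyOn
      (fun (N : ℕ) (q : ℂ) => ((jexpEtaPoly N).map (Int.castRingHom ℂ)).eval q) jexpF
      Filter.atTop (Metric.ball (0 : ℂ) 1) := by
    have := ModularForm.multipliableLocallyUniformlyOn_one_sub_pow.hasProdLocallyUniformlyOn
      |>.tendstoLocallyUniformlyOn_finsetRange
    simp only [jexp_eval_etaPoly]
    exact this
  have h2 := (jexp_tendstoLocallyUniformlyOn_iteratedDeriv Metric.isOpen_ball h1
    (fun N => (Polynomial.differentiable _).differentiableOn) m).1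
  have h3 := h2.tendsto_at (Metric.mem_ball_self one_pos)
  simp only [jexp_iteratedDeriv_polynomial_zero, Polynomial.coeff_map, eq_intCast] at h3
  have h4 : Filter.Tendsto (fun N : ℕ => (m.factorial : ℂ) * (((jexpEtaPoly N).coeff m : ℤ) : ℂ))
      Filter.atTop (𝓝 ((m.factorial : ℂ) * ((PowerSeries.coeff m etaProd : ℤ) : ℂ))) := by
    refine Filter.Tendsto.congr' ?_ tendsto_const_nhds
    filter_upwards [jexp_eventually_coeff_etaPoly m] with N hN
    rw [hN]
  exact tendsto_nhds_unique h3 h4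

theorem jexp_hasSum_F {q : ℂ} (hq : ‖q‖ < 1) :
    HasSum (fun n : ℕ => ((PowerSeries.coeff n etaProd : ℤ) : ℂ) * q ^ n) (jexpF q) := by
  have := Complex.hasSum_taylorSeries_on_ball jexp_differentiableOn_F
    (z := q) (by simpa using hq)
  have e : (fun n : ℕ => ((n.factorial : ℂ))⁻¹ • (q - 0) ^ n • iteratedDeriv n jexpF 0) =
      fun n : ℕ => ((PowerSeries.coeff n etaProd : ℤ) : ℂ) * q ^ n := by
    funext n
    rw [jexp_iteratedDeriv_F_zero, sub_zero, smul_eq_mul, smul_eq_mul]
    have : (n.factorial : ℂ) ≠ 0 := by exact_mod_cast n.factorial_ne_zero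
    field_simp
  rw [e] at this
  exact this


/-! ### functions with a `q`-expansion -/

/-- holomorphic, `1`-periodic, bounded at `i∞` -/
structure JNice (F : ℍ → ℂ) : Prop where
  holo : MDiff F
  periodic : Function.Periodic (F ∘ UpperHalfPlane.ofComplex) ((1 : ℝ) : ℂ)
  bdd : UpperHalfPlane.IsBoundedAtImInfty F

theorem JNice.analyticAt {F : ℍ → ℂ} (hF : JNice F) : AnalyticAt ℂ (cuspFunction 1 F) 0 :=
  analyticAt_cuspFunction_zero one_pos hF.periodic hF.holo hF.bdd

theorem JNice.mul {F G : ℍ → ℂ} (hF : JNice F) (hG : JNice G) : JNice (F * G) where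
  holo := hF.holo.mul hG.holo
  periodic := hF.periodic.mul hG.periodic
  bdd := hF.bdd.mul hG.bdd

theorem JNice.pow {F : ℍ → ℂ} (hF : JNice F) (n : ℕ) : JNice (F ^ n) := by
  induction n with
  | zero =>
    rw [pow_zero]
    exact ⟨mdifferentiable_const, fun _ => rfl, Filter.const_boundedAtFilter _ (1 : ℂ)⟩
  | succ n ih => rw [pow_succ]; exact ih.mul hF

theorem JNice.qExpansion_pow {F : ℍ → ℂ} (hF : JNice F) (n : ℕ) :
    qExpansion 1 (F ^ n) = qExpansion 1 F ^ n := by
  induction n with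
  | zero => simpa using UpperHalfPlane.qExpansion_one 1
  | succ n ih =>
    rw [pow_succ, pow_succ, UpperHalfPlane.qExpansion_mul (hF.pow n).analyticAt hF.analyticAt, ih]

/-- `∏ (1 - q^(n+1))` as a function on the upper half plane -/
def jexpD (τ : ℍ) : ℂ := jexpF (𝕢 1 τ)

theorem jexp_norm_q_lt_one (τ : ℍ) : ‖𝕢 1 (τ : ℂ)‖ < 1 := by
  simpa using UpperHalfPlane.norm_qParam_lt_one 1 τ

theorem jexp_qParam_add_one (z : ℂ) : 𝕢 1 (z + ((1 : ℝ) : ℂ)) = 𝕢 1 z := by
  simp only [Periodic.qParam, Complex.ofReal_one, div_one]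
  rw [mul_add, mul_one, Complex.exp_periodic _]

theorem jexp_hasSum_D (τ : ℍ) :
    HasSum (fun n : ℕ => ((PowerSeries.coeff n etaProd : ℤ) : ℂ) • 𝕢 1 (τ : ℂ) ^ n) (jexpD τ) := by
  simpa only [smul_eq_mul, jexpD] using jexp_hasSum_F (jexp_norm_q_lt_one τ)

theorem jexp_jNice_D : JNice jexpD where
  holo := by
    rw [UpperHalfPlane.mdifferentiable_iff]
    have h1 : DifferentiableOn ℂ (fun z : ℂ => jexpF (𝕢 1 z)) {z | 0 < z.im} := by
      intro z hz
      have hq : 𝕢 1 z ∈ Metric.ball (0 : ℂ) 1 := by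
        simpa using jexp_norm_q_lt_one ⟨z, hz⟩
      exact ((jexp_differentiableOn_F.differentiableAt
        (Metric.isOpen_ball.mem_nhds hq)).comp z (by fun_prop)).differentiableWithinAt
    refine h1.congr fun z hz => ?_
    simp [jexpD, ofComplex_apply_of_im_pos hz]
  periodic := by
    intro z
    simp only [Function.comp_apply]
    by_cases hz : 0 < z.im
    · have hz' : 0 < (z + ((1 : ℝ) : ℂ)).im := by simpa using hz
      rw [ofComplex_apply_of_im_pos hz, ofComplex_apply_of_im_pos hz']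
      simp only [jexpD]
      rw [jexp_qParam_add_one]
    · have hz0 : z.im ≤ 0 := not_lt.mp hz
      have hz' : (z + ((1 : ℝ) : ℂ)).im ≤ 0 := by simpa using hz0
      rw [ofComplex_apply_eq_of_im_nonpos hz' hz0]
  bdd := isBoundedAtImInfty_of_hasSum_qExpansion one_pos jexp_hasSum_D

theorem jexp_qExpansion_coeff_unique {g : ℍ → ℂ} (hg : JNice g) {c : ℕ → ℂ}
    (hs : ∀ τ : ℍ, HasSum (fun m ↦ c m • 𝕢 1 (τ : ℂ) ^ m) (g τ)) (m : ℕ) :
    c m = (qExpansion 1 g).coeff m :=
  UpperHalfPlane.qExpansion_coeff_unique (ContinuousMap.mk g hg.holo.continuous) one_pos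
    hg.analyticAt hs m

theorem jexp_qExpansion_D :
    qExpansion 1 jexpD = PowerSeries.map (Int.castRingHom ℂ) etaProd := by
  ext m
  rw [PowerSeries.coeff_map, eq_intCast]
  exact (jexp_qExpansion_coeff_unique jexp_jNice_D jexp_hasSum_D m).symm


/-! ### `E₄` -/

theorem jexp_qExpansion_E4 :
    qExpansion 1 E₄ = PowerSeries.map (Int.castRingHom ℂ) eisenstein4 := by
  ext m
  rw [EisensteinSeries.E_qExpansion_coeff (by norm_num) ⟨2, rfl⟩, PowerSeries.coeff_map,
    eq_intCast, eisenstein4, PowerSeries.coeff_mk]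
  by_cases hm : m = 0
  · simp [hm]
  · rw [if_neg hm, if_neg hm, show bernoulli 4 = -1 / 30 by decide +kernel,
      ArithmeticFunction.sigma_apply]
    push_cast
    norm_num


/-! ### `q * j` -/

theorem jexp_D_ne_zero (τ : ℍ) : jexpD τ ≠ 0 :=
  ModularForm.eta_tprod_ne_zero τ.2

theorem jexp_D_pow_eq (τ : ℍ) :
    jexpD τ ^ 24 = ∏' n : ℕ, (1 - ModularForm.eta_q n τ) ^ 24 :=
  ((ModularForm.multipliable_one_sub_pow (jexp_norm_q_lt_one τ)).tprod_pow 24).symm

theorem jexp_discriminant_eq (τ : ℍ) :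
    ModularForm.discriminant τ = 𝕢 1 τ * jexpD τ ^ 24 := by
  rw [ModularForm.discriminant_eq_q_prod, jexp_D_pow_eq]

theorem jexp_tendsto_D_pow :
    Filter.Tendsto (fun τ : ℍ => jexpD τ ^ 24) atImInfty (𝓝 1) := by
  simpa only [jexp_D_pow_eq] using ModularForm.tendsto_atImInfty_tprod_one_sub_eta_q_pow

/-- `q * j` -/
def jexpG (τ : ℍ) : ℂ := E₄ τ ^ 3 / jexpD τ ^ 24

theorem jexp_jNice_E4 : JNice (E₄ : ℍ → ℂ) where
  holo := ModularFormClass.holo E₄
  periodic := by
    simpa using SlashInvariantFormClass.periodic_comp_ofComplex E₄ one_mem_strictPeriods_SL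
  bdd := ModularFormClass.bdd_at_infty E₄

theorem jexp_jNice_G : JNice jexpG where
  holo := by
    have h4 : MDiff (fun τ : ℍ => E₄ τ ^ 3) := (ModularFormClass.holo E₄).pow 3
    have hD : MDiff (fun τ : ℍ => jexpD τ ^ 24) := jexp_jNice_D.holo.pow 24
    intro τ
    exact (h4 τ).mul ((hD τ).inv (pow_ne_zero 24 (jexp_D_ne_zero τ)))
  periodic := by
    have h1 := jexp_jNice_E4.periodic
    have h2 := jexp_jNice_D.periodic
    intro z
    have e1 := h1 z
    have e2 := h2 z
    simp only [Function.comp_apply, jexpG] at e1 e2 ⊢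
    rw [e1, e2]
  bdd := by
    have h1 : IsBoundedAtImInfty (fun τ : ℍ => E₄ τ ^ 3) := by
      have := (jexp_jNice_E4.pow 3).bdd
      exact this
    have h2 : IsBoundedAtImInfty (fun τ : ℍ => (jexpD τ ^ 24)⁻¹) := by
      have := (jexp_tendsto_D_pow.inv₀ one_ne_zero).isBigO_one ℝ
      exact this
    have := h1.mul h2
    exact this

theorem jexp_G_mul : jexpG * jexpD ^ 24 = (E₄ : ℍ → ℂ) ^ 3 := by
  funext τ
  simp only [Pi.mul_apply, Pi.pow_apply, jexpG]
  exact div_mul_cancel₀ _ (pow_ne_zero 24 (jexp_D_ne_zero τ))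

theorem jexp_qExpansion_G :
    qExpansion 1 jexpG = PowerSeries.map (Int.castRingHom ℂ) jNum := by
  have h1 : qExpansion 1 jexpG * (PowerSeries.map (Int.castRingHom ℂ) etaProd) ^ 24 =
      (PowerSeries.map (Int.castRingHom ℂ) eisenstein4) ^ 3 := by
    rw [← jexp_qExpansion_D, ← jexp_qExpansion_E4, ← jexp_jNice_D.qExpansion_pow,
      ← jexp_jNice_E4.qExpansion_pow,
      ← UpperHalfPlane.qExpansion_mul jexp_jNice_G.analyticAt (jexp_jNice_D.pow 24).analyticAt,
      jexp_G_mul]
  have h2 : (PowerSeries.map (Int.castRingHom ℂ) etaProd) ^ 24 *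
      PowerSeries.map (Int.castRingHom ℂ) dedekindEtaUnitInv = 1 := by
    rw [← map_pow, ← map_mul]
    have := dedekindEtaUnit_mul_inv
    rw [dedekindEtaUnit] at this
    rw [this, map_one]
  calc qExpansion 1 jexpG
      = qExpansion 1 jexpG * ((PowerSeries.map (Int.castRingHom ℂ) etaProd) ^ 24 *
          PowerSeries.map (Int.castRingHom ℂ) dedekindEtaUnitInv) := by rw [h2, mul_one]
    _ = (PowerSeries.map (Int.castRingHom ℂ) eisenstein4) ^ 3 *
          PowerSeries.map (Int.castRingHom ℂ) dedekindEtaUnitInv := by rw [← mul_assoc, h1]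
    _ = PowerSeries.map (Int.castRingHom ℂ) jNum := by
        rw [jNum, map_mul, map_pow]

theorem jexp_jFun_eq (τ : ℍ) : jFun τ = jexpG τ * (𝕢 1 τ)⁻¹ := by
  rw [jFun, jexp_discriminant_eq, jexpG]
  field_simp

theorem jexp_hasSum_G (τ : ℍ) :
    HasSum (fun n : ℕ => ((PowerSeries.coeff n jNum : ℤ) : ℂ) * 𝕢 1 (τ : ℂ) ^ n) (jexpG τ) := by
  have := hasSum_qExpansion one_pos jexp_jNice_G.periodic jexp_jNice_G.holo jexp_jNice_G.bdd τ
  simpa only [jexp_qExpansion_G, PowerSeries.coeff_map, eq_intCast, smul_eq_mul] using this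


/-! ### the expansion of `j` -/

theorem jexp_coeff_jqModC (m : ℤ) :
    (jqModC ℂ).coeff m =
      (HahnSeries.ofPowerSeries ℤ ℂ (PowerSeries.map (Int.castRingHom ℂ) jNum)).coeff (m + 1) := by
  rw [jqModC, HahnSeries.coeff_single_mul, one_mul, sub_neg_eq_add]

theorem jexp_coeff_jqModC_nat (n : ℕ) :
    (jqModC ℂ).coeff ((n : ℤ) - 1) = ((PowerSeries.coeff n jNum : ℤ) : ℂ) := by
  rw [jexp_coeff_jqModC, sub_add_cancel, HahnSeries.ofPowerSeries_apply_coeff,
    PowerSeries.coeff_map, eq_intCast]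

theorem jexp_coeff_jqModC_of_lt {m : ℤ} (hm : m < -1) : (jqModC ℂ).coeff m = 0 := by
  rw [jexp_coeff_jqModC, ofPowerSeries_coeff_of_neg _ (by omega)]

theorem hasCuspExp_jFun : HasCuspExp 1 jFun (jqModC ℂ) := by
  intro τ
  have hinj : Function.Injective (fun n : ℕ => ((n : ℤ) - 1)) := by
    intro a b h
    simpa using h
  rw [← hinj.hasSum_iff]
  · have h1 := (jexp_hasSum_G τ).mul_right (𝕢 1 (τ : ℂ))⁻¹
    rw [← jexp_jFun_eq] at h1
    have e : ((fun m : ℤ => (jqModC ℂ).coeff m *
        Complex.exp (2 * π * Complex.I * m * τ / (1 : ℕ))) ∘ fun n : ℕ => ((n : ℤ) - 1)) =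
        fun i : ℕ => ((PowerSeries.coeff i jNum : ℤ) : ℂ) * 𝕢 1 (τ : ℂ) ^ i * (𝕢 1 (τ : ℂ))⁻¹ := by
      funext n
      simp only [Function.comp_apply]
      have hexp : Complex.exp (2 * π * Complex.I * (((n : ℤ) - 1 : ℤ) : ℂ) * τ / ((1 : ℕ) : ℂ)) =
          𝕢 1 (τ : ℂ) ^ n * (𝕢 1 (τ : ℂ))⁻¹ := by
        rw [Periodic.qParam, ← Complex.exp_nat_mul, ← Complex.exp_neg, ← Complex.exp_add]
        congr 1
        push_cast
        ring
      rw [jexp_coeff_jqModC_nat, hexp, mul_assoc]
    rw [e]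
    exact h1
  · intro m hm
    rw [jexp_coeff_jqModC_of_lt, zero_mul]
    by_contra hlt
    apply hm
    refine ⟨(m + 1).toNat, ?_⟩
    simp only
    omega


end Fermat.Agent.S24
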