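import Fermat.Agent.S24.Elliptic

set_option autoImplicit false

/-!
# `|P1 (ZMod N)| = dedekindPsi N`

Multiplicativity by the Chinese remainder theorem, and the prime power case.
-/

namespace Fermat.Agent.S24

open Matrix MatrixGroups

universe u v

variable {R : Type u} [CommRing R] {S : Type v} [CommRing S]

/-! ### Functoriality -/

/-- Functoriality of unimodular vectors. -/
def Unimod.map (f : R →+* S) (v : Unimod R) : Unimod S :=
  ⟨(f v.1.1, f v.1.2), v.2.map f⟩

/-- Functoriality of `P1`. -/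
def P1.map (f : R →+* S) : P1 R → P1 S :=
  Quotient.map' (s₁ := unimodSetoid R) (s₂ := unimodSetoid S) (Unimod.map f) (by
    intro v w h
    show f v.1.1 * f w.1.2 = f w.1.1 * f v.1.2
    rw [← map_mul, ← map_mul]
    exact congrArg f h)

theorem P1.map_mk (f : R →+* S) (v : Unimod R) : P1.map f (P1.mk v) = P1.mk (Unimod.map f v) :=
  rfl

theorem P1.map_injective {f : R →+* S} (hf : Function.Injective f) :
    Function.Injective (P1.map f) := by
  intro x y h
  obtain ⟨v, rfl⟩ := P1.mk_surjective x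
  obtain ⟨w, rfl⟩ := P1.mk_surjective y
  rw [P1.map_mk, P1.map_mk, P1.mk_eq_mk] at h
  rw [P1.mk_eq_mk]
  apply hf
  rw [map_mul, map_mul]
  exact h

/-- A ring isomorphism induces a bijection on `P1`. -/
def P1.congr (e : R ≃+* S) : P1 R ≃ P1 S where
  toFun := P1.map e.toRingHom
  invFun := P1.map e.symm.toRingHom
  left_inv x := by
    obtain ⟨v, rfl⟩ := P1.mk_surjective x
    rw [P1.map_mk, P1.map_mk, P1.mk_eq_mk]
    simp [Unimod.map]
  right_inv x := by
    obtain ⟨v, rfl⟩ := P1.mk_surjective x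
    rw [P1.map_mk, P1.map_mk, P1.mk_eq_mk]
    simp [Unimod.map]

/-- `P1` of a product ring. -/
noncomputable def P1.prodEquiv : P1 (R × S) ≃ P1 R × P1 S :=
  Equiv.ofBijective (fun x => (P1.map (RingHom.fst R S) x, P1.map (RingHom.snd R S) x)) (by
    constructor
    · intro x y h
      obtain ⟨v, rfl⟩ := P1.mk_surjective x
      obtain ⟨w, rfl⟩ := P1.mk_surjective y
      simp only [P1.map_mk, Prod.mk.injEq, P1.mk_eq_mk] at h
      rw [P1.mk_eq_mk]
      exact Prod.ext h.1 h.2
    · rintro ⟨x, y⟩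
      obtain ⟨v, rfl⟩ := P1.mk_surjective x
      obtain ⟨w, rfl⟩ := P1.mk_surjective y
      obtain ⟨a, b, hab⟩ := v.2
      obtain ⟨c, d, hcd⟩ := w.2
      refine ⟨P1.mk ⟨((v.1.1, w.1.1), (v.1.2, w.1.2)), ⟨(a, c), (b, d), ?_⟩⟩, ?_⟩
      · exact Prod.ext hab hcd
      · rfl)

theorem card_P1_prod : Nat.card (P1 (R × S)) = Nat.card (P1 R) * Nat.card (P1 S) := by
  rw [Nat.card_congr P1.prodEquiv, Nat.card_prod]

theorem card_P1_zmod_mul {m n : ℕ} (h : m.Coprime n) :
    Nat.card (P1 (ZMod (m * n))) = Nat.card (P1 (ZMod m)) * Nat.card (P1 (ZMod n)) := by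
  rw [Nat.card_congr (P1.congr (ZMod.chineseRemainder h)), card_P1_prod]

/-! ### Rings in which coprime pairs contain a unit -/

/-- If every coprime pair contains a unit, `P1 R` is the disjoint union of the affine line
`(a : 1)` and the points `(1 : c)` with `c` a non-unit. -/
noncomputable def P1.equivOfLocal (hR : ∀ a c : R, IsCoprime a c → IsUnit a ∨ IsUnit c) :
    R ⊕ {c : R // ¬ IsUnit c} ≃ P1 R :=
  Equiv.ofBijective
    (fun x => Sum.elim (fun a => P1.mk (Unimod.affine a))
      (fun c => P1.mk ⟨(1, c.1), isCoprime_one_left⟩) x) (by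
    constructor
    · rintro (a | c) (a' | c') h
      · simp only [Sum.elim_inl] at h
        exact congrArg Sum.inl (P1.mk_affine_injective h)
      · exfalso
        simp only [Sum.elim_inl, Sum.elim_inr, P1.mk_eq_mk, Unimod.affine] at h
        exact c'.2 (IsUnit.of_mul_eq_one a (by rw [mul_comm]; simpa using h))
      · exfalso
        simp only [Sum.elim_inl, Sum.elim_inr, P1.mk_eq_mk, Unimod.affine] at h
        exact c.2 (IsUnit.of_mul_eq_one a' (by rw [mul_comm]; simpa using h.symm))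
      · simp only [Sum.elim_inr, P1.mk_eq_mk] at h
        refine congrArg Sum.inr (Subtype.ext ?_)
        simpa using h.symm
    · intro x
      obtain ⟨v, rfl⟩ := P1.mk_surjective x
      by_cases hc : IsUnit v.1.2
      · obtain ⟨t, ht, -⟩ := P1.eq_mk_affine_of_isUnit hc
        exact ⟨Sum.inl t, ht.symm⟩
      · have ha : IsUnit v.1.1 := (hR _ _ v.2).resolve_right hc
        obtain ⟨u, hu⟩ := ha
        have hnu : ¬ IsUnit (v.1.2 * (u⁻¹ : Rˣ)) := by
          intro h
          apply hc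
          have := h.mul u.isUnit
          rwa [mul_assoc, Units.inv_mul, mul_one] at this
        refine ⟨Sum.inr ⟨v.1.2 * (u⁻¹ : Rˣ), hnu⟩, ?_⟩
        simp only [Sum.elim_inr, P1.mk_eq_mk]
        rw [← hu, one_mul, mul_comm, mul_assoc, Units.inv_mul, mul_one])

theorem zmod_prime_pow_isUnit_iff {p k : ℕ} [Fact p.Prime] (hk : 0 < k) (x : ZMod (p ^ k)) :
    IsUnit x ↔ ZMod.castHom (dvd_pow_self p hk.ne') (ZMod p) x ≠ 0 := by
  have hp : p.Prime := Fact.out
  have : NeZero (p ^ k) := ⟨pow_ne_zero _ hp.ne_zero⟩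
  obtain ⟨n, rfl⟩ : ∃ n : ℕ, (n : ZMod (p ^ k)) = x := ⟨x.val, ZMod.natCast_zmod_val x⟩
  rw [map_natCast, ZMod.isUnit_iff_coprime, Nat.coprime_pow_right_iff hk, Ne,
    ZMod.natCast_eq_zero_iff, Nat.coprime_comm, hp.coprime_iff_not_dvd]

theorem zmod_prime_pow_isUnit_or {p k : ℕ} [Fact p.Prime] (hk : 0 < k) (a c : ZMod (p ^ k))
    (h : IsCoprime a c) : IsUnit a ∨ IsUnit c := by
  rw [zmod_prime_pow_isUnit_iff hk, zmod_prime_pow_isUnit_iff hk]
  have h2 := h.map (ZMod.castHom (dvd_pow_self p hk.ne') (ZMod p))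
  by_contra hcon
  push Not at hcon
  obtain ⟨x, y, hxy⟩ := h2
  rw [hcon.1, hcon.2, mul_zero, mul_zero, add_zero] at hxy
  exact zero_ne_one hxy

theorem card_nonunits_zmod_prime_pow {p k : ℕ} [Fact p.Prime] (hk : 0 < k) :
    Nat.card {c : ZMod (p ^ k) // ¬ IsUnit c} = p ^ (k - 1) := by
  classical
  have hp : p.Prime := Fact.out
  have : NeZero (p ^ k) := ⟨pow_ne_zero _ hp.ne_zero⟩
  have h1 : Nat.card {c : ZMod (p ^ k) // IsUnit c} = (p ^ k).totient := by
    rw [← ZMod.card_units_eq_totient, ← Nat.card_eq_fintype_card]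
    refine Nat.card_congr ⟨fun x => x.2.unit, fun u => ⟨u, u.isUnit⟩, fun x => ?_, fun u => ?_⟩
    · exact Subtype.ext (IsUnit.unit_spec x.2)
    · exact IsUnit.unit_of_val_units _
  have h2 : Nat.card {c : ZMod (p ^ k) // IsUnit c} + Nat.card {c : ZMod (p ^ k) // ¬ IsUnit c}
      = p ^ k := by
    rw [Nat.card_eq_fintype_card, Nat.card_eq_fintype_card, Fintype.card_subtype_compl,
      ← Nat.add_sub_assoc (Fintype.card_subtype_le _), Nat.add_sub_cancel_left, ZMod.card]
  have htot := Nat.totient_prime_pow hp hk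
  have h3 : p ^ k = p ^ (k - 1) * p := by
    rw [← pow_succ, Nat.sub_add_cancel hk]
  have h4 : p ^ (k - 1) * p = p ^ (k - 1) * (p - 1) + p ^ (k - 1) := by
    have : 1 ≤ p := hp.one_lt.le
    rw [← Nat.mul_succ, Nat.succ_eq_add_one, Nat.sub_add_cancel this]
  omega

theorem card_P1_zmod_prime_pow {p k : ℕ} [Fact p.Prime] (hk : 0 < k) :
    Nat.card (P1 (ZMod (p ^ k))) = p ^ k + p ^ (k - 1) := by
  have hp : p.Prime := Fact.out
  have : NeZero (p ^ k) := ⟨pow_ne_zero _ hp.ne_zero⟩
  rw [← Nat.card_congr (P1.equivOfLocal (zmod_prime_pow_isUnit_or hk)), Nat.card_sum,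
    card_nonunits_zmod_prime_pow hk, Nat.card_eq_fintype_card, ZMod.card]

open ModularCurve ArithmeticFunction

/-- The indicator function of squarefree numbers. -/
def sqfreeInd : ArithmeticFunction ℕ :=
  ⟨fun n => if Squarefree n then 1 else 0, by simp⟩

theorem sqfreeInd_apply (n : ℕ) : sqfreeInd n = if Squarefree n then 1 else 0 := rfl

theorem isMultiplicative_sqfreeInd : IsMultiplicative sqfreeInd := by
  refine ⟨by simp [sqfreeInd_apply], fun {m n} h => ?_⟩
  simp only [sqfreeInd_apply, Nat.squarefree_mul h]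
  by_cases hm : Squarefree m <;> by_cases hn : Squarefree n <;> simp [hm, hn]

theorem dedekindPsi_eq_mul_apply (N : ℕ) :
    dedekindPsi N = (sqfreeInd * ArithmeticFunction.id) N := by
  rw [ArithmeticFunction.mul_apply,
    Nat.sum_divisorsAntidiagonal (fun d e => sqfreeInd d * ArithmeticFunction.id e),
    dedekindPsi, Finset.sum_filter]
  refine Finset.sum_congr rfl fun d _ => ?_
  simp only [sqfreeInd_apply, ArithmeticFunction.id_apply]
  split_ifs <;> simp

theorem dedekindPsi_mul {m n : ℕ} (h : m.Coprime n) :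
    dedekindPsi (m * n) = dedekindPsi m * dedekindPsi n := by
  simp only [dedekindPsi_eq_mul_apply]
  exact (isMultiplicative_sqfreeInd.mul isMultiplicative_id).map_mul_of_coprime h

theorem dedekindPsi_prime_pow {p k : ℕ} (hp : p.Prime) (hk : 0 < k) :
    dedekindPsi (p ^ k) = p ^ k + p ^ (k - 1) := by
  obtain ⟨k, rfl⟩ : ∃ j, k = j + 1 := ⟨k - 1, by omega⟩
  rw [dedekindPsi, Finset.sum_filter, Nat.sum_divisors_prime_pow hp,
    Finset.sum_range_succ', Finset.sum_range_succ']
  have hz : ∑ i ∈ Finset.range k,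
      (if Squarefree (p ^ (i + 1 + 1)) then p ^ (k + 1) / p ^ (i + 1 + 1) else 0) = 0 := by
    apply Finset.sum_eq_zero
    intro i _
    rw [if_neg]
    intro hsq
    have := (Nat.squarefree_pow_iff hp.ne_one (by omega)).mp hsq
    omega
  rw [hz]
  simp only [zero_add, pow_zero, pow_one, Nat.div_one, Nat.add_sub_cancel]
  rw [if_pos hp.squarefree, if_pos squarefree_one, Nat.pow_succ, Nat.mul_div_cancel _ hp.pos]
  ring


/-- **(H1)** The projective line over `ZMod N` has `dedekindPsi N` points. -/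
theorem card_P1_zmod (N : ℕ) : Nat.card (P1 (ZMod N)) = dedekindPsi N := by
  induction N using Nat.recOnPosPrimePosCoprime with
  | prime_pow p k hp hk =>
    haveI := Fact.mk hp
    rw [card_P1_zmod_prime_pow hk, dedekindPsi_prime_pow hp hk]
  | zero =>
    have : Infinite (P1 (ZMod 0)) :=
      Infinite.of_injective (fun t : ZMod 0 => P1.mk (Unimod.affine t)) P1.mk_affine_injective
    rw [Nat.card_eq_zero_of_infinite]
    simp [dedekindPsi]
  | one =>
    rw [dedekindPsi_one, Nat.card_eq_one_iff_unique]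
    refine ⟨⟨fun x y => ?_⟩, ⟨P1.base⟩⟩
    obtain ⟨v, rfl⟩ := P1.mk_surjective x
    obtain ⟨w, rfl⟩ := P1.mk_surjective y
    rw [P1.mk_eq_mk]
    exact Subsingleton.elim _ _
  | coprime a b ha hb hab iha ihb =>
    rw [card_P1_zmod_mul hab, iha, ihb, dedekindPsi_mul hab]

/-- The index of `Γ₀(N)` in `SL(2, ℤ)` is `dedekindPsi N`. -/
theorem index_Gamma0 (N : ℕ) [NeZero N] :
    (CongruenceSubgroup.Gamma0 N).index = dedekindPsi N := by
  rw [Subgroup.index, Nat.card_congr (quotientGamma0EquivP1 N), card_P1_zmod]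

end Fermat.Agent.S24
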