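import Mathlib
import Fermat.Agent.S24.PlacesSpec
import Fermat.Agent.S24.PlaceOrd
import Fermat.Agent.S24.PlaceOfValuation

/-!
# S24 (subtask 46, helper18): places over `t = 0` from the complete family of embeddings

Proofs of the two statements of helper11's `EmbCountSpec.lean` (same names, same statements):
`exists_places_of_embeddings` and `card_places_eq_card_orbits_of_embeddings`.

Black boxes used from helper1's `PlacesSpec` (to be replaced by the real `Places` file):
`IsSepGen.deg_eq_one`, `IsSepGen.sum_ord`, `IsSepGen.finite_ord_pos`.  From `PlaceOrd` only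
`PlaceOrd.coe_irreducible_ne_zero`; from `PlaceOfValuation` (helper18): `placeOfValuation`,
`exists_ord_placeOfValuation`.

Structure of the proof:
* `embCount_valuation_eq_exp_neg_order`, `embCount_order_rot`, `embCount_valuation_rot`,
  `embCount_iterate_coeff`: order / `X`-adic valuation of Laurent series and the rotation.
* `embCount_dvd_of_fixed`: if `σ^n i = i` then `e ∣ n * order (ε i g)` (lower bound for orbits).
* `embCount_expand`: the `t`-adic expansion `𝒪_v ⊆ ⊕_{k < r} B π^k + t^M 𝒪_v`.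
* `embCount_card_le`: **upper bound** (Dedekind independence of characters): at most `ord_v t`
  embeddings of `F` into a valued field which agree on `K` and `t` and are bounded on `𝒪_v`.
* the counting argument against `∑_v ord_v t = n`.
-/

set_option autoImplicit false

namespace Fermat.Agent.S24

open AlgebraicCurve IntermediateField WithZero

section Laurent

variable {k : Type*} [Field k]

/-- The `X`-adic valuation of a nonzero Laurent series is `exp (-order)`. -/
theorem embCount_valuation_eq_exp_neg_order {f : LaurentSeries k} (hf : f ≠ 0) :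
    (Valued.v f : ℤᵐ⁰) = exp (-f.order) := by
  have h1 : (Valued.v f : ℤᵐ⁰) ≤ exp (-f.order) := by
    rw [LaurentSeries.valuation_le_iff_coeff_lt_eq_zero]
    intro n hn
    exact HahnSeries.coeff_eq_zero_of_lt_order hn
  have h2 : ¬ (Valued.v f : ℤᵐ⁰) ≤ exp (-(f.order + 1)) := by
    rw [LaurentSeries.valuation_le_iff_coeff_lt_eq_zero]
    intro h
    exact hf (HahnSeries.coeff_order_eq_zero.1 (h f.order (by omega)))
  have hv0 : (Valued.v f : ℤᵐ⁰) ≠ 0 := (Valuation.ne_zero_iff _).2 hf
  obtain ⟨a, ha⟩ : ∃ a : ℤ, (Valued.v f : ℤᵐ⁰) = exp a := ⟨log (Valued.v f), (exp_log hv0).symm⟩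
  rw [ha] at h1 h2 ⊢
  rw [exp_le_exp] at h1 h2
  congr 1
  omega

variable {ζ : k} (R : LaurentSeries k →+* LaurentSeries k)
  (hR : ∀ (f : LaurentSeries k) (m : ℤ), (R f).coeff m = ζ ^ m * f.coeff m)

include hR in
/-- a rotation `w ↦ ζ w` preserves the order. -/
theorem embCount_order_rot (hζ : ζ ≠ 0) (f : LaurentSeries k) : (R f).order = f.order := by
  rcases eq_or_ne f 0 with rfl | hf
  · simp
  have hRf : R f ≠ 0 := (map_ne_zero_iff R R.injective).2 hf
  apply le_antisymm
  · apply HahnSeries.order_le_of_coeff_ne_zero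
    rw [hR]
    exact mul_ne_zero (zpow_ne_zero _ hζ) (fun h => hf (HahnSeries.coeff_order_eq_zero.1 h))
  · apply HahnSeries.order_le_of_coeff_ne_zero
    intro h
    have := HahnSeries.coeff_order_eq_zero.not.2 hRf
    rw [hR, h, mul_zero] at this
    exact this rfl

include hR in
theorem embCount_valuation_rot (hζ : ζ ≠ 0) (f : LaurentSeries k) :
    (Valued.v (R f) : ℤᵐ⁰) = Valued.v f := by
  rcases eq_or_ne f 0 with rfl | hf
  · simp
  have hRf : R f ≠ 0 := (map_ne_zero_iff R R.injective).2 hf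
  rw [embCount_valuation_eq_exp_neg_order hf, embCount_valuation_eq_exp_neg_order hRf,
    embCount_order_rot R hR hζ]

include hR in
theorem embCount_iterate_coeff (n : ℕ) (f : LaurentSeries k) (m : ℤ) :
    ((R^[n]) f).coeff m = (ζ ^ m) ^ n * f.coeff m := by
  induction n with
  | zero => simp
  | succ n ih => rw [Function.iterate_succ_apply', hR, ih, pow_succ]; ring

end Laurent

section Rot

variable {F : Type*} [Field F] {k : Type*} [Field k] {ι : Type*}
  (ε : ι → F →+* LaurentSeries k) (R : LaurentSeries k →+* LaurentSeries k)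
  (σ : Equiv.Perm ι) (hσ : ∀ i f, R (ε i f) = ε (σ i) f)

include hσ in
theorem embCount_iterate_emb (n : ℕ) (i : ι) (f : F) : (R^[n]) (ε i f) = ε ((σ ^ n) i) f := by
  induction n with
  | zero => simp
  | succ n ih => rw [Function.iterate_succ_apply', ih, hσ, pow_succ', Equiv.Perm.mul_apply]

include hσ in
/-- if `σ^n` fixes `i`, then `e ∣ n * order (ε i g)` for every `g ≠ 0`. -/
theorem embCount_dvd_of_fixed {ζ : k} {e : ℕ} (hζ : IsPrimitiveRoot ζ e)
    (hR : ∀ (f : LaurentSeries k) (m : ℤ), (R f).coeff m = ζ ^ m * f.coeff m)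
    (i : ι) (n : ℕ) (hfix : (σ ^ n) i = i) {g : F} (hg : g ≠ 0) :
    (e : ℤ) ∣ (ε i g).order * n := by
  have h1 := embCount_iterate_emb ε R σ hσ n i g
  rw [hfix] at h1
  have h2 := embCount_iterate_coeff R hR n (ε i g) (ε i g).order
  rw [h1] at h2
  have hne : (ε i g).coeff (ε i g).order ≠ 0 := fun h =>
    (map_ne_zero_iff (ε i) (ε i).injective).2 hg (HahnSeries.coeff_order_eq_zero.1 h)
  have h3 : (ζ ^ (ε i g).order) ^ n = 1 := by
    have : (ε i g).coeff (ε i g).order * 1 = (ε i g).coeff (ε i g).order * (ζ ^ (ε i g).order) ^ n := by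
      rw [mul_one, mul_comm]; exact h2
    exact (mul_left_cancel₀ hne this).symm
  rw [← zpow_natCast, ← zpow_mul] at h3
  exact (hζ.zpow_eq_one_iff_dvd _).1 h3

end Rot

section Expansion

variable {K F : Type*} [Field K] [Field F] [Algebra K F]

/-- residue field `K`: every element of `𝒪_v` is congruent to a constant modulo `𝔪_v`. -/
theorem embCount_exists_const (v : Place K F) (hdeg : v.deg = 1) (a : v.toValuationSubring) :
    ∃ c : K, a - algebraMap K v.toValuationSubring c ∈
      IsLocalRing.maximalIdeal v.toValuationSubring := by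
  have h1 : Module.finrank K v.ResidueField = 1 := hdeg
  have hne : (1 : v.ResidueField) ≠ 0 := one_ne_zero
  obtain ⟨c, hc⟩ := (finrank_eq_one_iff_of_nonzero' (1 : v.ResidueField) hne).1 h1
    (IsLocalRing.residue v.toValuationSubring a)
  refine ⟨c, ?_⟩
  rw [← IsLocalRing.residue_eq_zero_iff, map_sub, ← hc, sub_eq_zero, Algebra.smul_def, mul_one]
  rfl

/-- every element of the maximal ideal is `π` times an integral element. -/
theorem embCount_exists_mul_irreducible (v : Place K F) {π : v.toValuationSubring}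
    (hπ : Irreducible π) {a : v.toValuationSubring}
    (ha : a ∈ IsLocalRing.maximalIdeal v.toValuationSubring) :
    ∃ b : v.toValuationSubring, a = π * b := by
  rw [hπ.maximalIdeal_eq, Ideal.mem_span_singleton] at ha
  exact ha

/-- one step: `g = c + π g'`. -/
theorem embCount_step (v : Place K F) (hdeg : v.deg = 1) {π : v.toValuationSubring}
    (hπ : Irreducible π) (g : F) (hg : g ∈ v.toValuationSubring) :
    ∃ (c : K) (g' : F), g' ∈ v.toValuationSubring ∧ g = algebraMap K F c + (π : F) * g' := by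
  obtain ⟨c, hc⟩ := embCount_exists_const v hdeg ⟨g, hg⟩
  obtain ⟨b, hb⟩ := embCount_exists_mul_irreducible v hπ hc
  refine ⟨c, b, b.2, ?_⟩
  have h2 : g - algebraMap K F c = (π : F) * (b : F) := by
    have := congrArg (Subtype.val) hb
    simpa using this
  rw [← h2]; ring

/-- `π`-adic expansion up to `π ^ j`. -/
theorem embCount_expand_pi (v : Place K F) (hdeg : v.deg = 1) {π : v.toValuationSubring}
    (hπ : Irreducible π) (j : ℕ) (g : F) (hg : g ∈ v.toValuationSubring) :
    ∃ (c : ℕ → K) (g' : F), g' ∈ v.toValuationSubring ∧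
      g = ∑ k ∈ Finset.range j, algebraMap K F (c k) * (π : F) ^ k + (π : F) ^ j * g' := by
  induction j with
  | zero => exact ⟨fun _ => 0, g, hg, by simp⟩
  | succ j ih =>
    obtain ⟨c, g', hg', h⟩ := ih
    obtain ⟨c0, g'', hg'', h'⟩ := embCount_step v hdeg hπ g' hg'
    refine ⟨Function.update c j c0, g'', hg'', ?_⟩
    rw [Finset.sum_range_succ, Function.update_self]
    have hsum : ∑ k ∈ Finset.range j, algebraMap K F (Function.update c j c0 k) * (π : F) ^ k
        = ∑ k ∈ Finset.range j, algebraMap K F (c k) * (π : F) ^ k := by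
      refine Finset.sum_congr rfl fun k hk => ?_
      rw [Function.update_of_ne (Finset.mem_range.1 hk).ne]
    rw [hsum, h, h']
    ring

/-- `𝒪_v = ⊕_{k < r} K π^k + t 𝒪_v` when `ord_v t = r`. -/
theorem embCount_expand_t (v : Place K F) (hdeg : v.deg = 1) {π : v.toValuationSubring}
    (hπ : Irreducible π) {t : F} (ht0 : t ≠ 0) (r : ℕ) (hr : v.ord t = r)
    (g : F) (hg : g ∈ v.toValuationSubring) :
    ∃ (c : ℕ → K) (g' : F), g' ∈ v.toValuationSubring ∧
      g = ∑ k ∈ Finset.range r, algebraMap K F (c k) * (π : F) ^ k + t * g' := by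
  obtain ⟨c, g', hg', h⟩ := embCount_expand_pi v hdeg hπ r g hg
  obtain ⟨u, hu⟩ := v.exists_unit_mul_zpow ht0 hπ
  rw [hr, zpow_natCast] at hu
  refine ⟨c, (((u⁻¹ : v.toValuationSubringˣ) : v.toValuationSubring) : F) * g',
    v.toValuationSubring.mul_mem _ _ (SetLike.coe_mem _) hg', ?_⟩
  have huu : ((u : v.toValuationSubring) : F) *
      (((u⁻¹ : v.toValuationSubringˣ) : v.toValuationSubring) : F) = 1 := by
    rw [← Subring.coe_mul, Units.mul_inv]; rfl
  rw [h, hu]
  have : ((u : v.toValuationSubring) : F) * (π : F) ^ r *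
      ((((u⁻¹ : v.toValuationSubringˣ) : v.toValuationSubring) : F) * g') =
      (((u : v.toValuationSubring) : F) *
      (((u⁻¹ : v.toValuationSubringˣ) : v.toValuationSubring) : F)) * ((π : F) ^ r * g') := by ring
  rw [this, huu, one_mul]

/-- `t`-adic expansion: `𝒪_v ⊆ ⊕_{k < r} B π^k + t^M 𝒪_v` for any subring `B ∋ t` containing `K`. -/
theorem embCount_expand (v : Place K F) (hdeg : v.deg = 1) {π : v.toValuationSubring}
    (hπ : Irreducible π) {t : F} (ht0 : t ≠ 0) (r : ℕ) (hr : v.ord t = r)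
    (B : Subring F) (hKB : ∀ c : K, algebraMap K F c ∈ B) (htB : t ∈ B) (M : ℕ)
    (f : F) (hf : f ∈ v.toValuationSubring) :
    ∃ (b : ℕ → F) (g : F), (∀ k, b k ∈ B) ∧ g ∈ v.toValuationSubring ∧
      f = ∑ k ∈ Finset.range r, b k * (π : F) ^ k + t ^ M * g := by
  induction M with
  | zero => exact ⟨fun _ => 0, f, fun _ => B.zero_mem, hf, by simp⟩
  | succ M ih =>
    obtain ⟨b, g, hb, hg, h⟩ := ih
    obtain ⟨c, g', hg', h'⟩ := embCount_expand_t v hdeg hπ ht0 r hr g hg
    refine ⟨fun k => b k + t ^ M * algebraMap K F (c k), g', fun k =>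
      B.add_mem (hb k) (B.mul_mem (B.pow_mem htB M) (hKB _)), hg', ?_⟩
    rw [h, h', mul_add, Finset.mul_sum, ← add_assoc, ← Finset.sum_add_distrib, pow_succ]
    congr 1
    · refine Finset.sum_congr rfl fun k _ => ?_
      ring
    · ring

end Expansion

section UpperBound

/-- in `ℤᵐ⁰`, powers of an element `< 1` become arbitrarily small. -/
theorem embCount_exists_pow_mul_lt {q a C : ℤᵐ⁰} (hq : q < 1) (ha : a ≠ 0) :
    ∃ M : ℕ, q ^ M * C < a := by
  rcases eq_or_ne C 0 with rfl | hC
  · exact ⟨0, by simpa using zero_lt_iff.2 ha⟩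
  rcases eq_or_ne q 0 with rfl | hq0
  · exact ⟨1, by simpa using zero_lt_iff.2 ha⟩
  obtain ⟨α, rfl⟩ : ∃ α : ℤ, a = exp α := ⟨log a, (exp_log ha).symm⟩
  obtain ⟨c, rfl⟩ : ∃ c : ℤ, C = exp c := ⟨log C, (exp_log hC).symm⟩
  obtain ⟨x, rfl⟩ : ∃ x : ℤ, q = exp x := ⟨log q, (exp_log hq0).symm⟩
  have hx : x < 0 := by
    rw [← exp_zero, exp_lt_exp] at hq; exact hq
  refine ⟨(c - α + 1).toNat, ?_⟩
  rw [← exp_nsmul, ← exp_add, exp_lt_exp, nsmul_eq_mul]
  have h1 : (0 : ℤ) ≤ ((c - α + 1).toNat : ℤ) := Int.natCast_nonneg _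
  have h2 : c - α + 1 ≤ ((c - α + 1).toNat : ℤ) := Int.self_le_toNat _
  nlinarith

variable {K F : Type*} [Field K] [Field F] [Algebra K F]

/-- a linear combination of "continuous" embeddings that kills `1, π, …, π^(r-1)` kills `𝒪_v`. -/
theorem embCount_vanish (v : Place K F) (hdeg : v.deg = 1) {π : v.toValuationSubring}
    (hπ : Irreducible π) {t : F} (ht0 : t ≠ 0) (r : ℕ) (hr : v.ord t = r)
    {L : Type*} [Field L] (w : Valuation L ℤᵐ⁰)
    {I : Type*} [Fintype I] (ε : I → F →+* L)
    (hK : ∀ i j (c : K), ε i (algebraMap K F c) = ε j (algebraMap K F c))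
    (htt : ∀ i j, ε i t = ε j t)
    (hint : ∀ i, ∀ f ∈ v.toValuationSubring, w (ε i f) ≤ 1)
    (hwt : ∀ i, w (ε i t) < 1)
    (lam : I → L) (hlam : ∀ k < r, ∑ i, lam i * ε i (π : F) ^ k = 0)
    (f : F) (hf : f ∈ v.toValuationSubring) : ∑ i, lam i * ε i f = 0 := by
  rcases isEmpty_or_nonempty I with hI | ⟨⟨i₀⟩⟩
  · simp
  by_contra hx
  have hwx : w (∑ i, lam i * ε i f) ≠ 0 := (Valuation.ne_zero_iff w).2 hx
  set C : ℤᵐ⁰ := Finset.univ.sup (fun i => w (lam i)) with hC
  obtain ⟨M, hM⟩ := embCount_exists_pow_mul_lt (C := C) (hwt i₀) hwx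
  set B : Subring F := ⨅ i, (ε i).eqLocus (ε i₀) with hB
  have hmemB : ∀ b, b ∈ B ↔ ∀ i, ε i b = ε i₀ b := by
    intro b; rw [hB, Subring.mem_iInf]; rfl
  obtain ⟨b, g, hb, hg, hfe⟩ := embCount_expand v hdeg hπ ht0 r hr B
    (fun c => (hmemB _).2 fun i => hK i i₀ c) ((hmemB _).2 fun i => htt i i₀) M f hf
  have key : ∑ i, lam i * ε i f = ε i₀ t ^ M * ∑ i, lam i * ε i g := by
    have h1 : ∀ i, lam i * ε i f = ∑ k ∈ Finset.range r, ε i₀ (b k) * (lam i * ε i (π : F) ^ k)
        + ε i₀ t ^ M * (lam i * ε i g) := by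
      intro i
      rw [hfe, map_add, map_sum, map_mul, map_pow, htt i i₀, mul_add, Finset.mul_sum]
      congr 1
      · refine Finset.sum_congr rfl fun k _ => ?_
        rw [map_mul, map_pow, (hmemB _).1 (hb k) i]
        ring
      · ring
    rw [Finset.sum_congr rfl fun i _ => h1 i, Finset.sum_add_distrib, Finset.sum_comm,
      ← Finset.mul_sum]
    have h2 : ∑ k ∈ Finset.range r, ∑ i, ε i₀ (b k) * (lam i * ε i (π : F) ^ k) = 0 := by
      refine Finset.sum_eq_zero fun k hk => ?_
      rw [← Finset.mul_sum, hlam k (Finset.mem_range.1 hk), mul_zero]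
    rw [h2, zero_add]
  have hle : w (∑ i, lam i * ε i g) ≤ C := by
    refine Valuation.map_sum_le w fun i _ => ?_
    rw [map_mul]
    calc w (lam i) * w (ε i g) ≤ w (lam i) * 1 := by gcongr; exact hint i g hg
      _ = w (lam i) := mul_one _
      _ ≤ C := Finset.le_sup (f := fun i => w (lam i)) (Finset.mem_univ i)
  rw [key, map_mul, map_pow] at hM
  exact absurd hM (not_lt.2 (by gcongr))

/-- **Upper bound**: at most `ord_v t` distinct embeddings into a valued field `L` which agree
on `K` and `t`, are bounded on `𝒪_v` and send `t` to a topologically nilpotent element. -/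
theorem embCount_card_le (v : Place K F) (hdeg : v.deg = 1) {t : F} (ht0 : t ≠ 0)
    (r : ℕ) (hr : v.ord t = r)
    {L : Type*} [Field L] (w : Valuation L ℤᵐ⁰)
    {I : Type*} [Fintype I] (ε : I → F →+* L) (hinj : Function.Injective ε)
    (hK : ∀ i j (c : K), ε i (algebraMap K F c) = ε j (algebraMap K F c))
    (htt : ∀ i j, ε i t = ε j t)
    (hint : ∀ i, ∀ f ∈ v.toValuationSubring, w (ε i f) ≤ 1)
    (hwt : ∀ i, w (ε i t) < 1) : Fintype.card I ≤ r := by
  by_contra hlt
  push Not at hlt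
  obtain ⟨π, hπ⟩ := IsDiscreteValuationRing.exists_irreducible v.toValuationSubring
  let u : I → (Fin r → L) := fun i k => ε i (π : F) ^ (k : ℕ)
  have hnli : ¬ LinearIndependent L u := by
    intro hli
    have := hli.fintype_card_le_finrank
    rw [Module.finrank_fin_fun] at this
    omega
  obtain ⟨lam, hsum, i₁, hi₁⟩ := Fintype.not_linearIndependent_iff.1 hnli
  have hlam : ∀ k < r, ∑ i, lam i * ε i (π : F) ^ k = 0 := by
    intro k hk
    have := congrFun hsum ⟨k, hk⟩
    simpa [u, Finset.sum_apply] using this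
  have hvan := embCount_vanish v hdeg hπ ht0 r hr w ε hK htt hint hwt lam hlam
  let χ : I → (v.toValuationSubring →* L) := fun i =>
    (((ε i).comp v.toValuationSubring.subtype : v.toValuationSubring →+* L) :
      v.toValuationSubring →* L)
  have hχ : Function.Injective χ := by
    intro i j hij
    apply hinj
    ext f
    rcases v.toValuationSubring.mem_or_inv_mem f with hf | hf
    · exact DFunLike.congr_fun hij ⟨f, hf⟩
    · have h := DFunLike.congr_fun hij ⟨f⁻¹, hf⟩
      have h' : ε i f⁻¹ = ε j f⁻¹ := h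
      rwa [map_inv₀, map_inv₀, inv_inj] at h'
  have hli := (linearIndependent_monoidHom v.toValuationSubring L).comp χ hχ
  have hz : ∑ i, lam i • ((fun f : v.toValuationSubring →* L => (f : v.toValuationSubring → L))
      ∘ χ) i = 0 := by
    funext a
    rw [Finset.sum_apply]
    simpa [χ] using hvan (a : F) a.2
  exact hi₁ (Fintype.linearIndependent_iff.1 hli lam hz i₁)

end UpperBound

section Main

theorem exists_places_of_embeddings {K F : Type*} [Field K] [Field F] [Algebra K F]
    [IsAlgClosed K] {t : F} (ht : IsSepGen K t)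
    {ι : Type*} [Fintype ι] (ε : ι → F →+* LaurentSeries ℂ)
    (hinj : Function.Injective ε)
    (hcard : Fintype.card ι = Module.finrank K⟮t⟯ F)
    (hK : ∀ i j (c : K), ε i (algebraMap K F c) = ε j (algebraMap K F c))
    (hKord : ∀ i (c : K), c ≠ 0 → (ε i (algebraMap K F c)).order = 0)
    (ht' : ∀ i j, ε i t = ε j t)
    (e : ℕ) (he : 0 < e) (hord : ∀ i, (ε i t).order = (e : ℤ))
    (ζ : ℂ) (hζ : IsPrimitiveRoot ζ e)
    (R : LaurentSeries ℂ →+* LaurentSeries ℂ)
    (hR : ∀ (f : LaurentSeries ℂ) (m : ℤ), (R f).coeff m = ζ ^ m * f.coeff m)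
    (σ : Equiv.Perm ι) (hσ : ∀ i f, R (ε i f) = ε (σ i) f) :
    ∃ κ : ι → Place K F,
      (∀ i (f : F), f ≠ 0 → (ε i f).order * (κ i).ord t = (e : ℤ) * (κ i).ord f) ∧
      (∀ i, 0 < (κ i).ord t) ∧
      (∀ v : Place K F, 0 < v.ord t → ∃ i, κ i = v) ∧
      (∀ i j, κ i = κ j ↔ ∃ k : ℕ, (σ ^ k) i = j) := by
  classical
  have ht0 : t ≠ 0 := fun h => ht.transcendental (h ▸ isAlgebraic_zero)
  have hζ0 : ζ ≠ 0 := hζ.ne_zero he.ne'
  have hεne : ∀ i {f : F}, f ≠ 0 → ε i f ≠ 0 := fun i f hf =>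
    (map_ne_zero_iff (ε i) (ε i).injective).2 hf
  -- the valuations
  let w : ι → Valuation F ℤᵐ⁰ := fun i =>
    (Valued.v : Valuation (LaurentSeries ℂ) ℤᵐ⁰).comap (ε i)
  have hwdef : ∀ i f, w i f = Valued.v (ε i f) := fun i f => rfl
  have hw : ∀ i f, f ≠ 0 → w i f = exp (-(ε i f).order) := fun i f hf => by
    rw [hwdef, embCount_valuation_eq_exp_neg_order (hεne i hf)]
  have hk : ∀ i (a : K), w i (algebraMap K F a) ≤ 1 := by
    intro i a
    rcases eq_or_ne a 0 with rfl | ha
    · simp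
    · rw [hw i _ (by simpa using ha), hKord i a ha, neg_zero, exp_zero]
  have hwt : ∀ i, w i t = exp (-(e : ℤ)) := fun i => by rw [hw i t ht0, hord]
  have hwt1 : ∀ i, w i t < 1 := fun i => by
    rw [hwt, ← exp_zero, exp_lt_exp]; omega
  have hnt : ∀ i, ∃ x : F, x ≠ 0 ∧ w i x ≠ 1 := fun i => ⟨t, ht0, (hwt1 i).ne⟩
  let κ : ι → Place K F := fun i => placeOfValuation (k := K) (w i) (hk i) (hnt i)
  have hκmem : ∀ i f, f ∈ (κ i).toValuationSubring ↔ w i f ≤ 1 := fun i f => Iff.rfl
  -- the multiplicities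
  have hm : ∀ i, ∃ m : ℤ, 0 < m ∧ ∀ f : F, f ≠ 0 → (ε i f).order = m * (κ i).ord f := by
    intro i
    obtain ⟨m, hm0, hm⟩ := exists_ord_placeOfValuation (k := K) (w i) (hk i) (hnt i)
    refine ⟨m, hm0, fun f hf => ?_⟩
    rw [← hm f hf, hw i f hf, log_exp, neg_neg]
  choose m hm0 hm using hm
  have hme : ∀ i, (e : ℤ) = m i * (κ i).ord t := fun i => by rw [← hm i t ht0, hord]
  have hpos : ∀ i, 0 < (κ i).ord t := by
    intro i
    have h1 : (0 : ℤ) < m i * (κ i).ord t := by rw [← hme]; exact_mod_cast he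
    exact (pos_iff_pos_of_mul_pos h1).1 (hm0 i)
  -- `κ` is constant on `σ`-orbits
  have hκσ : ∀ i, κ (σ i) = κ i := by
    intro i
    apply Place.ext
    ext f
    rw [hκmem, hκmem, hwdef, hwdef, ← hσ, embCount_valuation_rot R hR hζ0]
  have hκpow : ∀ (n : ℕ) i, κ ((σ ^ n) i) = κ i := by
    intro n
    induction n with
    | zero => intro i; simp
    | succ n ih => intro i; rw [pow_succ', Equiv.Perm.mul_apply, hκσ, ih]
  -- lower bound
  have hdvd : ∀ i (n : ℕ), (σ ^ n) i = i → (κ i).ord t ∣ (n : ℤ) := by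
    intro i n hfix
    obtain ⟨π, hπ⟩ := IsDiscreteValuationRing.exists_irreducible (κ i).toValuationSubring
    have hπ0 : (π : F) ≠ 0 := PlaceOrd.coe_irreducible_ne_zero (κ i) hπ
    have h1 := embCount_dvd_of_fixed ε R σ hσ hζ hR i n hfix hπ0
    rw [hm i _ hπ0, (κ i).ord_coe_irreducible hπ, mul_one, hme i] at h1
    exact (mul_dvd_mul_iff_left (hm0 i).ne').1 h1
  -- the fibres of `κ`
  set P : Finset (Place K F) := ht.finite_ord_pos.toFinset with hP
  have hmemP : ∀ v, v ∈ P ↔ 0 < v.ord t := fun v => by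
    rw [hP, Set.Finite.mem_toFinset]; rfl
  have hsum : ∑ v ∈ P, v.ord t = (Module.finrank K⟮t⟯ F : ℤ) := ht.sum_ord
  let fib : Place K F → Finset ι := fun v => Finset.univ.filter fun i => κ i = v
  have himg : Finset.univ.image κ ⊆ P := by
    intro v hv
    obtain ⟨i, -, rfl⟩ := Finset.mem_image.1 hv
    exact (hmemP _).2 (hpos i)
  -- upper bound
  have hub : ∀ v ∈ P, ((fib v).card : ℤ) ≤ v.ord t := by
    intro v hv
    have hvpos := (hmemP v).1 hv
    obtain ⟨r, hr⟩ : ∃ r : ℕ, v.ord t = r := ⟨(v.ord t).toNat, by omega⟩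
    have := embCount_card_le v (ht.deg_eq_one v) ht0 r hr
      (Valued.v : Valuation (LaurentSeries ℂ) ℤᵐ⁰)
      (fun i : {i // κ i = v} => ε i.1)
      (fun i j hij => Subtype.ext (hinj hij))
      (fun i j c => hK i.1 j.1 c) (fun i j => ht' i.1 j.1)
      (fun i f hf => by
        have : f ∈ (κ i.1).toValuationSubring := by rw [i.2]; exact hf
        exact (hκmem i.1 f).1 this)
      (fun i => hwt1 i.1)
    rw [Fintype.card_subtype] at this
    rw [hr]
    exact_mod_cast this
  -- counting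
  have hc1 : ∑ v ∈ Finset.univ.image κ, ((fib v).card : ℤ) = (Module.finrank K⟮t⟯ F : ℤ) := by
    rw [← hcard, ← Finset.card_univ, Finset.card_eq_sum_card_image κ Finset.univ]
    push_cast
    rfl
  have hc2 : ∑ v ∈ Finset.univ.image κ, ((fib v).card : ℤ) ≤ ∑ v ∈ Finset.univ.image κ, v.ord t :=
    Finset.sum_le_sum fun v hv => hub v (himg hv)
  have hc3 : ∑ v ∈ Finset.univ.image κ, v.ord t ≤ ∑ v ∈ P, v.ord t :=
    Finset.sum_le_sum_of_subset_of_nonneg himg fun v hv _ => ((hmemP v).1 hv).le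
  have hfibcard : ∀ v ∈ Finset.univ.image κ, ((fib v).card : ℤ) = v.ord t :=
    (Finset.sum_eq_sum_iff_of_le fun v hv => hub v (himg hv)).1 (le_antisymm hc2 (by omega))
  have himgeq : Finset.univ.image κ = P := by
    by_contra hne
    obtain ⟨v, hvP, hvn⟩ := Finset.exists_of_ssubset (Finset.ssubset_iff_subset_ne.2 ⟨himg, hne⟩)
    have : ∑ v ∈ Finset.univ.image κ, v.ord t < ∑ v ∈ P, v.ord t :=
      Finset.sum_lt_sum_of_subset himg hvP hvn ((hmemP v).1 hvP)
        fun u hu _ => ((hmemP u).1 hu).le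
    omega
  refine ⟨κ, ?_, hpos, ?_, ?_⟩
  · intro i f hf
    rw [hm i f hf, hme i]; ring
  · intro v hv
    have : v ∈ Finset.univ.image κ := by rw [himgeq]; exact (hmemP v).2 hv
    obtain ⟨i, -, hi⟩ := Finset.mem_image.1 this
    exact ⟨i, hi⟩
  · intro i j
    constructor
    · intro hij
      obtain ⟨r, hr⟩ : ∃ r : ℕ, (κ i).ord t = r := ⟨((κ i).ord t).toNat, by have := hpos i; omega⟩
      let O : Finset ι := (Finset.range r).image fun n => (σ ^ n) i
      have hOsub : O ⊆ fib (κ i) := by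
        intro x hx
        obtain ⟨n, -, rfl⟩ := Finset.mem_image.1 hx
        exact Finset.mem_filter.2 ⟨Finset.mem_univ _, hκpow n i⟩
      have hOcard : O.card = r := by
        rw [Finset.card_image_of_injOn, Finset.card_range]
        intro a ha b hb hab
        have ha' : a < r := Finset.mem_range.1 ha
        have hb' : b < r := Finset.mem_range.1 hb
        have hab' : (σ ^ a) i = (σ ^ b) i := hab
        -- wlog a ≤ b
        have key : ∀ a b : ℕ, a ≤ b → b < r → (σ ^ a) i = (σ ^ b) i → a = b := by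
          intro a b hle hb hab
          have h1 : (σ ^ (b - a)) i = i := by
            apply (σ ^ a).injective
            rw [← Equiv.Perm.mul_apply, ← pow_add, Nat.add_sub_cancel' hle, hab]
          have h2 := hdvd i (b - a) h1
          rw [hr] at h2
          have h3 : r ∣ b - a := by exact_mod_cast h2
          have h4 : b - a = 0 := Nat.eq_zero_of_dvd_of_lt h3 (by omega)
          omega
        rcases le_total a b with h | h
        · exact key a b h hb' hab'
        · exact (key b a h ha' hab'.symm).symm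
      have hfc : (fib (κ i)).card = r := by
        have := hfibcard (κ i) (Finset.mem_image_of_mem κ (Finset.mem_univ i))
        rw [hr] at this
        exact_mod_cast this
      have hOeq : O = fib (κ i) := Finset.eq_of_subset_of_card_le hOsub (by rw [hfc, hOcard])
      have hj : j ∈ O := by
        rw [hOeq]; exact Finset.mem_filter.2 ⟨Finset.mem_univ _, hij.symm⟩
      obtain ⟨n, -, hn⟩ := Finset.mem_image.1 hj
      exact ⟨n, hn⟩
    · rintro ⟨n, rfl⟩
      exact (hκpow n i).symm

/-- Consequence: the number of places over `t = 0` is the number of `σ`-orbits. -/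
theorem card_places_eq_card_orbits_of_embeddings {K F : Type*} [Field K] [Field F] [Algebra K F]
    [IsAlgClosed K] {t : F} (ht : IsSepGen K t)
    {ι : Type*} [Fintype ι] (ε : ι → F →+* LaurentSeries ℂ)
    (hinj : Function.Injective ε)
    (hcard : Fintype.card ι = Module.finrank K⟮t⟯ F)
    (hK : ∀ i j (c : K), ε i (algebraMap K F c) = ε j (algebraMap K F c))
    (hKord : ∀ i (c : K), c ≠ 0 → (ε i (algebraMap K F c)).order = 0)
    (ht' : ∀ i j, ε i t = ε j t)
    (e : ℕ) (he : 0 < e) (hord : ∀ i, (ε i t).order = (e : ℤ))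
    (ζ : ℂ) (hζ : IsPrimitiveRoot ζ e)
    (R : LaurentSeries ℂ →+* LaurentSeries ℂ)
    (hR : ∀ (f : LaurentSeries ℂ) (m : ℤ), (R f).coeff m = ζ ^ m * f.coeff m)
    (σ : Equiv.Perm ι) (hσ : ∀ i f, R (ε i f) = ε (σ i) f) :
    Nat.card {v : Place K F // 0 < v.ord t} =
      Nat.card (MulAction.orbitRel.Quotient (Subgroup.zpowers σ) ι) := by
  obtain ⟨κ, -, hpos, hsurj, hiff⟩ := exists_places_of_embeddings ht ε hinj hcard hK hKord ht'
    e he hord ζ hζ R hR σ hσ
  symm
  let H : Subgroup (Equiv.Perm ι) :=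
    { carrier := {g | ∀ i, κ (g i) = κ i}
      mul_mem' := fun {a b} ha hb i => by
        rw [Equiv.Perm.mul_apply, ha, hb]
      one_mem' := fun i => rfl
      inv_mem' := fun {a} ha i => by
        have := ha (a⁻¹ i)
        rw [← Equiv.Perm.mul_apply, mul_inv_cancel, Equiv.Perm.one_apply] at this
        exact this.symm }
  have hσH : σ ∈ H := fun i => ((hiff i (σ i)).2 ⟨1, by simp⟩).symm
  have hle : Subgroup.zpowers σ ≤ H := (Subgroup.zpowers_le).2 hσH
  have hκz : ∀ (g : Subgroup.zpowers σ) (i : ι), κ (g • i) = κ i := fun g i => hle g.2 i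
  let Φ : MulAction.orbitRel.Quotient (Subgroup.zpowers σ) ι → {v : Place K F // 0 < v.ord t} :=
    Quotient.lift (fun i => (⟨κ i, hpos i⟩ : {v : Place K F // 0 < v.ord t})) (by
      intro a b hab
      have hab' : (MulAction.orbitRel (Subgroup.zpowers σ) ι) a b := hab
      rw [MulAction.orbitRel_apply, MulAction.mem_orbit_iff] at hab'
      obtain ⟨g, rfl⟩ := hab'
      exact Subtype.ext (hκz g b))
  refine Nat.card_congr (Equiv.ofBijective Φ ⟨?_, ?_⟩)
  · rintro ⟨i⟩ ⟨j⟩ hij
    have hij' : κ i = κ j := congrArg Subtype.val hij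
    obtain ⟨n, hn⟩ := (hiff i j).1 hij'
    refine Quotient.sound (s := MulAction.orbitRel (Subgroup.zpowers σ) ι) ?_
    refine (MulAction.orbitRel (Subgroup.zpowers σ) ι).symm ?_
    show (MulAction.orbitRel (Subgroup.zpowers σ) ι) j i
    rw [MulAction.orbitRel_apply, MulAction.mem_orbit_iff]
    exact ⟨⟨σ ^ n, Subgroup.pow_mem _ (Subgroup.mem_zpowers σ) n⟩, hn⟩
  · rintro ⟨v, hv⟩
    obtain ⟨i, hi⟩ := hsurj v hv
    exact ⟨Quotient.mk (MulAction.orbitRel (Subgroup.zpowers σ) ι) i, Subtype.ext hi⟩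

end Main

end Fermat.Agent.S24
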