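import Mathlib

/-!
# Kähler differentials of a function field of one variable

For `x : F` transcendental over `K` with `F` finite separable over `K⟮x⟯`: `Ω[F⁄K]` is
one-dimensional over `F`, generated by `D x ≠ 0`.
-/

set_option linter.unusedSectionVars false

namespace Fermat.Agent.S24

open KaehlerDifferential IntermediateField Polynomial

variable {K F : Type*} [Field K] [Field F] [Algebra K F]

/-- `D e ∈ F • D x` for `e ∈ K(x)`. -/
theorem kaehlerRank_D_mem_of_mem_adjoin (x : F) {e : F} (he : e ∈ K⟮x⟯) :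
    D K F e ∈ Submodule.span F {D K F x} := by
  obtain ⟨r, s, rfl⟩ := (mem_adjoin_simple_iff K e).1 he
  rw [Derivation.leibniz_div, Derivation.map_aeval, Derivation.map_aeval]
  refine Submodule.smul_mem _ _ (Submodule.sub_mem _ ?_ ?_) <;>
  exact Submodule.smul_mem _ _ (Submodule.smul_mem _ _ (Submodule.subset_span rfl))

/-- chain rule modulo `F • D x` for polynomials with coefficients in `K(x)`. -/
theorem kaehlerRank_D_aeval_sub_mem (x f : F) (m : K⟮x⟯[X]) :
    D K F (aeval f m) - aeval f (derivative m) • D K F f ∈ Submodule.span F {D K F x} := by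
  induction m using Polynomial.induction_on' with
  | add p q hp hq =>
    have : D K F (aeval f (p + q)) - aeval f (derivative (p + q)) • D K F f
        = (D K F (aeval f p) - aeval f (derivative p) • D K F f)
          + (D K F (aeval f q) - aeval f (derivative q) • D K F f) := by
      simp only [map_add, add_smul]; abel
    rw [this]
    exact Submodule.add_mem _ hp hq
  | monomial n c =>
    have h1 : aeval f (monomial n c) = (c : F) * f ^ n := by
      rw [aeval_monomial]; rfl
    have h2 : aeval f (derivative (monomial n c)) = (c : F) * (n : F) * f ^ (n - 1) := by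
      rw [derivative_monomial, aeval_monomial, map_mul, map_natCast]; rfl
    have h3 : D K F ((c : F) * f ^ n) - ((c : F) * (n : F) * f ^ (n - 1)) • D K F f
        = f ^ n • D K F (c : F) := by
      rw [Derivation.leibniz, Derivation.leibniz_pow, ← Nat.cast_smul_eq_nsmul F, smul_smul,
        smul_smul]
      abel
    rw [h1, h2, h3]
    exact Submodule.smul_mem _ _ (kaehlerRank_D_mem_of_mem_adjoin x c.2)

/-- `D f ∈ F • D x` for `f` separable over `K(x)`. -/
theorem kaehlerRank_D_mem_of_isSeparable (x f : F) (hf : IsSeparable K⟮x⟯ f) :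
    D K F f ∈ Submodule.span F {D K F x} := by
  have h1 := kaehlerRank_D_aeval_sub_mem x f (minpoly K⟮x⟯ f)
  rw [minpoly.aeval, map_zero, zero_sub, Submodule.neg_mem_iff] at h1
  have h2 : aeval f (derivative (minpoly K⟮x⟯ f)) ≠ 0 :=
    hf.aeval_derivative_ne_zero (minpoly.aeval _ _)
  have h3 := Submodule.smul_mem _ (aeval f (derivative (minpoly K⟮x⟯ f)))⁻¹ h1
  rwa [smul_smul, inv_mul_cancel₀ h2, one_smul] at h3

/-- (a) `Ω[F⁄K]` is spanned by `D x`. -/
theorem kaehlerRank_span_D_eq_top (x : F) [Algebra.IsSeparable K⟮x⟯ F] :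
    Submodule.span F {D K F x} = ⊤ := by
  rw [eq_top_iff, ← span_range_derivation K F, Submodule.span_le]
  rintro _ ⟨f, rfl⟩
  exact kaehlerRank_D_mem_of_isSeparable x f (Algebra.IsSeparable.isSeparable K⟮x⟯ f)

open scoped IntermediateField.algebraAdjoinAdjoin in
/-- `F` is essentially of finite type over `K`. -/
theorem kaehlerRank_essFiniteType (x : F) [FiniteDimensional K⟮x⟯ F] :
    Algebra.EssFiniteType K F := by
  have h1 : Algebra.FiniteType K (Algebra.adjoin K {x}) :=
    Algebra.FiniteType.adjoin_of_finite (Set.finite_singleton x)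
  have h2 : Algebra.EssFiniteType (Algebra.adjoin K {x}) K⟮x⟯ :=
    Algebra.EssFiniteType.of_isLocalization _ (nonZeroDivisors (Algebra.adjoin K {x}))
  have h3 : Algebra.EssFiniteType K K⟮x⟯ := Algebra.EssFiniteType.comp K (Algebra.adjoin K {x}) _
  exact Algebra.EssFiniteType.comp K K⟮x⟯ F

/-- (b) `D x ≠ 0` for `x` transcendental. -/
theorem kaehlerRank_D_ne_zero {x : F} (hx : Transcendental K x) [FiniteDimensional K⟮x⟯ F]
    [Algebra.IsSeparable K⟮x⟯ F] : D K F x ≠ 0 := by
  intro h0
  have htop := kaehlerRank_span_D_eq_top (K := K) x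
  rw [h0, Submodule.span_zero_singleton] at htop
  have hsub : Subsingleton Ω[F⁄K] := by
    refine ⟨fun a b => ?_⟩
    have ha : a ∈ (⊥ : Submodule F Ω[F⁄K]) := htop ▸ Submodule.mem_top
    have hb : b ∈ (⊥ : Submodule F Ω[F⁄K]) := htop ▸ Submodule.mem_top
    rw [Submodule.mem_bot] at ha hb
    rw [ha, hb]
  have : Algebra.FormallyUnramified K F := ⟨hsub⟩
  have := kaehlerRank_essFiniteType (K := K) x
  have hsep : Algebra.IsSeparable K F := Algebra.FormallyUnramified.isSeparable K F
  exact hx (Algebra.IsSeparable.isIntegral K x).isAlgebraic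

/-- `Ω[F⁄K]` is nontrivial. -/
theorem kaehlerRank_nontrivial {x : F} (hx : Transcendental K x) [FiniteDimensional K⟮x⟯ F]
    [Algebra.IsSeparable K⟮x⟯ F] : Nontrivial Ω[F⁄K] :=
  ⟨⟨D K F x, 0, kaehlerRank_D_ne_zero hx⟩⟩

/-- `Ω[F⁄K]` is one-dimensional over `F`. -/
theorem kaehlerRank_finrank_eq_one {x : F} (hx : Transcendental K x) [FiniteDimensional K⟮x⟯ F]
    [Algebra.IsSeparable K⟮x⟯ F] : Module.finrank F Ω[F⁄K] = 1 := by
  rw [finrank_eq_one_iff_of_nonzero (D K F x) (kaehlerRank_D_ne_zero hx)]
  exact kaehlerRank_span_D_eq_top (K := K) x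

/-- every differential is a multiple of `D x`. -/
theorem kaehlerRank_exists_eq_smul {x : F} [Algebra.IsSeparable K⟮x⟯ F] (ω : Ω[F⁄K]) :
    ∃ c : F, ω = c • D K F x := by
  have h : ω ∈ Submodule.span F {D K F x} := by
    rw [kaehlerRank_span_D_eq_top (K := K) x]; trivial
  obtain ⟨c, hc⟩ := Submodule.mem_span_singleton.1 h
  exact ⟨c, hc.symm⟩

end Fermat.Agent.S24
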