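import Fermat.Prelude.Def_AlgebraicCurve_DivisorClassGroup
import Mathlib

/-!
# Places of a function field are localizations of Dedekind models

If `A ⊆ O_v` is a Dedekind domain of finite type over `K` with fraction field `F`, then `O_v` is
the localization of `A` at the prime `m_v ∩ A`; hence `O_v` is essentially of finite type over `K`
and its residue field is finite over `K` (equal to `K` when `K` is algebraically closed).
-/

set_option linter.unusedSectionVars false
set_option linter.style.haveILetI false

namespace Fermat.Agent.S24

open IsLocalRing AlgebraicCurve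

variable {K F : Type*} [Field K] [Field F] [Algebra K F] (v : Place K F)
  {A : Type*} [CommRing A] [IsDedekindDomain A] [Algebra K A] [Algebra A F]
  [IsScalarTower K A F] [IsFractionRing A F]
  (hA : ∀ a : A, algebraMap A F a ∈ v.toValuationSubring)

include hA

/-- the inclusion of a model `A` into the valuation ring of `v`. -/
def bridgeHom : A →+* v.toValuationSubring :=
  (algebraMap A F).codRestrict v.toValuationSubring.toSubring hA

@[simp] theorem coe_bridgeHom (a : A) : ((bridgeHom v hA a : v.toValuationSubring) : F)
    = algebraMap A F a := rfl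

theorem bridgeHom_injective : Function.Injective (bridgeHom v hA) := by
  intro a b h
  apply IsFractionRing.injective A F
  have := congrArg (Subtype.val) h
  simpa using this

/-- the centre of `v` on the model `A`. -/
def bridgeCentre : Ideal A := (maximalIdeal v.toValuationSubring).comap (bridgeHom v hA)

instance bridgeCentre_isPrime : (bridgeCentre v hA).IsPrime :=
  Ideal.comap_isPrime _ _

theorem mem_bridgeCentre {a : A} :
    a ∈ bridgeCentre v hA ↔ bridgeHom v hA a ∈ maximalIdeal v.toValuationSubring := Iff.rfl

theorem isUnit_bridgeHom_of_notMem {a : A} (ha : a ∉ bridgeCentre v hA) :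
    IsUnit (bridgeHom v hA a) := by
  rw [mem_bridgeCentre] at ha
  exact IsLocalRing.notMem_maximalIdeal.1 ha

theorem bridgeCentre_ne_bot : bridgeCentre v hA ≠ ⊥ := by
  intro hbot
  apply v.ne_top'
  refine SetLike.ext fun x => ⟨fun _ => ValuationSubring.mem_top x, fun _ => ?_⟩
  obtain ⟨a, b, hb, rfl⟩ := IsFractionRing.div_surjective (A := A) x
  have hb0 : b ≠ 0 := nonZeroDivisors.ne_zero hb
  have hbP : b ∉ bridgeCentre v hA := by rw [hbot]; exact hb0
  obtain ⟨u, hu⟩ := isUnit_bridgeHom_of_notMem v hA hbP
  have h1 : (algebraMap A F b)⁻¹ = ((u⁻¹ : (v.toValuationSubring)ˣ) : v.toValuationSubring) := by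
    rw [eq_comm, ← mul_eq_one_iff_eq_inv₀ ((map_ne_zero_iff _ (IsFractionRing.injective A F)).2 hb0),
      ← coe_bridgeHom v hA b, ← hu]
    exact_mod_cast congrArg (Subtype.val) (Units.inv_mul u)
  rw [div_eq_mul_inv, h1]
  exact v.toValuationSubring.mul_mem _ _ (hA a) (Subtype.mem _)

/-- every element of the valuation ring is a fraction with denominator outside the centre. -/
theorem exists_mul_eq_of_mem (x : v.toValuationSubring) :
    ∃ (a s : A), s ∉ bridgeCentre v hA ∧ x * bridgeHom v hA s = bridgeHom v hA a := by
  set P := bridgeCentre v hA with hP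
  obtain ⟨a, b, hb, hx⟩ := IsFractionRing.div_surjective (A := A) (x : F)
  have hb0 : b ≠ 0 := nonZeroDivisors.ne_zero hb
  have hbF : algebraMap A F b ≠ 0 := (map_ne_zero_iff _ (IsFractionRing.injective A F)).2 hb0
  have : IsDiscreteValuationRing (Localization.AtPrime P) :=
    IsLocalization.AtPrime.isDiscreteValuationRing_of_dedekind_domain A
      (bridgeCentre_ne_bot v hA) _
  have hinj : Function.Injective (algebraMap A (Localization.AtPrime P)) :=
    IsLocalization.injective _ P.primeCompl_le_nonZeroDivisors
  obtain ⟨c, hc⟩ := ValuationRing.cond (algebraMap A (Localization.AtPrime P) a)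
    (algebraMap A (Localization.AtPrime P) b)
  obtain ⟨c₀, s₀, rfl⟩ := IsLocalization.exists_mk'_eq P.primeCompl c
  have hs₀ : (s₀ : A) ∉ P := s₀.2
  have hxb : (x : F) * algebraMap A F b = algebraMap A F a := by
    rw [← hx, div_mul_cancel₀ _ hbF]
  rcases hc with hc | hc
  · -- `a * c₀ = b * s₀`
    have h1 : a * c₀ = b * s₀ := by
      apply hinj
      rw [map_mul, map_mul, ← hc, mul_assoc, IsLocalization.mk'_spec]
    have hc₀ : c₀ ≠ 0 := by
      rintro rfl
      rw [mul_zero] at h1
      exact hs₀ (by rw [(mul_eq_zero.1 h1.symm).resolve_left hb0]; exact P.zero_mem)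
    -- `x * c₀ = s₀`
    have h2 : (x : F) * algebraMap A F c₀ = algebraMap A F s₀ := by
      apply mul_left_cancel₀ hbF
      calc algebraMap A F b * ((x : F) * algebraMap A F c₀)
          = ((x : F) * algebraMap A F b) * algebraMap A F c₀ := by ring
        _ = algebraMap A F (a * c₀) := by rw [hxb, map_mul]
        _ = algebraMap A F b * algebraMap A F s₀ := by rw [h1, map_mul]
    by_cases hcP : c₀ ∈ P
    · exfalso
      apply hs₀
      refine (mem_bridgeCentre v hA).2 ?_
      have h3 : bridgeHom v hA s₀ = x * bridgeHom v hA c₀ := Subtype.ext (by simpa using h2.symm)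
      rw [h3]
      exact Ideal.mul_mem_left _ _ ((mem_bridgeCentre v hA).1 hcP)
    · exact ⟨s₀, c₀, hcP, Subtype.ext (by simpa using h2)⟩
  · -- `b * c₀ = a * s₀`
    have h1 : b * c₀ = a * s₀ := by
      apply hinj
      rw [map_mul, map_mul, ← hc, mul_assoc, IsLocalization.mk'_spec]
    refine ⟨c₀, s₀, hs₀, Subtype.ext ?_⟩
    have h2 : (x : F) * algebraMap A F s₀ = algebraMap A F c₀ := by
      apply mul_left_cancel₀ hbF
      calc algebraMap A F b * ((x : F) * algebraMap A F s₀)
          = ((x : F) * algebraMap A F b) * algebraMap A F s₀ := by ring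
        _ = algebraMap A F (a * s₀) := by rw [hxb, map_mul]
        _ = algebraMap A F b * algebraMap A F c₀ := by rw [← h1, map_mul]
    simpa using h2

/-- the algebra structure of `O_v` over the model `A`. -/
@[reducible] def bridgeAlgebra : Algebra A v.toValuationSubring := (bridgeHom v hA).toAlgebra

theorem bridge_isScalarTower :
    letI := bridgeAlgebra v hA
    IsScalarTower K A v.toValuationSubring := by
  letI := bridgeAlgebra v hA
  refine IsScalarTower.of_algebraMap_eq (fun k => Subtype.ext ?_)
  show algebraMap K F k = algebraMap A F (algebraMap K A k)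
  exact IsScalarTower.algebraMap_apply K A F k

/-- `O_v` is the localization of `A` at the centre of `v`. -/
theorem bridge_isLocalization :
    letI := bridgeAlgebra v hA
    IsLocalization.AtPrime v.toValuationSubring (bridgeCentre v hA) := by
  letI := bridgeAlgebra v hA
  refine ⟨fun s => isUnit_bridgeHom_of_notMem v hA s.2, fun x => ?_, fun {a b} h => ?_⟩
  · obtain ⟨a, s, hs, h⟩ := exists_mul_eq_of_mem v hA x
    exact ⟨(a, ⟨s, hs⟩), h⟩
  · exact ⟨1, by rw [bridgeHom_injective v hA h]⟩

/-- (P0) the valuation ring of `v` is essentially of finite type over `K`. -/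
theorem bridge_essFiniteType [Algebra.FiniteType K A] :
    Algebra.EssFiniteType K v.toValuationSubring := by
  letI := bridgeAlgebra v hA
  have := bridge_isScalarTower v hA
  have := bridge_isLocalization v hA
  have : Algebra.EssFiniteType A v.toValuationSubring :=
    Algebra.EssFiniteType.of_isLocalization _ (bridgeCentre v hA).primeCompl
  exact Algebra.EssFiniteType.comp K A v.toValuationSubring

theorem bridgeCentre_isMaximal : (bridgeCentre v hA).IsMaximal :=
  Ideal.IsPrime.isMaximal (bridgeCentre_isPrime v hA) (bridgeCentre_ne_bot v hA)

/-- the residue field of `v` is a quotient of the model `A`. -/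
theorem bridge_residue_surjective :
    Function.Surjective fun a : A => residue v.toValuationSubring (bridgeHom v hA a) := by
  intro z
  obtain ⟨x, rfl⟩ := residue_surjective z
  obtain ⟨a, s, hs, h⟩ := exists_mul_eq_of_mem v hA x
  obtain ⟨s', i, hi, hsi⟩ := (bridgeCentre_isMaximal v hA).exists_inv hs
  refine ⟨a * s', ?_⟩
  have h0 : residue v.toValuationSubring (bridgeHom v hA i) = 0 := by
    rw [residue_eq_zero_iff]; exact (mem_bridgeCentre v hA).1 hi
  have h1 : residue v.toValuationSubring (bridgeHom v hA s') *
      residue v.toValuationSubring (bridgeHom v hA s) = 1 := by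
    rw [← map_mul, ← map_mul, ← add_zero (residue _ _), ← h0, ← map_add, ← map_add, hsi, map_one,
      map_one]
  show residue v.toValuationSubring (bridgeHom v hA (a * s')) = residue v.toValuationSubring x
  calc residue v.toValuationSubring (bridgeHom v hA (a * s'))
      = residue v.toValuationSubring (x * bridgeHom v hA s) *
        residue v.toValuationSubring (bridgeHom v hA s') := by rw [h, ← map_mul, ← map_mul]
    _ = residue v.toValuationSubring x * (residue v.toValuationSubring (bridgeHom v hA s') *
        residue v.toValuationSubring (bridgeHom v hA s)) := by rw [map_mul]; ring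
    _ = residue v.toValuationSubring x := by rw [h1, mul_one]

/-- the residue map from the model, as a `K`-algebra homomorphism. -/
noncomputable def bridgeResidueHom : A →ₐ[K] v.ResidueField where
  toRingHom := (residue v.toValuationSubring).comp (bridgeHom v hA)
  commutes' k := by
    show residue v.toValuationSubring (bridgeHom v hA (algebraMap K A k)) = _
    have : bridgeHom v hA (algebraMap K A k) = algebraMap K v.toValuationSubring k :=
      Subtype.ext (by
        show algebraMap A F (algebraMap K A k) = algebraMap K F k
        exact (IsScalarTower.algebraMap_apply K A F k).symm)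
    rw [this]
    rfl

/-- (P0) the residue field of `v` is finite over `K`. -/
theorem bridge_finite_residueField [Algebra.FiniteType K A] : Module.Finite K v.ResidueField := by
  have : Algebra.FiniteType K v.ResidueField :=
    Algebra.FiniteType.of_surjective (bridgeResidueHom v hA) (bridge_residue_surjective v hA)
  exact finite_of_finite_type_of_isJacobsonRing K v.ResidueField

theorem bridge_finiteResidue [Algebra.FiniteType K A] : v.FiniteResidue :=
  ⟨bridge_finite_residueField v hA⟩

/-- (P0) over an algebraically closed field the residue field of `v` is `K`. -/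
theorem bridge_algebraMap_residueField_surjective [Algebra.FiniteType K A] [IsAlgClosed K] :
    Function.Surjective (algebraMap K v.ResidueField) := by
  have := bridge_finite_residueField v hA
  have : Algebra.IsIntegral K v.ResidueField := Algebra.IsIntegral.of_finite K _
  exact (IsAlgClosed.algebraMap_bijective_of_isIntegral (k := K) (K := v.ResidueField)).2

/-- (P0) over an algebraically closed field every place has degree one. -/
theorem bridge_deg_eq_one [Algebra.FiniteType K A] [IsAlgClosed K] : v.deg = 1 := by
  have hs := bridge_algebraMap_residueField_surjective v hA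
  have hb : Function.Bijective (algebraMap K v.ResidueField) :=
    ⟨(algebraMap K v.ResidueField).injective, hs⟩
  rw [Place.deg]
  have e : K ≃ₗ[K] v.ResidueField :=
    LinearEquiv.ofBijective (Algebra.linearMap K v.ResidueField) hb
  rw [← e.finrank_eq, Module.finrank_self]

end Fermat.Agent.S24
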