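import Fermat.Agent.S24.LocalDiff
import Fermat.Agent.S24.LocalDiffBridge
import Fermat.Agent.S24.KaehlerRank

/-!
# Places of a function field of one variable: hypothesis-free local theory

For `x : F` transcendental over `K` with `F` finite separable over `K⟮x⟯`, every place `v` of
`F/K` has a valuation ring essentially of finite type over `K` with residue field finite over `K`
(equal to `K` if `K` is algebraically closed).  Consequently the results of `LocalDiff` hold
without extra hypotheses.
-/

set_option linter.unusedSectionVars false
set_option linter.style.haveILetI false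

namespace Fermat.Agent.S24

open KaehlerDifferential IsLocalRing AlgebraicCurve IntermediateField

variable {K F : Type*} [Field K] [Field F] [Algebra K F] (v : Place K F)

open scoped IntermediateField.algebraAdjoinAdjoin in
/-- the Dedekind model `integralClosure K[y] F` for a transcendental `y` regular at `v`. -/
theorem model_of_mem {y : F} (hy : Transcendental K y) [FiniteDimensional K⟮y⟯ F]
    [Algebra.IsSeparable K⟮y⟯ F] (hyv : y ∈ v.toValuationSubring) :
    Algebra.EssFiniteType K v.toValuationSubring ∧ Module.Finite K v.ResidueField := by
  let A₀ : Subalgebra K F := Algebra.adjoin K {y}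
  let e : Polynomial K ≃ₐ[K] A₀ := Polynomial.algEquivOfTranscendental K y hy
  haveI : IsPrincipalIdealRing A₀ :=
    IsPrincipalIdealRing.of_surjective e.toRingEquiv.toRingHom e.surjective
  haveI : IsDedekindDomain A₀ := inferInstance
  haveI : Algebra.FiniteType K A₀ := Algebra.FiniteType.adjoin_of_finite (Set.finite_singleton y)
  let A : Subalgebra A₀ F := integralClosure A₀ F
  haveI : IsDedekindDomain A := integralClosure.isDedekindDomain A₀ K⟮y⟯ F
  haveI : IsFractionRing A F := IsIntegralClosure.isFractionRing_of_finite_extension A₀ K⟮y⟯ F A
  haveI : Module.Finite A₀ A := IsIntegralClosure.finite A₀ K⟮y⟯ F A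
  haveI : Algebra.FiniteType K A := Algebra.FiniteType.trans (S := A₀) inferInstance inferInstance
  -- `A₀ ⊆ O_v`
  have hmem : ∀ z ∈ A₀, z ∈ v.toValuationSubring := by
    intro z hz
    induction hz using Algebra.adjoin_induction with
    | mem z hz => rw [Set.mem_singleton_iff] at hz; rw [hz]; exact hyv
    | algebraMap r => exact v.algebraMap_mem' r
    | add a b _ _ ha hb => exact add_mem ha hb
    | mul a b _ _ ha hb => exact mul_mem ha hb
  let φ : A₀ →+* v.toValuationSubring :=
    (A₀.val.toRingHom).codRestrict v.toValuationSubring.toSubring (fun z => hmem z z.2)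
  have hA : ∀ a : A, algebraMap A F a ∈ v.toValuationSubring := by
    intro a
    have h1 : IsIntegral A₀ (a : F) := a.2
    have h2 : IsIntegral v.toValuationSubring (a : F) :=
      IsIntegral.map_of_comp_eq φ (RingHom.id F) (by ext z; rfl) h1
    obtain ⟨w, hw⟩ := IsIntegrallyClosed.isIntegral_iff.1 h2
    show (a : F) ∈ v.toValuationSubring
    rw [← hw]
    exact w.2
  exact ⟨bridge_essFiniteType v hA, bridge_finite_residueField v hA⟩

theorem transcendental_inv_of_transcendental {x : F} (hx : Transcendental K x) :
    Transcendental K x⁻¹ := fun h => hx (by simpa using h.inv)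

theorem adjoin_simple_inv_eq (x : F) : K⟮x⁻¹⟯ = K⟮x⟯ := by
  apply le_antisymm
  · exact adjoin_simple_le_iff.2 (inv_mem (mem_adjoin_simple_self K x))
  · exact adjoin_simple_le_iff.2 (by simpa using inv_mem (mem_adjoin_simple_self K x⁻¹))

section Global

variable {x : F} (hx : Transcendental K x) [FiniteDimensional K⟮x⟯ F] [Algebra.IsSeparable K⟮x⟯ F]
include hx

/-- every place of a function field has a valuation ring essentially of finite type over `K`
and a residue field finite over `K`. -/
theorem place_model : Algebra.EssFiniteType K v.toValuationSubring ∧
    Module.Finite K v.ResidueField := by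
  rcases v.toValuationSubring.mem_or_inv_mem x with h | h
  · exact model_of_mem v hx h
  · have heq := adjoin_simple_inv_eq (K := K) x
    have h1 : FiniteDimensional K⟮x⁻¹⟯ F := by rw [heq]; infer_instance
    have h2 : Algebra.IsSeparable K⟮x⁻¹⟯ F := by rw [heq]; infer_instance
    exact model_of_mem v (transcendental_inv_of_transcendental hx) h

theorem place_essFiniteType : Algebra.EssFiniteType K v.toValuationSubring :=
  (place_model v hx).1

theorem place_finite_residueField : Module.Finite K v.ResidueField :=
  (place_model v hx).2

theorem place_finiteResidue : v.FiniteResidue := ⟨place_finite_residueField v hx⟩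

theorem place_residue_surjective [IsAlgClosed K] :
    Function.Surjective (algebraMap K v.ResidueField) := by
  have := place_finite_residueField v hx
  have : Algebra.IsIntegral K v.ResidueField := Algebra.IsIntegral.of_finite K _
  exact (IsAlgClosed.algebraMap_bijective_of_isIntegral (k := K) (K := v.ResidueField)).2

theorem place_deg_eq_one [IsAlgClosed K] : v.deg = 1 := by
  have hb : Function.Bijective (algebraMap K v.ResidueField) :=
    ⟨(algebraMap K v.ResidueField).injective, place_residue_surjective v hx⟩
  rw [Place.deg]
  have e : K ≃ₗ[K] v.ResidueField :=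
    LinearEquiv.ofBijective (Algebra.linearMap K v.ResidueField) hb
  rw [← e.finrank_eq, Module.finrank_self]

theorem place_dCoordGenerates [IsAlgClosed K] : v.DCoordGenerates := by
  have := place_essFiniteType v hx
  exact dCoordGenerates_of_essFiniteType v (place_residue_surjective v hx)

theorem place_nontrivial_kaehler : Nontrivial Ω[F⁄K] := kaehlerRank_nontrivial hx

/-- differentials of functions regular at `v` have regular coefficients. -/
theorem place_differentialCoeff_D_mem [IsAlgClosed K] (g : v.toValuationSubring) :
    v.differentialCoeff (D K F (g : F)) ∈ v.toValuationSubring := by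
  have := place_essFiniteType v hx
  have := place_nontrivial_kaehler hx
  exact differentialCoeff_D_mem v (place_residue_surjective v hx) g

/-- `ord_v (D f) = e - 1` at a zero of order `e` of `f - a`. -/
theorem place_ordDifferential_D_of_zero [IsAlgClosed K] [CharZero K] {f : F} (a : K) {e : ℕ}
    (he : 0 < e) (h : v.ord (f - algebraMap K F a) = e) (hfa : f ≠ algebraMap K F a) :
    v.ordDifferential (D K F f) = (e : ℤ) - 1 := by
  have := place_essFiniteType v hx
  have := place_nontrivial_kaehler hx
  exact ordDifferential_D_of_zero v (place_residue_surjective v hx) a he h hfa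

/-- `ord_v (D f) = -e - 1` at a pole of order `e` of `f`. -/
theorem place_ordDifferential_D_of_pole [IsAlgClosed K] [CharZero K] {f : F} {e : ℕ}
    (he : 0 < e) (h : v.ord f = -(e : ℤ)) :
    v.ordDifferential (D K F f) = -(e : ℤ) - 1 := by
  have := place_essFiniteType v hx
  have := place_nontrivial_kaehler hx
  exact ordDifferential_D_of_pole v (place_residue_surjective v hx) he h

/-- the coefficient of `D f` does not vanish at a zero of `f - a`. -/
theorem place_differentialCoeff_D_ne_zero_of_zero [IsAlgClosed K] [CharZero K] {f : F} (a : K)
    {e : ℕ} (he : 0 < e) (h : v.ord (f - algebraMap K F a) = e) (hfa : f ≠ algebraMap K F a) :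
    v.differentialCoeff (D K F f) ≠ 0 := by
  have := place_essFiniteType v hx
  have := place_nontrivial_kaehler hx
  exact differentialCoeff_D_ne_zero_of_zero v (place_residue_surjective v hx) a he h hfa

end Global

end Fermat.Agent.S24
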