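import Fermat.Agent.S24.Cusps

set_option autoImplicit false

namespace Fermat.Agent.S24

open Matrix MatrixGroups ModularGroup

/-- Orbit counting for an element of prime period `m`:
`m * #orbits = |X| + (m - 1) * #fixed points`. -/
theorem card_orbits_of_prime_period {G X : Type*} [Group G] [MulAction G X] [Finite X]
    (g : G) (m : ℕ) (hm : m.Prime) (hg : ∀ x : X, g ^ m • x = x) :
    m * Nat.card (MulAction.orbitRel.Quotient (Subgroup.zpowers g) X) =
      Nat.card X + (m - 1) * Nat.card {x : X // g • x = x} := by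
  classical
  have := Fintype.ofFinite X
  set Ω := MulAction.orbitRel.Quotient (Subgroup.zpowers g) X with hΩ
  have : Fintype Ω := Fintype.ofFinite Ω
  -- period of a point
  have hper : ∀ x : X, Nat.card (MulAction.orbit (Subgroup.zpowers g) x) =
      if g • x = x then 1 else m := by
    intro x
    rw [Nat.card_congr (MulAction.orbitZPowersEquiv g x), Nat.card_zmod]
    have hdvd : Function.minimalPeriod (g • ·) x ∣ m := by
      apply Function.IsPeriodicPt.minimalPeriod_dvd
      rw [Function.IsPeriodicPt, Function.IsFixedPt, smul_iterate]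
      exact hg x
    split_ifs with hfix
    · exact Function.minimalPeriod_eq_one_iff_isFixedPt.mpr hfix
    · rcases (Nat.dvd_prime hm).mp hdvd with h1 | h1
      · exact absurd (Function.minimalPeriod_eq_one_iff_isFixedPt.mp h1) hfix
      · exact h1
  -- class formula
  have hclass : Nat.card X = ∑ ω : Ω, (if g • ω.out = ω.out then 1 else m) := by
    rw [Nat.card_congr (MulAction.selfEquivSigmaOrbits (Subgroup.zpowers g) X), Nat.card_sigma]
    exact Finset.sum_congr rfl fun ω _ => hper ω.out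
  -- fixed orbits
  have hfixcard : Nat.card {x : X // g • x = x} =
      (Finset.univ.filter fun ω : Ω => g • ω.out = ω.out).card := by
    rw [← Fintype.card_subtype, ← Nat.card_eq_fintype_card]
    refine Nat.card_congr ⟨fun x => ⟨Quotient.mk'' x.1, ?_⟩, fun ω => ⟨ω.1.out, ω.2⟩, ?_, ?_⟩
    · have h1 : (Quotient.mk'' x.1 : Ω).out ∈ MulAction.orbit (Subgroup.zpowers g) x.1 := by
        have := Quotient.mk_out (s := MulAction.orbitRel (Subgroup.zpowers g) X) x.1
        exact this
      obtain ⟨⟨h, hh⟩, hx⟩ := h1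
      obtain ⟨k, rfl⟩ := Subgroup.mem_zpowers_iff.mp hh
      have h2 : (g ^ k) • x.1 = x.1 :=
        MulAction.mem_fixedBy_zpow (MulAction.mem_fixedBy.mpr x.2) k
      have h4 : (Quotient.mk'' x.1 : Ω).out = x.1 := by
        rw [← hx]; exact h2
      rw [h4]; exact x.2
    · intro x
      apply Subtype.ext
      show (Quotient.mk'' x.1 : Ω).out = x.1
      have h1 : (Quotient.mk'' x.1 : Ω).out ∈ MulAction.orbit (Subgroup.zpowers g) x.1 := by
        have := Quotient.mk_out (s := MulAction.orbitRel (Subgroup.zpowers g) X) x.1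
        exact this
      obtain ⟨⟨h, hh⟩, hx⟩ := h1
      obtain ⟨k, rfl⟩ := Subgroup.mem_zpowers_iff.mp hh
      have h2 : (g ^ k) • x.1 = x.1 :=
        MulAction.mem_fixedBy_zpow (MulAction.mem_fixedBy.mpr x.2) k
      rw [← hx]; exact h2
    · intro ω
      apply Subtype.ext
      exact Quotient.out_eq' ω.1
  rw [hclass, hfixcard, Nat.card_eq_fintype_card, Finset.sum_ite, Finset.sum_const,
    Finset.sum_const, smul_eq_mul, smul_eq_mul, mul_one]
  have hsplit : (Finset.univ.filter fun ω : Ω => g • ω.out = ω.out).card +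
      (Finset.univ.filter fun ω : Ω => ¬ g • ω.out = ω.out).card = Fintype.card Ω := by
    rw [Finset.card_filter_add_card_filter_not, Finset.card_univ]
  have hm1 : 1 ≤ m := hm.one_lt.le
  obtain ⟨m', rfl⟩ : ∃ m', m = m' + 1 := ⟨m - 1, by omega⟩
  rw [← hsplit]
  simp only [Nat.add_sub_cancel]
  ring


universe u

variable {R : Type u} [CommRing R]

instance [Finite R] : Finite (Unimod R) := Subtype.finite

instance [Finite R] : Finite (P1 R) := Quotient.finite _

theorem P1.S_sq_smul (x : P1 R) : S ^ 2 • x = x := by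
  obtain ⟨v, rfl⟩ := P1.mk_surjective x
  rw [pow_two, mul_smul, P1.smul_mk, P1.smul_mk, P1.mk_eq_mk]
  simp only [Unimod.S_smul_fst, Unimod.S_smul_snd]
  ring

theorem Unimod.ST_smul_fst (v : Unimod R) : ((S * T) • v).1.1 = -v.1.2 := by
  rw [mul_smul, Unimod.S_smul_fst, Unimod.T_smul_snd]

theorem Unimod.ST_smul_snd (v : Unimod R) : ((S * T) • v).1.2 = v.1.1 + v.1.2 := by
  rw [mul_smul, Unimod.S_smul_snd, Unimod.T_smul_fst]

theorem P1.ST_cube_smul (x : P1 R) : (S * T) ^ 3 • x = x := by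
  obtain ⟨v, rfl⟩ := P1.mk_surjective x
  rw [pow_succ, pow_two, mul_smul, mul_smul, P1.smul_mk, P1.smul_mk, P1.smul_mk, P1.mk_eq_mk]
  simp only [Unimod.ST_smul_fst, Unimod.ST_smul_snd]
  ring

/-- **(H5a)** `2 * #(⟨S⟩-orbits on P1 (ZMod N)) = ψ(N) + ν₂(N)`. -/
theorem two_mul_card_S_orbits (N : ℕ) [NeZero N] :
    2 * Nat.card (MulAction.orbitRel.Quotient (Subgroup.zpowers S) (P1 (ZMod N))) =
      ModularCurve.dedekindPsi N + ModularCurve.nuTwo N := by
  rw [card_orbits_of_prime_period S 2 Nat.prime_two P1.S_sq_smul, card_P1_zmod, card_fixed_S]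
  simp

/-- **(H5b)** `3 * #(⟨S T⟩-orbits on P1 (ZMod N)) = ψ(N) + 2 ν₃(N)`. -/
theorem three_mul_card_ST_orbits (N : ℕ) [NeZero N] :
    3 * Nat.card (MulAction.orbitRel.Quotient (Subgroup.zpowers (S * T)) (P1 (ZMod N))) =
      ModularCurve.dedekindPsi N + 2 * ModularCurve.nuThree N := by
  rw [card_orbits_of_prime_period (S * T) 3 Nat.prime_three P1.ST_cube_smul, card_P1_zmod,
    card_fixed_ST]

/-! ### Transport to the coset space `SL(2,ℤ) ⧸ Γ₀(N)` -/

/-- An equivariant bijection induces a bijection on orbit spaces of any subgroup. -/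
noncomputable def orbitQuotientCongr {G X Y : Type*} [Group G] [MulAction G X] [MulAction G Y]
    (H : Subgroup G) (e : X ≃ Y) (he : ∀ (g : G) (x : X), e (g • x) = g • e x) :
    MulAction.orbitRel.Quotient H X ≃ MulAction.orbitRel.Quotient H Y where
  toFun := Quotient.map' e (by
    rintro x y ⟨h, rfl⟩
    exact ⟨h, by
      show h • e y = e (h • y)
      exact (he h.1 y).symm⟩)
  invFun := Quotient.map' e.symm (by
    rintro x y ⟨h, rfl⟩
    refine ⟨h, ?_⟩
    show h • e.symm y = e.symm (h • y)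
    apply e.injective
    rw [Equiv.apply_symm_apply]
    exact (he h.1 (e.symm y)).trans (by rw [Equiv.apply_symm_apply]; rfl))
  left_inv := by
    intro q
    induction q using Quotient.inductionOn' with
    | h x => simp [Quotient.map'_mk'']
  right_inv := by
    intro q
    induction q using Quotient.inductionOn' with
    | h x => simp [Quotient.map'_mk'']

theorem card_orbits_X0_eq (N : ℕ) [NeZero N] (g : SL(2, ℤ)) :
    Nat.card (MulAction.orbitRel.Quotient (Subgroup.zpowers g)
      (SL(2, ℤ) ⧸ CongruenceSubgroup.Gamma0 N)) =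
    Nat.card (MulAction.orbitRel.Quotient (Subgroup.zpowers g) (P1 (ZMod N))) :=
  Nat.card_congr (orbitQuotientCongr (Subgroup.zpowers g) (quotientGamma0EquivP1 N)
    (quotientGamma0EquivP1_smul N))

/-- **(H1 on X₀)** `|SL(2,ℤ) ⧸ Γ₀(N)| = ψ(N)`. -/
theorem card_X0 (N : ℕ) [NeZero N] :
    Nat.card (SL(2, ℤ) ⧸ CongruenceSubgroup.Gamma0 N) = ModularCurve.dedekindPsi N := by
  rw [Nat.card_congr (quotientGamma0EquivP1 N), card_P1_zmod]

/-- **(H5a on X₀)** `2 * #(⟨S⟩-orbits on SL(2,ℤ) ⧸ Γ₀(N)) = ψ(N) + ν₂(N)`. -/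
theorem two_mul_orb_S (N : ℕ) [NeZero N] :
    2 * Nat.card (MulAction.orbitRel.Quotient (Subgroup.zpowers S)
      (SL(2, ℤ) ⧸ CongruenceSubgroup.Gamma0 N)) =
      ModularCurve.dedekindPsi N + ModularCurve.nuTwo N := by
  rw [card_orbits_X0_eq, two_mul_card_S_orbits]

/-- **(H5b on X₀)** `3 * #(⟨S T⟩-orbits on SL(2,ℤ) ⧸ Γ₀(N)) = ψ(N) + 2 ν₃(N)`. -/
theorem three_mul_orb_ST (N : ℕ) [NeZero N] :
    3 * Nat.card (MulAction.orbitRel.Quotient (Subgroup.zpowers (S * T))
      (SL(2, ℤ) ⧸ CongruenceSubgroup.Gamma0 N)) =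
      ModularCurve.dedekindPsi N + 2 * ModularCurve.nuThree N := by
  rw [card_orbits_X0_eq, three_mul_card_ST_orbits]

/-- **(H4 on X₀)** `#(⟨T⟩-orbits on SL(2,ℤ) ⧸ Γ₀(N)) = cuspCount N`. -/
theorem orb_T (N : ℕ) [NeZero N] :
    Nat.card (MulAction.orbitRel.Quotient (Subgroup.zpowers T)
      (SL(2, ℤ) ⧸ CongruenceSubgroup.Gamma0 N)) = ModularCurve.cuspCount N := by
  rw [card_orbits_X0_eq, card_T_orbits]

end Fermat.Agent.S24
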