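import Mathlib

set_option autoImplicit false
set_option linter.style.haveILetI false

namespace Fermat.Agent.S24

open MulAction

/-! ### Linear algebra: a rank inequality -/

section Rank

variable {k V : Type*} [Field k] [AddCommGroup V] [Module k V] [FiniteDimensional k V]

/-- A Sylvester-type rank inequality for a sum of two endomorphisms. -/
theorem permGenus_rank_add_ge (A B : V →ₗ[k] V) :
    Module.finrank k (LinearMap.range A ⊔ LinearMap.range B : Submodule k V) + Module.finrank k V ≤
      Module.finrank k (LinearMap.range A) + Module.finrank k (LinearMap.range B) +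
        Module.finrank k (LinearMap.range (A + B)) +
        Module.finrank k (LinearMap.ker A ⊓ LinearMap.ker B : Submodule k V) := by
  classical
  -- the restriction of `A` to `ker (A + B)`
  have hrange : LinearMap.range (A.domRestrict (LinearMap.ker (A + B))) ≤
      LinearMap.range A ⊓ LinearMap.range B := by
    rintro _ ⟨⟨v, hv⟩, rfl⟩
    refine ⟨⟨v, rfl⟩, ⟨-v, ?_⟩⟩
    have : A v + B v = 0 := by simpa using hv
    simp only [LinearMap.domRestrict_apply, map_neg]
    exact (eq_neg_of_add_eq_zero_left this).symm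
  have hker : Module.finrank k (LinearMap.ker (A.domRestrict (LinearMap.ker (A + B)))) ≤
      Module.finrank k (LinearMap.ker A ⊓ LinearMap.ker B : Submodule k V) := by
    have hinj : Function.Injective (((LinearMap.ker (A + B)).subtype).domRestrict
        (LinearMap.ker (A.domRestrict (LinearMap.ker (A + B))))) := by
      intro x y hxy
      exact Subtype.ext (Subtype.ext (by simpa using hxy))
    have hle : LinearMap.range (((LinearMap.ker (A + B)).subtype).domRestrict
        (LinearMap.ker (A.domRestrict (LinearMap.ker (A + B))))) ≤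
        LinearMap.ker A ⊓ LinearMap.ker B := by
      rintro _ ⟨⟨⟨v, hv⟩, hv'⟩, rfl⟩
      have h1 : A v = 0 := by simpa using hv'
      have h2 : A v + B v = 0 := by simpa using hv
      refine ⟨by simpa using h1, ?_⟩
      have : B v = 0 := by rw [h1, zero_add] at h2; exact h2
      simpa using this
    calc Module.finrank k (LinearMap.ker (A.domRestrict (LinearMap.ker (A + B))))
        = Module.finrank k (LinearMap.range (((LinearMap.ker (A + B)).subtype).domRestrict
            (LinearMap.ker (A.domRestrict (LinearMap.ker (A + B)))))) :=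
          (LinearMap.finrank_range_of_inj hinj).symm
      _ ≤ _ := Submodule.finrank_mono hle
  have h1 := LinearMap.finrank_range_add_finrank_ker (A.domRestrict (LinearMap.ker (A + B)))
  have h2 := LinearMap.finrank_range_add_finrank_ker (A + B)
  have h3 := Submodule.finrank_sup_add_finrank_inf_eq (LinearMap.range A) (LinearMap.range B)
  have h4 := Submodule.finrank_mono hrange
  omega

end Rank

/-! ### The permutation module -/

section PermModule

variable {G X : Type*} [Group G] [MulAction G X]

/-- The operator `f ↦ f ∘ (g⁻¹ • ·)` on rational functions on `X`. -/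
noncomputable def permOp (g : G) : (X → ℚ) →ₗ[ℚ] (X → ℚ) :=
  LinearMap.funLeft ℚ ℚ (fun x : X => g⁻¹ • x)

omit [Group G] [MulAction G X] in
theorem permGenus_dummy : True := trivial

@[simp]
theorem permOp_apply (g : G) (f : X → ℚ) (x : X) : permOp g f x = f (g⁻¹ • x) := rfl

theorem permOp_one : permOp (1 : G) = (LinearMap.id : (X → ℚ) →ₗ[ℚ] (X → ℚ)) := by
  ext f x
  simp

theorem permOp_mul (g h : G) :
    (permOp (g * h) : (X → ℚ) →ₗ[ℚ] (X → ℚ)) = permOp g ∘ₗ permOp h := by
  refine LinearMap.ext fun f => funext fun x => ?_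
  simp [mul_smul]

theorem permOp_injective (g : G) : Function.Injective (permOp g : (X → ℚ) →ₗ[ℚ] (X → ℚ)) := by
  intro f f' h
  funext x
  have := congrFun h (g • x)
  simpa using this

theorem permOp_single [DecidableEq X] (g : G) (x : X) :
    permOp g (Pi.single x (1 : ℚ)) = Pi.single (g • x) (1 : ℚ) := by
  funext y
  simp only [permOp_apply, Pi.single_apply]
  by_cases h : y = g • x
  · simp [h]
  · have : g⁻¹ • y ≠ x := fun h' => h (by rw [← h', smul_inv_smul])
    simp [h, this]

/-- Functions invariant under `g` are the functions on the orbits of `zpowers g`. -/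
theorem mem_ker_id_sub_permOp (g : G) (f : X → ℚ) :
    f ∈ LinearMap.ker (LinearMap.id - permOp g : (X → ℚ) →ₗ[ℚ] (X → ℚ)) ↔ ∀ x, f (g • x) = f x := by
  rw [LinearMap.mem_ker, LinearMap.sub_apply, LinearMap.id_apply, sub_eq_zero]
  constructor
  · intro h x
    have := congrFun h (g • x)
    simpa using this
  · intro h
    funext x
    have := h (g⁻¹ • x)
    simpa using this

theorem permGenus_invariant_zpowers (g : G) (f : X → ℚ) (hf : ∀ x, f (g • x) = f x)
    (a : Subgroup.zpowers g) (x : X) : f (a • x) = f x := by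
  obtain ⟨a, ha⟩ := a
  obtain ⟨n, rfl⟩ := Subgroup.mem_zpowers_iff.mp ha
  show f (g ^ n • x) = f x
  clear ha
  induction n using Int.induction_on generalizing x with
  | zero => simp
  | succ n ih =>
    rw [zpow_add_one, mul_smul, ih, hf]
  | pred n ih =>
    rw [zpow_sub_one, mul_smul, ih]
    have := hf (g⁻¹ • x)
    simpa using this.symm

/-- The invariant space as functions on the orbit space. -/
noncomputable def permGenus_invEquiv (g : G) :
    (orbitRel.Quotient (Subgroup.zpowers g) X → ℚ) ≃ₗ[ℚ]
      LinearMap.ker (LinearMap.id - permOp g : (X → ℚ) →ₗ[ℚ] (X → ℚ)) where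
  toFun h := ⟨fun x => h (Quotient.mk'' x), by
    rw [mem_ker_id_sub_permOp]
    intro x
    congr 1
    apply Quotient.sound'
    exact ⟨⟨g, Subgroup.mem_zpowers g⟩, rfl⟩⟩
  map_add' h h' := by ext x; rfl
  map_smul' c h := by ext x; rfl
  invFun f := fun q => Quotient.liftOn' q f.1 (by
    intro x y hxy
    obtain ⟨a, rfl⟩ := hxy
    exact permGenus_invariant_zpowers g f.1 ((mem_ker_id_sub_permOp g f.1).mp f.2) a y)
  left_inv h := by
    funext q
    induction q using Quotient.inductionOn' with
    | h x => rfl
  right_inv f := by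
    ext x
    rfl

theorem finrank_ker_id_sub_permOp [Finite X] (g : G) :
    Module.finrank ℚ (LinearMap.ker (LinearMap.id - permOp g : (X → ℚ) →ₗ[ℚ] (X → ℚ))) =
      Nat.card (orbitRel.Quotient (Subgroup.zpowers g) X) := by
  classical
  letI : Fintype (orbitRel.Quotient (Subgroup.zpowers g) X) := Fintype.ofFinite _
  rw [← (permGenus_invEquiv g).finrank_eq, Module.finrank_fintype_fun_eq_card,
    Nat.card_eq_fintype_card]

/-- The subgroup of elements `g` such that all `e_{g x} - e_x` lie in a given subspace. -/
def permGenus_diffSubgroup [DecidableEq X] (W : Submodule ℚ (X → ℚ)) : Subgroup G where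
  carrier := {g | ∀ x : X, (Pi.single (g • x) (1 : ℚ) - Pi.single x (1 : ℚ) : X → ℚ) ∈ W}
  one_mem' := fun x => by simp
  mul_mem' := by
    intro g h hg hh x
    have h1 := hg (h • x)
    have h2 := hh x
    have : (Pi.single ((g * h) • x) (1 : ℚ) - Pi.single x (1 : ℚ) : X → ℚ) =
        (Pi.single (g • (h • x)) (1 : ℚ) - Pi.single (h • x) (1 : ℚ)) +
          (Pi.single (h • x) (1 : ℚ) - Pi.single x (1 : ℚ)) := by
      rw [mul_smul]; abel
    rw [this]
    exact W.add_mem h1 h2
  inv_mem' := by
    intro g hg x
    have h1 := hg (g⁻¹ • x)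
    rw [smul_inv_smul] at h1
    have : (Pi.single (g⁻¹ • x) (1 : ℚ) - Pi.single x (1 : ℚ) : X → ℚ) =
        -(Pi.single x (1 : ℚ) - Pi.single (g⁻¹ • x) (1 : ℚ)) := by abel
    rw [this]
    exact W.neg_mem h1

theorem permGenus_closure_eq_top {s t : G} (hgen : Subgroup.closure ({s, t} : Set G) = ⊤) :
    Subgroup.closure ({s, s * t} : Set G) = ⊤ := by
  rw [eq_top_iff, ← hgen, Subgroup.closure_le]
  rintro g (rfl | rfl)
  · exact Subgroup.subset_closure (Set.mem_insert _ _)
  · have h1 : g ∈ Subgroup.closure ({s, s * g} : Set G) → True := fun _ => trivial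
    have hs : s ∈ Subgroup.closure ({s, s * g} : Set G) :=
      Subgroup.subset_closure (Set.mem_insert _ _)
    have hsg : s * g ∈ Subgroup.closure ({s, s * g} : Set G) :=
      Subgroup.subset_closure (Set.mem_insert_of_mem _ rfl)
    have := (Subgroup.closure ({s, s * g} : Set G)).mul_mem
      ((Subgroup.closure ({s, s * g} : Set G)).inv_mem hs) hsg
    simpa using this

/-- **Ree's inequality** for two generators: the numbers of orbits of `s`, `t` and `s * t`
on a finite transitive `G`-set. -/
theorem permGenus_ree [Finite X] [IsPretransitive G X] (s t : G)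
    (hgen : Subgroup.closure ({s, t} : Set G) = ⊤) :
    Nat.card (orbitRel.Quotient (Subgroup.zpowers s) X) +
      Nat.card (orbitRel.Quotient (Subgroup.zpowers t) X) +
      Nat.card (orbitRel.Quotient (Subgroup.zpowers (s * t)) X) ≤ Nat.card X + 2 := by
  classical
  rcases isEmpty_or_nonempty X with hX | ⟨⟨x₀⟩⟩
  · have h1 : ∀ g : G, Nat.card (orbitRel.Quotient (Subgroup.zpowers g) X) = 0 := by
      intro g
      haveI : IsEmpty (orbitRel.Quotient (Subgroup.zpowers g) X) :=
        ⟨fun q => Quotient.inductionOn' q fun x => hX.false x⟩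
      exact Nat.card_of_isEmpty
    rw [h1 s, h1 t, h1 (s * t)]
    omega
  letI : Fintype X := Fintype.ofFinite X
  set A : (X → ℚ) →ₗ[ℚ] (X → ℚ) := LinearMap.id - permOp s with hA
  set C : (X → ℚ) →ₗ[ℚ] (X → ℚ) := LinearMap.id - permOp t with hC
  set B : (X → ℚ) →ₗ[ℚ] (X → ℚ) := permOp s ∘ₗ C with hB
  have hAB : A + B = LinearMap.id - permOp (s * t) := by
    rw [hA, hB, hC, permOp_mul, LinearMap.comp_sub, LinearMap.comp_id]
    abel
  have hn : Module.finrank ℚ (X → ℚ) = Nat.card X := by
    rw [Module.finrank_fintype_fun_eq_card, Nat.card_eq_fintype_card]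
  -- kernels
  have hkerB : LinearMap.ker B = LinearMap.ker C := by
    rw [hB]
    exact LinearMap.ker_comp_of_ker_eq_bot _ (LinearMap.ker_eq_bot.mpr (permOp_injective s))
  have hkA : Module.finrank ℚ (LinearMap.ker A) =
      Nat.card (orbitRel.Quotient (Subgroup.zpowers s) X) := finrank_ker_id_sub_permOp s
  have hkB : Module.finrank ℚ (LinearMap.ker B) =
      Nat.card (orbitRel.Quotient (Subgroup.zpowers t) X) := by
    rw [hkerB]; exact finrank_ker_id_sub_permOp t
  have hkAB : Module.finrank ℚ (LinearMap.ker (A + B)) =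
      Nat.card (orbitRel.Quotient (Subgroup.zpowers (s * t)) X) := by
    rw [hAB]; exact finrank_ker_id_sub_permOp (s * t)
  have hrA := LinearMap.finrank_range_add_finrank_ker A
  have hrB := LinearMap.finrank_range_add_finrank_ker B
  have hrAB := LinearMap.finrank_range_add_finrank_ker (A + B)
  -- the intersection of the kernels consists of constant functions
  have hconst : (LinearMap.ker A ⊓ LinearMap.ker B : Submodule ℚ (X → ℚ)) ≤
      Submodule.span ℚ {(fun _ => (1 : ℚ) : X → ℚ)} := by
    rintro f ⟨hfA, hfB⟩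
    rw [SetLike.mem_coe, hkerB] at hfB
    have hs : ∀ x, f (s • x) = f x := (mem_ker_id_sub_permOp s f).mp hfA
    have ht : ∀ x, f (t • x) = f x := (mem_ker_id_sub_permOp t f).mp hfB
    have hall : ∀ g : G, ∀ x, f (g • x) = f x := by
      intro g
      have hg : g ∈ Subgroup.closure ({s, t} : Set G) := hgen ▸ Subgroup.mem_top g
      induction hg using Subgroup.closure_induction with
      | mem y hy =>
        rcases hy with rfl | rfl
        · exact hs
        · exact ht
      | one => intro x; simp
      | mul a b _ _ iha ihb => intro x; rw [mul_smul, iha, ihb]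
      | inv a _ iha => intro x; have := iha (a⁻¹ • x); rw [smul_inv_smul] at this; exact this.symm
    rw [Submodule.mem_span_singleton]
    refine ⟨f x₀, ?_⟩
    funext x
    obtain ⟨g, rfl⟩ := exists_smul_eq G x₀ x
    simp [hall g x₀]
  have hd1 : Module.finrank ℚ (LinearMap.ker A ⊓ LinearMap.ker B : Submodule ℚ (X → ℚ)) ≤ 1 := by
    refine (Submodule.finrank_mono hconst).trans ?_
    exact (finrank_span_le_card _).trans (by simp)
  -- the sum of the ranges is large
  set W : Submodule ℚ (X → ℚ) := LinearMap.range A ⊔ LinearMap.range B with hW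
  have hsW : s ∈ permGenus_diffSubgroup (G := G) W := by
    intro x
    have : (Pi.single (s • x) (1 : ℚ) - Pi.single x (1 : ℚ) : X → ℚ) = A (-(Pi.single x 1)) := by
      rw [map_neg, hA, LinearMap.sub_apply, LinearMap.id_apply, permOp_single]; abel
    rw [this]
    exact Submodule.mem_sup_left (LinearMap.mem_range_self A _)
  have hstW : s * t ∈ permGenus_diffSubgroup (G := G) W := by
    intro x
    have : (Pi.single ((s * t) • x) (1 : ℚ) - Pi.single x (1 : ℚ) : X → ℚ) =
        A (-(Pi.single x 1)) + B (-(Pi.single x 1)) := by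
      rw [← LinearMap.add_apply, hAB, map_neg, LinearMap.sub_apply, LinearMap.id_apply,
        permOp_single]; abel
    rw [this]
    exact W.add_mem (Submodule.mem_sup_left (LinearMap.mem_range_self A _))
      (Submodule.mem_sup_right (LinearMap.mem_range_self B _))
  have htopW : permGenus_diffSubgroup (G := G) W = ⊤ := by
    rw [eq_top_iff, ← permGenus_closure_eq_top hgen, Subgroup.closure_le]
    rintro g (rfl | rfl)
    · exact hsW
    · exact hstW
  have hcover : (⊤ : Submodule ℚ (X → ℚ)) ≤ W ⊔ Submodule.span ℚ {(Pi.single x₀ (1 : ℚ) : X → ℚ)} := by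
    intro f _
    have hf : f = ∑ x, f x • (Pi.single x (1 : ℚ) : X → ℚ) := by
      funext y
      simp [Finset.sum_apply, Pi.single_apply]
    rw [hf]
    refine Submodule.sum_mem _ fun x _ => Submodule.smul_mem _ _ ?_
    obtain ⟨g, rfl⟩ := exists_smul_eq G x₀ x
    have hg : g ∈ permGenus_diffSubgroup (G := G) W := htopW ▸ Subgroup.mem_top g
    have h1 := hg x₀
    have : (Pi.single (g • x₀) (1 : ℚ) : X → ℚ) =
        (Pi.single (g • x₀) (1 : ℚ) - Pi.single x₀ (1 : ℚ)) + Pi.single x₀ (1 : ℚ) := by abel
    rw [this]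
    exact Submodule.add_mem _ (Submodule.mem_sup_left h1)
      (Submodule.mem_sup_right (Submodule.mem_span_singleton_self _))
  have hd2 : Module.finrank ℚ (X → ℚ) ≤ Module.finrank ℚ W + 1 := by
    have h1 : Module.finrank ℚ (X → ℚ) =
        Module.finrank ℚ (⊤ : Submodule ℚ (X → ℚ)) := (finrank_top ℚ (X → ℚ)).symm
    rw [h1]
    refine (Submodule.finrank_mono hcover).trans ?_
    refine (Submodule.finrank_add_le_finrank_add_finrank _ _).trans ?_
    have : Module.finrank ℚ (Submodule.span ℚ {(Pi.single x₀ (1 : ℚ) : X → ℚ)}) ≤ 1 :=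
      (finrank_span_le_card _).trans (by simp)
    omega
  have hmain := permGenus_rank_add_ge A B
  rw [← hW] at hmain
  omega

end PermModule

/-! ### Parity via the sign -/

section Parity

open Equiv.Perm

variable {X : Type*}


theorem permGenus_orbitRel_zpowers_iff (π : Equiv.Perm X) (x y : X) :
    orbitRel (Subgroup.zpowers π) X x y ↔ π.SameCycle y x := by
  rw [orbitRel_apply, mem_orbit_iff]
  constructor
  · rintro ⟨⟨a, ha⟩, rfl⟩
    obtain ⟨n, rfl⟩ := Subgroup.mem_zpowers_iff.mp ha
    exact ⟨n, rfl⟩
  · rintro ⟨n, rfl⟩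
    exact ⟨⟨π ^ n, Subgroup.zpow_mem_zpowers π n⟩, rfl⟩

variable [Fintype X] [DecidableEq X]

/-- the classifying map -/
noncomputable def permGenus_orbClass (π : Equiv.Perm X) (x : X) :
    (π.cycleFactorsFinset : Type _) ⊕ {x : X // x ∉ π.support} :=
  if hx : x ∈ π.support then Sum.inl ⟨π.cycleOf x, cycleOf_mem_cycleFactorsFinset_iff.mpr hx⟩
  else Sum.inr ⟨x, hx⟩

theorem permGenus_orbClass_eq_iff (π : Equiv.Perm X) (x y : X) :
    permGenus_orbClass π x = permGenus_orbClass π y ↔ π.SameCycle x y := by
  unfold permGenus_orbClass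
  by_cases hx : x ∈ π.support <;> by_cases hy : y ∈ π.support
  · rw [dif_pos hx, dif_pos hy]
    simp only [Sum.inl.injEq, Subtype.mk.injEq]
    exact (sameCycle_iff_cycleOf_eq_of_mem_support hx hy).symm
  · rw [dif_pos hx, dif_neg hy]
    simp only [reduceCtorEq, false_iff]
    intro h
    exact hy (h.mem_support_iff.mp hx)
  · rw [dif_neg hx, dif_pos hy]
    simp only [reduceCtorEq, false_iff]
    intro h
    exact hx (h.mem_support_iff.mpr hy)
  · rw [dif_neg hx, dif_neg hy]
    simp only [Sum.inr.injEq, Subtype.mk.injEq]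
    constructor
    · rintro rfl; exact SameCycle.refl _ _
    · rintro ⟨n, rfl⟩
      have hfix : π x = x := by simpa [mem_support] using hx
      exact ((zpow_apply_eq_self_of_apply_eq_self hfix n)).symm

theorem permGenus_card_orbits_zpowers_perm (π : Equiv.Perm X) :
    Nat.card (orbitRel.Quotient (Subgroup.zpowers π) X) =
      Multiset.card π.cycleType + (Fintype.card X - π.support.card) := by
  classical
  have hwd : ∀ x y : X, orbitRel (Subgroup.zpowers π) X x y → permGenus_orbClass π x = permGenus_orbClass π y := by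
    intro x y h
    rw [permGenus_orbClass_eq_iff]
    exact ((permGenus_orbitRel_zpowers_iff π x y).mp h).symm
  let Φ : orbitRel.Quotient (Subgroup.zpowers π) X →
      (π.cycleFactorsFinset : Type _) ⊕ {x : X // x ∉ π.support} :=
    fun q => Quotient.liftOn' q (permGenus_orbClass π) hwd
  have hinj : Function.Injective Φ := by
    intro q q'
    induction q using Quotient.inductionOn' with
    | h x =>
    induction q' using Quotient.inductionOn' with
    | h y =>
    intro h
    have h' : permGenus_orbClass π x = permGenus_orbClass π y := h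
    rw [permGenus_orbClass_eq_iff] at h'
    exact Quotient.sound' ((permGenus_orbitRel_zpowers_iff π x y).mpr h'.symm)
  have hsurj : Function.Surjective Φ := by
    rintro (⟨c, hc⟩ | ⟨x, hx⟩)
    · obtain ⟨a, ha⟩ := (mem_cycleFactorsFinset_iff.mp hc).1.nonempty_support
      have hca : c = π.cycleOf a := cycle_is_cycleOf ha hc
      have has : a ∈ π.support := by
        rw [← cycleOf_mem_cycleFactorsFinset_iff, ← hca]; exact hc
      refine ⟨Quotient.mk'' a, ?_⟩
      show permGenus_orbClass π a = _
      unfold permGenus_orbClass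
      rw [dif_pos has]
      simp [hca]
    · refine ⟨Quotient.mk'' x, ?_⟩
      show permGenus_orbClass π x = _
      unfold permGenus_orbClass
      rw [dif_neg hx]
  rw [Nat.card_congr (Equiv.ofBijective Φ ⟨hinj, hsurj⟩), Nat.card_sum, Nat.card_eq_fintype_card,
    Nat.card_eq_fintype_card, Fintype.card_coe, cycleType_def, Multiset.card_map]
  congr 1
  rw [Fintype.card_subtype_compl, Fintype.card_coe]

theorem permGenus_sign_eq_neg_one_pow_orbits (π : Equiv.Perm X) :
    (Equiv.Perm.sign π : ℤˣ) =
      (-1) ^ (Fintype.card X + Nat.card (orbitRel.Quotient (Subgroup.zpowers π) X)) := by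
  rw [permGenus_card_orbits_zpowers_perm, sign_of_cycleType, sum_cycleType]
  have hle : π.support.card ≤ Fintype.card X := Finset.card_le_univ _
  have h2 : Fintype.card X + (Multiset.card π.cycleType + (Fintype.card X - π.support.card)) =
      (π.support.card + Multiset.card π.cycleType) + 2 * (Fintype.card X - π.support.card) := by
    omega
  rw [h2, pow_add ((-1 : ℤˣ)) (π.support.card + Multiset.card π.cycleType), pow_mul]
  simp

end Parity

/-! ### The main statements -/

section Main

variable {G X : Type*} [Group G] [MulAction G X]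

theorem permGenus_card_orbits_toPerm (g : G) :
    Nat.card (orbitRel.Quotient (Subgroup.zpowers (MulAction.toPerm g : Equiv.Perm X)) X) =
      Nat.card (orbitRel.Quotient (Subgroup.zpowers g) X) := by
  refine Nat.card_congr (Quotient.congrRight fun x y => ?_)
  show orbitRel (Subgroup.zpowers (MulAction.toPerm g : Equiv.Perm X)) X x y ↔
    orbitRel (Subgroup.zpowers g) X x y
  rw [orbitRel_apply, orbitRel_apply, mem_orbit_iff, mem_orbit_iff]
  constructor
  · rintro ⟨⟨a, ha⟩, rfl⟩
    obtain ⟨n, rfl⟩ := Subgroup.mem_zpowers_iff.mp ha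
    refine ⟨⟨g ^ n, Subgroup.zpow_mem_zpowers g n⟩, ?_⟩
    show g ^ n • y = ((MulAction.toPerm g : Equiv.Perm X) ^ n) y
    have := map_zpow (MulAction.toPermHom G X) g n
    rw [MulAction.toPermHom_apply, MulAction.toPermHom_apply] at this
    rw [← this]
    rfl
  · rintro ⟨⟨a, ha⟩, rfl⟩
    obtain ⟨n, rfl⟩ := Subgroup.mem_zpowers_iff.mp ha
    refine ⟨⟨(MulAction.toPerm g : Equiv.Perm X) ^ n, Subgroup.zpow_mem_zpowers _ n⟩, ?_⟩
    show ((MulAction.toPerm g : Equiv.Perm X) ^ n) y = g ^ n • y
    have := map_zpow (MulAction.toPermHom G X) g n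
    rw [MulAction.toPermHom_apply, MulAction.toPermHom_apply] at this
    rw [← this]
    rfl

/-- Parity of the total number of cycles of `s`, `t`, `s * t`. -/
theorem permGenus_parity [Finite X] (s t : G) :
    Even (Nat.card X + Nat.card (orbitRel.Quotient (Subgroup.zpowers s) X) +
      Nat.card (orbitRel.Quotient (Subgroup.zpowers t) X) +
      Nat.card (orbitRel.Quotient (Subgroup.zpowers (s * t)) X)) := by
  classical
  letI : Fintype X := Fintype.ofFinite X
  have hs := permGenus_sign_eq_neg_one_pow_orbits (MulAction.toPerm s : Equiv.Perm X)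
  have ht := permGenus_sign_eq_neg_one_pow_orbits (MulAction.toPerm t : Equiv.Perm X)
  have hst := permGenus_sign_eq_neg_one_pow_orbits (MulAction.toPerm (s * t) : Equiv.Perm X)
  rw [permGenus_card_orbits_toPerm] at hs ht hst
  have hmul : (MulAction.toPerm (s * t) : Equiv.Perm X) =
      (MulAction.toPerm s : Equiv.Perm X) * MulAction.toPerm t :=
    map_mul (MulAction.toPermHom G X) s t
  rw [hmul, map_mul, hs, ht, ← pow_add] at hst
  have h1 : ((-1 : ℤˣ)) ^ ((Fintype.card X + Nat.card (orbitRel.Quotient (Subgroup.zpowers s) X) +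
      (Fintype.card X + Nat.card (orbitRel.Quotient (Subgroup.zpowers t) X))) +
      (Fintype.card X + Nat.card (orbitRel.Quotient (Subgroup.zpowers (s * t)) X))) = 1 := by
    rw [pow_add, hst, ← pow_add, ← two_mul, pow_mul]
    simp
  rw [neg_one_pow_eq_one_iff_even (by decide)] at h1
  rw [Nat.card_eq_fintype_card]
  have h2 : Even (2 * Fintype.card X) := even_two_mul _
  rcases h1 with ⟨a, ha⟩
  rcases h2 with ⟨b, hb⟩
  exact ⟨a - b, by omega⟩

/-- **Parity and Ree's bound** for the cycle counts of two generators and their product. -/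
theorem orbit_count_parity_bound [Finite X] [IsPretransitive G X] (s t : G)
    (hgen : Subgroup.closure ({s, t} : Set G) = ⊤) :
    Even (Nat.card X + Nat.card (orbitRel.Quotient (Subgroup.zpowers s) X) +
      Nat.card (orbitRel.Quotient (Subgroup.zpowers t) X) +
      Nat.card (orbitRel.Quotient (Subgroup.zpowers (s * t)) X)) ∧
    Nat.card (orbitRel.Quotient (Subgroup.zpowers s) X) +
      Nat.card (orbitRel.Quotient (Subgroup.zpowers t) X) +
      Nat.card (orbitRel.Quotient (Subgroup.zpowers (s * t)) X) ≤ Nat.card X + 2 :=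
  ⟨permGenus_parity s t, permGenus_ree s t hgen⟩

/-- The "genus" attached to two generators of a transitive permutation group is a natural
number. -/
theorem exists_genus_of_generators [Finite X] [IsPretransitive G X] (s t : G)
    (hgen : Subgroup.closure ({s, t} : Set G) = ⊤) :
    ∃ g : ℕ, (2 * (g : ℤ)) - 2 = (Nat.card X : ℤ)
      - Nat.card (orbitRel.Quotient (Subgroup.zpowers s) X)
      - Nat.card (orbitRel.Quotient (Subgroup.zpowers (s * t)) X)
      - Nat.card (orbitRel.Quotient (Subgroup.zpowers t) X) := by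
  obtain ⟨⟨a, ha⟩, hb⟩ := orbit_count_parity_bound (X := X) s t hgen
  refine ⟨Nat.card X + 1 - a, ?_⟩
  omega

end Main

section SL2Z

open scoped MatrixGroups
open ModularGroup

/-- For every `N`, the Riemann-Hurwitz count on `SL(2,ℤ) ⧸ Γ₀(N)` defines a natural number. -/
theorem exists_genus_Gamma0 (N : ℕ) [NeZero N] :
    ∃ g : ℕ, (2 * (g : ℤ)) - 2 =
      (Nat.card (SL(2, ℤ) ⧸ CongruenceSubgroup.Gamma0 N) : ℤ)
      - Nat.card (orbitRel.Quotient (Subgroup.zpowers S) (SL(2, ℤ) ⧸ CongruenceSubgroup.Gamma0 N))
      - Nat.card (orbitRel.Quotient (Subgroup.zpowers (S * T))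
          (SL(2, ℤ) ⧸ CongruenceSubgroup.Gamma0 N))
      - Nat.card (orbitRel.Quotient (Subgroup.zpowers T)
          (SL(2, ℤ) ⧸ CongruenceSubgroup.Gamma0 N)) := by
  haveI : Finite (SL(2, ℤ) ⧸ CongruenceSubgroup.Gamma0 N) := by
    have : (CongruenceSubgroup.Gamma0 N).FiniteIndex := inferInstance
    exact Subgroup.finite_quotient_of_finiteIndex
  exact exists_genus_of_generators S T SpecialLinearGroup.SL2Z_generators

end SL2Z

end Fermat.Agent.S24
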