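import Mathlib
import Fermat.Agent.S24.PlacesSpec
import Fermat.Agent.S24.PlacesPrincipal
import Fermat.Agent.S24.LocalDiffModel
import Fermat.Prelude.Def_AlgebraicCurve_CanonicalDivisor

/-!
# S24 (G): the Riemann-Hurwitz count for a function field over the `x`-line

`F / K` a function field of one variable over an algebraically closed field of characteristic
zero, `x` a separating generator, `n = [F : K(x)]`.  If `x` is unramified outside a finite set
`S ⊆ K` of finite values and `∞`, with `r a` places over `a ∈ S` and `rinf` places over `∞`, then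
every canonical divisor has degree `∑_{a ∈ S} (n - r a) - n - rinf`.

Ingredients: the fundamental identity of helper1 (`Places`), degree zero of principal divisors
of helper28 (`PlacesPrincipal`) and the local theory of differentials of helper14
(`LocalDiffModel`).  Helper lemmas are prefixed `rh_`.
-/

set_option autoImplicit false
set_option linter.unusedVariables false
set_option linter.unusedSectionVars false
set_option linter.style.haveILetI false

noncomputable section

namespace Fermat.Agent.S24

open AlgebraicCurve IntermediateField KaehlerDifferential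

variable {K F : Type*} [Field K] [Field F] [Algebra K F]

/-- `Ω[F⁄K]` is nontrivial for a function field with a separating generator. -/
theorem nontrivial_kaehler_of_isSepGen {t : F} (ht : IsSepGen K t) : Nontrivial Ω[F⁄K] := by
  haveI := ht.finite
  haveI := ht.separable
  exact kaehlerRank_nontrivial ht.transcendental

/-- the coefficient of a nonzero differential at a place is nonzero. -/
theorem rh_differentialCoeff_ne_zero (v : Place K F) [v.DCoordGenerates] {ω : Ω[F⁄K]}
    (hω : ω ≠ 0) : v.differentialCoeff ω ≠ 0 := by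
  intro h0
  apply hω
  rw [← v.differentialCoeff_smul_dCoord ω, h0, zero_smul]

section Count

variable [IsAlgClosed K] [CharZero K] {x : F} (hx : IsSepGen K x)
include hx

theorem rh_sub_ne_zero (a : K) : x - algebraMap K F a ≠ 0 := by
  intro h
  apply hx.transcendental
  rw [sub_eq_zero] at h
  rw [h]
  exact isAlgebraic_algebraMap a

theorem rh_ne_zero : x ≠ 0 := by
  intro h
  apply hx.transcendental
  rw [h]
  exact isAlgebraic_zero

/-- the order of `dx` at a place centred at `a`. -/
theorem rh_ordDifferential_of_center (v : Place K F) (a : K)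
    (h : 0 < v.ord (x - algebraMap K F a)) :
    v.ordDifferential (D K F x) = v.ord (x - algebraMap K F a) - 1 := by
  haveI := hx.finite
  haveI := hx.separable
  have he : 0 < (v.ord (x - algebraMap K F a)).toNat := by omega
  have h1 : v.ord (x - algebraMap K F a) = ((v.ord (x - algebraMap K F a)).toNat : ℕ) := by
    omega
  have hne : x ≠ algebraMap K F a := fun h0 => rh_sub_ne_zero hx a (sub_eq_zero.2 h0)
  have := place_ordDifferential_D_of_zero v hx.transcendental a he h1 hne
  rw [this]
  omega

/-- the order of `dx` at a pole of `x`. -/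
theorem rh_ordDifferential_of_pole (v : Place K F) (h : v.ord x < 0) :
    v.ordDifferential (D K F x) = v.ord x - 1 := by
  haveI := hx.finite
  haveI := hx.separable
  have he : 0 < (-v.ord x).toNat := by omega
  have h1 : v.ord x = -(((-v.ord x).toNat : ℕ) : ℤ) := by omega
  have := place_ordDifferential_D_of_pole v hx.transcendental he h1
  rw [this]
  omega

/-- at a pole of `x` the functions `x - a` also have a pole. -/
theorem rh_not_pos_of_pole (v : Place K F) (h : v.ord x < 0) (a : K) :
    ¬ 0 < v.ord (x - algebraMap K F a) := by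
  intro hpos
  have h1 : x - algebraMap K F a ∈ v.toValuationSubring := PlaceOrd.mem_of_ord_nonneg v hpos.le
  have h2 : x ∈ v.toValuationSubring := by
    have := v.toValuationSubring.add_mem _ _ h1 (v.algebraMap_mem' a)
    rwa [sub_add_cancel] at this
  have := PlaceOrd.ord_nonneg_of_mem v h2
  omega

/-- the places over `x = a`, as a finset. -/
def rh_fiber (a : K) : Finset (Place K F) := (hx.sub_algebraMap a).finite_ord_pos.toFinset

/-- the places over `x = ∞`, as a finset. -/
def rh_fiberInf : Finset (Place K F) := hx.inv.finite_ord_pos.toFinset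

theorem rh_mem_fiber (a : K) (v : Place K F) :
    v ∈ rh_fiber hx a ↔ 0 < v.ord (x - algebraMap K F a) := by
  simp [rh_fiber]

theorem rh_mem_fiberInf (v : Place K F) : v ∈ rh_fiberInf hx ↔ v.ord x < 0 := by
  simp [rh_fiberInf, v.ord_inv]

theorem rh_card_fiber (a : K) :
    (rh_fiber hx a).card = Nat.card {v : Place K F // 0 < v.ord (x - algebraMap K F a)} :=
  (Nat.subtype_card _ (rh_mem_fiber hx a)).symm

theorem rh_card_fiberInf :
    (rh_fiberInf hx).card = Nat.card {v : Place K F // v.ord x < 0} :=
  (Nat.subtype_card _ (rh_mem_fiberInf hx)).symm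

theorem rh_sum_fiber (a : K) :
    ∑ v ∈ rh_fiber hx a, v.ord (x - algebraMap K F a) = (Module.finrank K⟮x⟯ F : ℤ) := by
  rw [rh_fiber, (hx.sub_algebraMap a).sum_ord, hx.finrank_sub_algebraMap a]

theorem rh_sum_fiberInf :
    ∑ v ∈ rh_fiberInf hx, v.ord x = -(Module.finrank K⟮x⟯ F : ℤ) := by
  have h := hx.inv.sum_ord
  rw [hx.finrank_inv] at h
  rw [← h, rh_fiberInf, ← Finset.sum_neg_distrib]
  refine Finset.sum_congr rfl fun v _ => ?_
  rw [v.ord_inv, neg_neg]

theorem rh_disjoint_fiber {a b : K} (hab : a ≠ b) :
    Disjoint (rh_fiber hx a) (rh_fiber hx b) := by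
  rw [Finset.disjoint_left]
  intro v hva hvb
  rw [rh_mem_fiber] at hva hvb
  have hmem : x - algebraMap K F a ∈ v.toValuationSubring :=
    PlaceOrd.mem_of_ord_nonneg v hva.le
  have hxmem : x ∈ v.toValuationSubring := by
    have := v.toValuationSubring.add_mem _ _ hmem (v.algebraMap_mem' a)
    rwa [sub_add_cancel] at this
  obtain ⟨c, _, hc⟩ := hx.existsUnique_ord_sub_pos v (PlaceOrd.ord_nonneg_of_mem v hxmem)
  exact hab ((hc a hva).trans (hc b hvb).symm)

theorem rh_disjoint_fiberInf (a : K) : Disjoint (rh_fiberInf hx) (rh_fiber hx a) := by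
  rw [Finset.disjoint_left]
  intro v hv hva
  rw [rh_mem_fiberInf] at hv
  rw [rh_mem_fiber] at hva
  exact rh_not_pos_of_pole hx v hv a hva

end Count

/-- **Riemann-Hurwitz count.** -/
theorem degree_eq_of_counts [IsAlgClosed K] [CharZero K] {x : F} (hx : IsSepGen K x)
    (S : Finset K) (r : K → ℕ) (rinf : ℕ)
    (hunr : ∀ (v : Place K F) (a : K), a ∉ S → 0 < v.ord (x - algebraMap K F a) →
      v.ord (x - algebraMap K F a) = 1)
    (hS : ∀ a ∈ S, Nat.card {v : Place K F // 0 < v.ord (x - algebraMap K F a)} = r a)
    (hinf : Nat.card {v : Place K F // v.ord x < 0} = rinf)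
    (ω : Ω[F⁄K]) (hω : ω ≠ 0) (D : Divisor K F) (hD : ∀ v, D v = v.ordDifferential ω) :
    Divisor.degree D =
      ∑ a ∈ S, ((Module.finrank K⟮x⟯ F : ℤ) - r a) - Module.finrank K⟮x⟯ F - rinf := by
  classical
  haveI := hx.finite
  haveI := hx.separable
  haveI : Nontrivial Ω[F⁄K] := nontrivial_kaehler_of_isSepGen hx
  have hgen : ∀ v : Place K F, v.DCoordGenerates := fun v =>
    place_dCoordGenerates v hx.transcendental
  -- `ω = c • dx`
  obtain ⟨c, hc⟩ := kaehlerRank_exists_eq_smul (K := K) (x := x) ω
  have hc0 : c ≠ 0 := by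
    rintro rfl
    rw [zero_smul] at hc
    exact hω hc
  have hdx : KaehlerDifferential.D K F x ≠ 0 := kaehlerRank_D_ne_zero hx.transcendental
  -- the principal divisor of `c`
  haveI := hx.hasPrincipalDivisors
  obtain ⟨Dc, hDc, hdegc⟩ := HasPrincipalDivisors.exists_divisor (K := K) c hc0
  -- the divisor of `dx`
  set E : Divisor K F := D - Dc with hE
  have hEv : ∀ v : Place K F, E v = v.ordDifferential (KaehlerDifferential.D K F x) := by
    intro v
    haveI := hgen v
    rw [hE, Finsupp.sub_apply, hD v, hDc v, hc,
      v.ordDifferential_smul hc0 (rh_differentialCoeff_ne_zero v hdx)]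
    ring
  have hdeg : Divisor.degree D = Divisor.degree E := by
    rw [hE, map_sub, hdegc, sub_zero]
  rw [hdeg]
  -- the support of `E`
  set s : Finset (Place K F) := rh_fiberInf hx ∪ S.biUnion (fun a => rh_fiber hx a) with hs
  have hsupp : E.support ⊆ s := by
    intro v hv
    rw [Finsupp.mem_support_iff, hEv v] at hv
    rw [hs, Finset.mem_union, Finset.mem_biUnion]
    by_cases hpole : v.ord x < 0
    · exact Or.inl ((rh_mem_fiberInf hx v).2 hpole)
    · right
      obtain ⟨a, ha, -⟩ := hx.existsUnique_ord_sub_pos v (not_lt.1 hpole)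
      refine ⟨a, ?_, (rh_mem_fiber hx a v).2 ha⟩
      by_contra haS
      apply hv
      rw [rh_ordDifferential_of_center hx v a ha, hunr v a haS ha, sub_self]
  rw [pp_degree_eq_sum E s hsupp]
  have hdeg1 : ∀ v : Place K F, (v.deg : ℤ) = 1 := fun v => by rw [hx.deg_eq_one v, Nat.cast_one]
  simp only [hdeg1, mul_one]
  rw [hs, Finset.sum_union, Finset.sum_biUnion]
  · -- the finite fibres
    have h1 : ∀ a ∈ S, ∑ v ∈ rh_fiber hx a, E v = (Module.finrank K⟮x⟯ F : ℤ) - r a := by
      intro a ha
      have : ∀ v ∈ rh_fiber hx a, E v = v.ord (x - algebraMap K F a) - 1 := by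
        intro v hv
        rw [hEv v, rh_ordDifferential_of_center hx v a ((rh_mem_fiber hx a v).1 hv)]
      rw [Finset.sum_congr rfl this, Finset.sum_sub_distrib, rh_sum_fiber hx a,
        Finset.sum_const, rh_card_fiber hx a, hS a ha]
      simp
    have h2 : ∑ v ∈ rh_fiberInf hx, E v = -(Module.finrank K⟮x⟯ F : ℤ) - rinf := by
      have : ∀ v ∈ rh_fiberInf hx, E v = v.ord x - 1 := by
        intro v hv
        rw [hEv v, rh_ordDifferential_of_pole hx v ((rh_mem_fiberInf hx v).1 hv)]
      rw [Finset.sum_congr rfl this, Finset.sum_sub_distrib, rh_sum_fiberInf hx,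
        Finset.sum_const, rh_card_fiberInf hx, hinf]
      simp
    rw [h2, Finset.sum_congr rfl h1]
    ring
  · intro a _ b _ hab
    exact rh_disjoint_fiber hx hab
  · rw [Finset.disjoint_biUnion_right]
    intro a _
    exact rh_disjoint_fiberInf hx a

end Fermat.Agent.S24
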