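import Mathlib
import Fermat.Agent.S24.RiemannHurwitz
import Fermat.Agent.S24.X0Places
import Fermat.Agent.S24.Hurwitz
import Fermat.Agent.S24.PermGenus
import Fermat.Prelude.Def_AlgebraicCurve_CanonicalDivisor
import Fermat.Prelude.Def_ModularCurve_GenusNumerics

/-!
# S24 assembly: the interfaces consumed by `Main.lean`

All interfaces are now real files:

* (G)  `degree_eq_of_counts`, `nontrivial_kaehler_of_isSepGen`   (`RiemannHurwitz.lean`)
* (H)  `card_X0`, `two_mul_orb_S`, `three_mul_orb_ST`, `orb_T`    (`Hurwitz.lean`)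
* (A+EC) `isSepGen_jBar`, `finrank_jBar`, `card_places_*`         (`Degree.lean`, `X0Places.lean`)

This file only keeps the two abbreviations used by `Main.lean`.
-/

set_option autoImplicit false

noncomputable section

namespace Fermat.Agent.S24

open scoped MatrixGroups

/-- The coset space `SL(2,ℤ) ⧸ Γ₀(N)`. -/
abbrev X0 (N : ℕ) : Type := SL(2, ℤ) ⧸ CongruenceSubgroup.Gamma0 N

/-- Number of orbits of the cyclic group generated by `g` on `SL(2,ℤ) ⧸ Γ₀(N)`. -/
def orbX0 (N : ℕ) (g : SL(2, ℤ)) : ℕ :=
  Nat.card (MulAction.orbitRel.Quotient (Subgroup.zpowers g) (X0 N))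

end Fermat.Agent.S24
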