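import Mathlib
import Fermat.Agent.S24.MainSpec

/-!
# S24 assembly: genus of the function field of `X₀(N)` over `Qbar`

From the Riemann–Hurwitz degree formula (G), the counts of places over `j = 0, 1728, a, ∞` (A+EC)
and the combinatorics of `SL(2,ℤ) ⧸ Γ₀(N)` (H).
-/

set_option autoImplicit false

noncomputable section

namespace Fermat.Agent.S24

open AlgebraicCurve IntermediateField ModularCurve KaehlerDifferential
open scoped MatrixGroups

section Generic

variable {K F : Type*} [Field K] [Field F] [Algebra K F]

/-- If the number of places over `t = 0` equals the degree, all of them are unramified. -/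
theorem main_ord_eq_one_of_card [IsAlgClosed K] {t : F} (ht : IsSepGen K t)
    (hcard : Nat.card {v : Place K F // 0 < v.ord t} = Module.finrank K⟮t⟯ F)
    (v : Place K F) (hv : 0 < v.ord t) : v.ord t = 1 := by
  classical
  have hsum := ht.sum_ord
  set s := ht.finite_ord_pos.toFinset with hs
  have hscard : s.card = Module.finrank K⟮t⟯ F := by
    rw [← hcard]
    have h1 : Nat.card {v : Place K F // 0 < v.ord t} = ({v : Place K F | 0 < v.ord t}).ncard :=
      Nat.card_coe_set_eq {v : Place K F | 0 < v.ord t}
    rw [h1, Set.ncard_eq_toFinset_card _ ht.finite_ord_pos]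
  have hnonneg : ∀ w ∈ s, 0 ≤ w.ord t - 1 := by
    intro w hw
    have : 0 < w.ord t := by simpa [hs] using hw
    omega
  have hzero : ∑ w ∈ s, (w.ord t - 1) = 0 := by
    rw [Finset.sum_sub_distrib, hsum, Finset.sum_const, hscard]
    simp
  have := (Finset.sum_eq_zero_iff_of_nonneg hnonneg).mp hzero v (by simpa [hs] using hv)
  omega

end Generic

section Modular

variable (N : ℕ) [NeZero N]

theorem main_degree_canonical
    [HasCanonicalDivisor (K := QBar) (F := ↥(modularFunctionFieldBar N))]
    (ω : Ω[↥(modularFunctionFieldBar N)⁄QBar]) (hω : ω ≠ 0) :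
    Divisor.degree (canonicalDivisorOf hω) =
      (Nat.card (X0 N) : ℤ) - orbX0 N (ModularGroup.S * ModularGroup.T) - orbX0 N ModularGroup.S
        - orbX0 N ModularGroup.T := by
  classical
  have hsep := isSepGen_jBar N
  have hn := finrank_jBar N
  let r : QBar → ℕ := fun a =>
    if a = 0 then orbX0 N (ModularGroup.S * ModularGroup.T) else orbX0 N ModularGroup.S
  have h1728 : (1728 : QBar) ≠ 0 := by norm_num
  have hunr : ∀ (v : Place QBar ↥(modularFunctionFieldBar N)) (a : QBar),
      a ∉ ({0, 1728} : Finset QBar) →
      0 < v.ord (jBar N - algebraMap QBar ↥(modularFunctionFieldBar N) a) →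
      v.ord (jBar N - algebraMap QBar ↥(modularFunctionFieldBar N) a) = 1 := by
    intro v a ha hv
    simp only [Finset.mem_insert, Finset.mem_singleton, not_or] at ha
    refine main_ord_eq_one_of_card (hsep.sub_algebraMap a) ?_ v hv
    rw [card_places_generic N a ha.1 ha.2, hsep.finrank_sub_algebraMap a, hn]
  have hS : ∀ a ∈ ({0, 1728} : Finset QBar),
      Nat.card {v : Place QBar ↥(modularFunctionFieldBar N) //
        0 < v.ord (jBar N - algebraMap QBar ↥(modularFunctionFieldBar N) a)} = r a := by
    intro a ha
    simp only [Finset.mem_insert, Finset.mem_singleton] at ha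
    rcases ha with rfl | rfl
    · have h := card_places_zero N
      simp only [r, if_true]
      exact h
    · have h := card_places_1728 N
      simp only [r, if_neg h1728]
      exact h
  have hdeg := degree_eq_of_counts hsep ({0, 1728} : Finset QBar) r
    (orbX0 N ModularGroup.T) hunr hS (card_places_pole N) ω hω (canonicalDivisorOf hω)
    (canonicalDivisorOf_apply hω)
  rw [hdeg, hn, Finset.sum_pair h1728.symm]
  simp only [r, if_true, if_neg h1728]
  ring

theorem main_genus [HasCanonicalDivisor (K := QBar) (F := ↥(modularFunctionFieldBar N))] :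
    (genus QBar ↥(modularFunctionFieldBar N) : ℚ) = genusFormula N := by
  classical
  have : Nontrivial Ω[↥(modularFunctionFieldBar N)⁄QBar] :=
    nontrivial_kaehler_of_isSepGen (isSepGen_jBar N)
  have h : ∃ ω : Ω[↥(modularFunctionFieldBar N)⁄QBar], ω ≠ 0 := exists_ne 0
  obtain ⟨g, hg⟩ := exists_genus_Gamma0 N
  have hdeg := main_degree_canonical N h.choose h.choose_spec
  have hgen : genus QBar ↥(modularFunctionFieldBar N) = g := by
    unfold genus
    rw [dif_pos h, hdeg]
    have : (Nat.card (X0 N) : ℤ) - orbX0 N (ModularGroup.S * ModularGroup.T)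
        - orbX0 N ModularGroup.S - orbX0 N ModularGroup.T + 2 = 2 * (g : ℤ) := by
      unfold orbX0 X0
      linarith
    rw [this]
    have h2 : (2 * (g : ℤ)).toNat = 2 * g := by omega
    rw [h2]
    omega
  rw [hgen]
  -- arithmetic in ℚ
  have hgQ : (2 * (g : ℚ)) - 2 = (Nat.card (X0 N) : ℚ) - orbX0 N ModularGroup.S
      - orbX0 N (ModularGroup.S * ModularGroup.T) - orbX0 N ModularGroup.T := by
    have := congrArg (fun z : ℤ => (z : ℚ)) hg
    simp only [Int.cast_sub, Int.cast_mul, Int.cast_natCast, Int.cast_ofNat] at this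
    unfold orbX0 X0
    linarith
  have h1 : (Nat.card (X0 N) : ℚ) = dedekindPsi N := by exact_mod_cast card_X0 N
  have h2 : 2 * (orbX0 N ModularGroup.S : ℚ) = dedekindPsi N + nuTwo N := by
    exact_mod_cast two_mul_orb_S N
  have h3 : 3 * (orbX0 N (ModularGroup.S * ModularGroup.T) : ℚ) = dedekindPsi N + 2 * nuThree N := by
    exact_mod_cast three_mul_orb_ST N
  have h4 : (orbX0 N ModularGroup.T : ℚ) = cuspCount N := by exact_mod_cast orb_T N
  unfold genusFormula
  linarith

end Modular

end Fermat.Agent.S24
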