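import Fermat.Agent.S24.CountPsi

set_option autoImplicit false

/-!
# Orbits of `T` on `P1 (ZMod N)`: the cusps of `Γ₀(N)`

The number of `⟨T⟩`-orbits on `P1 (ZMod N)` is `cuspCount N = ∑ d ∣ N, φ (gcd d (N / d))`.
-/

namespace Fermat.Agent.S24

open Matrix MatrixGroups ModularGroup

universe u

variable {R : Type u} [CommRing R]

theorem Unimod.T_zpow_smul_fst (k : ℤ) (v : Unimod R) :
    ((T ^ k) • v).1.1 = v.1.1 + (k : R) * v.1.2 := by
  rw [Unimod.smul_fst, ModularGroup.coe_T_zpow]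
  simp

theorem Unimod.T_zpow_smul_snd (k : ℤ) (v : Unimod R) :
    ((T ^ k) • v).1.2 = v.1.2 := by
  rw [Unimod.smul_snd, ModularGroup.coe_T_zpow]
  simp

/-- Two points of `P1 R` are in the same `⟨T⟩`-orbit iff ... -/
theorem P1.T_orbit_iff (v w : Unimod R) :
    (MulAction.orbitRel (Subgroup.zpowers T) (P1 R)) (P1.mk w) (P1.mk v) ↔
      ∃ k : ℤ, (v.1.1 + (k : R) * v.1.2) * w.1.2 = w.1.1 * v.1.2 := by
  rw [MulAction.orbitRel_apply, MulAction.mem_orbit_iff]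
  constructor
  · rintro ⟨⟨g, hg⟩, h⟩
    obtain ⟨k, rfl⟩ := Subgroup.mem_zpowers_iff.mp hg
    refine ⟨k, ?_⟩
    have h2 : (T ^ k) • P1.mk v = P1.mk w := h
    rw [P1.smul_mk, P1.mk_eq_mk, Unimod.T_zpow_smul_fst, Unimod.T_zpow_smul_snd] at h2
    exact h2
  · rintro ⟨k, hk⟩
    refine ⟨⟨T ^ k, Subgroup.zpow_mem_zpowers T k⟩, ?_⟩
    show (T ^ k) • P1.mk v = P1.mk w
    rw [P1.smul_mk, P1.mk_eq_mk, Unimod.T_zpow_smul_fst, Unimod.T_zpow_smul_snd]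
    exact hk

theorem zmod_natCast_dvd_natCast {N d d' : ℕ} (hd : d ∣ N)
    (h : (d : ZMod N) ∣ (d' : ZMod N)) : d ∣ d' := by
  obtain ⟨t, ht⟩ := h
  obtain ⟨t', rfl⟩ := ZMod.intCast_surjective t
  have h1 : ((d' : ℤ) : ZMod N) = (((d : ℤ) * t' : ℤ) : ZMod N) := by
    push_cast; exact ht
  rw [ZMod.intCast_eq_intCast_iff_dvd_sub] at h1
  have h2 : (d : ℤ) ∣ (d : ℤ) * t' - d' := (Int.natCast_dvd_natCast.mpr hd).trans h1
  have h3 : (d : ℤ) ∣ d' := by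
    have := dvd_sub (Dvd.intro t' rfl : (d : ℤ) ∣ (d : ℤ) * t') h2
    simpa using this
  exact Int.natCast_dvd_natCast.mp h3

theorem exists_unit_mul_eq_gcd {N : ℕ} [NeZero N] (c : ZMod N) :
    ∃ u : (ZMod N)ˣ, (u : ZMod N) * c = ((Nat.gcd c.val N : ℕ) : ZMod N) := by
  obtain ⟨c₀, m, hcop, hc, hN⟩ := Nat.exists_coprime c.val N
  set d := Nat.gcd c.val N with hd
  have hm0 : m ≠ 0 := by
    rintro rfl
    rw [zero_mul] at hN
    exact NeZero.ne N hN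
  have : NeZero m := ⟨hm0⟩
  have hmN : m ∣ N := ⟨d, hN⟩
  obtain ⟨μ, hμ⟩ := ZMod.unitsMap_surjective hmN (ZMod.unitOfCoprime c₀ hcop)
  have hμ' : ZMod.castHom hmN (ZMod m) (μ : ZMod N) = (c₀ : ZMod m) := by
    have := congrArg (fun x : (ZMod m)ˣ => (x : ZMod m)) hμ
    simpa [ZMod.unitsMap] using this
  refine ⟨μ⁻¹, ?_⟩
  have key : (μ : ZMod N) * ((d : ℕ) : ZMod N) = c := by
    obtain ⟨M, hM⟩ := ZMod.intCast_surjective (μ : ZMod N)
    rw [← hM, map_intCast] at hμ'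
    have h1 : ((M : ℤ) : ZMod m) = ((c₀ : ℤ) : ZMod m) := by push_cast; exact hμ'
    rw [ZMod.intCast_eq_intCast_iff_dvd_sub] at h1
    have h2 : (N : ℤ) ∣ ((c₀ : ℤ) - M) * d := by
      rw [hN]; push_cast
      exact mul_dvd_mul_right h1 _
    have h3 : (((M : ℤ) * d : ℤ) : ZMod N) = (((c₀ : ℤ) * d : ℤ) : ZMod N) := by
      rw [ZMod.intCast_eq_intCast_iff_dvd_sub]
      have : (c₀ : ℤ) * d - M * d = ((c₀ : ℤ) - M) * d := by ring
      rw [this]; exact h2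
    rw [← hM]
    have h4 : c = ((c.val : ℕ) : ZMod N) := (ZMod.natCast_zmod_val c).symm
    rw [h4, hc]
    push_cast at h3 ⊢
    exact h3
  rw [← key, ← mul_assoc, Units.inv_mul, one_mul]

theorem exists_zpow_iff_castHom_eq {N d m : ℕ} [NeZero N] (hN : N = d * m) (a a' : ZMod N) :
    (∃ k : ℤ, (a + (k : ZMod N) * (d : ZMod N)) * (d : ZMod N) = a' * (d : ZMod N)) ↔
      ZMod.castHom ((Nat.gcd_dvd_left d m).trans ⟨m, hN⟩) (ZMod (Nat.gcd d m)) a =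
        ZMod.castHom ((Nat.gcd_dvd_left d m).trans ⟨m, hN⟩) (ZMod (Nat.gcd d m)) a' := by
  obtain ⟨A, rfl⟩ := ZMod.intCast_surjective a
  obtain ⟨A', rfl⟩ := ZMod.intCast_surjective a'
  have hd0 : (d : ℤ) ≠ 0 := by
    intro h
    have : d = 0 := by exact_mod_cast h
    rw [this, zero_mul] at hN
    exact NeZero.ne N hN
  rw [map_intCast, map_intCast, ZMod.intCast_eq_intCast_iff_dvd_sub]
  have step : ∀ k : ℤ, (((A : ZMod N) + (k : ZMod N) * (d : ZMod N)) * (d : ZMod N) =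
      (A' : ZMod N) * (d : ZMod N)) ↔ (m : ℤ) ∣ A + k * d - A' := by
    intro k
    have h1 : ((A : ZMod N) + (k : ZMod N) * (d : ZMod N)) * (d : ZMod N) =
        (((A + k * d) * d : ℤ) : ZMod N) := by push_cast; ring
    have h2 : (A' : ZMod N) * (d : ZMod N) = ((A' * d : ℤ) : ZMod N) := by push_cast; ring
    rw [h1, h2, ZMod.intCast_eq_intCast_iff_dvd_sub, hN]
    push_cast
    have h3 : A' * d - (A + k * d) * d = (d : ℤ) * (A' - (A + k * d)) := by ring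
    rw [h3, mul_dvd_mul_iff_left hd0, ← dvd_neg]
    have h4 : -(A' - (A + k * d)) = A + k * d - A' := by ring
    rw [h4]
  constructor
  · rintro ⟨k, hk⟩
    rw [step] at hk
    have he1 : ((Nat.gcd d m : ℕ) : ℤ) ∣ (m : ℤ) := Int.natCast_dvd_natCast.mpr (Nat.gcd_dvd_right d m)
    have he2 : ((Nat.gcd d m : ℕ) : ℤ) ∣ (d : ℤ) := Int.natCast_dvd_natCast.mpr (Nat.gcd_dvd_left d m)
    have h5 := he1.trans hk
    have h6 : ((Nat.gcd d m : ℕ) : ℤ) ∣ k * d := he2.mul_left k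
    have h7 := dvd_sub h6 h5
    have h8 : k * d - (A + k * d - A') = A' - A := by ring
    rwa [h8] at h7
  · rintro ⟨q, hq⟩
    have hb : ((Nat.gcd d m : ℕ) : ℤ) = d * Nat.gcdA d m + m * Nat.gcdB d m := Nat.gcd_eq_gcd_ab d m
    refine ⟨Nat.gcdA d m * q, ?_⟩
    rw [step]
    refine ⟨-(Nat.gcdB d m * q), ?_⟩
    have : A' = A + ((Nat.gcd d m : ℕ) : ℤ) * q := by linarith
    rw [this, hb]
    ring


theorem P1.snd_dvd_snd_of_mk_eq {v w : Unimod R} (h : P1.mk v = P1.mk w) : v.1.2 ∣ w.1.2 := by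
  rw [P1.mk_eq_mk] at h
  obtain ⟨x, y, hxy⟩ := v.2
  refine ⟨x * w.1.1 + y * w.1.2, ?_⟩
  linear_combination (-w.1.2) * hxy + x * h

/-! ### The index set of cusps -/

/-- The index set of the cusps of `Γ₀(N)`: pairs `(d, u)` with `d ∣ N` and `u` a unit modulo
`gcd d (N / d)`. -/
def CuspIdx (N : ℕ) : Type :=
  Σ d : {d : ℕ // d ∈ N.divisors}, (ZMod (Nat.gcd d.1 (N / d.1)))ˣ

theorem CuspIdx.gcd_ne_zero {N : ℕ} (d : {d : ℕ // d ∈ N.divisors}) :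
    Nat.gcd d.1 (N / d.1) ≠ 0 :=
  Nat.gcd_ne_zero_left (Nat.pos_of_mem_divisors d.2).ne'

theorem CuspIdx.mul_div {N : ℕ} (d : {d : ℕ // d ∈ N.divisors}) : N = d.1 * (N / d.1) :=
  (Nat.mul_div_cancel' (Nat.dvd_of_mem_divisors d.2)).symm

theorem CuspIdx.gcd_dvd {N : ℕ} (d : {d : ℕ // d ∈ N.divisors}) :
    Nat.gcd d.1 (N / d.1) ∣ N :=
  (Nat.gcd_dvd_left d.1 (N / d.1)).trans ⟨N / d.1, CuspIdx.mul_div d⟩

theorem card_cuspIdx (N : ℕ) : Nat.card (CuspIdx N) = ModularCurve.cuspCount N := by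
  have hfin : ∀ d : {d : ℕ // d ∈ N.divisors}, Finite (ZMod (Nat.gcd d.1 (N / d.1)))ˣ := by
    intro d
    have : NeZero (Nat.gcd d.1 (N / d.1)) := ⟨CuspIdx.gcd_ne_zero d⟩
    infer_instance
  unfold CuspIdx
  rw [Nat.card_sigma, ModularCurve.cuspCount,
    ← Finset.sum_coe_sort N.divisors (fun d => Nat.totient (Nat.gcd d (N / d)))]
  refine Finset.sum_congr rfl fun d _ => ?_
  have : NeZero (Nat.gcd d.1 (N / d.1)) := ⟨CuspIdx.gcd_ne_zero d⟩
  rw [Nat.card_eq_fintype_card, ZMod.card_units_eq_totient]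

variable {N : ℕ} [NeZero N]

/-- A unit of `ZMod N` lifting `u`. -/
noncomputable def CuspIdx.lift (i : CuspIdx N) : (ZMod N)ˣ :=
  (ZMod.unitsMap_surjective (CuspIdx.gcd_dvd i.1) i.2).choose

theorem CuspIdx.castHom_lift (i : CuspIdx N) :
    ZMod.castHom (CuspIdx.gcd_dvd i.1) (ZMod (Nat.gcd i.1.1 (N / i.1.1))) (i.lift : ZMod N) =
      (i.2 : ZMod (Nat.gcd i.1.1 (N / i.1.1))) := by
  have h := (ZMod.unitsMap_surjective (CuspIdx.gcd_dvd i.1) i.2).choose_spec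
  have := congrArg (fun x : (ZMod (Nat.gcd i.1.1 (N / i.1.1)))ˣ =>
    (x : ZMod (Nat.gcd i.1.1 (N / i.1.1)))) h
  simpa [ZMod.unitsMap, CuspIdx.lift] using this

/-- The representative `(ũ : d)` of the cusp `(d, u)`. -/
noncomputable def CuspIdx.rep (i : CuspIdx N) : Unimod (ZMod N) :=
  ⟨((i.lift : ZMod N), ((i.1.1 : ℕ) : ZMod N)), ⟨((i.lift⁻¹ : (ZMod N)ˣ) : ZMod N), 0, by simp⟩⟩

/-- The map from the index set to the set of `⟨T⟩`-orbits. -/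
noncomputable def cuspMap (i : CuspIdx N) :
    MulAction.orbitRel.Quotient (Subgroup.zpowers T) (P1 (ZMod N)) :=
  Quotient.mk _ (P1.mk i.rep)

theorem cuspMap_injective : Function.Injective (cuspMap (N := N)) := by
  intro i j h
  have h1 := Quotient.exact h
  have h1' : (MulAction.orbitRel (Subgroup.zpowers T) (P1 (ZMod N))) (P1.mk i.rep) (P1.mk j.rep) :=
    h1
  rw [P1.T_orbit_iff] at h1'
  obtain ⟨k, hk⟩ := h1'
  -- the `d`-components agree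
  have hmk : P1.mk ((T ^ k) • j.rep) = P1.mk i.rep := by
    rw [P1.mk_eq_mk, Unimod.T_zpow_smul_fst, Unimod.T_zpow_smul_snd]
    exact hk
  have hd1 := P1.snd_dvd_snd_of_mk_eq hmk
  have hd2 := P1.snd_dvd_snd_of_mk_eq hmk.symm
  rw [Unimod.T_zpow_smul_snd] at hd1 hd2
  obtain ⟨⟨di, hdi⟩, ui⟩ := i
  obtain ⟨⟨dj, hdj⟩, uj⟩ := j
  have e1 : dj ∣ di := zmod_natCast_dvd_natCast (Nat.dvd_of_mem_divisors hdj) hd1
  have e2 : di ∣ dj := zmod_natCast_dvd_natCast (Nat.dvd_of_mem_divisors hdi) hd2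
  have hdd : di = dj := Nat.dvd_antisymm e2 e1
  subst hdd
  have hu := (exists_zpow_iff_castHom_eq (CuspIdx.mul_div ⟨di, hdi⟩)
    ((CuspIdx.lift (⟨⟨di, hdj⟩, uj⟩ : CuspIdx N) : (ZMod N)ˣ) : ZMod N)
    ((CuspIdx.lift (⟨⟨di, hdi⟩, ui⟩ : CuspIdx N) : (ZMod N)ˣ) : ZMod N)).mp ⟨k, hk⟩
  have h2 := CuspIdx.castHom_lift (⟨⟨di, hdi⟩, ui⟩ : CuspIdx N)
  have h3 := CuspIdx.castHom_lift (⟨⟨di, hdj⟩, uj⟩ : CuspIdx N)
  have huu : ui = uj := by
    apply Units.ext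
    rw [← h2, ← h3]
    exact hu.symm
  rw [huu]

theorem cuspMap_surjective : Function.Surjective (cuspMap (N := N)) := by
  intro q
  obtain ⟨x, rfl⟩ := Quotient.mk_surjective q
  obtain ⟨v, rfl⟩ := P1.mk_surjective x
  obtain ⟨lam, hlam⟩ := exists_unit_mul_eq_gcd v.1.2
  set D := Nat.gcd v.1.2.val N with hD
  have hDmem : D ∈ N.divisors := Nat.mem_divisors.mpr ⟨Nat.gcd_dvd_right _ _, NeZero.ne N⟩
  let d : {d : ℕ // d ∈ N.divisors} := ⟨D, hDmem⟩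
  -- the normalised representative
  let v' : Unimod (ZMod N) := ⟨((lam : ZMod N) * v.1.1, (D : ZMod N)), by
    rw [← hlam]
    obtain ⟨x, y, hxy⟩ := v.2
    refine ⟨x * ((lam⁻¹ : (ZMod N)ˣ) : ZMod N), y * ((lam⁻¹ : (ZMod N)ˣ) : ZMod N), ?_⟩
    have hl : ((lam⁻¹ : (ZMod N)ˣ) : ZMod N) * (lam : ZMod N) = 1 := Units.inv_mul lam
    linear_combination (x * v.1.1 + y * v.1.2) * hl + hxy⟩
  have hv' : P1.mk v' = P1.mk v := by
    rw [P1.mk_eq_mk]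
    show (lam : ZMod N) * v.1.1 * v.1.2 = v.1.1 * (D : ZMod N)
    rw [← hlam]; ring
  -- the unit modulo `e`
  have hunit : IsUnit (ZMod.castHom (CuspIdx.gcd_dvd d) (ZMod (Nat.gcd d.1 (N / d.1)))
      ((lam : ZMod N) * v.1.1)) := by
    have h1 := v'.2.map (ZMod.castHom (CuspIdx.gcd_dvd d) (ZMod (Nat.gcd d.1 (N / d.1))))
    have h2 : ZMod.castHom (CuspIdx.gcd_dvd d) (ZMod (Nat.gcd d.1 (N / d.1))) ((D : ℕ) : ZMod N)
        = 0 := by
      rw [map_natCast, ZMod.natCast_eq_zero_iff]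
      exact Nat.gcd_dvd_left _ _
    have h1' : IsCoprime (ZMod.castHom (CuspIdx.gcd_dvd d) (ZMod (Nat.gcd d.1 (N / d.1)))
        ((lam : ZMod N) * v.1.1)) (ZMod.castHom (CuspIdx.gcd_dvd d)
        (ZMod (Nat.gcd d.1 (N / d.1))) ((D : ℕ) : ZMod N)) := h1
    rw [h2] at h1'
    exact isCoprime_zero_right.mp h1'
  let i : CuspIdx N := ⟨d, hunit.unit⟩
  refine ⟨i, ?_⟩
  have hi := CuspIdx.castHom_lift i
  have hrel : (MulAction.orbitRel (Subgroup.zpowers T) (P1 (ZMod N))) (P1.mk i.rep) (P1.mk v') := by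
    rw [P1.T_orbit_iff]
    have := (exists_zpow_iff_castHom_eq (CuspIdx.mul_div d) ((lam : ZMod N) * v.1.1)
      (i.lift : ZMod N)).mpr (by rw [hi]; rfl)
    exact this
  rw [← hv']
  exact Quotient.sound hrel

/-- **(H4)** The number of `⟨T⟩`-orbits on `P1 (ZMod N)` is `cuspCount N`. -/
theorem card_T_orbits (N : ℕ) [NeZero N] :
    Nat.card (MulAction.orbitRel.Quotient (Subgroup.zpowers T) (P1 (ZMod N))) =
      ModularCurve.cuspCount N := by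
  rw [← card_cuspIdx]
  exact (Nat.card_congr (Equiv.ofBijective cuspMap ⟨cuspMap_injective, cuspMap_surjective⟩)).symm

end Fermat.Agent.S24
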