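import Fermat.Agent.S24.P1
import Fermat.Prelude.Def_ModularCurve_GenusNumerics

set_option autoImplicit false

/-!
# Fixed points of `S` and `U = S * T` on `P1 R`

They are counted by `nuTwo N` and `nuThree N`.
-/

namespace Fermat.Agent.S24

open Matrix MatrixGroups ModularGroup

universe u

variable {R : Type u} [CommRing R]

theorem Unimod.S_smul_fst (v : Unimod R) : (S • v).1.1 = -v.1.2 := by
  rw [Unimod.smul_fst]; simp [S]

theorem Unimod.S_smul_snd (v : Unimod R) : (S • v).1.2 = v.1.1 := by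
  rw [Unimod.smul_snd]; simp [S]

theorem Unimod.T_smul_fst (v : Unimod R) : (T • v).1.1 = v.1.1 + v.1.2 := by
  rw [Unimod.smul_fst]; simp [T]

theorem Unimod.T_smul_snd (v : Unimod R) : (T • v).1.2 = v.1.2 := by
  rw [Unimod.smul_snd]; simp [T]

theorem P1.S_smul_mk_eq_iff (v : Unimod R) :
    S • P1.mk v = P1.mk v ↔ v.1.1 ^ 2 + v.1.2 ^ 2 = 0 := by
  rw [P1.smul_mk, P1.mk_eq_mk, Unimod.S_smul_fst, Unimod.S_smul_snd]
  constructor
  · intro h; linear_combination -h
  · intro h; linear_combination -h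

theorem P1.ST_smul_mk_eq_iff (v : Unimod R) :
    (S * T) • P1.mk v = P1.mk v ↔ v.1.1 ^ 2 + v.1.1 * v.1.2 + v.1.2 ^ 2 = 0 := by
  rw [mul_smul, P1.smul_mk, P1.smul_mk, P1.mk_eq_mk, Unimod.S_smul_fst, Unimod.S_smul_snd,
    Unimod.T_smul_fst, Unimod.T_smul_snd]
  constructor
  · intro h; linear_combination -h
  · intro h; linear_combination -h

/-- The vector `(t, 1)`. -/
def Unimod.affine (t : R) : Unimod R := ⟨(t, 1), isCoprime_one_right⟩

theorem P1.mk_affine_injective : Function.Injective fun t : R => P1.mk (Unimod.affine t) := by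
  intro t t' h
  have := P1.mk_eq_mk.mp h
  simpa [Unimod.affine] using this

theorem P1.eq_mk_affine_of_isUnit {v : Unimod R} (hc : IsUnit v.1.2) :
    ∃ t : R, P1.mk v = P1.mk (Unimod.affine t) ∧ t * v.1.2 = v.1.1 := by
  obtain ⟨u, hu⟩ := hc
  refine ⟨v.1.1 * (u⁻¹ : Rˣ), ?_, ?_⟩
  · rw [P1.mk_eq_mk]
    simp only [Unimod.affine, mul_one]
    rw [← hu, mul_assoc, Units.inv_mul, mul_one]
  · rw [← hu, mul_assoc, Units.inv_mul, mul_one]

/-- Fixed points of `S` on `P1 R` correspond to square roots of `-1`. -/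
noncomputable def fixedSEquiv : {t : R // t ^ 2 + 1 = 0} ≃ {x : P1 R // S • x = x} :=
  Equiv.ofBijective
    (fun t => ⟨P1.mk (Unimod.affine t.1), by
      rw [P1.S_smul_mk_eq_iff]; simpa [Unimod.affine] using t.2⟩)
    (by
      constructor
      · intro t t' h
        exact Subtype.ext (P1.mk_affine_injective (congrArg Subtype.val h))
      · rintro ⟨x, hx⟩
        obtain ⟨v, rfl⟩ := P1.mk_surjective x
        rw [P1.S_smul_mk_eq_iff] at hx
        obtain ⟨a, b, hab⟩ := v.2
        have hc : IsUnit v.1.2 := by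
          refine IsUnit.of_mul_eq_one (-a ^ 2 * v.1.2 + 2 * a * b * v.1.1 + b ^ 2 * v.1.2) ?_
          linear_combination (a * v.1.1 + b * v.1.2 + 1) * hab - a ^ 2 * hx
        obtain ⟨t, ht, ht2⟩ := P1.eq_mk_affine_of_isUnit hc
        obtain ⟨u, hu⟩ := hc
        have htt : t ^ 2 + 1 = 0 := by
          have h1 : (t ^ 2 + 1) * (u : R) ^ 2 = 0 := by
            rw [hu]
            linear_combination hx + (t * v.1.2 + v.1.1) * ht2
          have h2 : IsUnit ((u : R) ^ 2) := (u.isUnit).pow 2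
          exact (h2.mul_left_eq_zero).mp h1
        exact ⟨⟨t, htt⟩, Subtype.ext ht.symm⟩)

/-- Fixed points of `S * T` on `P1 R` correspond to roots of `t ^ 2 + t + 1`. -/
noncomputable def fixedSTEquiv :
    {t : R // t ^ 2 + t + 1 = 0} ≃ {x : P1 R // (S * T) • x = x} :=
  Equiv.ofBijective
    (fun t => ⟨P1.mk (Unimod.affine t.1), by
      rw [P1.ST_smul_mk_eq_iff]; simpa [Unimod.affine] using t.2⟩)
    (by
      constructor
      · intro t t' h
        exact Subtype.ext (P1.mk_affine_injective (congrArg Subtype.val h))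
      · rintro ⟨x, hx⟩
        obtain ⟨v, rfl⟩ := P1.mk_surjective x
        rw [P1.ST_smul_mk_eq_iff] at hx
        obtain ⟨a, b, hab⟩ := v.2
        have hc : IsUnit v.1.2 := by
          refine IsUnit.of_mul_eq_one
            (-a ^ 2 * v.1.1 - a ^ 2 * v.1.2 + 2 * a * b * v.1.1 + b ^ 2 * v.1.2) ?_
          linear_combination (a * v.1.1 + b * v.1.2 + 1) * hab - a ^ 2 * hx
        obtain ⟨t, ht, ht2⟩ := P1.eq_mk_affine_of_isUnit hc
        obtain ⟨u, hu⟩ := hc
        have htt : t ^ 2 + t + 1 = 0 := by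
          have h1 : (t ^ 2 + t + 1) * (u : R) ^ 2 = 0 := by
            rw [hu]
            linear_combination hx + (t * v.1.2 + v.1.1 + v.1.2) * ht2
          have h2 : IsUnit ((u : R) ^ 2) := (u.isUnit).pow 2
          exact (h2.mul_left_eq_zero).mp h1
        exact ⟨⟨t, htt⟩, Subtype.ext ht.symm⟩)

/-- **(H2)** The number of fixed points of `S` on `P1 R` is `nuTwo N`. -/
theorem card_fixed_S (N : ℕ) :
    Nat.card {x : P1 (ZMod N) // S • x = x} = ModularCurve.nuTwo N :=
  (Nat.card_congr fixedSEquiv).symm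

/-- **(H3)** The number of fixed points of `S * T` on `P1 R` is `nuThree N`. -/
theorem card_fixed_ST (N : ℕ) :
    Nat.card {x : P1 (ZMod N) // (S * T) • x = x} = ModularCurve.nuThree N :=
  (Nat.card_congr fixedSTEquiv).symm

end Fermat.Agent.S24
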