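import Mathlib

/-!
# Kähler differentials of an essentially-finite-type DVR over its residue field

Pure commutative algebra (Mathlib only).
-/

namespace Fermat.Agent.S24

open KaehlerDifferential IsLocalRing

section DVR

variable {K O : Type*} [Field K] [CommRing O] [IsDomain O] [IsDiscreteValuationRing O]
  [Algebra K O]

/-- every element of `O` is a constant plus a multiple of the uniformizer. -/
theorem localDiff_exists_eq_add_mul
    (hres : Function.Surjective (algebraMap K (ResidueField O))) {t : O} (ht : Irreducible t)
    (g : O) : ∃ (a : K) (h : O), g = algebraMap K O a + t * h := by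
  obtain ⟨a, ha⟩ := hres (residue O g)
  have h1 : g - algebraMap K O a ∈ maximalIdeal O := by
    rw [← Ideal.Quotient.eq_zero_iff_mem (I := maximalIdeal O)]
    have h2 : residue O (g - algebraMap K O a) = 0 := by
      rw [map_sub, ← ha]
      have : residue O (algebraMap K O a) = algebraMap K (ResidueField O) a := rfl
      rw [this, sub_self]
    exact h2
  rw [ht.maximalIdeal_eq, Ideal.mem_span_singleton] at h1
  obtain ⟨h, hh⟩ := h1
  exact ⟨a, h, by rw [← hh]; ring⟩

/-- (L1) `Ω[O⁄K]` is generated by `D t`. -/
theorem localDiff_span_D_eq_top [Algebra.EssFiniteType K O]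
    (hres : Function.Surjective (algebraMap K (ResidueField O))) {t : O} (ht : Irreducible t) :
    Submodule.span O {D K O t} = ⊤ := by
  rw [eq_top_iff]
  refine Submodule.le_of_le_smul_of_le_jacobson_bot (I := maximalIdeal O)
    (Module.finite_def.1 inferInstance) (IsLocalRing.maximalIdeal_le_jacobson _) ?_
  have key : Submodule.span O (Set.range (D K O)) ≤
      Submodule.span O {D K O t} ⊔ maximalIdeal O • (⊤ : Submodule O Ω[O⁄K]) := by
    rw [Submodule.span_le]
    rintro _ ⟨g, rfl⟩
    obtain ⟨a, h, rfl⟩ := localDiff_exists_eq_add_mul hres ht g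
    have h1 : D K O (algebraMap K O a + t * h) = t • D K O h + h • D K O t := by
      rw [map_add, Derivation.map_algebraMap, zero_add, Derivation.leibniz]
    rw [h1]
    refine Submodule.add_mem _ (Submodule.mem_sup_right ?_) (Submodule.mem_sup_left ?_)
    · refine Submodule.smul_mem_smul ?_ Submodule.mem_top
      rw [ht.maximalIdeal_eq]; exact Ideal.mem_span_singleton_self t
    · exact Submodule.smul_mem _ _ (Submodule.subset_span rfl)
  rwa [span_range_derivation] at key

/-- every differential `D g` is an `O`-multiple of `D t`. -/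
theorem localDiff_exists_D_eq_smul [Algebra.EssFiniteType K O]
    (hres : Function.Surjective (algebraMap K (ResidueField O))) {t : O} (ht : Irreducible t)
    (g : O) : ∃ c : O, D K O g = c • D K O t := by
  have h : D K O g ∈ Submodule.span O {D K O t} := by
    rw [localDiff_span_D_eq_top hres ht]; trivial
  obtain ⟨c, hc⟩ := Submodule.mem_span_singleton.1 h
  exact ⟨c, hc.symm⟩

end DVR

section Frac

variable {K O F : Type*} [Field K] [CommRing O] [IsDomain O] [IsDiscreteValuationRing O]
  [Algebra K O] [Field F] [Algebra O F] [IsFractionRing O F] [Algebra K F] [IsScalarTower K O F]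

/-- (L2a) in `Ω[F⁄K]`, `D g` is an `O`-multiple of `D t` for `g ∈ O`. -/
theorem localDiff_exists_D_algebraMap_eq_smul [Algebra.EssFiniteType K O]
    (hres : Function.Surjective (algebraMap K (ResidueField O))) {t : O} (ht : Irreducible t)
    (g : O) : ∃ c : O, D K F (algebraMap O F g) = algebraMap O F c • D K F (algebraMap O F t) := by
  obtain ⟨c, hc⟩ := localDiff_exists_D_eq_smul hres ht g
  refine ⟨c, ?_⟩
  have h1 := congrArg (KaehlerDifferential.map K K O F) hc
  rw [KaehlerDifferential.map_D, map_smul, KaehlerDifferential.map_D] at h1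
  rw [h1, algebraMap_smul]

/-- (L2b) `Ω[F⁄K]` is spanned by `D t`. -/
theorem localDiff_span_D_algebraMap_eq_top [Algebra.EssFiniteType K O]
    (hres : Function.Surjective (algebraMap K (ResidueField O))) {t : O} (ht : Irreducible t) :
    Submodule.span F {D K F (algebraMap O F t)} = ⊤ := by
  rw [eq_top_iff, ← span_range_derivation K F, Submodule.span_le]
  rintro _ ⟨x, rfl⟩
  obtain ⟨a, b, hb, rfl⟩ := IsFractionRing.div_surjective (A := O) x
  obtain ⟨ca, hca⟩ := localDiff_exists_D_algebraMap_eq_smul (F := F) hres ht a
  obtain ⟨cb, hcb⟩ := localDiff_exists_D_algebraMap_eq_smul (F := F) hres ht b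
  rw [SetLike.mem_coe, Derivation.leibniz_div, hca, hcb]
  refine Submodule.smul_mem _ _ (Submodule.sub_mem _ ?_ ?_) <;>
  exact Submodule.smul_mem _ _ (Submodule.smul_mem _ _ (Submodule.subset_span rfl))

end Frac

end Fermat.Agent.S24
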