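import Fermat.Prelude.Def_ModularCurve_CanonicalDivisor
import Fermat.Agent.S24.LocalDiffAlg

/-!
# Local theory of differentials at a place of a function field

For a place `v` of `F/K` whose valuation ring is essentially of finite type over `K` with residue
field `K`: `dCoord` generates `Ω[F⁄K]`, differentials of regular functions have regular
coefficients, and the order of `D f` at a zero / pole of `f` (characteristic zero).
-/

set_option linter.unusedSectionVars false

namespace Fermat.Agent.S24

open KaehlerDifferential IsLocalRing AlgebraicCurve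

variable {K F : Type*} [Field K] [Field F] [Algebra K F] (v : Place K F)

/-- the uniformizer chosen by the prelude, as an element of the valuation ring. -/
noncomputable def localDiffUnif : v.toValuationSubring :=
  (IsDiscreteValuationRing.exists_irreducible v.toValuationSubring).choose

theorem localDiffUnif_irreducible : Irreducible (localDiffUnif v) :=
  (IsDiscreteValuationRing.exists_irreducible v.toValuationSubring).choose_spec

theorem dCoord_eq_D_localDiffUnif : v.dCoord = D K F ((localDiffUnif v : v.toValuationSubring) : F) :=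
  rfl

theorem ord_localDiffUnif : v.ord ((localDiffUnif v : v.toValuationSubring) : F) = 1 :=
  v.ord_coe_irreducible (localDiffUnif_irreducible v)

theorem localDiffUnif_ne_zero : ((localDiffUnif v : v.toValuationSubring) : F) ≠ 0 := by
  intro h
  have := ord_localDiffUnif v
  rw [h, v.ord_zero] at this
  exact zero_ne_one this

theorem localDiff_ord_neg (x : F) : v.ord (-x) = v.ord x := by
  simp [Place.ord, Valuation.map_neg]

/-- elements of the valuation ring have nonnegative order. -/
theorem localDiff_ord_nonneg (x : v.toValuationSubring) : 0 ≤ v.ord (x : F) := by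
  rcases eq_or_ne x 0 with rfl | hx
  · simp
  · obtain ⟨n, u, hu⟩ := IsDiscreteValuationRing.eq_unit_mul_pow_irreducible hx
      (localDiffUnif_irreducible v)
    have h1 : (x : F) = ((u : v.toValuationSubring) : F)
        * ((localDiffUnif v : v.toValuationSubring) : F) ^ (n : ℤ) := by
      rw [hu, zpow_natCast]; push_cast; rfl
    rw [h1, v.ord_unit_smul_zpow u (localDiffUnif_irreducible v) n]
    exact Int.natCast_nonneg n

section Regular

variable [Algebra.EssFiniteType K v.toValuationSubring]
  (hres : Function.Surjective (algebraMap K v.ResidueField))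
include hres

/-- (P1) `dCoord` generates `Ω[F⁄K]`. -/
theorem dCoordGenerates_of_essFiniteType : v.DCoordGenerates where
  span_eq_top := by
    rw [dCoord_eq_D_localDiffUnif]
    exact localDiff_span_D_algebraMap_eq_top (F := F) hres (localDiffUnif_irreducible v)

/-- `D g` is a regular multiple of `dCoord` for `g` regular at `v`. -/
theorem exists_D_eq_smul_dCoord (g : v.toValuationSubring) :
    ∃ c : v.toValuationSubring, D K F (g : F) = (c : F) • v.dCoord := by
  obtain ⟨c, hc⟩ := localDiff_exists_D_algebraMap_eq_smul (F := F) hres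
    (localDiffUnif_irreducible v) g
  exact ⟨c, hc⟩

/-- (P2) differentials of regular functions have regular coefficients. -/
theorem differentialCoeff_D_mem [Nontrivial Ω[F⁄K]] (g : v.toValuationSubring) :
    v.differentialCoeff (D K F (g : F)) ∈ v.toValuationSubring := by
  have := dCoordGenerates_of_essFiniteType v hres
  obtain ⟨c, hc⟩ := exists_D_eq_smul_dCoord v hres g
  rw [v.differentialCoeff_unique hc]
  exact c.2

end Regular

section Order

variable [CharZero K] [Nontrivial Ω[F⁄K]] [Algebra.EssFiniteType K v.toValuationSubring]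
  (hres : Function.Surjective (algebraMap K v.ResidueField))
include hres

theorem localDiff_ord_pow (n : ℕ) :
    v.ord (((localDiffUnif v : v.toValuationSubring) : F) ^ n) = n := by
  have := v.ord_zpow ((localDiffUnif v : v.toValuationSubring) : F) (n : ℤ)
  rw [zpow_natCast, ord_localDiffUnif, mul_one] at this
  exact this

/-- the coefficient of `D f` at a zero of order `e` of `f - a`: a unit times `π ^ (e - 1)`. -/
theorem differentialCoeff_D_of_zero {f : F} (a : K) {e : ℕ} (he : 0 < e)
    (h : v.ord (f - algebraMap K F a) = e) (hfa : f ≠ algebraMap K F a) :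
    ∃ w : v.toValuationSubring, IsUnit w ∧ v.differentialCoeff (D K F f)
      = ((localDiffUnif v : v.toValuationSubring) : F) ^ (e - 1) * (w : F) := by
  have := dCoordGenerates_of_essFiniteType v hres
  set π : v.toValuationSubring := localDiffUnif v with hπ
  have hπirr : Irreducible π := localDiffUnif_irreducible v
  have hg : f - algebraMap K F a ≠ 0 := sub_ne_zero.2 hfa
  obtain ⟨u, hu⟩ := v.exists_unit_mul_zpow hg hπirr
  rw [h, zpow_natCast] at hu
  obtain ⟨c, hc⟩ := exists_D_eq_smul_dCoord v hres (u : v.toValuationSubring)
  -- the candidate unit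
  have heK : (e : K) ≠ 0 := Nat.cast_ne_zero.2 he.ne'
  have heu : IsUnit (algebraMap K v.toValuationSubring (e : K)) := (IsUnit.mk0 _ heK).map _
  have hx : IsUnit (algebraMap K v.toValuationSubring (e : K) * (u : v.toValuationSubring)
      + π * c) := by
    rw [← IsLocalRing.notMem_maximalIdeal]
    intro hmem
    have h1 : π * c ∈ maximalIdeal v.toValuationSubring :=
      Ideal.mul_mem_right _ _ (by rw [hπirr.maximalIdeal_eq]; exact Ideal.mem_span_singleton_self π)
    have h2 := (Ideal.add_mem_iff_left _ h1).1 hmem
    exact (IsLocalRing.notMem_maximalIdeal.2 (heu.mul u.isUnit)) h2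
  refine ⟨_, hx, ?_⟩
  apply v.differentialCoeff_unique
  have hf : f = ((u : v.toValuationSubring) : F) * (π : F) ^ e + algebraMap K F a := by
    rw [← hu]; ring
  have hDpow : D K F ((π : F) ^ e) = ((e : K) • (π : F) ^ (e - 1)) • D K F (π : F) := by
    rw [Derivation.leibniz_pow, ← Nat.cast_smul_eq_nsmul K, smul_assoc]
  rw [hf, map_add, Derivation.map_algebraMap, add_zero, Derivation.leibniz, hDpow, hc,
    dCoord_eq_D_localDiffUnif, ← hπ, smul_smul, smul_smul, ← add_smul]
  congr 1
  push_cast
  obtain ⟨k, rfl⟩ : ∃ k, e = k + 1 := ⟨e - 1, by omega⟩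
  simp only [Nat.add_sub_cancel, Algebra.smul_def]
  rw [map_natCast]
  push_cast
  ring

/-- (P3, zeros) the order of `D f` at a zero of order `e` of `f - a` is `e - 1`. -/
theorem ordDifferential_D_of_zero {f : F} (a : K) {e : ℕ} (he : 0 < e)
    (h : v.ord (f - algebraMap K F a) = e) (hfa : f ≠ algebraMap K F a) :
    v.ordDifferential (D K F f) = (e : ℤ) - 1 := by
  obtain ⟨w, hw, hcoeff⟩ := differentialCoeff_D_of_zero v hres a he h hfa
  have hwF : (w : F) ≠ 0 := by
    intro h0
    exact hw.ne_zero (Subtype.ext h0)
  rw [Place.ordDifferential, hcoeff,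
    v.ord_mul (pow_ne_zero _ (localDiffUnif_ne_zero v)) hwF, localDiff_ord_pow v hres]
  have : v.ord (w : F) = 0 := v.ord_coe_unit hw.unit
  rw [this, add_zero]
  have : 1 ≤ e := he
  push_cast [Nat.cast_sub this]
  ring

/-- the coefficient of `D f` at a zero of `f - a` does not vanish. -/
theorem differentialCoeff_D_ne_zero_of_zero {f : F} (a : K) {e : ℕ} (he : 0 < e)
    (h : v.ord (f - algebraMap K F a) = e) (hfa : f ≠ algebraMap K F a) :
    v.differentialCoeff (D K F f) ≠ 0 := by
  obtain ⟨w, hw, hcoeff⟩ := differentialCoeff_D_of_zero v hres a he h hfa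
  rw [hcoeff]
  refine mul_ne_zero (pow_ne_zero _ (localDiffUnif_ne_zero v)) ?_
  intro h0
  exact hw.ne_zero (Subtype.ext h0)

/-- (P3, poles) the order of `D f` at a pole of order `e` of `f` is `-e - 1`. -/
theorem ordDifferential_D_of_pole {f : F} {e : ℕ} (he : 0 < e) (h : v.ord f = -(e : ℤ)) :
    v.ordDifferential (D K F f) = -(e : ℤ) - 1 := by
  have := dCoordGenerates_of_essFiniteType v hres
  have hf0 : f ≠ 0 := by
    rintro rfl
    rw [v.ord_zero] at h
    have : (e : ℤ) = 0 := by omega
    exact he.ne' (by exact_mod_cast this)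
  have hinv : v.ord (f⁻¹ - algebraMap K F 0) = e := by
    rw [map_zero, sub_zero, v.ord_inv, h, neg_neg]
  have hne : f⁻¹ ≠ algebraMap K F 0 := by rw [map_zero]; exact inv_ne_zero hf0
  have h1 := ordDifferential_D_of_zero v hres 0 he hinv hne
  have h2 := differentialCoeff_D_ne_zero_of_zero v hres 0 he hinv hne
  have hD : D K F f = (-(f ^ 2)) • D K F f⁻¹ := by
    conv_lhs => rw [← inv_inv f]
    rw [Derivation.leibniz_inv, inv_inv]
  rw [hD, v.ordDifferential_smul (neg_ne_zero.2 (pow_ne_zero 2 hf0)) h2, h1, localDiff_ord_neg,
    pow_two, v.ord_mul hf0 hf0, h]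
  ring

/-- the order of `D f` where `f` is regular: nonnegative coefficient. -/
theorem ord_differentialCoeff_D_nonneg (g : v.toValuationSubring) :
    0 ≤ v.ord (v.differentialCoeff (D K F (g : F))) :=
  localDiff_ord_nonneg v ⟨_, differentialCoeff_D_mem v hres g⟩

end Order

end Fermat.Agent.S24
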