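import Mathlib

/-!
# S24, work package W4c: counting primes of an invariant subring by orbits

Pure Mathlib.  Primes of the `H`-invariants `T` lying over `p` are counted by the orbits of the
decomposition group `D = Stab_G(P)` on `G ⧸ H`.
-/

set_option autoImplicit false
set_option linter.unusedSectionVars false

namespace Fermat.Agent.S24

open scoped Pointwise

/-- Two surjections out of the same type with the same kernel have targets of the same
cardinality. -/
lemma oc_card_eq_of_surjective_of_ker {α β γ : Type*} (f : α → β) (q : α → γ)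
    (hf : Function.Surjective f) (hq : Function.Surjective q)
    (h : ∀ a a' : α, f a = f a' ↔ q a = q a') : Nat.card β = Nat.card γ := by
  have e1 : Quotient (Setoid.ker f) ≃ β := Setoid.quotientKerEquivOfSurjective f hf
  have e2 : Quotient (Setoid.ker q) ≃ γ := Setoid.quotientKerEquivOfSurjective q hq
  have e3 : Quotient (Setoid.ker f) ≃ Quotient (Setoid.ker q) :=
    Quotient.congr (Equiv.refl α) (fun a a' => h a a')
  exact Nat.card_congr (e1.symm.trans (e3.trans e2))

section OrbitCount

variable {R S T G : Type*} [CommRing R] [CommRing S] [CommRing T]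
    [Algebra R S] [Algebra R T] [Algebra T S] [IsScalarTower R T S] [Group G] [Finite G]
    [MulSemiringAction G S] [SMulCommClass G R S] [Algebra.IsInvariant R S G] (H : Subgroup G)
    [SMulCommClass H T S] [Algebra.IsInvariant T S H]

/-- The prime of `T` attached to `g : G`. -/
noncomputable def ocPrime (p : Ideal R) [p.IsPrime] (P : Ideal S) [P.IsPrime] [P.LiesOver p]
    (g : G) : p.primesOver T :=
  ⟨(g⁻¹ • P : Ideal S).under T, by
    have h1 : (g⁻¹ • P : Ideal S).IsPrime := Ideal.IsPrime.smul g⁻¹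
    have h2 : (g⁻¹ • P : Ideal S).LiesOver p := inferInstance
    exact ⟨inferInstance, inferInstance⟩⟩

lemma ocPrime_coe (p : Ideal R) [p.IsPrime] (P : Ideal S) [P.IsPrime] [P.LiesOver p] (g : G) :
    ((ocPrime (T := T) p P g : p.primesOver T) : Ideal T) = (g⁻¹ • P : Ideal S).under T := rfl

/-- `under T` is insensitive to the action of `H`. -/
lemma oc_under_smul (h : G) (hh : h ∈ H) (I : Ideal S) :
    ((h • I : Ideal S)).under T = I.under T := by
  have := Ideal.under_smul T I (⟨h, hh⟩ : H)
  rw [← this]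
  rfl

lemma ocPrime_eq_iff (p : Ideal R) [p.IsPrime] (P : Ideal S) [P.IsPrime] [P.LiesOver p]
    (g g' : G) :
    ocPrime (T := T) p P g = ocPrime (T := T) p P g' ↔
      ∃ d ∈ MulAction.stabilizer G P, ∃ h ∈ H, g = d * g' * h := by
  rw [Subtype.ext_iff, ocPrime_coe, ocPrime_coe]
  constructor
  · intro heq
    have h1 : (g⁻¹ • P : Ideal S).IsPrime := Ideal.IsPrime.smul g⁻¹
    have h2 : (g'⁻¹ • P : Ideal S).IsPrime := Ideal.IsPrime.smul g'⁻¹
    obtain ⟨h, hh⟩ := Algebra.IsInvariant.exists_smul_of_under_eq T S H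
      (g⁻¹ • P : Ideal S) (g'⁻¹ • P : Ideal S) heq
    have hh' : (g'⁻¹ • P : Ideal S) = ((h : G) * g⁻¹) • P := by
      rw [hh, mul_smul]
      rfl
    -- `g' * h * g⁻¹` stabilises `P`
    have hd : (g' * (h : G) * g⁻¹) • P = P := by
      rw [mul_assoc, mul_smul, ← hh', smul_inv_smul]
    refine ⟨(g' * (h : G) * g⁻¹)⁻¹, ?_, (h : G), h.2, ?_⟩
    · exact inv_mem (MulAction.mem_stabilizer_iff.2 hd)
    · group
  · rintro ⟨d, hd, h, hh, rfl⟩
    have hd' : d⁻¹ • P = P := MulAction.mem_stabilizer_iff.1 (inv_mem hd)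
    have : (d * g' * h)⁻¹ • P = h⁻¹ • (g'⁻¹ • P) := by
      rw [mul_inv_rev, mul_inv_rev, mul_smul, mul_smul, hd']
    rw [this]
    exact oc_under_smul H h⁻¹ (inv_mem hh) _

include H in
lemma ocPrime_surjective (hinj : Function.Injective (algebraMap T S))
    (p : Ideal R) [p.IsPrime] (P : Ideal S) [P.IsPrime] [P.LiesOver p] :
    Function.Surjective (ocPrime (T := T) (G := G) p P) := by
  rintro ⟨𝔮, h𝔮p, h𝔮l⟩
  have : Algebra.IsIntegral T S := Algebra.IsInvariant.isIntegral T S H
  obtain ⟨Q, -, hQp, hQ⟩ := Ideal.exists_ideal_over_prime_of_isIntegral 𝔮 (⊥ : Ideal S)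
    (by
      rw [← RingHom.ker_eq_comap_bot, (RingHom.injective_iff_ker_eq_bot _).1 hinj]
      exact bot_le)
  -- `Q` lies over `p`
  have hQl : Q.LiesOver p := by
    constructor
    have h1 : 𝔮.under R = p := (h𝔮l.over).symm
    rw [← h1, ← hQ]
    exact Ideal.under_under (A := R) (B := T) Q
  obtain ⟨g, hg⟩ := Algebra.IsInvariant.exists_smul_of_under_eq R S G P Q
    ((Ideal.LiesOver.over (P := P) (p := p)).symm.trans hQl.over)
  refine ⟨g⁻¹, ?_⟩
  rw [Subtype.ext_iff, ocPrime_coe, inv_inv, ← hg]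
  exact hQ

/-- The orbit attached to `g : G`. -/
def ocOrbit (P : Ideal S) (g : G) :
    MulAction.orbitRel.Quotient (MulAction.stabilizer G P) (G ⧸ H) :=
  Quotient.mk'' (g : G ⧸ H)

lemma ocOrbit_surjective (P : Ideal S) : Function.Surjective (ocOrbit H P) := by
  intro x
  induction x using Quotient.inductionOn' with
  | h y =>
    induction y using QuotientGroup.induction_on with
    | H g => exact ⟨g, rfl⟩

lemma ocOrbit_eq_iff (P : Ideal S) (g g' : G) :
    ocOrbit H P g = ocOrbit H P g' ↔
      ∃ d ∈ MulAction.stabilizer G P, ∃ h ∈ H, g = d * g' * h := by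
  unfold ocOrbit
  rw [Quotient.eq'', MulAction.orbitRel_apply, MulAction.mem_orbit_iff]
  constructor
  · rintro ⟨d, hd⟩
    have hd' : (((d : G) * g' : G) : G ⧸ H) = (g : G ⧸ H) := hd
    rw [QuotientGroup.eq] at hd'
    refine ⟨d, d.2, _, hd', ?_⟩
    group
  · rintro ⟨d, hd, h, hh, rfl⟩
    refine ⟨⟨d, hd⟩, ?_⟩
    show (((d * g' : G)) : G ⧸ H) = ((d * g' * h : G) : G ⧸ H)
    rw [QuotientGroup.eq]
    convert hh using 1
    group

/-- Primes of the `H`-invariants `T` over `p` are counted by the orbits of the decomposition group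
`D = Stab_G(P)` on `G ⧸ H` (i.e. by the double cosets `D \ G / H`). -/
theorem card_primesOver_eq_card_orbits
    (hinj : Function.Injective (algebraMap T S))
    (p : Ideal R) [p.IsPrime] (P : Ideal S) [P.IsPrime] [P.LiesOver p] :
    Nat.card (p.primesOver T) =
      Nat.card (MulAction.orbitRel.Quotient (MulAction.stabilizer G P) (G ⧸ H)) :=
  oc_card_eq_of_surjective_of_ker (ocPrime (T := T) p P) (ocOrbit H P)
    (ocPrime_surjective H hinj p P) (ocOrbit_surjective H P)
    (fun g g' => (ocPrime_eq_iff H p P g g').trans (ocOrbit_eq_iff H P g g').symm)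

end OrbitCount

end Fermat.Agent.S24
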