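import Mathlib

set_option autoImplicit false

/-!
# The projective line over a commutative ring as an `SL(2,ℤ)`-set

`P1 R` is the set of unimodular column vectors `(a, c)` over `R` modulo the relation
`a * c' = a' * c` (equivalently: modulo units).  `SL(2, ℤ)` acts on it through `ℤ → R`.
For `R = ZMod N` the action is transitive and the stabiliser of `(1 : 0)` is `Γ₀(N)`.
-/

namespace Fermat.Agent.S24

open Matrix MatrixGroups

universe u

variable (R : Type u) [CommRing R]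

/-- Unimodular column vectors over a commutative ring `R`. -/
def Unimod : Type u := {v : R × R // IsCoprime v.1 v.2}

variable {R}

/-- The cross-product relation on unimodular vectors. -/
def Unimod.Rel (v w : Unimod R) : Prop := v.1.1 * w.1.2 = w.1.1 * v.1.2

theorem Unimod.rel_refl (v : Unimod R) : Unimod.Rel v v := rfl

theorem Unimod.rel_symm {v w : Unimod R} (h : Unimod.Rel v w) : Unimod.Rel w v := h.symm

theorem Unimod.rel_trans {u v w : Unimod R} (h1 : Unimod.Rel u v) (h2 : Unimod.Rel v w) :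
    Unimod.Rel u w := by
  obtain ⟨x, y, hxy⟩ := v.2
  unfold Unimod.Rel at *
  have e1 : u.1.1 * w.1.2 = u.1.1 * w.1.2 * (x * v.1.1 + y * v.1.2) := by rw [hxy, mul_one]
  have e2 : w.1.1 * u.1.2 = w.1.1 * u.1.2 * (x * v.1.1 + y * v.1.2) := by rw [hxy, mul_one]
  rw [e1, e2]
  linear_combination (x * w.1.1 + y * w.1.2) * h1 + (x * u.1.1 + y * u.1.2) * h2

variable (R) in
/-- The setoid defining `P1 R`. -/
def unimodSetoid : Setoid (Unimod R) where
  r := Unimod.Rel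
  iseqv := ⟨Unimod.rel_refl, Unimod.rel_symm, Unimod.rel_trans⟩

variable (R) in
/-- The projective line over `R`. -/
def P1 : Type u := Quotient (unimodSetoid R)

/-- The class of a unimodular vector. -/
def P1.mk (v : Unimod R) : P1 R := Quotient.mk (unimodSetoid R) v

theorem P1.mk_eq_mk {v w : Unimod R} : P1.mk v = P1.mk w ↔ v.1.1 * w.1.2 = w.1.1 * v.1.2 :=
  ⟨fun h => Quotient.exact h, fun h => Quotient.sound h⟩

theorem P1.mk_surjective : Function.Surjective (P1.mk (R := R)) := Quotient.mk_surjective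

/-! ### The action of `SL(2, ℤ)` -/

theorem det_cast (g : SL(2, ℤ)) :
    ((g 0 0 : ℤ) : R) * ((g 1 1 : ℤ) : R) - ((g 0 1 : ℤ) : R) * ((g 1 0 : ℤ) : R) = 1 := by
  have h := g.det_coe
  rw [Matrix.det_fin_two] at h
  have h2 := congrArg (Int.cast : ℤ → R) h
  push_cast at h2
  exact h2

/-- The action of `SL(2, ℤ)` on unimodular vectors. -/
def Unimod.smul (g : SL(2, ℤ)) (v : Unimod R) : Unimod R :=
  ⟨(((g 0 0 : ℤ) : R) * v.1.1 + ((g 0 1 : ℤ) : R) * v.1.2,
    ((g 1 0 : ℤ) : R) * v.1.1 + ((g 1 1 : ℤ) : R) * v.1.2), by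
    obtain ⟨x, y, hxy⟩ := v.2
    refine ⟨x * ((g 1 1 : ℤ) : R) - y * ((g 1 0 : ℤ) : R),
      y * ((g 0 0 : ℤ) : R) - x * ((g 0 1 : ℤ) : R), ?_⟩
    have hd := det_cast (R := R) g
    simp only
    linear_combination (x * v.1.1 + y * v.1.2) * hd + hxy⟩

instance : MulAction SL(2, ℤ) (Unimod R) where
  smul := Unimod.smul
  one_smul v := by
    apply Subtype.ext
    show (Unimod.smul 1 v).1 = v.1
    simp [Unimod.smul]
  mul_smul g h v := by
    apply Subtype.ext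
    show (Unimod.smul (g * h) v).1 = (Unimod.smul g (Unimod.smul h v)).1
    simp only [Unimod.smul, Matrix.SpecialLinearGroup.coe_mul, Matrix.mul_apply,
      Fin.sum_univ_two]
    push_cast
    ext <;> simp only <;> ring

theorem Unimod.smul_fst (g : SL(2, ℤ)) (v : Unimod R) :
    (g • v).1.1 = ((g 0 0 : ℤ) : R) * v.1.1 + ((g 0 1 : ℤ) : R) * v.1.2 := rfl

theorem Unimod.smul_snd (g : SL(2, ℤ)) (v : Unimod R) :
    (g • v).1.2 = ((g 1 0 : ℤ) : R) * v.1.1 + ((g 1 1 : ℤ) : R) * v.1.2 := rfl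

theorem Unimod.rel_smul (g : SL(2, ℤ)) {v w : Unimod R} (h : Unimod.Rel v w) :
    Unimod.Rel (g • v) (g • w) := by
  unfold Unimod.Rel at *
  rw [Unimod.smul_fst, Unimod.smul_snd, Unimod.smul_fst, Unimod.smul_snd]
  linear_combination (((g 0 0 : ℤ) : R) * ((g 1 1 : ℤ) : R) -
      ((g 0 1 : ℤ) : R) * ((g 1 0 : ℤ) : R)) * h

instance : MulAction SL(2, ℤ) (P1 R) where
  smul g := Quotient.map' (s₁ := unimodSetoid R) (s₂ := unimodSetoid R) (fun v => g • v)
    (fun _ _ h => Unimod.rel_smul g h)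
  one_smul x := by
    induction x using Quotient.inductionOn with
    | h v => exact congrArg (Quotient.mk (unimodSetoid R)) (one_smul _ v)
  mul_smul g h x := by
    induction x using Quotient.inductionOn with
    | h v => exact congrArg (Quotient.mk (unimodSetoid R)) (mul_smul g h v)

theorem P1.smul_mk (g : SL(2, ℤ)) (v : Unimod R) : g • P1.mk v = P1.mk (g • v) := rfl

/-- The base point `(1, 0)`. -/
def Unimod.base : Unimod R := ⟨(1, 0), isCoprime_one_left⟩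

/-- The base point `(1 : 0)` of `P1 R`. -/
def P1.base : P1 R := P1.mk Unimod.base

/-! ### The case `R = ZMod N`: transitivity and the stabiliser `Γ₀(N)` -/

variable {N : ℕ}

/-- A triple of integers with no common prime factor. -/
theorem exists_add_mul_isCoprime {a c n : ℤ} (hc : c ≠ 0)
    (h : ∀ p : ℕ, p.Prime → (p : ℤ) ∣ a → (p : ℤ) ∣ c → ¬ (p : ℤ) ∣ n) :
    ∃ t : ℤ, IsCoprime (a + n * t) c := by
  classical
  let s : Finset ℕ := c.natAbs.primeFactors.filter (fun p => ¬ (p : ℤ) ∣ a)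
  refine ⟨((∏ p ∈ s, p : ℕ) : ℤ), ?_⟩
  rw [Int.isCoprime_iff_gcd_eq_one, Int.gcd]
  apply Nat.coprime_of_dvd
  intro p hp hpa hpc
  have hpa' : (p : ℤ) ∣ a + n * ((∏ p ∈ s, p : ℕ) : ℤ) := Int.natCast_dvd.mpr hpa
  have hpc' : (p : ℤ) ∣ c := Int.natCast_dvd.mpr hpc
  have hpmem : p ∈ c.natAbs.primeFactors :=
    Nat.mem_primeFactors.mpr ⟨hp, hpc, Int.natAbs_ne_zero.mpr hc⟩
  by_cases hdiv : (p : ℤ) ∣ a
  · have h1 : (p : ℤ) ∣ n * ((∏ p ∈ s, p : ℕ) : ℤ) := (Int.dvd_add_right hdiv).mp hpa'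
    have hnt : ¬ (p : ℤ) ∣ ((∏ p ∈ s, p : ℕ) : ℤ) := by
      rw [Int.natCast_dvd_natCast]
      intro hpt
      obtain ⟨q, hq, hpq⟩ := (Prime.dvd_finsetProd_iff (Nat.prime_iff.mp hp) _).mp hpt
      have hq' := Finset.mem_filter.mp hq
      have hqp : q.Prime := (Nat.mem_primeFactors.mp hq'.1).1
      have : p = q := (Nat.prime_dvd_prime_iff_eq hp hqp).mp hpq
      subst this
      exact hq'.2 hdiv
    rcases (Int.prime_iff_natAbs_prime.mpr (by simpa using hp)).dvd_or_dvd h1 with h2 | h2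
    · exact h p hp hdiv hpc' h2
    · exact hnt h2
  · have hps : p ∈ s := Finset.mem_filter.mpr ⟨hpmem, hdiv⟩
    have h1 : (p : ℤ) ∣ ((∏ p ∈ s, p : ℕ) : ℤ) := by
      rw [Int.natCast_dvd_natCast]
      exact Finset.dvd_prod_of_mem _ hps
    have h2 : (p : ℤ) ∣ n * ((∏ p ∈ s, p : ℕ) : ℤ) := Dvd.dvd.mul_left h1 n
    exact hdiv ((Int.dvd_add_left h2).mp hpa')

/-- Unimodular pairs mod `N` lift to coprime pairs of integers. -/
theorem exists_isCoprime_lift [NeZero N] (a c : ZMod N) (h : IsCoprime a c) :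
    ∃ a' c' : ℤ, (a' : ZMod N) = a ∧ (c' : ZMod N) = c ∧ IsCoprime a' c' := by
  obtain ⟨x, y, hxy⟩ := h
  -- integer lifts
  obtain ⟨a₀, rfl⟩ := ZMod.intCast_surjective a
  obtain ⟨c₀, rfl⟩ := ZMod.intCast_surjective c
  obtain ⟨x₀, rfl⟩ := ZMod.intCast_surjective x
  obtain ⟨y₀, rfl⟩ := ZMod.intCast_surjective y
  have hN : (N : ℤ) ∣ x₀ * a₀ + y₀ * c₀ - 1 := by
    rw [← ZMod.intCast_zmod_eq_zero_iff_dvd]
    push_cast
    rw [hxy, sub_self]
  -- choose a nonzero lift of `c`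
  obtain ⟨c₁, hc₁, hc₁0⟩ : ∃ c₁ : ℤ, ((c₁ : ZMod N) = (c₀ : ZMod N)) ∧ c₁ ≠ 0 := by
    by_cases hc0 : c₀ = 0
    · refine ⟨N, ?_, by exact_mod_cast NeZero.ne N⟩
      simp [hc0]
    · exact ⟨c₀, rfl, hc0⟩
  have hcc : (N : ℤ) ∣ c₁ - c₀ := by
    rw [← ZMod.intCast_zmod_eq_zero_iff_dvd]
    push_cast
    rw [hc₁, sub_self]
  have key : ∀ p : ℕ, p.Prime → (p : ℤ) ∣ a₀ → (p : ℤ) ∣ c₁ → ¬ (p : ℤ) ∣ (N : ℤ) := by
    intro p hp hpa hpc hpN
    have h1 : (p : ℤ) ∣ c₀ := by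
      have : (p : ℤ) ∣ c₁ - c₀ := hpN.trans hcc
      have h2 := dvd_sub hpc this
      simpa using h2
    have h2 : (p : ℤ) ∣ x₀ * a₀ + y₀ * c₀ - 1 := hpN.trans hN
    have h3 : (p : ℤ) ∣ x₀ * a₀ + y₀ * c₀ := dvd_add (hpa.mul_left _) (h1.mul_left _)
    have h4 : (p : ℤ) ∣ 1 := by
      have := dvd_sub h3 h2
      simpa using this
    have h5 : p ∣ 1 := by exact_mod_cast h4
    exact hp.one_lt.ne' (Nat.dvd_one.mp h5)
  obtain ⟨t, ht⟩ := exists_add_mul_isCoprime hc₁0 key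
  refine ⟨a₀ + N * t, c₁, ?_, hc₁, ht⟩
  push_cast
  simp

/-- `SL(2, ℤ)` acts transitively on unimodular vectors. -/
theorem Unimod.exists_smul_base_eq [NeZero N] (v : Unimod (ZMod N)) :
    ∃ g : SL(2, ℤ), g • (Unimod.base : Unimod (ZMod N)) = v := by
  obtain ⟨a', c', ha, hc, x, y, hxy⟩ := exists_isCoprime_lift v.1.1 v.1.2 v.2
  refine ⟨⟨!![a', -y; c', x], ?_⟩, ?_⟩
  · rw [Matrix.det_fin_two_of]
    linear_combination hxy
  · apply Subtype.ext
    apply Prod.ext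
    · rw [Unimod.smul_fst]
      simp [Unimod.base, ha]
    · rw [Unimod.smul_snd]
      simp [Unimod.base, hc]

instance [NeZero N] : MulAction.IsPretransitive SL(2, ℤ) (P1 (ZMod N)) := by
  have key : ∀ x : P1 (ZMod N), ∃ g : SL(2, ℤ), g • (P1.base : P1 (ZMod N)) = x := by
    intro x
    obtain ⟨v, rfl⟩ := P1.mk_surjective x
    obtain ⟨g, hg⟩ := Unimod.exists_smul_base_eq v
    exact ⟨g, by rw [P1.base, P1.smul_mk, hg]⟩
  refine ⟨fun x y => ?_⟩
  obtain ⟨g, rfl⟩ := key x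
  obtain ⟨h, rfl⟩ := key y
  exact ⟨h * g⁻¹, by rw [mul_smul, inv_smul_smul]⟩

theorem P1.stabilizer_base : MulAction.stabilizer SL(2, ℤ) (P1.base : P1 (ZMod N)) =
    CongruenceSubgroup.Gamma0 N := by
  ext g
  rw [MulAction.mem_stabilizer_iff, CongruenceSubgroup.Gamma0_mem, P1.base, P1.smul_mk,
    P1.mk_eq_mk, Unimod.smul_fst, Unimod.smul_snd]
  simp only [Unimod.base, mul_one, mul_zero, add_zero, one_mul]
  exact eq_comm


/-- The `SL(2, ℤ)`-equivariant bijection `SL(2, ℤ) ⧸ Γ₀(N) ≃ P1 (ZMod N)`, `g Γ₀(N) ↦ g • (1 : 0)`. -/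
noncomputable def quotientGamma0EquivP1 (N : ℕ) [NeZero N] :
    SL(2, ℤ) ⧸ CongruenceSubgroup.Gamma0 N ≃ P1 (ZMod N) :=
  (Subgroup.quotientEquivOfEq (P1.stabilizer_base (N := N)).symm).trans
    (Equiv.ofBijective (MulAction.ofQuotientStabilizer SL(2, ℤ) (P1.base : P1 (ZMod N)))
      ⟨MulAction.injective_ofQuotientStabilizer SL(2, ℤ) (P1.base : P1 (ZMod N)), fun x => by
        obtain ⟨g, hg⟩ := MulAction.exists_smul_eq SL(2, ℤ) (P1.base : P1 (ZMod N)) x
        exact ⟨QuotientGroup.mk g, by rw [MulAction.ofQuotientStabilizer_mk, hg]⟩⟩)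

theorem quotientGamma0EquivP1_mk (N : ℕ) [NeZero N] (g : SL(2, ℤ)) :
    quotientGamma0EquivP1 N (QuotientGroup.mk g) = g • (P1.base : P1 (ZMod N)) := by
  simp only [quotientGamma0EquivP1, Equiv.trans_apply, Subgroup.quotientEquivOfEq_mk,
    Equiv.ofBijective_apply, MulAction.ofQuotientStabilizer_mk]

theorem quotientGamma0EquivP1_smul (N : ℕ) [NeZero N] (g : SL(2, ℤ))
    (x : SL(2, ℤ) ⧸ CongruenceSubgroup.Gamma0 N) :
    quotientGamma0EquivP1 N (g • x) = g • quotientGamma0EquivP1 N x := by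
  induction x using QuotientGroup.induction_on with
  | H h =>
    rw [MulAction.Quotient.smul_mk, quotientGamma0EquivP1_mk, quotientGamma0EquivP1_mk,
      smul_eq_mul, mul_smul]

end Fermat.Agent.S24
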