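import Mathlib
import Fermat.Agent.S24.ADefs

/-!
# S24 (A-side) : Taylor expansion at a point of `ℍ` in the disc coordinate

For `τ₀ : ℍ` put `w = (τ - τ₀) / (τ - conj τ₀)` (a biholomorphism of `ℍ` onto the unit disc sending
`τ₀` to `0`).  `taylorDisc τ₀ f` is the Taylor series at `w = 0` of `f` written in the coordinate
`w`.  If `γ ∈ SL(2, ℤ)` fixes `τ₀` then `w (γ • τ) = ζ * w τ` with
`ζ = (c * conj τ₀ + d) / (c * τ₀ + d)`, hence precomposition with `γ` rescales the Taylor series.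

This file proves the statements of `TaylorSpec.lean` (same names, same statements); it replaces
that file.
-/

set_option autoImplicit false

noncomputable section

namespace Fermat.Agent.S24

open UpperHalfPlane
open scoped MatrixGroups Manifold ModularForm Real ComplexConjugate

/-! ### Taylor series at `0` of a function `ℂ → ℂ` -/

/-- Taylor series at `0` of a function `ℂ → ℂ`. -/
def taylorZero (g : ℂ → ℂ) : PowerSeries ℂ :=
  PowerSeries.mk fun m => (m.factorial : ℂ)⁻¹ * iteratedDeriv m g 0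

theorem coeff_taylorZero (g : ℂ → ℂ) (m : ℕ) :
    PowerSeries.coeff m (taylorZero g) = (m.factorial : ℂ)⁻¹ * iteratedDeriv m g 0 :=
  PowerSeries.coeff_mk _ _

theorem taylorZero_mul {g h : ℂ → ℂ} (hg : AnalyticAt ℂ g 0) (hh : AnalyticAt ℂ h 0) :
    taylorZero (g * h) = taylorZero g * taylorZero h := by
  ext n
  simp only [coeff_taylorZero, iteratedDeriv_mul hg.contDiffAt hh.contDiffAt, Finset.mul_sum,
    PowerSeries.coeff_mul, Finset.Nat.sum_antidiagonal_eq_sum_range_succ_mk, Nat.succ_eq_add_one]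
  refine Finset.sum_congr rfl fun i hi ↦ ?_
  rw [Nat.cast_choose _ (by grind)]
  field_simp [Nat.factorial_ne_zero]

theorem taylorZero_add {g h : ℂ → ℂ} (hg : AnalyticAt ℂ g 0) (hh : AnalyticAt ℂ h 0) :
    taylorZero (g + h) = taylorZero g + taylorZero h := by
  ext n
  simp [coeff_taylorZero, iteratedDeriv_add hg.contDiffAt hh.contDiffAt, mul_add]

theorem taylorZero_const (c : ℂ) : taylorZero (fun _ => c) = PowerSeries.C c := by
  ext n
  rw [coeff_taylorZero, PowerSeries.coeff_C]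
  rcases Nat.eq_zero_or_pos n with rfl | hn
  · simp
  · rw [if_neg hn.ne']
    have : iteratedDeriv n (fun _ : ℂ => c) 0 = 0 := by
      rw [iteratedDeriv_const]
      simp [hn.ne']
    rw [this, mul_zero]

theorem order_taylorZero {g : ℂ → ℂ} (hg : AnalyticAt ℂ g 0) :
    (taylorZero g).order = analyticOrderAt g 0 := by
  apply le_antisymm
  · rw [← ENat.forall_natCast_le_iff_le]
    intro n hn
    rw [natCast_le_analyticOrderAt_iff_iteratedDeriv_eq_zero hg]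
    intro i hi
    have h1 : PowerSeries.coeff i (taylorZero g) = 0 :=
      PowerSeries.coeff_of_lt_order i (lt_of_lt_of_le (by exact_mod_cast hi) hn)
    rw [coeff_taylorZero] at h1
    have h2 : ((i.factorial : ℂ))⁻¹ ≠ 0 := inv_ne_zero (Nat.cast_ne_zero.mpr (Nat.factorial_ne_zero i))
    exact (mul_eq_zero.mp h1).resolve_left h2
  · rw [← ENat.forall_natCast_le_iff_le]
    intro n hn
    rw [natCast_le_analyticOrderAt_iff_iteratedDeriv_eq_zero hg] at hn
    apply PowerSeries.nat_le_order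
    intro i hi
    rw [coeff_taylorZero, hn i hi, mul_zero]

theorem taylorZero_comp_mul {g : ℂ → ℂ} (hg : DifferentiableOn ℂ g (Metric.ball 0 1)) {ζ : ℂ}
    (hζ : ‖ζ‖ = 1) :
    taylorZero (fun w => g (ζ * w)) = PowerSeries.rescale ζ (taylorZero g) := by
  ext n
  rw [PowerSeries.coeff_rescale, coeff_taylorZero, coeff_taylorZero]
  have hopen : IsOpen (Metric.ball (0 : ℂ) 1) := Metric.isOpen_ball
  have h0 : (0 : ℂ) ∈ Metric.ball (0 : ℂ) 1 := Metric.mem_ball_self one_pos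
  have hmaps : Set.MapsTo (ζ * ·) (Metric.ball (0 : ℂ) 1) (Metric.ball (0 : ℂ) 1) := by
    intro w hw
    simp only [Metric.mem_ball, dist_zero_right, norm_mul, hζ, one_mul] at hw ⊢
    exact hw
  have hcd : ContDiffOn ℂ n g (Metric.ball 0 1) := (hg.contDiffOn hopen).of_le le_top
  have key := iteratedDerivWithin_comp_const_smul (n := n) h0 hopen.uniqueDiffOn hcd ζ hmaps
  rw [iteratedDerivWithin_of_isOpen hopen h0, iteratedDerivWithin_of_isOpen hopen
    (by simp [h0])] at key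
  rw [key, mul_zero, smul_eq_mul]
  ring

/-! ### The disc coordinate -/

/-- The inverse Cayley transform centred at `τ₀`, from the unit disc to the upper half plane. -/
def taylorDiscMap (τ₀ : ℍ) (w : ℂ) : ℂ := ((τ₀ : ℂ) - conj (τ₀ : ℂ) * w) / (1 - w)

theorem taylorDiscMap_zero (τ₀ : ℍ) : taylorDiscMap τ₀ 0 = (τ₀ : ℂ) := by
  simp [taylorDiscMap]

theorem td_one_sub_ne_zero {w : ℂ} (hw : ‖w‖ < 1) : (1 : ℂ) - w ≠ 0 := by
  intro h
  have : w = 1 := (sub_eq_zero.mp h).symm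
  rw [this, norm_one] at hw
  exact lt_irrefl _ hw

theorem im_taylorDiscMap (τ₀ : ℍ) {w : ℂ} (hw : ‖w‖ < 1) :
    (taylorDiscMap τ₀ w).im = τ₀.im * (1 - Complex.normSq w) / Complex.normSq (1 - w) := by
  have h1 : (1 : ℂ) - w ≠ 0 := td_one_sub_ne_zero hw
  have h2 : Complex.normSq (1 - w) ≠ 0 := (Complex.normSq_pos.mpr h1).ne'
  rw [taylorDiscMap, Complex.div_im, eq_div_iff h2]
  have h3 : Complex.normSq (1 - w) = (1 - w.re) ^ 2 + w.im ^ 2 := by
    simp [Complex.normSq_apply]; ring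
  rw [h3] at h2 ⊢
  simp only [Complex.sub_im, Complex.sub_re, Complex.mul_im, Complex.mul_re, Complex.conj_re,
    Complex.conj_im, Complex.one_re, Complex.one_im, UpperHalfPlane.coe_im, UpperHalfPlane.coe_re,
    Complex.normSq_apply]
  field_simp
  ring

theorem im_taylorDiscMap_pos (τ₀ : ℍ) {w : ℂ} (hw : ‖w‖ < 1) : 0 < (taylorDiscMap τ₀ w).im := by
  rw [im_taylorDiscMap τ₀ hw]
  have h1 : (1 : ℂ) - w ≠ 0 := td_one_sub_ne_zero hw
  apply div_pos
  · apply mul_pos τ₀.im_pos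
    have : Complex.normSq w < 1 := by
      rw [Complex.normSq_eq_norm_sq]
      have h0 : 0 ≤ ‖w‖ := norm_nonneg w
      nlinarith
    linarith
  · exact Complex.normSq_pos.mpr h1

theorem differentiableAt_taylorDiscMap (τ₀ : ℍ) {w : ℂ} (hw : (1 : ℂ) - w ≠ 0) :
    DifferentiableAt ℂ (taylorDiscMap τ₀) w := by
  unfold taylorDiscMap
  fun_prop (disch := exact hw)

theorem hasDerivAt_taylorDiscMap_zero (τ₀ : ℍ) :
    HasDerivAt (taylorDiscMap τ₀) ((τ₀ : ℂ) - conj (τ₀ : ℂ)) 0 := by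
  have h1 : HasDerivAt (fun w : ℂ => (τ₀ : ℂ) - conj (τ₀ : ℂ) * w) (-(conj (τ₀ : ℂ))) 0 := by
    have := ((hasDerivAt_id (0 : ℂ)).const_mul (conj (τ₀ : ℂ))).const_sub (τ₀ : ℂ)
    simpa using this
  have h2 : HasDerivAt (fun w : ℂ => (1 : ℂ) - w) (-1) 0 := by
    simpa using (hasDerivAt_id (0 : ℂ)).const_sub (1 : ℂ)
  have h3 := h1.div h2 (by simp)
  have h4 : ((-(conj (τ₀ : ℂ)) * (1 - 0) - ((τ₀ : ℂ) - conj (τ₀ : ℂ) * 0) * -1) / (1 - 0) ^ 2 : ℂ)
      = (τ₀ : ℂ) - conj (τ₀ : ℂ) := by ring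
  rw [h4] at h3
  exact h3

theorem deriv_taylorDiscMap_zero_ne_zero (τ₀ : ℍ) : deriv (taylorDiscMap τ₀) 0 ≠ 0 := by
  rw [(hasDerivAt_taylorDiscMap_zero τ₀).deriv]
  intro h
  have h1 := congrArg Complex.im h
  simp only [Complex.sub_im, Complex.conj_im, UpperHalfPlane.coe_im, Complex.zero_im] at h1
  have := τ₀.im_pos
  linarith

/-- A function on `ℍ` transported to the unit disc centred at `τ₀`. -/
def taylorDiscFun (τ₀ : ℍ) (f : ℍ → ℂ) (w : ℂ) : ℂ := f (ofComplex (taylorDiscMap τ₀ w))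

theorem taylorDiscFun_eq_comp (τ₀ : ℍ) (f : ℍ → ℂ) :
    taylorDiscFun τ₀ f = (fun z : ℂ => f (ofComplex z)) ∘ taylorDiscMap τ₀ := rfl

theorem differentiableOn_taylorDiscFun (τ₀ : ℍ) {f : ℍ → ℂ} (hf : MDiff f) :
    DifferentiableOn ℂ (taylorDiscFun τ₀ f) (Metric.ball 0 1) := by
  have hd : DifferentiableOn ℂ (f ∘ ofComplex) {z | 0 < z.im} := mdifferentiable_iff.mp hf
  intro w hw
  have hw' : ‖w‖ < 1 := by simpa using hw
  have h1 : DifferentiableAt ℂ (f ∘ ofComplex) (taylorDiscMap τ₀ w) :=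
    (hd _ (im_taylorDiscMap_pos τ₀ hw')).differentiableAt
      (isOpen_upperHalfPlaneSet.mem_nhds (im_taylorDiscMap_pos τ₀ hw'))
  have h2 := differentiableAt_taylorDiscMap τ₀ (td_one_sub_ne_zero hw')
  exact (h1.comp w h2).differentiableWithinAt

theorem analyticAt_taylorDiscFun (τ₀ : ℍ) {f : ℍ → ℂ} (hf : MDiff f) :
    AnalyticAt ℂ (taylorDiscFun τ₀ f) 0 :=
  (differentiableOn_taylorDiscFun τ₀ hf).analyticAt (Metric.ball_mem_nhds 0 one_pos)

theorem analyticAt_taylorDiscMap_zero (τ₀ : ℍ) : AnalyticAt ℂ (taylorDiscMap τ₀) 0 := by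
  have : DifferentiableOn ℂ (taylorDiscMap τ₀) (Metric.ball 0 1) := by
    intro w hw
    have hw' : ‖w‖ < 1 := by simpa using hw
    exact (differentiableAt_taylorDiscMap τ₀ (td_one_sub_ne_zero hw')).differentiableWithinAt
  exact this.analyticAt (Metric.ball_mem_nhds 0 one_pos)

theorem analyticOrderAt_taylorDiscFun (τ₀ : ℍ) (f : ℍ → ℂ) :
    analyticOrderAt (taylorDiscFun τ₀ f) 0 =
      analyticOrderAt (fun z : ℂ => f (ofComplex z)) (τ₀ : ℂ) := by
  rw [taylorDiscFun_eq_comp, analyticOrderAt_comp_of_deriv_ne_zero (analyticAt_taylorDiscMap_zero τ₀)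
    (deriv_taylorDiscMap_zero_ne_zero τ₀), taylorDiscMap_zero]

/-! ### The rotation factor -/

/-- The rotation factor of an element of `SL(2, ℤ)` at a point. -/
def rotFactor (γ : SL(2, ℤ)) (τ₀ : ℍ) : ℂ :=
  ((γ 1 0 : ℂ) * conj (τ₀ : ℂ) + (γ 1 1 : ℂ)) / ((γ 1 0 : ℂ) * (τ₀ : ℂ) + (γ 1 1 : ℂ))

theorem td_coe_smul_eq (γ : SL(2, ℤ)) (τ : ℍ) :
    ((γ • τ : ℍ) : ℂ) = ((γ 0 0 : ℂ) * τ + (γ 0 1 : ℂ)) / ((γ 1 0 : ℂ) * τ + (γ 1 1 : ℂ)) := by
  rw [coe_specialLinearGroup_apply]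
  simp only [algebraMap_int_eq, Int.coe_castRingHom, Complex.ofReal_intCast]

theorem td_bottom_ne_zero (γ : SL(2, ℤ)) (τ : ℍ) : (γ 1 0 : ℂ) * τ + (γ 1 1 : ℂ) ≠ 0 := by
  intro h
  have him := congrArg Complex.im h
  have hre := congrArg Complex.re h
  simp only [Complex.add_im, Complex.mul_im, Complex.intCast_re, Complex.intCast_im, zero_mul,
    add_zero, Complex.zero_im, UpperHalfPlane.coe_im, Complex.add_re, Complex.mul_re,
    UpperHalfPlane.coe_re, sub_zero, Complex.zero_re] at him hre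
  have hc : (γ 1 0 : ℝ) = 0 := (mul_eq_zero.mp him).resolve_right τ.im_pos.ne'
  rw [hc, zero_mul, zero_add] at hre
  have hc' : γ 1 0 = 0 := by exact_mod_cast hc
  have hd' : γ 1 1 = 0 := by exact_mod_cast hre
  have hdet := γ.det_coe
  rw [Matrix.det_fin_two, hc', hd'] at hdet
  simp at hdet

theorem td_bottom_conj_ne_zero (γ : SL(2, ℤ)) (τ : ℍ) :
    (γ 1 0 : ℂ) * conj (τ : ℂ) + (γ 1 1 : ℂ) ≠ 0 := by
  intro h
  apply td_bottom_ne_zero γ τ
  have := congrArg conj h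
  simpa using this

theorem norm_rotFactor (γ : SL(2, ℤ)) (τ₀ : ℍ) : ‖rotFactor γ τ₀‖ = 1 := by
  rw [rotFactor, norm_div]
  have h : (γ 1 0 : ℂ) * conj (τ₀ : ℂ) + (γ 1 1 : ℂ) = conj ((γ 1 0 : ℂ) * (τ₀ : ℂ) + (γ 1 1 : ℂ)) := by
    simp
  rw [h, Complex.norm_conj]
  exact div_self (norm_ne_zero_iff.mpr (td_bottom_ne_zero γ τ₀))

theorem td_moebius_aux {a b c d s t w : ℂ} (h1 : a * t + b = t * (c * t + d))
    (h2 : a * s + b = s * (c * s + d)) (hA : c * t + d ≠ 0) (hw1 : 1 - w ≠ 0)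
    (hw2 : 1 - (c * s + d) / (c * t + d) * w ≠ 0) :
    (a * ((t - s * w) / (1 - w)) + b) / (c * ((t - s * w) / (1 - w)) + d) =
      (t - s * ((c * s + d) / (c * t + d) * w)) / (1 - (c * s + d) / (c * t + d) * w) := by
  have hAB : c * t + d - (c * s + d) * w ≠ 0 := by
    intro h0
    apply hw2
    field_simp
    linear_combination h0
  have e1 : a * ((t - s * w) / (1 - w)) + b =
      (t * (c * t + d) - s * (c * s + d) * w) / (1 - w) := by
    field_simp
    linear_combination h1 - w * h2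
  have e2 : c * ((t - s * w) / (1 - w)) + d = (c * t + d - (c * s + d) * w) / (1 - w) := by
    field_simp
    ring
  have hAi : (c * t + d) * (c * t + d)⁻¹ = 1 := mul_inv_cancel₀ hA
  have e3 : (t - s * ((c * s + d) / (c * t + d) * w)) =
      (t * (c * t + d) - s * (c * s + d) * w) / (c * t + d) := by
    rw [eq_div_iff hA]
    linear_combination (-(s * (c * s + d) * w)) * hAi
  have e4 : (1 - (c * s + d) / (c * t + d) * w) = (c * t + d - (c * s + d) * w) / (c * t + d) := by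
    rw [eq_div_iff hA]
    linear_combination (-((c * s + d) * w)) * hAi
  rw [e1, e2, e3, e4, div_div_div_cancel_right₀ hw1, div_div_div_cancel_right₀ hA]

theorem smul_taylorDiscMap (γ : SL(2, ℤ)) (τ₀ : ℍ) (hγ : γ • τ₀ = τ₀) {w : ℂ} (hw : ‖w‖ < 1) :
    γ • ofComplex (taylorDiscMap τ₀ w) = ofComplex (taylorDiscMap τ₀ (rotFactor γ τ₀ * w)) := by
  have hw' : ‖rotFactor γ τ₀ * w‖ < 1 := by rwa [norm_mul, norm_rotFactor, one_mul]
  rw [ofComplex_apply_of_im_pos (im_taylorDiscMap_pos τ₀ hw),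
    ofComplex_apply_of_im_pos (im_taylorDiscMap_pos τ₀ hw')]
  apply UpperHalfPlane.ext
  rw [td_coe_smul_eq]
  show ((γ 0 0 : ℂ) * taylorDiscMap τ₀ w + (γ 0 1 : ℂ)) / ((γ 1 0 : ℂ) * taylorDiscMap τ₀ w + (γ 1 1 : ℂ)) =
    taylorDiscMap τ₀ (rotFactor γ τ₀ * w)
  -- the fixed point equations
  have hA := td_bottom_ne_zero γ τ₀
  have h1 : (γ 0 0 : ℂ) * τ₀ + (γ 0 1 : ℂ) = τ₀ * ((γ 1 0 : ℂ) * τ₀ + (γ 1 1 : ℂ)) := by
    have := congrArg (fun z : ℍ => (z : ℂ)) hγ
    simp only [td_coe_smul_eq] at this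
    rw [div_eq_iff hA] at this
    exact this
  have h2 : (γ 0 0 : ℂ) * conj (τ₀ : ℂ) + (γ 0 1 : ℂ) =
      conj (τ₀ : ℂ) * ((γ 1 0 : ℂ) * conj (τ₀ : ℂ) + (γ 1 1 : ℂ)) := by
    have := congrArg conj h1
    simpa using this
  have hw1 := td_one_sub_ne_zero hw
  have hw2 := td_one_sub_ne_zero hw'
  exact td_moebius_aux h1 h2 hA hw1 hw2

/-! ### The Taylor expansion ring homomorphism -/

theorem taylorDiscFun_const (τ₀ : ℍ) (c : ℂ) : taylorDiscFun τ₀ (fun _ => c) = fun _ => c := rfl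

/-- Taylor expansion at `τ₀` in the disc coordinate, as a ring homomorphism (explicit version). -/
def taylorDiscHom (τ₀ : ℍ) : HolRing →+* PowerSeries ℂ where
  toFun f := taylorZero (taylorDiscFun τ₀ (f : ℍ → ℂ))
  map_one' := by
    show taylorZero (taylorDiscFun τ₀ (fun _ => (1 : ℂ))) = 1
    rw [taylorDiscFun_const, taylorZero_const, map_one]
  map_mul' f g := by
    show taylorZero (taylorDiscFun τ₀ (f : ℍ → ℂ) * taylorDiscFun τ₀ (g : ℍ → ℂ)) = _
    exact taylorZero_mul (analyticAt_taylorDiscFun τ₀ f.2) (analyticAt_taylorDiscFun τ₀ g.2)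
  map_zero' := by
    show taylorZero (taylorDiscFun τ₀ (fun _ => (0 : ℂ))) = 0
    rw [taylorDiscFun_const, taylorZero_const, map_zero]
  map_add' f g := by
    show taylorZero (taylorDiscFun τ₀ (f : ℍ → ℂ) + taylorDiscFun τ₀ (g : ℍ → ℂ)) = _
    exact taylorZero_add (analyticAt_taylorDiscFun τ₀ f.2) (analyticAt_taylorDiscFun τ₀ g.2)

theorem taylorDiscHom_apply (τ₀ : ℍ) (f : HolRing) :
    taylorDiscHom τ₀ f = taylorZero (taylorDiscFun τ₀ (f : ℍ → ℂ)) := rfl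

theorem order_taylorDiscHom (τ₀ : ℍ) (f : HolRing) : (taylorDiscHom τ₀ f).order =
    analyticOrderAt (fun z : ℂ => (f : ℍ → ℂ) (ofComplex z)) (τ₀ : ℂ) := by
  rw [taylorDiscHom_apply, order_taylorZero (analyticAt_taylorDiscFun τ₀ f.2), analyticOrderAt_taylorDiscFun]

theorem taylorDiscHom_injective (τ₀ : ℍ) : Function.Injective (taylorDiscHom τ₀) := by
  rw [injective_iff_map_eq_zero]
  intro f hf
  have h1 : analyticOrderAt (fun z : ℂ => (f : ℍ → ℂ) (ofComplex z)) (τ₀ : ℂ) = ⊤ := by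
    rw [← order_taylorDiscHom, hf, PowerSeries.order_zero]
  rw [analyticOrderAt_eq_top] at h1
  have h2 : ∀ᶠ τ in nhds τ₀, (f : ℍ → ℂ) τ = 0 := by
    have hc : Filter.Tendsto (fun τ : ℍ => (τ : ℂ)) (nhds τ₀) (nhds (τ₀ : ℂ)) :=
      UpperHalfPlane.continuous_coe.tendsto τ₀
    filter_upwards [hc.eventually h1] with τ hτ
    simpa [ofComplex_apply] using hτ
  exact Subtype.ext (HolRing.eq_zero_of_eventuallyEq_zero f.2 h2)

theorem constantCoeff_taylorDiscHom (τ₀ : ℍ) (f : HolRing) :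
    PowerSeries.constantCoeff (taylorDiscHom τ₀ f) = (f : ℍ → ℂ) τ₀ := by
  rw [← PowerSeries.coeff_zero_eq_constantCoeff_apply, taylorDiscHom_apply, coeff_taylorZero]
  simp [taylorDiscFun, taylorDiscMap_zero, ofComplex_apply]

theorem taylorDiscHom_inv_smul (τ₀ : ℍ) (γ : SL(2, ℤ)) (hγ : γ • τ₀ = τ₀) (f : HolRing) :
    taylorDiscHom τ₀ (γ⁻¹ • f) = PowerSeries.rescale (rotFactor γ τ₀) (taylorDiscHom τ₀ f) := by
  rw [taylorDiscHom_apply, taylorDiscHom_apply,
    ← taylorZero_comp_mul (differentiableOn_taylorDiscFun τ₀ f.2) (norm_rotFactor γ τ₀)]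
  ext n
  rw [coeff_taylorZero, coeff_taylorZero]
  congr 1
  apply Filter.EventuallyEq.iteratedDeriv_eq
  filter_upwards [Metric.ball_mem_nhds (0 : ℂ) one_pos] with w hw
  have hw' : ‖w‖ < 1 := by simpa using hw
  show ((γ⁻¹ • f : HolRing) : ℍ → ℂ) (ofComplex (taylorDiscMap τ₀ w)) =
    (f : ℍ → ℂ) (ofComplex (taylorDiscMap τ₀ (rotFactor γ τ₀ * w)))
  rw [HolRing.inv_smul_apply, smul_taylorDiscMap γ τ₀ hγ hw']

theorem exists_taylorDisc (τ₀ : ℍ) : ∃ T : HolRing →+* PowerSeries ℂ,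
    Function.Injective T ∧
    (∀ c : ℂ, T (algebraMap ℂ HolRing c) = PowerSeries.C c) ∧
    (∀ f : HolRing, (T f).order =
      analyticOrderAt (fun z : ℂ => (f : ℍ → ℂ) (ofComplex z)) (τ₀ : ℂ)) ∧
    (∀ f : HolRing, PowerSeries.constantCoeff (T f) = (f : ℍ → ℂ) τ₀) ∧
    (∀ (γ : SL(2, ℤ)), γ • τ₀ = τ₀ → ∀ f : HolRing,
      T (γ⁻¹ • f) = PowerSeries.rescale (rotFactor γ τ₀) (T f)) := by
  refine ⟨taylorDiscHom τ₀, taylorDiscHom_injective τ₀, fun c => ?_, order_taylorDiscHom τ₀,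
    constantCoeff_taylorDiscHom τ₀, fun γ hγ f => taylorDiscHom_inv_smul τ₀ γ hγ f⟩
  show taylorZero (taylorDiscFun τ₀ (fun _ => c)) = PowerSeries.C c
  rw [taylorDiscFun_const, taylorZero_const]

/-- Taylor expansion at `τ₀` in the disc coordinate. -/
def taylorDisc (τ₀ : ℍ) : HolRing →+* PowerSeries ℂ := (exists_taylorDisc τ₀).choose

theorem taylorDisc_injective (τ₀ : ℍ) : Function.Injective (taylorDisc τ₀) :=
  (exists_taylorDisc τ₀).choose_spec.1

theorem taylorDisc_algebraMap (τ₀ : ℍ) (c : ℂ) :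
    taylorDisc τ₀ (algebraMap ℂ HolRing c) = PowerSeries.C c :=
  (exists_taylorDisc τ₀).choose_spec.2.1 c

theorem order_taylorDisc (τ₀ : ℍ) (f : HolRing) : (taylorDisc τ₀ f).order =
    analyticOrderAt (fun z : ℂ => (f : ℍ → ℂ) (ofComplex z)) (τ₀ : ℂ) :=
  (exists_taylorDisc τ₀).choose_spec.2.2.1 f

theorem constantCoeff_taylorDisc (τ₀ : ℍ) (f : HolRing) :
    PowerSeries.constantCoeff (taylorDisc τ₀ f) = (f : ℍ → ℂ) τ₀ :=
  (exists_taylorDisc τ₀).choose_spec.2.2.2.1 f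

theorem taylorDisc_inv_smul (τ₀ : ℍ) (γ : SL(2, ℤ)) (hγ : γ • τ₀ = τ₀) (f : HolRing) :
    taylorDisc τ₀ (γ⁻¹ • f) = PowerSeries.rescale (rotFactor γ τ₀) (taylorDisc τ₀ f) :=
  (exists_taylorDisc τ₀).choose_spec.2.2.2.2 γ hγ f

/-! ### Rotation factors at the elliptic points -/

theorem td_conj_ne_coe (τ₀ : ℍ) : conj (τ₀ : ℂ) ≠ (τ₀ : ℂ) := by
  intro h
  have h1 := congrArg Complex.im h
  simp only [Complex.conj_im, UpperHalfPlane.coe_im] at h1
  have := τ₀.im_pos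
  linarith

/-- At a fixed point of `S` the rotation factor is `-1`. -/
theorem rotFactor_S (τ₀ : ℍ) (h : ModularGroup.S • τ₀ = τ₀) : rotFactor ModularGroup.S τ₀ = -1 := by
  have hA := td_bottom_ne_zero ModularGroup.S τ₀
  have h1 := congrArg (fun z : ℍ => (z : ℂ)) h
  simp only [td_coe_smul_eq] at h1
  rw [div_eq_iff hA] at h1
  have h2 := congrArg conj h1
  simp only [map_add, map_mul, map_intCast] at h2
  unfold rotFactor
  rw [div_eq_iff hA]
  simp only [ModularGroup.S, Matrix.SpecialLinearGroup.coe_mk, Matrix.of_apply, Matrix.cons_val_zero,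
    Matrix.cons_val_one, Matrix.cons_val', Matrix.cons_val_fin_one, Int.cast_zero, Int.cast_one,
    Int.cast_neg, zero_mul, zero_add, add_zero, one_mul] at h1 h2 hA ⊢
  -- h1 : -1 = τ₀ * τ₀ ; h2 : -1 = conj τ₀ * conj τ₀
  have h3 : (conj (τ₀ : ℂ) - (τ₀ : ℂ)) * (conj (τ₀ : ℂ) + (τ₀ : ℂ)) = 0 := by
    linear_combination h1 - h2
  have h4 := (mul_eq_zero.mp h3).resolve_left (sub_ne_zero.mpr (td_conj_ne_coe τ₀))
  linear_combination h4

/-- At a fixed point of `S T` the rotation factor is a primitive cube root of unity. -/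
theorem isPrimitiveRoot_rotFactor_ST (τ₀ : ℍ) (h : (ModularGroup.S * ModularGroup.T) • τ₀ = τ₀) :
    IsPrimitiveRoot (rotFactor (ModularGroup.S * ModularGroup.T) τ₀) 3 := by
  have hA := td_bottom_ne_zero (ModularGroup.S * ModularGroup.T) τ₀
  have h1 := congrArg (fun z : ℍ => (z : ℂ)) h
  simp only [td_coe_smul_eq] at h1
  rw [div_eq_iff hA] at h1
  have h2 := congrArg conj h1
  simp only [map_add, map_mul, map_intCast] at h2
  have hST : ∀ i j, ((ModularGroup.S * ModularGroup.T : SL(2, ℤ)) i j : ℤ) = !![0, -1; 1, 1] i j := by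
    intro i j
    simp only [ModularGroup.S, ModularGroup.T, Matrix.SpecialLinearGroup.coe_mul]
    fin_cases i <;> fin_cases j <;> simp [Matrix.mul_apply, Fin.sum_univ_two]
  unfold rotFactor
  simp only [hST, Matrix.of_apply, Matrix.cons_val_zero,
    Matrix.cons_val_one, Matrix.cons_val', Matrix.cons_val_fin_one, Int.cast_zero, Int.cast_one,
    Int.cast_neg, zero_mul, zero_add, add_zero, one_mul] at h1 h2 hA ⊢
  -- h1 : -1 = τ₀ * (τ₀ + 1), h2 similarly
  have hB : conj (τ₀ : ℂ) + 1 ≠ 0 := by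
    intro h0
    apply hA
    have := congrArg conj h0
    simpa using this
  have hne : (conj (τ₀ : ℂ) + 1) / ((τ₀ : ℂ) + 1) ≠ 1 := by
    intro h0
    rw [div_eq_one_iff_eq hA] at h0
    exact td_conj_ne_coe τ₀ (add_right_cancel h0)
  have hpow : ((conj (τ₀ : ℂ) + 1) / ((τ₀ : ℂ) + 1)) ^ 3 = 1 := by
    rw [div_pow, div_eq_one_iff_eq (pow_ne_zero 3 hA)]
    have e1 : ((τ₀ : ℂ) + 1) ^ 3 = -1 := by linear_combination (-((τ₀ : ℂ) + 2)) * h1
    have e2 : (conj (τ₀ : ℂ) + 1) ^ 3 = -1 := by linear_combination (-(conj (τ₀ : ℂ) + 2)) * h2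
    rw [e1, e2]
  have hord : orderOf ((conj (τ₀ : ℂ) + 1) / ((τ₀ : ℂ) + 1)) = 3 :=
    orderOf_eq_prime hpow hne
  rw [← hord]
  exact IsPrimitiveRoot.orderOf _

end Fermat.Agent.S24
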